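import Mathlib.Algebra.Polynomial.Homogenize
import Mathlib.RingTheory.PowerSeries.Basic
import Mathlib.RingTheory.PowerSeries.Inverse
import Mathlib.Algebra.Polynomial.Roots

/-!
# S16, level-one lemma W1: homogeneous evaluation of polynomials (helper41)

`hev U V n P = ∑_{i + l = n} P_i U^i V^l`, the homogenisation of degree `n` of `P`, evaluated at
`(U, V)`.  In `k⟦q⟧` with `U = 1 + O(q)` and `V = O(q)`, `V ≠ 0`, the map `hev U V n` is injective
on polynomials of degree `≤ n`.
-/

set_option autoImplicit false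

open Polynomial

noncomputable section

namespace Fermat.Agent.S16.H41

section Hev

variable {k A : Type*} [Field k] [CommRing A] [Algebra k A]

/-- Homogeneous evaluation: `hev U V n P = ∑_{i + l = n} P_i U^i V^l`. -/
def hev (U V : A) (n : ℕ) (P : k[X]) : A := MvPolynomial.aeval ![U, V] (P.homogenize n)

lemma hev_def (U V : A) (n : ℕ) (P : k[X]) :
    hev U V n P = MvPolynomial.aeval ![U, V] (P.homogenize n) := rfl

lemma hev_eq_sum (U V : A) (n : ℕ) (P : k[X]) :
    hev U V n P = ∑ kl ∈ Finset.antidiagonal n,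
      algebraMap k A (P.coeff kl.1) * (U ^ kl.1 * V ^ kl.2) := by
  rw [hev, Polynomial.homogenize, map_sum]
  refine Finset.sum_congr rfl fun kl _ => ?_
  rw [MvPolynomial.aeval_monomial, Finsupp.update_eq_add_single (by simp),
    Finsupp.prod_add_index' (by simp) (by simp [pow_add]), Finsupp.prod_single_index (by simp),
    Finsupp.prod_single_index (by simp)]
  simp

@[simp] lemma hev_zero (U V : A) (n : ℕ) : hev U V n (0 : k[X]) = 0 := by simp [hev]

lemma hev_add (U V : A) (n : ℕ) (P Q : k[X]) :
    hev U V n (P + Q) = hev U V n P + hev U V n Q := by simp [hev]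

lemma hev_sub (U V : A) (n : ℕ) (P Q : k[X]) :
    hev U V n (P - Q) = hev U V n P - hev U V n Q := by simp [hev]

lemma hev_C_mul (U V : A) (n : ℕ) (c : k) (P : k[X]) :
    hev U V n (C c * P) = algebraMap k A c * hev U V n P := by
  simp [hev]

lemma hev_C (U V : A) (n : ℕ) (c : k) : hev U V n (C c) = algebraMap k A c * V ^ n := by
  simp [hev]

lemma hev_one (U V : A) (n : ℕ) : hev U V n (1 : k[X]) = V ^ n := by simp [hev]

lemma hev_X_pow (U V : A) {m n : ℕ} (h : m ≤ n) :
    hev U V n (X ^ m : k[X]) = U ^ m * V ^ (n - m) := by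
  simp [hev, Polynomial.homogenize_X_pow h]

lemma hev_X (U V : A) : hev U V 1 (X : k[X]) = U := by
  have := hev_X_pow (k := k) U V (m := 1) (n := 1) le_rfl
  simpa using this

lemma hev_X_sub_C (U V : A) (c : k) :
    hev U V 1 (X - C c : k[X]) = U - algebraMap k A c * V := by
  rw [hev_sub, hev_X, hev_C, pow_one]

lemma hev_mul (U V : A) {m n : ℕ} {P Q : k[X]} (hP : P.natDegree ≤ m) (hQ : Q.natDegree ≤ n) :
    hev U V (m + n) (P * Q) = hev U V m P * hev U V n Q := by
  rw [hev, Polynomial.homogenize_mul _ _ hP hQ, map_mul]; rfl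

lemma hev_succ (U V : A) {n : ℕ} {P : k[X]} (hP : P.natDegree ≤ n) :
    hev U V (n + 1) P = hev U V n P * V := by
  have := hev_mul U V hP (Q := (1 : k[X])) (n := 1) (by simp)
  rw [mul_one, hev_one, pow_one] at this
  exact this

lemma hev_pow (U V : A) {m : ℕ} {P : k[X]} (hP : P.natDegree ≤ m) (e : ℕ) :
    hev U V (m * e) (P ^ e) = hev U V m P ^ e := by
  induction e with
  | zero => simp [hev_one]
  | succ e ih =>
    rw [pow_succ, pow_succ, Nat.mul_succ, hev_mul U V _ hP, ih]
    exact (Polynomial.natDegree_pow_le).trans (by rw [mul_comm]; exact Nat.mul_le_mul_right e hP)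

end Hev

section Inj

open PowerSeries

variable {k : Type*} [Field k]

/-- The constant coefficient of `hev U V n P` is `P_n` when `U = 1 + O(q)`, `V = O(q)`. -/
lemma constantCoeff_hev {U V : PowerSeries k} (hU : constantCoeff U = 1)
    (hV : constantCoeff V = 0) (n : ℕ) (P : k[X]) :
    constantCoeff (hev U V n P) = P.coeff n := by
  rw [hev_eq_sum, map_sum, Finset.sum_eq_single (n, 0)]
  · simp [hU]
  · rintro ⟨i, l⟩ hil hne
    have hl : l ≠ 0 := by
      rintro rfl
      rw [Finset.mem_antidiagonal] at hil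
      simp at hil
      exact hne (by rw [hil])
    simp [hV, hl]
  · intro h
    simp at h

/-- `hev U V n` is injective on polynomials of degree at most `n`. -/
lemma eq_zero_of_hev_eq_zero {U V : PowerSeries k} (hU : constantCoeff U = 1)
    (hV : constantCoeff V = 0) (hV0 : V ≠ 0) :
    ∀ (n : ℕ) (P : k[X]), P.natDegree ≤ n → hev U V n P = 0 → P = 0 := by
  intro n
  induction n with
  | zero =>
    intro P hP h
    have h0 := constantCoeff_hev hU hV 0 P
    rw [h, map_zero] at h0
    rw [Polynomial.eq_C_of_natDegree_le_zero hP, ← h0, map_zero]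
  | succ n ih =>
    intro P hP h
    have h0 := constantCoeff_hev hU hV (n + 1) P
    rw [h, map_zero] at h0
    have hP' : P.natDegree ≤ n := by
      by_contra hlt
      have hd : P.natDegree = n + 1 := by omega
      have hP0 : P ≠ 0 := by
        rintro rfl
        simp at hd
      have := Polynomial.leadingCoeff_ne_zero.mpr hP0
      rw [Polynomial.leadingCoeff, hd] at this
      exact this h0.symm
    rw [hev_succ U V hP'] at h
    rcases mul_eq_zero.mp h with h1 | h1
    · exact ih P hP' h1
    · exact absurd h1 hV0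

lemma eq_of_hev_eq {U V : PowerSeries k} (hU : constantCoeff U = 1)
    (hV : constantCoeff V = 0) (hV0 : V ≠ 0) {n : ℕ} {P Q : k[X]} (hP : P.natDegree ≤ n)
    (hQ : Q.natDegree ≤ n) (h : hev U V n P = hev U V n Q) : P = Q := by
  have := eq_zero_of_hev_eq_zero hU hV hV0 n (P - Q)
    ((Polynomial.natDegree_sub_le P Q).trans (max_le hP hQ)) (by rw [hev_sub, h, sub_self])
  exact sub_eq_zero.mp this

end Inj

end Fermat.Agent.S16.H41
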