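import Mathlib.NumberTheory.Bernoulli

set_option autoImplicit false

namespace Fermat.Agent.S16.H41

open Finset

/-- von Staudt–Clausen at `k = ℓ - 1`: `ℓ D B_{ℓ-1} = b` with integers `D, b` prime to `ℓ`. -/
lemma exists_bernoulli_form (ℓ : ℕ) (hℓ : ℓ.Prime) (h3 : 3 ≤ ℓ) :
    ∃ D b : ℤ, ¬ (ℓ : ℤ) ∣ D ∧ ¬ (ℓ : ℤ) ∣ b ∧ (ℓ : ℚ) * D * bernoulli (ℓ - 1) = b := by
  have hodd : Odd ℓ := hℓ.odd_of_ne_two (by omega)
  obtain ⟨k, hk⟩ : ∃ k, ℓ - 1 = 2 * k := by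
    obtain ⟨m, hm⟩ := hodd
    exact ⟨m, by omega⟩
  obtain ⟨N, hN⟩ := Bernoulli.vonStaudt_clausen k
  rw [← hk] at hN
  set s := (range (ℓ - 1 + 2)).filter (fun p => p.Prime ∧ (p - 1) ∣ ℓ - 1) with hs
  have hmem : ℓ ∈ s := by
    rw [hs, mem_filter, mem_range]
    exact ⟨by omega, hℓ, dvd_rfl⟩
  set s' := s.erase ℓ with hs'
  have hsum : ∑ p ∈ s, (1 : ℚ) / p = 1 / ℓ + ∑ p ∈ s', (1 : ℚ) / p := by
    rw [hs', Finset.add_sum_erase s (fun p => (1 : ℚ) / p) hmem]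
  have hprime : ∀ p ∈ s', p.Prime ∧ p ≠ ℓ := by
    intro p hp
    rw [hs', mem_erase, hs, mem_filter] at hp
    exact ⟨hp.2.2.1, hp.1⟩
  set D : ℕ := ∏ p ∈ s', p with hD
  set J : ℕ := ∑ p ∈ s', ∏ q ∈ s'.erase p, q with hJ
  have hDJ : (D : ℚ) * ∑ p ∈ s', (1 : ℚ) / p = J := by
    rw [Finset.mul_sum, hJ]
    push_cast
    refine Finset.sum_congr rfl fun p hp => ?_
    have hp0 : (p : ℚ) ≠ 0 := by exact_mod_cast (hprime p hp).1.ne_zero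
    rw [hD, ← Finset.mul_prod_erase s' (fun q => q) hp]
    push_cast
    field_simp
  have hℓD : ¬ ℓ ∣ D := by
    rw [hD, Prime.dvd_finsetProd_iff hℓ.prime]
    rintro ⟨p, hp, hdvd⟩
    have := (Nat.prime_dvd_prime_iff_eq hℓ (hprime p hp).1).mp hdvd
    exact (hprime p hp).2 this.symm
  have hℓ0 : (ℓ : ℚ) ≠ 0 := by exact_mod_cast hℓ.ne_zero
  refine ⟨D, (ℓ : ℤ) * D * N - D - ℓ * J, ?_, ?_, ?_⟩
  · exact_mod_cast hℓD
  · intro h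
    have h2 : (ℓ : ℤ) ∣ (ℓ : ℤ) * D * N - ℓ * J := by
      exact Dvd.dvd.sub ⟨D * N, by ring⟩ (dvd_mul_right _ _)
    have h3 : (ℓ : ℤ) ∣ (D : ℤ) := by
      have := Dvd.dvd.sub h2 h
      have e : (ℓ : ℤ) * D * N - ℓ * J - ((ℓ : ℤ) * D * N - D - ℓ * J) = D := by ring
      rwa [e] at this
    exact hℓD (by exact_mod_cast h3)
  · have hB : bernoulli (ℓ - 1) = N - 1 / ℓ - ∑ p ∈ s', (1 : ℚ) / p := by
      have : bernoulli (ℓ - 1) + ∑ p ∈ s, (1 : ℚ) / p = N := hN.symm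
      rw [hsum] at this
      linarith
    push_cast
    rw [hB, mul_sub, mul_sub]
    have : (ℓ : ℚ) * D * ∑ p ∈ s', (1 : ℚ) / p = ℓ * J := by
      rw [mul_assoc, hDJ]
    rw [this]
    field_simp

end Fermat.Agent.S16.H41
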