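import Fermat.Agent.S23.H96_LevelOne
import Mathlib.NumberTheory.ModularForms.LevelOne.DimensionFormula

/-!
# S16, package RHO-INT (helper55), part (a): values of level one forms at a zero of `E₄`

Let `O` be a subring of `ℂ` and `z₀` a point of the upper half plane with `E₄ z₀ = 0`
(for instance `z₀ = ρ`).  If `F` is a level one modular form of weight `12 M` whose
`q`-expansion has all coefficients in `O`, then `F z₀ = c * Δ z₀ ^ M` with `c ∈ O`.

(`F = ∑ c_l E₄^{3l} Δ^{M-l}` with `c_l ∈ O` by the triangular shape of the `q`-expansions; at `z₀`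
only the term `l = 0` survives.)
-/

set_option autoImplicit false

noncomputable section

namespace Fermat.Agent.S16.H55

open UpperHalfPlane ModularForm EisensteinSeries ModularFormClass
open scoped MatrixGroups

/-- Power series over `ℂ` all of whose coefficients lie in the subring `O`. -/
def serO (O : Subring ℂ) : Subring (PowerSeries ℂ) := (PowerSeries.map O.subtype).range

theorem mem_serO_iff (O : Subring ℂ) (P : PowerSeries ℂ) :
    P ∈ serO O ↔ ∀ n : ℕ, P.coeff n ∈ O := by
  constructor
  · rintro ⟨Q, rfl⟩ n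
    simp
  · intro h
    refine ⟨PowerSeries.mk fun n => ⟨P.coeff n, h n⟩, ?_⟩
    ext n
    simp

theorem intSeries_le_serO (O : Subring ℂ) {P : PowerSeries ℂ}
    (hP : P ∈ Fermat.Agent.S23.H96.intSeries) : P ∈ serO O := by
  rw [mem_serO_iff]
  intro n
  obtain ⟨m, hm⟩ := (Fermat.Agent.S23.H96.mem_intSeries_iff P).mp hP n
  rw [hm]
  exact intCast_mem O m

/-- Division by a series `D` of the shape `X * (1 + ...)` with coefficients in `O`. -/
theorem mem_serO_of_mul_mem (O : Subring ℂ) (D P : PowerSeries ℂ) (hD : D ∈ serO O)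
    (hD0 : D.coeff 0 = 0) (hD1 : D.coeff 1 = 1) (hDP : D * P ∈ serO O) : P ∈ serO O := by
  rw [mem_serO_iff] at hD hDP ⊢
  intro n
  induction n using Nat.strong_induction_on with
  | _ n ih =>
    have h := hDP (n + 1)
    rw [PowerSeries.coeff_mul, Finset.Nat.sum_antidiagonal_eq_sum_range_succ
      (fun i j => D.coeff i * P.coeff j), Finset.sum_range_succ',
      Finset.sum_range_succ'] at h
    simp only [hD0, zero_mul, add_zero, zero_add, hD1, one_mul, Nat.add_sub_cancel] at h
    -- h : (∑ k < n, D_{k+2} * P_{n+1-(k+2)}) + P_n ∈ O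
    have hsum : ∑ k ∈ Finset.range n, D.coeff (k + 1 + 1) * P.coeff (n + 1 - (k + 1 + 1)) ∈ O := by
      refine Subring.sum_mem _ fun k hk => ?_
      refine Subring.mul_mem _ (hD _) (ih _ ?_)
      have := Finset.mem_range.mp hk
      omega
    have := Subring.sub_mem _ h hsum
    simpa using this

/-- `E₄ ^ (3 M)` as a level one form of weight `k = 12 M`. -/
def e4Pow (M : ℕ) (k : ℤ) (hk : k = 12 * M) : ModularForm 𝒮ℒ k :=
  ModularForm.mcast (by rw [hk]; push_cast; ring) (E₄.pow (3 * M))

theorem e4Pow_apply (M : ℕ) (k : ℤ) (hk : k = 12 * M) (z : ℍ) :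
    e4Pow M k hk z = E₄ z ^ (3 * M) := by
  simp only [e4Pow, coe_mcast, coe_pow, Pi.pow_apply]

theorem qExpansion_e4Pow (M : ℕ) (k : ℤ) (hk : k = 12 * M) :
    qExpansion 1 (e4Pow M k hk) = qExpansion 1 E₄ ^ (3 * M) := by
  rw [e4Pow, ModularForm.qExpansion_mcast,
    ModularForm.qExpansion_pow one_pos one_mem_strictPeriods_SL]

/-- **RHO-INT (a).** -/
theorem levelOne_value_mem (O : Subring ℂ) (z₀ : ℍ) (h₀ : E₄ z₀ = 0) :
    ∀ (M : ℕ) (k : ℤ), k = 12 * M → ∀ F : ModularForm 𝒮ℒ k,
      (∀ n, (qExpansion 1 F).coeff n ∈ O) →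
      ∃ c ∈ O, F z₀ = c * ModularForm.discriminant z₀ ^ M := by
  intro M
  induction M with
  | zero =>
    intro k hk F hF
    have hk0 : k = 0 := by simpa using hk
    subst hk0
    obtain ⟨c, hc⟩ := levelOne_weight_zero_const F
    refine ⟨c, ?_, by simp [hc]⟩
    have h1 : qExpansion 1 F = PowerSeries.C c := by
      have : (F : ℍ → ℂ) = ((c • (1 : ModularForm 𝒮ℒ 0) : ModularForm 𝒮ℒ 0) : ℍ → ℂ) := by
        rw [hc]; ext z; simp
      rw [this, FunLike.coe_smul, ModularForm.qExpansion_smul one_pos one_mem_strictPeriods_SL,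
        ModularForm.qExpansion_one]
      ext n
      simp [PowerSeries.coeff_C, PowerSeries.coeff_one]
    have := hF 0
    rw [h1] at this
    simpa using this
  | succ M ih =>
    intro k hk F hF
    set a₀ := (qExpansion 1 F).coeff 0 with ha₀
    set U := e4Pow (M + 1) k hk with hU
    have hUq : qExpansion 1 U ∈ serO O := by
      rw [hU, qExpansion_e4Pow]
      exact Subring.pow_mem _
        (intSeries_le_serO O Fermat.Agent.S23.H96.qExpansion_E₄_mem_intSeries) _
    have hU0 : (qExpansion 1 U).coeff 0 = 1 := by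
      rw [hU, qExpansion_e4Pow]
      have h4 : PowerSeries.constantCoeff (qExpansion 1 E₄) = 1 := by
        simpa using E_qExpansion_coeff_zero (k := 4) (by norm_num) ⟨2, rfl⟩
      simp [h4]
    have hq : qExpansion 1 (F - a₀ • U : ModularForm 𝒮ℒ k)
        = qExpansion 1 F - a₀ • qExpansion 1 U := by
      rw [FunLike.coe_sub, ModularForm.qExpansion_sub one_pos one_mem_strictPeriods_SL,
        FunLike.coe_smul, ModularForm.qExpansion_smul one_pos one_mem_strictPeriods_SL]
    have h0 : (qExpansion 1 (F - a₀ • U : ModularForm 𝒮ℒ k)).coeff 0 = 0 := by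
      rw [hq, map_sub, PowerSeries.coeff_smul, hU0]
      simp [ha₀]
    set F' := CuspForm.discriminantEquiv (toCuspForm (F - a₀ • U : ModularForm 𝒮ℒ k) h0) with hF'
    have hmul := ModularForm.qExpansion_eq_qExpansion_discriminant_mul
      (F - a₀ • U : ModularForm 𝒮ℒ k) h0
    have hFser : qExpansion 1 F ∈ serO O := (mem_serO_iff O _).mpr hF
    have ha₀O : a₀ ∈ O := hF 0
    have hprod : qExpansion 1 ModularForm.discriminant * qExpansion 1 F' ∈ serO O := by
      rw [← hmul, hq]
      refine Subring.sub_mem _ hFser ?_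
      rw [mem_serO_iff] at hUq ⊢
      intro n
      rw [PowerSeries.coeff_smul]
      exact Subring.mul_mem _ ha₀O (hUq n)
    have hD0 : (qExpansion 1 ModularForm.discriminant).coeff 0 = 0 := by
      simpa using CuspFormClass.qExpansion_coeff_zero CuspForm.discriminant one_pos
        one_mem_strictPeriods_SL
    have hF'ser : qExpansion 1 F' ∈ serO O :=
      mem_serO_of_mul_mem O _ _
        (intSeries_le_serO O Fermat.Agent.S23.H96.qExpansion_discriminant_mem_intSeries)
        hD0 discriminant_qExpansion_coeff_one hprod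
    obtain ⟨c, hcO, hc⟩ := ih (k - 12) (by rw [hk]; push_cast; ring) F'
      ((mem_serO_iff O _).mp hF'ser)
    refine ⟨c, hcO, ?_⟩
    have hG := discriminant_mul_discriminantEquiv_apply
      (toCuspForm (F - a₀ • U : ModularForm 𝒮ℒ k) h0) z₀
    have e1 : (toCuspForm (F - a₀ • U : ModularForm 𝒮ℒ k) h0) z₀ = F z₀ - a₀ * U z₀ := rfl
    have e2 : U z₀ = 0 := by
      rw [hU, e4Pow_apply, h₀]
      exact zero_pow (by omega)
    rw [e1, e2, mul_zero, sub_zero] at hG
    rw [← hG, ← hF', hc]
    ring

end Fermat.Agent.S16.H55
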