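import Mathlib.RingTheory.MvPolynomial.WeightedHomogeneous
import Mathlib.RingTheory.MvPolynomial.EulerIdentity
import Mathlib.RingTheory.Polynomial.UniqueFactorization
import Mathlib.RingTheory.PowerSeries.Derivative
import Mathlib.RingTheory.PowerSeries.Inverse
import Mathlib.RingTheory.Multiplicity
import Mathlib.RingTheory.UniqueFactorizationDomain.Multiplicity
import Mathlib.Algebra.CharP.Basic

/-!
# S16 / U3 (helper70): level-one weight theory modulo `ℓ ≥ 5`, the algebraic core

Swinnerton-Dyer's theorem in abstract form. `F` is a field of characteristic `ℓ ≥ 5`,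
`Qt, Rt, Pt : F⟦q⟧` are power series with constant term `1` satisfying Ramanujan's identities
(the reductions of `E₄, E₆, E₂`), `ε : F[Q, R] → F⟦q⟧` is the substitution `Q ↦ Qt, R ↦ Rt`,
and `A` is an isobaric polynomial of weight `ℓ - 1` with `ε A = 1` (the Hasse invariant).
Then two isobaric polynomials `f, g` of weights `k, k'` with `ε f = ε g ≠ 0` have
`k ≡ k' mod ℓ - 1`.
-/

set_option autoImplicit false

noncomputable section

namespace Fermat.Agent.S16.H70

open MvPolynomial

variable {F : Type*} [Field F]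

/-- The weights of `Q` and `R`. -/
def wQR : Fin 2 → ℕ := ![4, 6]

@[simp] lemma wQR_zero : wQR 0 = 4 := rfl
@[simp] lemma wQR_one : wQR 1 = 6 := rfl

/-- `θ = q d/dq` on power series. -/
def theta (s : PowerSeries F) : PowerSeries F := PowerSeries.X * PowerSeries.derivative F s

lemma theta_add (s t : PowerSeries F) : theta (s + t) = theta s + theta t := by
  simp [theta, mul_add]

lemma theta_mul (s t : PowerSeries F) : theta (s * t) = theta s * t + s * theta t := by
  simp only [theta, Derivation.leibniz, smul_eq_mul]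
  ring

lemma theta_C (a : F) : theta (PowerSeries.C a) = 0 := by
  simp [theta]

lemma theta_one : theta (1 : PowerSeries F) = 0 := by
  have := theta_C (F := F) 1
  simpa using this

lemma constantCoeff_theta (s : PowerSeries F) : PowerSeries.constantCoeff (theta s) = 0 := by
  simp [theta]

/-- The data: reductions of `E₄`, `E₆`, `E₂`. -/
structure SwDData (F : Type*) [Field F] where
  Qt : PowerSeries F
  Rt : PowerSeries F
  Pt : PowerSeries F
  hQ0 : PowerSeries.constantCoeff Qt = 1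
  hR0 : PowerSeries.constantCoeff Rt = 1
  hP0 : PowerSeries.constantCoeff Pt = 1
  hΔ : Qt ^ 3 - Rt ^ 2 ≠ 0
  hθQ : 3 * theta Qt = Pt * Qt - Rt
  hθR : 2 * theta Rt = Pt * Rt - Qt ^ 2
  hθP : 12 * theta Pt = Pt ^ 2 - Qt

namespace SwDData

variable (d : SwDData F)

/-- The substitution `Q ↦ Qt, R ↦ Rt`. -/
def eps : MvPolynomial (Fin 2) F →ₐ[F] PowerSeries F := aeval ![d.Qt, d.Rt]

@[simp] lemma eps_X0 : d.eps (X 0) = d.Qt := by simp [eps]
@[simp] lemma eps_X1 : d.eps (X 1) = d.Rt := by simp [eps]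
@[simp] lemma eps_C (a : F) : d.eps (C a) = PowerSeries.C a := by
  simp [eps]

end SwDData

/-- The derivation `∂Q = -4R, ∂R = -6Q²`. -/
def del : Derivation F (MvPolynomial (Fin 2) F) (MvPolynomial (Fin 2) F) :=
  (-4 * X 1 : MvPolynomial (Fin 2) F) • pderiv 0 + (-6 * X 0 ^ 2 : MvPolynomial (Fin 2) F) • pderiv 1

lemma del_apply (f : MvPolynomial (Fin 2) F) :
    del f = -4 * X 1 * pderiv 0 f + -6 * X 0 ^ 2 * pderiv 1 f := by
  simp [del]

/-- Chain rule for `θ ∘ ε`. -/
lemma SwDData.theta_eps (d : SwDData F) (f : MvPolynomial (Fin 2) F) :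
    theta (d.eps f) = d.eps (pderiv 0 f) * theta d.Qt + d.eps (pderiv 1 f) * theta d.Rt := by
  induction f using MvPolynomial.induction_on with
  | C a => simp [theta_C]
  | add f g hf hg =>
    simp only [map_add, theta_add, hf, hg]
    ring
  | mul_X f i hf =>
    simp only [map_mul, theta_mul, hf, Derivation.leibniz, smul_eq_mul, map_add]
    fin_cases i
    · simp [pderiv_X]
      ring
    · simp [pderiv_X]
      ring

/-- The Euler operator `E f = 4 Q ∂_Q f + 6 R ∂_R f`. -/
def eul (f : MvPolynomial (Fin 2) F) : MvPolynomial (Fin 2) F :=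
  4 * X 0 * pderiv 0 f + 6 * X 1 * pderiv 1 f

lemma eul_of_isWeightedHomogeneous {f : MvPolynomial (Fin 2) F} {k : ℕ}
    (hf : IsWeightedHomogeneous wQR f k) : eul f = (k : MvPolynomial (Fin 2) F) * f := by
  have h := hf.sum_weight_X_mul_pderiv
  rw [Fin.sum_univ_two] at h
  simp only [wQR_zero, wQR_one, nsmul_eq_mul, Nat.cast_ofNat] at h
  rw [eul, ← h]
  ring

/-- A2 (general form): `12 θ (ε f) = Pt * ε (E f) + ε (∂ f)`. -/
lemma SwDData.twelve_theta_eps (d : SwDData F) (f : MvPolynomial (Fin 2) F) :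
    12 * theta (d.eps f) = d.Pt * d.eps (eul f) + d.eps (del f) := by
  rw [d.theta_eps, eul, del_apply]
  simp only [map_add, map_mul, map_neg, map_pow, SwDData.eps_X0, SwDData.eps_X1, map_ofNat]
  linear_combination (4 * d.eps (pderiv 0 f)) * d.hθQ + (6 * d.eps (pderiv 1 f)) * d.hθR

/-- A2: for isobaric `f` of weight `k`: `ε (∂ f) = 12 θ (ε f) - k Pt ε f`. -/
lemma SwDData.eps_del (d : SwDData F) {f : MvPolynomial (Fin 2) F} {k : ℕ}
    (hf : IsWeightedHomogeneous wQR f k) :
    d.eps (del f) = 12 * theta (d.eps f) - (k : PowerSeries F) * d.Pt * d.eps f := by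
  rw [d.twelve_theta_eps, eul_of_isWeightedHomogeneous hf]
  simp only [map_mul, map_natCast]
  ring

lemma isWH_X0 : IsWeightedHomogeneous wQR (X 0 : MvPolynomial (Fin 2) F) 4 :=
  isWeightedHomogeneous_X F wQR 0

lemma isWH_X1 : IsWeightedHomogeneous wQR (X 1 : MvPolynomial (Fin 2) F) 6 :=
  isWeightedHomogeneous_X F wQR 1

lemma isWH_of_eq {f : MvPolynomial (Fin 2) F} {k k' : ℕ}
    (hf : IsWeightedHomogeneous wQR f k) (h : k = k') : IsWeightedHomogeneous wQR f k' := h ▸ hf

/-- `∂` raises the weight by `2`. -/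
lemma isWeightedHomogeneous_del {f : MvPolynomial (Fin 2) F} {k : ℕ}
    (hf : IsWeightedHomogeneous wQR f k) : IsWeightedHomogeneous wQR (del f) (k + 2) := by
  induction hf using IsWeightedHomogeneous.induction_on with
  | zero => simpa using isWeightedHomogeneous_zero F wQR (k + 2)
  | add p q hp hq ihp ihq => rw [map_add]; exact ihp.add ihq
  | monomial d r hr =>
    rw [del_apply, pderiv_monomial, pderiv_monomial]
    apply IsWeightedHomogeneous.add
    · by_cases h0 : d 0 = 0
      · simp only [h0, Nat.cast_zero, mul_zero, monomial_zero]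
        exact isWeightedHomogeneous_zero F wQR (k + 2)
      · have hw : Finsupp.weight wQR (d - Finsupp.single 0 1) + 4 = k := by
          have := Finsupp.weight_sub_single_add (w := wQR) h0
          rw [← hr, ← this]; rfl
        have h1 : IsWeightedHomogeneous wQR (monomial (d - Finsupp.single 0 1) (r * (d 0 : F)))
            (Finsupp.weight wQR (d - Finsupp.single 0 1)) :=
          isWeightedHomogeneous_monomial wQR _ _ rfl
        have h3 : (-4 * X 1 * monomial (d - Finsupp.single 0 1) (r * (d 0 : F)) :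
            MvPolynomial (Fin 2) F) =
            C (-4) * (X 1 * monomial (d - Finsupp.single 0 1) (r * (d 0 : F))) := by
          simp only [map_neg, map_ofNat]; ring
        rw [h3]
        exact isWH_of_eq ((isWH_X1.mul h1).C_mul (-4 : F)) (by omega)
    · by_cases h0 : d 1 = 0
      · simp only [h0, Nat.cast_zero, mul_zero, monomial_zero]
        exact isWeightedHomogeneous_zero F wQR (k + 2)
      · have hw : Finsupp.weight wQR (d - Finsupp.single 1 1) + 6 = k := by
          have := Finsupp.weight_sub_single_add (w := wQR) h0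
          rw [← hr, ← this]; rfl
        have h1 : IsWeightedHomogeneous wQR (monomial (d - Finsupp.single 1 1) (r * (d 1 : F)))
            (Finsupp.weight wQR (d - Finsupp.single 1 1)) :=
          isWeightedHomogeneous_monomial wQR _ _ rfl
        have h3 : (-6 * X 0 ^ 2 * monomial (d - Finsupp.single 1 1) (r * (d 1 : F)) :
            MvPolynomial (Fin 2) F) =
            C (-6) * (X 0 ^ 2 * monomial (d - Finsupp.single 1 1) (r * (d 1 : F))) := by
          simp only [map_neg, map_ofNat]; ring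
        rw [h3]
        exact isWH_of_eq (((isWH_X0.pow 2).mul h1).C_mul (-6 : F)) (by
          simp only [smul_eq_mul]; omega)

/-! ### A1: `ε` is injective on every weight -/

/-- `Q³ - R²` (`= 1728 Δ`). -/
def Dp : MvPolynomial (Fin 2) F := X 0 ^ 3 - X 1 ^ 2

lemma isWH_Dp : IsWeightedHomogeneous wQR (Dp : MvPolynomial (Fin 2) F) 12 :=
  (isWH_of_eq (isWH_X0.pow 3) (by simp)).sub (isWH_of_eq (isWH_X1.pow 2) (by simp))

lemma isWH_mono (a b k : ℕ) (h : 4 * a + 6 * b = k) :
    IsWeightedHomogeneous wQR (X 0 ^ a * X 1 ^ b : MvPolynomial (Fin 2) F) k :=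
  isWH_of_eq ((isWH_X0.pow a).mul (isWH_X1.pow b)) (by simp only [smul_eq_mul]; omega)

/-- isobaric of weight `k - 12` (and zero if `k < 12`). -/
def LowWH (k : ℕ) (f : MvPolynomial (Fin 2) F) : Prop :=
  IsWeightedHomogeneous wQR f (k - 12) ∧ (k < 12 → f = 0)

lemma LowWH.zero (k : ℕ) : LowWH k (0 : MvPolynomial (Fin 2) F) :=
  ⟨isWeightedHomogeneous_zero F wQR _, fun _ => rfl⟩

lemma LowWH.add {k : ℕ} {f g : MvPolynomial (Fin 2) F} (hf : LowWH k f) (hg : LowWH k g) :
    LowWH k (f + g) :=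
  ⟨hf.1.add hg.1, fun h => by rw [hf.2 h, hg.2 h, add_zero]⟩

lemma LowWH.sub {k : ℕ} {f g : MvPolynomial (Fin 2) F} (hf : LowWH k f) (hg : LowWH k g) :
    LowWH k (f - g) :=
  ⟨hf.1.sub hg.1, fun h => by rw [hf.2 h, hg.2 h, sub_zero]⟩

lemma LowWH.C_mul {k : ℕ} {f : MvPolynomial (Fin 2) F} (hf : LowWH k f) (c : F) :
    LowWH k (C c * f) :=
  ⟨hf.1.C_mul c, fun h => by rw [hf.2 h, mul_zero]⟩

lemma mono_red (a b : ℕ) : ∃ f' : MvPolynomial (Fin 2) F, LowWH (4 * a + 6 * b) f' ∧
    (X 0 ^ a * X 1 ^ b : MvPolynomial (Fin 2) F) =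
      X 0 ^ (a + 3 * (b / 2)) * X 1 ^ (b % 2) + Dp * f' := by
  induction b using Nat.strong_induction_on generalizing a with
  | _ b ih =>
    rcases Nat.lt_or_ge b 2 with hb | hb
    · refine ⟨0, LowWH.zero _, ?_⟩
      have h1 : b / 2 = 0 := by omega
      have h2 : b % 2 = b := by omega
      rw [h1, h2]; simp
    · obtain ⟨c, rfl⟩ : ∃ c, b = c + 2 := ⟨b - 2, by omega⟩
      obtain ⟨f'', hf'', h⟩ := ih c (by omega) (a + 3)
      refine ⟨f'' - X 0 ^ a * X 1 ^ c, ⟨?_, fun hlt => by omega⟩, ?_⟩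
      · have e1 : 4 * a + 6 * (c + 2) - 12 = 4 * (a + 3) + 6 * c - 12 := by omega
        have e2 : 4 * a + 6 * (c + 2) - 12 = 4 * a + 6 * c := by omega
        refine IsWeightedHomogeneous.sub ?_ ?_
        · rw [e1]; exact hf''.1
        · rw [e2]; exact isWH_mono a c _ rfl
      · have h3 : (c + 2) / 2 = c / 2 + 1 := by omega
        have h4 : (c + 2) % 2 = c % 2 := by omega
        rw [h3, h4]
        have h5 : a + 3 * (c / 2 + 1) = a + 3 + 3 * (c / 2) := by ring
        rw [h5]
        have h6 : (X 0 ^ (a + 3 + 3 * (c / 2)) * X 1 ^ (c % 2) : MvPolynomial (Fin 2) F) =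
            X 0 ^ (a + 3) * X 1 ^ c - Dp * f'' := by rw [h]; ring
        rw [h6, Dp]
        ring

/-- The canonical monomial of weight `k`. -/
def Mk (k : ℕ) : MvPolynomial (Fin 2) F := X 0 ^ ((k - 6 * ((k / 2) % 2)) / 4) * X 1 ^ ((k / 2) % 2)

lemma monomial_fin_two (d : Fin 2 →₀ ℕ) (r : F) :
    (monomial d r : MvPolynomial (Fin 2) F) = C r * (X 0 ^ d 0 * X 1 ^ d 1) := by
  rw [monomial_eq, Finsupp.prod_fintype _ _ (fun i => by simp), Fin.prod_univ_two]

lemma weight_fin_two (d : Fin 2 →₀ ℕ) : Finsupp.weight wQR d = 4 * d 0 + 6 * d 1 := by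
  rw [Finsupp.weight_apply, Finsupp.sum_fintype _ _ (fun i => by simp), Fin.sum_univ_two]
  simp [mul_comm]

/-- Every isobaric polynomial of weight `k` is `c * Mk k + Dp * f'`. -/
lemma red {f : MvPolynomial (Fin 2) F} {k : ℕ} (hf : IsWeightedHomogeneous wQR f k) :
    ∃ (c : F) (f' : MvPolynomial (Fin 2) F), LowWH k f' ∧ f = C c * Mk k + Dp * f' := by
  induction hf using IsWeightedHomogeneous.induction_on with
  | zero => exact ⟨0, 0, LowWH.zero _, by simp⟩
  | add p q hp hq ihp ihq =>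
    obtain ⟨c1, f1, h1, rfl⟩ := ihp
    obtain ⟨c2, f2, h2, rfl⟩ := ihq
    exact ⟨c1 + c2, f1 + f2, h1.add h2, by rw [map_add]; ring⟩
  | monomial d r hr =>
    rw [weight_fin_two] at hr
    obtain ⟨f', hf', h⟩ := mono_red (F := F) (d 0) (d 1)
    refine ⟨r, C r * f', ?_, ?_⟩
    · rw [hr] at hf'
      exact hf'.C_mul r
    · rw [monomial_fin_two, h, Mk]
      have e1 : d 0 + 3 * (d 1 / 2) = (k - 6 * ((k / 2) % 2)) / 4 := by omega
      have e2 : d 1 % 2 = (k / 2) % 2 := by omega
      rw [e1, e2]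
      ring

lemma SwDData.constantCoeff_eps_Mk (d : SwDData F) (k : ℕ) :
    PowerSeries.constantCoeff (d.eps (Mk k)) = 1 := by
  simp [Mk, d.hQ0, d.hR0]

lemma SwDData.eps_Dp (d : SwDData F) : d.eps Dp = d.Qt ^ 3 - d.Rt ^ 2 := by
  simp [Dp]

lemma SwDData.constantCoeff_eps_Dp (d : SwDData F) :
    PowerSeries.constantCoeff (d.eps Dp) = 0 := by
  simp [d.eps_Dp, d.hQ0, d.hR0]

/-- A1: `ε` is injective on isobaric polynomials of a given weight. -/
theorem SwDData.eps_injective (d : SwDData F) :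
    ∀ (k : ℕ) {f : MvPolynomial (Fin 2) F}, IsWeightedHomogeneous wQR f k → d.eps f = 0 → f = 0 := by
  intro k
  induction k using Nat.strong_induction_on with
  | _ k ih =>
    intro f hf h0
    obtain ⟨c, f', hf', rfl⟩ := red hf
    have hc : c = 0 := by
      have := congrArg PowerSeries.constantCoeff h0
      simpa [d.constantCoeff_eps_Mk, d.constantCoeff_eps_Dp] using this
    subst hc
    simp only [map_zero, zero_mul, zero_add, map_mul] at h0 ⊢
    have h1 : d.eps f' = 0 := by
      rcases mul_eq_zero.mp h0 with h | h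
      · exact absurd h (by rw [d.eps_Dp]; exact d.hΔ)
      · exact h
    rcases Nat.lt_or_ge k 12 with hk | hk
    · rw [hf'.2 hk, mul_zero]
    · rw [ih (k - 12) (by omega) hf'.1 h1, mul_zero]

/-- Two isobaric polynomials of the same weight with the same image are equal. -/
theorem SwDData.eps_inj (d : SwDData F) {k : ℕ} {f g : MvPolynomial (Fin 2) F}
    (hf : IsWeightedHomogeneous wQR f k) (hg : IsWeightedHomogeneous wQR g k)
    (h : d.eps f = d.eps g) : f = g :=
  sub_eq_zero.mp (d.eps_injective k (hf.sub hg) (by rw [map_sub, h, sub_self]))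

/-! ### (ii): factors of isobaric polynomials are isobaric -/

/-- The twist `Q ↦ t⁴ Q, R ↦ t⁶ R`. -/
def tw : MvPolynomial (Fin 2) F →ₐ[F] Polynomial (MvPolynomial (Fin 2) F) :=
  aeval (fun i => Polynomial.C (X i) * Polynomial.X ^ wQR i)

lemma tw_X (i : Fin 2) : tw (X i : MvPolynomial (Fin 2) F) = Polynomial.C (X i) * Polynomial.X ^ wQR i := by
  simp [tw]

lemma tw_C (r : F) : tw (C r : MvPolynomial (Fin 2) F) = Polynomial.C (C r) := by
  simp [tw]

lemma tw_monomial (d : Fin 2 →₀ ℕ) (r : F) :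
    tw (monomial d r) = Polynomial.C (monomial d r) * Polynomial.X ^ (Finsupp.weight wQR d) := by
  rw [monomial_fin_two, weight_fin_two, map_mul, map_mul, map_pow, map_pow, tw_X, tw_X, tw_C]
  simp only [wQR_zero, wQR_one, mul_pow, ← pow_mul, map_mul, map_pow]
  ring

lemma coeff_coeff_tw (f : MvPolynomial (Fin 2) F) (n : ℕ) (d : Fin 2 →₀ ℕ) :
    coeff d ((tw f).coeff n) = if Finsupp.weight wQR d = n then coeff d f else 0 := by
  classical
  induction f using MvPolynomial.induction_on' with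
  | monomial e r =>
    rw [tw_monomial, Polynomial.coeff_C_mul_X_pow, coeff_monomial]
    by_cases hn : n = Finsupp.weight wQR e
    · rw [if_pos hn, coeff_monomial]
      by_cases hde : e = d
      · subst hde; simp [hn]
      · simp [hde]
    · rw [if_neg hn, coeff_zero]
      by_cases hde : e = d
      · subst hde
        rw [if_neg (fun h => hn h.symm)]
      · simp [hde]
  | add p q hp hq =>
    rw [map_add, Polynomial.coeff_add, coeff_add, hp, hq, coeff_add]
    split_ifs <;> simp

lemma isWH_of_tw {f g : MvPolynomial (Fin 2) F} {k : ℕ}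
    (h : tw f = Polynomial.C g * Polynomial.X ^ k) : IsWeightedHomogeneous wQR f k := by
  intro d hd
  by_contra hne
  have h1 := coeff_coeff_tw f (Finsupp.weight wQR d) d
  rw [if_pos rfl, h, Polynomial.coeff_C_mul_X_pow, if_neg hne, coeff_zero] at h1
  exact hd h1.symm

lemma tw_of_isWH {f : MvPolynomial (Fin 2) F} {k : ℕ} (hf : IsWeightedHomogeneous wQR f k) :
    tw f = Polynomial.C f * Polynomial.X ^ k := by
  induction hf using IsWeightedHomogeneous.induction_on with
  | zero => simp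
  | add p q hp hq ihp ihq => rw [map_add, ihp, ihq, map_add, add_mul]
  | monomial d r hr => rw [tw_monomial, hr]

lemma tw_ne_zero {f : MvPolynomial (Fin 2) F} (hf : f ≠ 0) : tw f ≠ 0 := by
  intro h
  apply hf
  ext d
  have := coeff_coeff_tw f (Finsupp.weight wQR d) d
  rw [if_pos rfl, h] at this
  simpa using this.symm

/-- (ii): a factor of a nonzero isobaric polynomial is isobaric. -/
theorem isWH_of_mul {f g : MvPolynomial (Fin 2) F} {N : ℕ}
    (h : IsWeightedHomogeneous wQR (f * g) N) (hfg : f * g ≠ 0) :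
    ∃ a b, a + b = N ∧ IsWeightedHomogeneous wQR f a ∧ IsWeightedHomogeneous wQR g b := by
  have hf : f ≠ 0 := left_ne_zero_of_mul hfg
  have hg : g ≠ 0 := right_ne_zero_of_mul hfg
  have h1 : tw f * tw g = Polynomial.C (f * g) * Polynomial.X ^ N := by
    rw [← map_mul, tw_of_isWH h]
  have hd : (tw f).natDegree + (tw g).natDegree = N := by
    rw [← Polynomial.natDegree_mul (tw_ne_zero hf) (tw_ne_zero hg), h1,
      Polynomial.natDegree_C_mul_X_pow _ _ hfg]
  have ht : (tw f).natTrailingDegree + (tw g).natTrailingDegree = N := by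
    rw [← Polynomial.natTrailingDegree_mul (tw_ne_zero hf) (tw_ne_zero hg), h1,
      Polynomial.natTrailingDegree_mul_X_pow (Polynomial.C_ne_zero.mpr hfg),
      Polynomial.natTrailingDegree_C, zero_add]
  have hf' := Polynomial.natTrailingDegree_le_natDegree (tw f)
  have hg' := Polynomial.natTrailingDegree_le_natDegree (tw g)
  have key : ∀ p : Polynomial (MvPolynomial (Fin 2) F), p.natTrailingDegree = p.natDegree →
      p = Polynomial.C (p.coeff p.natDegree) * Polynomial.X ^ p.natDegree := by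
    intro p hp
    apply Polynomial.ext
    intro n
    rw [Polynomial.coeff_C_mul_X_pow]
    split_ifs with hn
    · rw [hn]
    · rcases lt_or_gt_of_ne hn with h | h
      · exact Polynomial.coeff_eq_zero_of_lt_natTrailingDegree (by rw [hp]; exact h)
      · exact Polynomial.coeff_eq_zero_of_natDegree_lt h
  exact ⟨_, _, hd, isWH_of_tw (key _ (by omega)), isWH_of_tw (key _ (by omega))⟩

/-! ### A3: the differential equation of the Hasse invariant -/

section CharL

variable {ℓ : ℕ} [hℓ : Fact ℓ.Prime] [CharP F ℓ]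

lemma natCast_pred_eq (ℓ : ℕ) [hℓ : Fact ℓ.Prime] [CharP F ℓ] :
    ((ℓ - 1 : ℕ) : PowerSeries F) = -1 := by
  have h1 : 1 ≤ ℓ := hℓ.out.one_le
  rw [← map_natCast (PowerSeries.C (R := F)), Nat.cast_sub h1, CharP.cast_eq_zero F ℓ]
  simp

lemma natCast_succ_eq (ℓ : ℕ) [hℓ : Fact ℓ.Prime] [CharP F ℓ] :
    ((ℓ - 1 + 2 : ℕ) : PowerSeries F) = 1 := by
  have h1 : 1 ≤ ℓ := hℓ.out.one_le
  have : ℓ - 1 + 2 = ℓ + 1 := by omega
  rw [this, ← map_natCast (PowerSeries.C (R := F)), Nat.cast_add, CharP.cast_eq_zero F ℓ]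
  simp

lemma SwDData.eps_del_A (d : SwDData F) {A : MvPolynomial (Fin 2) F}
    (hA : IsWeightedHomogeneous wQR A (ℓ - 1)) (hA1 : d.eps A = 1) : d.eps (del A) = d.Pt := by
  rw [d.eps_del hA, hA1, theta_one, natCast_pred_eq (F := F) ℓ]
  ring

lemma SwDData.del_del_A (d : SwDData F) {A : MvPolynomial (Fin 2) F}
    (hA : IsWeightedHomogeneous wQR A (ℓ - 1)) (hA1 : d.eps A = 1) :
    del (del A) = -(X 0 * A) := by
  have h1 := isWeightedHomogeneous_del (isWeightedHomogeneous_del hA)
  have h2 : IsWeightedHomogeneous wQR (-(X 0 * A)) (ℓ - 1 + 2 + 2) :=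
    (isWH_of_eq (isWH_X0.mul hA) (by omega)).neg
  apply d.eps_inj h1 h2
  rw [d.eps_del (isWeightedHomogeneous_del hA), d.eps_del_A hA hA1, natCast_succ_eq (F := F) ℓ,
    map_neg, map_mul, hA1, d.eps_X0]
  linear_combination d.hθP

/-! ### A4: the Hasse invariant is squarefree -/

lemma eq_zero_of_isWH_two {L : MvPolynomial (Fin 2) F} (hL : IsWeightedHomogeneous wQR L 2) :
    L = 0 := by
  ext e
  rw [coeff_zero]
  by_contra hne
  have := hL hne
  rw [weight_fin_two] at this
  omega

lemma eq_C_of_isWH_zero {f : MvPolynomial (Fin 2) F} (hf : IsWeightedHomogeneous wQR f 0) :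
    f = C (coeff 0 f) := by
  ext e
  rw [coeff_C]
  split_ifs with h
  · rw [h]
  · by_contra hne
    have := hf hne
    rw [weight_fin_two] at this
    apply h
    ext i
    fin_cases i
    · simp; omega
    · simp; omega

lemma weight_unique {f : MvPolynomial (Fin 2) F} {a b : ℕ} (hf : f ≠ 0)
    (ha : IsWeightedHomogeneous wQR f a) (hb : IsWeightedHomogeneous wQR f b) : a = b :=
  IsWeightedHomogeneous.inj_right hf ha hb

/-- A prime isobaric polynomial has positive weight. -/
lemma weight_pos_of_prime {π : MvPolynomial (Fin 2) F} (hπ : Prime π) {w : ℕ}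
    (hw : IsWeightedHomogeneous wQR π w) : 0 < w := by
  rcases Nat.eq_zero_or_pos w with h | h
  · exfalso
    subst h
    have h1 := eq_C_of_isWH_zero hw
    have h2 : coeff 0 π ≠ 0 := by
      intro h0
      rw [h0, map_zero] at h1
      exact hπ.ne_zero h1
    apply hπ.not_isUnit
    rw [h1]
    exact (IsUnit.mk0 _ h2).map C
  · exact h

lemma del_pow_succ (π : MvPolynomial (Fin 2) F) (j : ℕ) :
    del (π ^ (j + 1)) = C ((j + 1 : ℕ) : F) * π ^ j * del π := by
  rw [Derivation.leibniz_pow]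
  simp only [Nat.add_sub_cancel, smul_eq_mul, nsmul_eq_mul, map_natCast]
  ring

theorem SwDData.not_sq_dvd_A (d : SwDData F) {A : MvPolynomial (Fin 2) F}
    (hA : IsWeightedHomogeneous wQR A (ℓ - 1)) (hA1 : d.eps A = 1)
    {π : MvPolynomial (Fin 2) F} (hπ : Prime π) : ¬ π ^ 2 ∣ A := by
  intro hdvd
  have hA0 : A ≠ 0 := by
    rintro rfl
    rw [map_zero] at hA1
    exact zero_ne_one hA1
  have hfin : FiniteMultiplicity π A := FiniteMultiplicity.of_not_isUnit hπ.not_isUnit hA0
  obtain ⟨Cc, hAC, hCndvd⟩ := hfin.exists_eq_pow_mul_and_not_dvd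
  set n := multiplicity π A with hn
  have hn2 : 2 ≤ n := hfin.le_multiplicity_of_pow_dvd hdvd
  obtain ⟨m, hm⟩ : ∃ m, n = m + 2 := ⟨n - 2, by omega⟩
  -- weights
  have hAC' : IsWeightedHomogeneous wQR (π ^ n * Cc) (ℓ - 1) := hAC ▸ hA
  obtain ⟨a, c, hac, ha, hc⟩ := isWH_of_mul hAC' (hAC ▸ hA0)
  have hπn : π ^ n = π * π ^ (n - 1) := by
    rw [← pow_succ']; congr 1; omega
  have hπn0 : π ^ n ≠ 0 := pow_ne_zero _ hπ.ne_zero
  obtain ⟨w, w', _, hw, _⟩ := isWH_of_mul (hπn ▸ ha) (hπn ▸ hπn0)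
  have hwpos := weight_pos_of_prime hπ hw
  have hanw : a = n * w := weight_unique hπn0 ha (isWH_of_eq (hw.pow n) (by simp))
  have hℓ1 : 1 ≤ ℓ := hℓ.out.one_le
  have hnw : n * w ≤ ℓ - 1 := by omega
  have hnl : n < ℓ := by
    have : n ≤ n * w := Nat.le_mul_of_pos_right n hwpos
    omega
  have hwl : w < ℓ := by
    have : w ≤ n * w := Nat.le_mul_of_pos_left w (by omega)
    omega
  have hcast : ∀ j : ℕ, 0 < j → j < ℓ → IsUnit (C (j : F) : MvPolynomial (Fin 2) F) := by
    intro j hj0 hjl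
    have : (j : F) ≠ 0 := by
      rw [Ne, CharP.cast_eq_zero_iff F ℓ]
      exact Nat.not_dvd_of_pos_of_lt hj0 hjl
    exact (IsUnit.mk0 _ this).map C
  -- π ∣ ∂π
  have hdel : π ∣ del π := by
    have hU : del A = π ^ (m + 1) * (C ((m + 2 : ℕ) : F) * del π * Cc + π * del Cc) := by
      rw [hAC, hm, Derivation.leibniz, show m + 2 = (m + 1) + 1 from rfl, del_pow_succ]
      simp only [smul_eq_mul]
      ring
    set U := C ((m + 2 : ℕ) : F) * del π * Cc + π * del Cc with hUdef
    have hV : del (del A) = π ^ m * (C ((m + 1 : ℕ) : F) * del π * U + π * del U) := by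
      rw [hU, Derivation.leibniz, del_pow_succ]
      simp only [smul_eq_mul]
      ring
    have hODE := d.del_del_A hA hA1
    rw [hV] at hODE
    have h3 : π ^ m * (C ((m + 1 : ℕ) : F) * del π * U + π * del U) =
        π ^ m * (-(X 0 * (π ^ 2 * Cc))) := by
      rw [hODE, hAC, hm]; ring
    have h4 := mul_left_cancel₀ (pow_ne_zero m hπ.ne_zero) h3
    have h5 : π ∣ C ((m + 1 : ℕ) : F) * del π * U := by
      have : C ((m + 1 : ℕ) : F) * del π * U = π * (-(X 0 * (π * Cc)) - del U) := by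
        linear_combination h4
      exact ⟨_, this⟩
    have hu1 := hcast (m + 1) (by omega) (by omega)
    rcases hπ.dvd_or_dvd h5 with h6 | h6
    · rcases hπ.dvd_or_dvd h6 with h7 | h7
      · exact absurd (isUnit_of_dvd_unit h7 hu1) hπ.not_isUnit
      · exact h7
    · -- π ∣ U
      have h8 : π ∣ C ((m + 2 : ℕ) : F) * del π * Cc := by
        have : C ((m + 2 : ℕ) : F) * del π * Cc = U - π * del Cc := by rw [hUdef]; ring
        rw [this]
        exact dvd_sub h6 (dvd_mul_right _ _)
      have hu2 := hcast (m + 2) (by omega) (by omega)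
      rcases hπ.dvd_or_dvd h8 with h9 | h9
      · rcases hπ.dvd_or_dvd h9 with h10 | h10
        · exact absurd (isUnit_of_dvd_unit h10 hu2) hπ.not_isUnit
        · exact h10
      · exact absurd h9 hCndvd
  -- ∂π = 0
  have hdel0 : del π = 0 := by
    by_contra hne
    obtain ⟨L, hL⟩ := hdel
    have h1 : IsWeightedHomogeneous wQR (π * L) (w + 2) := hL ▸ isWeightedHomogeneous_del hw
    obtain ⟨a', b', hab', ha', hb'⟩ := isWH_of_mul h1 (hL ▸ hne)
    have : a' = w := weight_unique hπ.ne_zero ha' hw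
    have hb2 : b' = 2 := by omega
    rw [hb2] at hb'
    rw [hL, eq_zero_of_isWH_two hb', mul_zero] at hne
    exact hne rfl
  -- constant terms
  have h1 := d.eps_del hw
  rw [hdel0, map_zero] at h1
  have h2 := congrArg PowerSeries.constantCoeff h1
  simp only [map_zero, map_sub, map_mul, constantCoeff_theta, mul_zero, zero_sub,
    map_natCast, d.hP0, mul_one] at h2
  have h3 : PowerSeries.constantCoeff (d.eps π) ≠ 0 := by
    intro h0
    have := congrArg PowerSeries.constantCoeff hA1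
    rw [hAC, map_mul, hπn, map_mul, map_mul, map_mul, h0] at this
    simp at this
  have h4 : (w : F) = 0 := by
    rcases mul_eq_zero.mp (neg_eq_zero.mp h2.symm) with h | h
    · exact h
    · exact absurd h h3
  rw [CharP.cast_eq_zero_iff F ℓ] at h4
  exact absurd h4 (Nat.not_dvd_of_pos_of_lt hwpos hwl)

/-! ### A5: the weight congruence -/

lemma SwDData.A_not_isUnit (d : SwDData F) {A : MvPolynomial (Fin 2) F}
    (hA : IsWeightedHomogeneous wQR A (ℓ - 1)) (hA1 : d.eps A = 1) : ¬ IsUnit A := by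
  intro hu
  have hA0 : A ≠ 0 := hu.ne_zero
  obtain ⟨B, hB⟩ := hu.exists_right_inv
  have h1 : IsWeightedHomogeneous wQR (A * B) 0 := hB ▸ isWeightedHomogeneous_one F wQR
  obtain ⟨a, b, hab, ha, _⟩ := isWH_of_mul h1 (hB ▸ one_ne_zero)
  have := weight_unique hA0 ha hA
  have h2 := hℓ.out.two_le
  omega

theorem SwDData.weight_congr_aux (d : SwDData F) {A : MvPolynomial (Fin 2) F}
    (hA : IsWeightedHomogeneous wQR A (ℓ - 1)) (hA1 : d.eps A = 1)
    {k k' : ℕ} {f g : MvPolynomial (Fin 2) F} (hf : IsWeightedHomogeneous wQR f k)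
    (hg : IsWeightedHomogeneous wQR g k') (h : d.eps f = d.eps g) (hne : d.eps f ≠ 0)
    (hkk : k ≤ k') : (ℓ - 1) ∣ k' - k := by
  have hℓ2 := hℓ.out.two_le
  by_contra hnd
  set e := (k' - k) % (ℓ - 1) with he
  set j := (k' - k) / (ℓ - 1) with hj
  have hdm : (ℓ - 1) * j + e = k' - k := Nat.div_add_mod _ _
  have he0 : e ≠ 0 := fun h0 => hnd (Nat.dvd_of_mod_eq_zero h0)
  have hel : e < ℓ - 1 := Nat.mod_lt _ (by omega)
  have hA0 : A ≠ 0 := by
    rintro rfl
    rw [map_zero] at hA1
    exact zero_ne_one hA1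
  have hf0 : f ≠ 0 := by
    rintro rfl
    exact hne (map_zero _)
  have hg0 : g ≠ 0 := by
    rintro rfl
    rw [map_zero] at h
    exact hne h
  -- the polynomial identity
  have hid : (f * A ^ j) ^ (ℓ - 1) * A ^ e = g ^ (ℓ - 1) := by
    have hw1 : IsWeightedHomogeneous wQR ((f * A ^ j) ^ (ℓ - 1) * A ^ e) ((ℓ - 1) * k') := by
      refine isWH_of_eq (((hf.mul (hA.pow j)).pow (ℓ - 1)).mul (hA.pow e)) ?_
      simp only [smul_eq_mul]
      have : k' = k + ((ℓ - 1) * j + e) := by omega
      rw [this]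
      ring
    have hw2 : IsWeightedHomogeneous wQR (g ^ (ℓ - 1)) ((ℓ - 1) * k') :=
      isWH_of_eq (hg.pow (ℓ - 1)) (by simp)
    apply d.eps_inj hw1 hw2
    simp only [map_mul, map_pow, hA1, one_pow, mul_one, h]
  -- a prime factor of A
  obtain ⟨π, hπi, hπA⟩ := WfDvdMonoid.exists_irreducible_factor (d.A_not_isUnit hA hA1) hA0
  have hπ : Prime π := UniqueFactorizationMonoid.irreducible_iff_prime.mp hπi
  have hmA : multiplicity π A = 1 := by
    apply multiplicity_eq_of_dvd_of_not_dvd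
    · simpa using hπA
    · exact d.not_sq_dvd_A hA hA1 hπ
  have hfinA : FiniteMultiplicity π A := FiniteMultiplicity.of_not_isUnit hπ.not_isUnit hA0
  have hfinf : FiniteMultiplicity π f := FiniteMultiplicity.of_not_isUnit hπ.not_isUnit hf0
  have hfing : FiniteMultiplicity π g := FiniteMultiplicity.of_not_isUnit hπ.not_isUnit hg0
  have hL : multiplicity π ((f * A ^ j) ^ (ℓ - 1) * A ^ e) =
      (ℓ - 1) * (multiplicity π f + j) + e := by
    have hfA : FiniteMultiplicity π (f * A ^ j) :=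
      FiniteMultiplicity.of_not_isUnit hπ.not_isUnit (mul_ne_zero hf0 (pow_ne_zero _ hA0))
    rw [multiplicity_mul hπ (FiniteMultiplicity.of_not_isUnit hπ.not_isUnit
        (mul_ne_zero (pow_ne_zero _ (mul_ne_zero hf0 (pow_ne_zero _ hA0))) (pow_ne_zero _ hA0))),
      hfA.multiplicity_pow hπ, multiplicity_mul hπ hfA, hfinA.multiplicity_pow hπ,
      hfinA.multiplicity_pow hπ, hmA]
    ring
  have hR : multiplicity π (g ^ (ℓ - 1)) = (ℓ - 1) * multiplicity π g :=
    hfing.multiplicity_pow hπ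
  rw [hid, hR] at hL
  have h3 : (ℓ - 1) ∣ e := by
    have h4 : (ℓ - 1) ∣ (ℓ - 1) * (multiplicity π f + j) + e := ⟨_, hL.symm⟩
    exact (Nat.dvd_add_right (dvd_mul_right _ _)).mp h4
  exact he0 (Nat.eq_zero_of_dvd_of_lt h3 hel)

/-- **Swinnerton-Dyer, algebraic form.** -/
theorem SwDData.weight_congr (d : SwDData F) {A : MvPolynomial (Fin 2) F}
    (hA : IsWeightedHomogeneous wQR A (ℓ - 1)) (hA1 : d.eps A = 1)
    {k k' : ℕ} {f g : MvPolynomial (Fin 2) F} (hf : IsWeightedHomogeneous wQR f k)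
    (hg : IsWeightedHomogeneous wQR g k') (h : d.eps f = d.eps g) (hne : d.eps f ≠ 0) :
    ((ℓ : ℤ) - 1) ∣ (k : ℤ) - k' := by
  have hℓ1 := hℓ.out.one_le
  have hc : ((ℓ : ℤ) - 1) = ((ℓ - 1 : ℕ) : ℤ) := by omega
  rw [hc]
  rcases le_total k k' with hkk | hkk
  · have := d.weight_congr_aux hA hA1 hf hg h hne hkk
    have h2 : (k : ℤ) - k' = -((k' - k : ℕ) : ℤ) := by omega
    rw [h2, dvd_neg]
    exact Int.natCast_dvd_natCast.mpr this
  · have := d.weight_congr_aux hA hA1 hg hf h.symm (h ▸ hne) hkk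
    have h2 : (k : ℤ) - k' = ((k - k' : ℕ) : ℤ) := by omega
    rw [h2]
    exact Int.natCast_dvd_natCast.mpr this

end CharL

end Fermat.Agent.S16.H70
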