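import Fermat.Agent.Betti.Defs
import Fermat.Prelude.Def_ModularCurve_PeriodMap
import Fermat.Prelude.Def_ModularCurve_ModularUnit

/-!
# S16, package LB-chi: the Shimura class `χ : Γ₀(p) → (ℤ/p)ˣ → ℤ/n` (helper38)

* `heckeOp_twisted` : abstract lemma. If `χ (kap γ i) = χ γ * d i * (d (perm γ i))⁻¹` then
  `heckeOp (ψ ∘ χ) = card ι • (ψ ∘ χ)`.
* `chi0 N : Γ₀(N) →* (ZMod N)ˣ`, `γ ↦ d mod N`.
* `TB_chi` : `T_ℓ^B (ψ ∘ χ₀) = (ℓ + 1) • (ψ ∘ χ₀)` (`ℓ ∤ N` prime).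
* `UB_chi` : `U_p^B (ψ ∘ χ₀) = p • (ψ ∘ χ₀)` (`p ∣ N`).
-/

set_option autoImplicit false

namespace Fermat.Agent.S16.H38

open Fermat.Agent.Betti CongruenceSubgroup Matrix.SpecialLinearGroup ModularForm
open scoped MatrixGroups

section Abstract

variable {Γ G : Type*} [Group Γ] [Group G] {e : Γ →* G} {ι : Type*} [Fintype ι] {rep : ι → G}

/-- A character which is multiplied by a coboundary under `kap` is an eigenvector of the Betti
Hecke operator with eigenvalue the degree. -/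
theorem heckeOp_twisted (H : IsHeckeFamily e rep) (he : Function.Injective e)
    {M : Type*} [CommGroup M] (χ : Γ →* M) (d : ι → M)
    (hχ : ∀ γ i, χ (H.kap γ i) = χ γ * d i * (d (H.perm γ i))⁻¹)
    {A : Type*} [AddCommGroup A] (ψ : Additive M →+ A) :
    H.heckeOp he (ψ.comp (MonoidHom.toAdditive χ)) =
      Fintype.card ι • (ψ.comp (MonoidHom.toAdditive χ)) := by
  refine AddMonoidHom.ext fun γ => ?_
  obtain ⟨γ, rfl⟩ : ∃ g : Γ, Additive.ofMul g = γ := ⟨Additive.toMul γ, rfl⟩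
  rw [IsHeckeFamily.heckeOp_apply]
  have hterm : ∀ i, (ψ.comp (MonoidHom.toAdditive χ)) (Additive.ofMul (H.kap γ i))
      = ψ (Additive.ofMul (χ γ)) + ψ (Additive.ofMul (d i))
        - ψ (Additive.ofMul (d (H.perm γ i))) := by
    intro i
    show ψ (Additive.ofMul (χ (H.kap γ i))) = _
    rw [hχ γ i]
    simp only [ofMul_mul, ofMul_inv, map_add, map_neg]
    abel
  simp only [hterm, Finset.sum_add_distrib, Finset.sum_sub_distrib]
  have hperm : ∑ i, ψ (Additive.ofMul (d (H.perm γ i))) = ∑ i, ψ (Additive.ofMul (d i)) :=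
    Equiv.sum_comp (H.permEquiv he γ) (fun i => ψ (Additive.ofMul (d i)))
  rw [hperm]
  simp only [Finset.sum_const, Finset.card_univ, AddMonoidHom.coe_smul, Pi.smul_apply]
  show _ = Fintype.card ι • ψ (Additive.ofMul (χ γ))
  abel

end Abstract

section Gamma0

variable (N : ℕ)

/-- The character `γ ↦ d mod N` of `Γ₀(N)`. -/
noncomputable def chi0 : Gamma0 N →* (ZMod N)ˣ := (Gamma0Map N).toHomUnits

theorem coe_chi0 (γ : Gamma0 N) : ((chi0 N γ : (ZMod N)ˣ) : ZMod N) = ((γ : SL(2, ℤ)) 1 1 : ℤ) :=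
  rfl

variable {N}

theorem cast_lower_left (γ : Gamma0 N) : (((γ : SL(2, ℤ)) 1 0 : ℤ) : ZMod N) = 0 :=
  Gamma0_mem.mp γ.2

/-- Entries of `mapGL ℝ γ`. -/
theorem mapGL_entry (g : SL(2, ℤ)) (i j : Fin 2) :
    ((mapGL ℝ g : GL (Fin 2) ℝ) : Matrix (Fin 2) (Fin 2) ℝ) i j = ((g i j : ℤ) : ℝ) := by
  simp

/-- The key relation on lower right entries for upper triangular representatives. -/
theorem lower_right_rel {x y : GL (Fin 2) ℝ} {dx dy by' : ℕ}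
    (hx10 : (x : Matrix (Fin 2) (Fin 2) ℝ) 1 0 = 0)
    (hx11 : (x : Matrix (Fin 2) (Fin 2) ℝ) 1 1 = dx)
    (hy01 : (y : Matrix (Fin 2) (Fin 2) ℝ) 0 1 = by')
    (hy11 : (y : Matrix (Fin 2) (Fin 2) ℝ) 1 1 = dy)
    (γ κ : Gamma0 N) (h : x * incl N γ = incl N κ * y) :
    (dx : ZMod N) * (chi0 N γ : ZMod N) = (chi0 N κ : ZMod N) * (dy : ZMod N) := by
  have h11 := congrArg (fun M : GL (Fin 2) ℝ => (M : Matrix (Fin 2) (Fin 2) ℝ) 1 1) h
  simp only [Units.val_mul, Matrix.mul_apply, Fin.sum_univ_two, incl_apply, mapGL_entry,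
    hx10, hx11, hy01, hy11] at h11
  have hZ : (dx : ℤ) * ((γ : SL(2, ℤ)) 1 1) =
      ((κ : SL(2, ℤ)) 1 0) * by' + ((κ : SL(2, ℤ)) 1 1) * dy := by
    have : ((dx : ℤ) : ℝ) * (((γ : SL(2, ℤ)) 1 1 : ℤ) : ℝ) =
        (((κ : SL(2, ℤ)) 1 0 : ℤ) : ℝ) * ((by' : ℤ) : ℝ)
          + (((κ : SL(2, ℤ)) 1 1 : ℤ) : ℝ) * ((dy : ℤ) : ℝ) := by
      push_cast
      linarith
    exact_mod_cast this
  have hM := congrArg (Int.cast : ℤ → ZMod N) hZ
  push_cast at hM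
  rw [cast_lower_left κ, zero_mul, zero_add] at hM
  rw [coe_chi0, coe_chi0]
  exact hM

section TChi

open P2MW.S_ModularForm_heckeT_slash_eq_self_of_mem_Gamma0.ModularForm.HeckeSlashInvariance

variable {ℓ : ℕ}

/-- lower right entries of the representatives of `T_ℓ`, as natural numbers. -/
def dNat (ℓ : ℕ) (x : OnePoint (ZMod ℓ)) : ℕ := x.elim 1 (fun _ => ℓ)

/-- upper right entries of the representatives of `T_ℓ`, as natural numbers. -/
def bNat (ℓ : ℕ) (x : OnePoint (ZMod ℓ)) : ℕ := x.elim 0 (fun j => j.val)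

theorem repT_10 (hℓ : ℓ ≠ 0) (x : OnePoint (ZMod ℓ)) :
    ((repT ℓ x : GL (Fin 2) ℝ) : Matrix (Fin 2) (Fin 2) ℝ) 1 0 = 0 := by
  induction x using OnePoint.rec with
  | infty => show ((heckeDiagMatrix ℓ : GL (Fin 2) ℝ) : Matrix (Fin 2) (Fin 2) ℝ) 1 0 = 0
             simp [hℓ]
  | coe j => show ((heckeMatrix ℓ j.val : GL (Fin 2) ℝ) : Matrix (Fin 2) (Fin 2) ℝ) 1 0 = 0
             simp [hℓ]

theorem repT_11 (hℓ : ℓ ≠ 0) (x : OnePoint (ZMod ℓ)) :
    ((repT ℓ x : GL (Fin 2) ℝ) : Matrix (Fin 2) (Fin 2) ℝ) 1 1 = dNat ℓ x := by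
  induction x using OnePoint.rec with
  | infty => show ((heckeDiagMatrix ℓ : GL (Fin 2) ℝ) : Matrix (Fin 2) (Fin 2) ℝ) 1 1 = ((1 : ℕ) : ℝ)
             simp [hℓ]
  | coe j => show ((heckeMatrix ℓ j.val : GL (Fin 2) ℝ) : Matrix (Fin 2) (Fin 2) ℝ) 1 1 = (ℓ : ℝ)
             simp [hℓ]

theorem repT_01 (hℓ : ℓ ≠ 0) (x : OnePoint (ZMod ℓ)) :
    ((repT ℓ x : GL (Fin 2) ℝ) : Matrix (Fin 2) (Fin 2) ℝ) 0 1 = bNat ℓ x := by
  induction x using OnePoint.rec with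
  | infty => show ((heckeDiagMatrix ℓ : GL (Fin 2) ℝ) : Matrix (Fin 2) (Fin 2) ℝ) 0 1 = ((0 : ℕ) : ℝ)
             simp [hℓ]
  | coe j => show ((heckeMatrix ℓ j.val : GL (Fin 2) ℝ) : Matrix (Fin 2) (Fin 2) ℝ) 0 1
               = ((j.val : ℕ) : ℝ)
             simp [hℓ]

variable {N : ℕ}

/-- lower right entries of the representatives of `T_ℓ`, as units modulo `N`. -/
noncomputable def dUnit (h : Nat.Coprime ℓ N) (x : OnePoint (ZMod ℓ)) : (ZMod N)ˣ :=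
  x.elim 1 (fun _ => ZMod.unitOfCoprime ℓ h)

theorem coe_dUnit (h : Nat.Coprime ℓ N) (x : OnePoint (ZMod ℓ)) :
    ((dUnit h x : (ZMod N)ˣ) : ZMod N) = (dNat ℓ x : ZMod N) := by
  induction x using OnePoint.rec with
  | infty => show ((1 : (ZMod N)ˣ) : ZMod N) = ((1 : ℕ) : ZMod N)
             simp
  | coe j => show ((ZMod.unitOfCoprime ℓ h : (ZMod N)ˣ) : ZMod N) = ((ℓ : ℕ) : ZMod N)
             simp

/-- `T_ℓ^B (ψ ∘ χ₀) = (ℓ + 1) • (ψ ∘ χ₀)`. -/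
theorem TB_chi (hℓ : ℓ.Prime) (hℓN : ¬ ℓ ∣ N) {A : Type*} [AddCommGroup A]
    (ψ : Additive (ZMod N)ˣ →+ A) :
    TB N A hℓ hℓN (ψ.comp (MonoidHom.toAdditive (chi0 N))) =
      (ℓ + 1) • (ψ.comp (MonoidHom.toAdditive (chi0 N))) := by
  have : Fact ℓ.Prime := ⟨hℓ⟩
  have hcop : Nat.Coprime ℓ N := (Nat.Prime.coprime_iff_not_dvd hℓ).mpr hℓN
  rw [TB_apply]
  have key := heckeOp_twisted (isHeckeFamily_T N hℓN) (incl_injective N) (chi0 N) (dUnit hcop)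
    (fun γ x => by
      have h := (isHeckeFamily_T N hℓN).rep_mul γ x
      have h1 := lower_right_rel (repT_10 hℓ.ne_zero x) (repT_11 hℓ.ne_zero x)
        (repT_01 hℓ.ne_zero _) (repT_11 hℓ.ne_zero _) γ _ h
      rw [eq_mul_inv_iff_mul_eq]
      apply Units.ext
      simp only [Units.val_mul, coe_dUnit]
      rw [← h1]
      ring) ψ
  rw [key]
  congr 1
  exact (Fintype.card_option (α := ZMod ℓ)).trans (by rw [ZMod.card])

end TChi

section UChi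

variable {N p : ℕ}

/-- For the representatives `[1,j;0,p]` of `U_p`: `κ` and `γ` have the same lower right entry
modulo `N`. -/
theorem chi0_kap_U (hp : p ≠ 0) {j j' : ℕ} (γ κ : Gamma0 N)
    (h : heckeMatrix p j * incl N γ = incl N κ * heckeMatrix p j') :
    chi0 N κ = chi0 N γ := by
  have h10 := congrArg (fun M : GL (Fin 2) ℝ => (M : Matrix (Fin 2) (Fin 2) ℝ) 1 0) h
  have h11 := congrArg (fun M : GL (Fin 2) ℝ => (M : Matrix (Fin 2) (Fin 2) ℝ) 1 1) h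
  simp only [Units.val_mul, Matrix.mul_apply, Fin.sum_univ_two, incl_apply, mapGL_entry,
    val_heckeMatrix hp, Matrix.of_apply, Matrix.cons_val_zero, Matrix.cons_val_one,
    Matrix.cons_val', Matrix.cons_val_fin_one] at h10 h11
  have hpR : (p : ℝ) ≠ 0 := Nat.cast_ne_zero.mpr hp
  have hR : (((γ : SL(2, ℤ)) 1 1 : ℤ) : ℝ) =
      (((γ : SL(2, ℤ)) 1 0 : ℤ) : ℝ) * (j' : ℝ) + (((κ : SL(2, ℤ)) 1 1 : ℤ) : ℝ) := by
    have h10' : (((κ : SL(2, ℤ)) 1 0 : ℤ) : ℝ) = (p : ℝ) * (((γ : SL(2, ℤ)) 1 0 : ℤ) : ℝ) := by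
      linarith
    have h11' : (p : ℝ) * (((γ : SL(2, ℤ)) 1 1 : ℤ) : ℝ) =
        (p : ℝ) * ((((γ : SL(2, ℤ)) 1 0 : ℤ) : ℝ) * (j' : ℝ) + (((κ : SL(2, ℤ)) 1 1 : ℤ) : ℝ)) := by
      rw [h10'] at h11
      linarith
    exact mul_left_cancel₀ hpR h11'
  have hZ : ((γ : SL(2, ℤ)) 1 1 : ℤ) = ((γ : SL(2, ℤ)) 1 0) * (j' : ℤ) + ((κ : SL(2, ℤ)) 1 1) := by
    exact_mod_cast hR
  have hM := congrArg (Int.cast : ℤ → ZMod N) hZ
  push_cast at hM
  rw [cast_lower_left γ, zero_mul, zero_add] at hM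
  apply Units.ext
  rw [coe_chi0, coe_chi0]
  exact hM.symm

/-- `U_p^B (ψ ∘ χ₀) = p • (ψ ∘ χ₀)`. -/
theorem UB_chi [NeZero N] (hpN : p ∣ N) {A : Type*} [AddCommGroup A]
    (ψ : Additive (ZMod N)ˣ →+ A) :
    UB N A hpN (ψ.comp (MonoidHom.toAdditive (chi0 N))) =
      p • (ψ.comp (MonoidHom.toAdditive (chi0 N))) := by
  have : NeZero p := neZero_of_dvd hpN
  rw [UB_apply]
  have key := heckeOp_twisted (isHeckeFamily_U N hpN) (incl_injective N) (chi0 N) (fun _ => 1)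
    (fun γ x => by
      have h := (isHeckeFamily_U N hpN).rep_mul γ x
      rw [chi0_kap_U (NeZero.ne p) γ _ h]
      simp) ψ
  rw [key]
  congr 1
  exact ZMod.card p

end UChi

section Surj

/-- `χ₀ : Γ₀(N) → (ZMod N)ˣ` is surjective. -/
theorem chi0_surjective (N : ℕ) [NeZero N] : Function.Surjective (chi0 N) := by
  intro u
  have hcop : Nat.Coprime (u : ZMod N).val N := ZMod.val_coe_unit_coprime u
  obtain ⟨a, b, hab⟩ := Nat.Coprime.isCoprime hcop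
  have hdet : Matrix.det !![a, -b; (N : ℤ), ((u : ZMod N).val : ℤ)] = 1 := by
    rw [Matrix.det_fin_two_of]
    linarith
  let g : SL(2, ℤ) := ⟨!![a, -b; (N : ℤ), ((u : ZMod N).val : ℤ)], hdet⟩
  have hg : g ∈ Gamma0 N := by
    rw [Gamma0_mem]
    show (((N : ℤ) : ℤ) : ZMod N) = 0
    simp
  refine ⟨⟨g, hg⟩, ?_⟩
  apply Units.ext
  rw [coe_chi0]
  show ((((u : ZMod N).val : ℤ) : ℤ) : ZMod N) = u
  simp

end Surj

section Vanishing

variable {p : ℕ}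

/-- In `Γ₀(p)`, `p` prime, an element of trace `±2` has `d ≡ ±1 mod p`. -/
theorem chi0_of_trace_sq (hp : p.Prime) (γ : Gamma0 p)
    (h : ((γ : SL(2, ℤ)) : Matrix (Fin 2) (Fin 2) ℤ).trace ^ 2 = 4) :
    chi0 p γ = 1 ∨ chi0 p γ = -1 := by
  have : Fact p.Prime := ⟨hp⟩
  have hdet := Matrix.SpecialLinearGroup.det_coe (γ : SL(2, ℤ))
  rw [Matrix.det_fin_two] at hdet
  rw [Matrix.trace_fin_two] at h
  have hc := cast_lower_left γ
  have h1 := congrArg (Int.cast : ℤ → ZMod p) hdet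
  have h2 := congrArg (Int.cast : ℤ → ZMod p) h
  push_cast at h1 h2
  rw [hc, mul_zero, sub_zero] at h1
  set a : ZMod p := (((γ : SL(2, ℤ)) 0 0 : ℤ) : ZMod p) with ha
  set d : ZMod p := (((γ : SL(2, ℤ)) 1 1 : ℤ) : ZMod p) with hd
  have h3 : (d - a) ^ 2 = 0 := by linear_combination h2 - 4 * h1
  have h4 : d = a := by
    have := pow_eq_zero_iff (two_ne_zero) |>.mp h3
    exact sub_eq_zero.mp this
  have h5 : (d - 1) * (d + 1) = 0 := by
    rw [← h4] at h1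
    linear_combination h1
  rcases mul_eq_zero.mp h5 with h6 | h6
  · left
    apply Units.ext
    rw [coe_chi0]
    exact sub_eq_zero.mp h6
  · right
    apply Units.ext
    rw [coe_chi0, Units.val_neg, Units.val_one]
    exact eq_neg_of_add_eq_zero_left h6

/-- `ψ ∘ χ₀` is a parabolic homomorphism if `ψ (-1) = 0`. -/
theorem isParabolicHom_chi (hp : p.Prime) {A : Type*} [AddCommGroup A]
    (ψ : Additive (ZMod p)ˣ →+ A) (hψ : ψ (Additive.ofMul (-1)) = 0) :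
    ModularCurve.Period.IsParabolicHom (Gamma0 p) (ψ.comp (MonoidHom.toAdditive (chi0 p))) := by
  intro γ hγ
  show ψ (Additive.ofMul (chi0 p γ)) = 0
  rcases chi0_of_trace_sq hp γ hγ with h | h
  · rw [h]
    exact map_zero ψ
  · rw [h]
    exact hψ

/-- `ψ ∘ χ₀` kills the elements `γ` with `γ ^ k = 1` if `ψ` kills the `k`-torsion. -/
theorem chi_torsion {N : ℕ} {A : Type*} [AddCommGroup A] (ψ : Additive (ZMod N)ˣ →+ A) (k : ℕ)
    (hψ : ∀ u : (ZMod N)ˣ, u ^ k = 1 → ψ (Additive.ofMul u) = 0) (γ : Gamma0 N)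
    (hγ : γ ^ k = 1) : (ψ.comp (MonoidHom.toAdditive (chi0 N))) (Additive.ofMul γ) = 0 := by
  show ψ (Additive.ofMul (chi0 N γ)) = 0
  apply hψ
  rw [← map_pow, hγ, map_one]

end Vanishing

section Psi

/-- A finite cyclic group of order `m` has a surjection onto `ZMod n` (`n ∣ m`) which kills the
`k`-torsion, if `m ∣ k * y → n ∣ y`. -/
theorem exists_hom_cyclic {G : Type*} [AddCommGroup G] [IsAddCyclic G] [Finite G] (n k : ℕ)
    (hn : n ∣ Nat.card G) (hk : ∀ y : ℕ, Nat.card G ∣ k * y → n ∣ y) :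
    ∃ ψ : G →+ ZMod n, Function.Surjective ψ ∧ ∀ x : G, k • x = 0 → ψ x = 0 := by
  have hm : NeZero (Nat.card G) := ⟨Nat.card_pos.ne'⟩
  let E : ZMod (Nat.card G) ≃+ G := zmodAddCyclicAddEquiv inferInstance
  let c : ZMod (Nat.card G) →+* ZMod n := ZMod.castHom hn (ZMod n)
  refine ⟨c.toAddMonoidHom.comp E.symm.toAddMonoidHom, ?_, ?_⟩
  · exact (ZMod.castHom_surjective hn).comp E.symm.surjective
  · intro x hx
    show c (E.symm x) = 0
    have h1 : k • E.symm x = 0 := by rw [← map_nsmul, hx, map_zero]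
    have h2 : ((k * (E.symm x).val : ℕ) : ZMod (Nat.card G)) = 0 := by
      rw [Nat.cast_mul, ZMod.natCast_zmod_val, ← nsmul_eq_mul]
      exact h1
    have h3 : n ∣ (E.symm x).val := hk _ ((ZMod.natCast_eq_zero_iff _ _).mp h2)
    have h4 : c (E.symm x) = c (((E.symm x).val : ℕ) : ZMod (Nat.card G)) := by
      rw [ZMod.natCast_zmod_val]
    rw [h4, map_natCast]
    exact (ZMod.natCast_eq_zero_iff _ _).mpr h3

/-- The arithmetic input: `(p - 1) ∣ 12 y → n ∣ y` for `n = eisensteinNumerator p`. -/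
theorem eisensteinNumerator_dvd_of (p y : ℕ) (h : p - 1 ∣ 12 * y) :
    ModularCurve.eisensteinNumerator p ∣ y := by
  have hg0 : 0 < Nat.gcd (p - 1) 12 := Nat.gcd_pos_of_pos_right _ (by norm_num)
  have hcop : Nat.Coprime ((p - 1) / Nat.gcd (p - 1) 12) (12 / Nat.gcd (p - 1) 12) :=
    Nat.coprime_div_gcd_div_gcd hg0
  have h1 : (p - 1) / Nat.gcd (p - 1) 12 * Nat.gcd (p - 1) 12 = p - 1 :=
    Nat.div_mul_cancel (Nat.gcd_dvd_left _ _)
  have h2 : 12 / Nat.gcd (p - 1) 12 * Nat.gcd (p - 1) 12 = 12 :=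
    Nat.div_mul_cancel (Nat.gcd_dvd_right _ _)
  have h3 : Nat.gcd (p - 1) 12 * ((p - 1) / Nat.gcd (p - 1) 12) ∣
      Nat.gcd (p - 1) 12 * (12 / Nat.gcd (p - 1) 12 * y) := by
    have e1 : Nat.gcd (p - 1) 12 * ((p - 1) / Nat.gcd (p - 1) 12) = p - 1 := by
      rw [mul_comm]; exact h1
    have e2 : Nat.gcd (p - 1) 12 * (12 / Nat.gcd (p - 1) 12 * y) = 12 * y := by
      rw [← mul_assoc, mul_comm (Nat.gcd (p - 1) 12), h2]
    rw [e1, e2]
    exact h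
  have h4 := Nat.dvd_of_mul_dvd_mul_left hg0 h3
  exact hcop.dvd_of_dvd_mul_left h4

/-- The character `ψ : (ZMod p)ˣ → ZMod n`: surjective, kills the `12`-torsion. -/
theorem exists_psi {p : ℕ} (hp : p.Prime) :
    ∃ ψ : Additive (ZMod p)ˣ →+ ZMod (ModularCurve.eisensteinNumerator p),
      Function.Surjective ψ ∧ ∀ u : (ZMod p)ˣ, u ^ 12 = 1 → ψ (Additive.ofMul u) = 0 := by
  have : Fact p.Prime := ⟨hp⟩
  have hcard : Nat.card (Additive (ZMod p)ˣ) = p - 1 := by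
    rw [Nat.card_congr (Additive.toMul (α := (ZMod p)ˣ)), Nat.card_eq_fintype_card]
    exact ZMod.card_units p
  obtain ⟨ψ, hs, hk⟩ := exists_hom_cyclic (G := Additive (ZMod p)ˣ)
    (ModularCurve.eisensteinNumerator p) 12
    (by rw [hcard]; exact ModularCurve.eisensteinNumerator_dvd p)
    (fun y hy => eisensteinNumerator_dvd_of p y (by rwa [hcard] at hy))
  refine ⟨ψ, hs, fun u hu => hk _ ?_⟩
  rw [← ofMul_pow, hu]
  rfl

end Psi

section Elliptic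

theorem mat_pow_twelve (M : Matrix (Fin 2) (Fin 2) ℤ) (t : ℤ) (hsq : M ^ 2 = t • M - 1)
    (ht : t = 0 ∨ t = 1 ∨ t = -1) : M ^ 12 = 1 := by
  rcases ht with h0 | h1 | h1
  · rw [h0, zero_smul, zero_sub] at hsq
    have : M ^ 12 = (M ^ 2) ^ 6 := by rw [← pow_mul]
    rw [this, hsq]
    exact Even.neg_one_pow ⟨3, rfl⟩
  · rw [h1, one_smul] at hsq
    have h3 : M ^ 3 = -1 := by
      have : M ^ 3 = M ^ 2 * M := by rw [pow_succ]
      rw [this, hsq, sub_mul, one_mul, ← pow_two, hsq]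
      abel
    have : M ^ 12 = (M ^ 3) ^ 4 := by rw [← pow_mul]
    rw [this, h3]
    exact Even.neg_one_pow ⟨2, rfl⟩
  · rw [h1] at hsq
    have hsq' : M ^ 2 = -M - 1 := by rw [hsq]; simp
    have h3 : M ^ 3 = 1 := by
      have : M ^ 3 = M ^ 2 * M := by rw [pow_succ]
      rw [this, hsq', sub_mul, one_mul, neg_mul, ← pow_two, hsq']
      abel
    have : M ^ 12 = (M ^ 3) ^ 4 := by rw [← pow_mul]
    rw [this, h3, one_pow]

/-- An element of `SL(2, ℤ)` with `trace ^ 2 < 4` has order dividing `12`. -/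
theorem pow_twelve_eq_one_of_trace (g : SL(2, ℤ))
    (h : (g : Matrix (Fin 2) (Fin 2) ℤ).trace ^ 2 < 4) : g ^ 12 = 1 := by
  have hdet := Matrix.SpecialLinearGroup.det_coe g
  rw [Matrix.det_fin_two] at hdet
  rw [Matrix.trace_fin_two] at h
  have ht : (g : Matrix (Fin 2) (Fin 2) ℤ) 0 0 + (g : Matrix (Fin 2) (Fin 2) ℤ) 1 1 = 0 ∨
      (g : Matrix (Fin 2) (Fin 2) ℤ) 0 0 + (g : Matrix (Fin 2) (Fin 2) ℤ) 1 1 = 1 ∨
      (g : Matrix (Fin 2) (Fin 2) ℤ) 0 0 + (g : Matrix (Fin 2) (Fin 2) ℤ) 1 1 = -1 := by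
    have h1 : -2 < (g : Matrix (Fin 2) (Fin 2) ℤ) 0 0 + (g : Matrix (Fin 2) (Fin 2) ℤ) 1 1 := by
      nlinarith
    have h2 : (g : Matrix (Fin 2) (Fin 2) ℤ) 0 0 + (g : Matrix (Fin 2) (Fin 2) ℤ) 1 1 < 2 := by
      nlinarith
    omega
  apply Subtype.ext
  rw [Matrix.SpecialLinearGroup.coe_pow, Matrix.SpecialLinearGroup.coe_one]
  refine mat_pow_twelve _ _ ?_ ht
  rw [pow_two]
  ext i j
  fin_cases i <;> fin_cases j <;>
    simp [Matrix.mul_apply, Fin.sum_univ_two, Matrix.smul_apply, Matrix.sub_apply,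
      -zsmul_eq_mul] <;>
    first | linear_combination (-1 : ℤ) * hdet | ring

end Elliptic

section Main

/-- **LB-chi**: the Shimura class. For a prime `p` there is a surjective homomorphism
`φ : Γ₀(p) → ZMod n`, `n = eisensteinNumerator p`, vanishing on the elements of trace `±2` and on
the elements of order dividing `12` (in particular on all elements with `trace ^ 2 < 4`), with
`T_ℓ^B φ = (ℓ + 1) φ` for the primes `ℓ ≠ p` and `U_p^B φ = φ`. -/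
theorem exists_shimura_class {p : ℕ} (hp : p.Prime) :
    haveI : NeZero p := ⟨hp.ne_zero⟩
    ∃ φ : Additive (Gamma0 p) →+ ZMod (ModularCurve.eisensteinNumerator p),
      Function.Surjective φ ∧
      ModularCurve.Period.IsParabolicHom (Gamma0 p) φ ∧
      (∀ γ : Gamma0 p, γ ^ 12 = 1 → φ (Additive.ofMul γ) = 0) ∧
      (∀ γ : Gamma0 p, ((γ : SL(2, ℤ)) : Matrix (Fin 2) (Fin 2) ℤ).trace ^ 2 < 4 →
        φ (Additive.ofMul γ) = 0) ∧
      (∀ (ℓ : ℕ) (hℓ : ℓ.Prime) (hℓp : ¬ ℓ ∣ p), TB p _ hℓ hℓp φ = (ℓ + 1) • φ) ∧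
      UB p _ (dvd_refl p) φ = φ := by
  have : NeZero p := ⟨hp.ne_zero⟩
  obtain ⟨ψ, hs, hk⟩ := exists_psi hp
  have h12 : ∀ γ : Gamma0 p, γ ^ 12 = 1 →
      (ψ.comp (MonoidHom.toAdditive (chi0 p))) (Additive.ofMul γ) = 0 :=
    fun γ hγ => chi_torsion ψ 12 hk γ hγ
  refine ⟨ψ.comp (MonoidHom.toAdditive (chi0 p)), ?_, ?_, h12, ?_, ?_, ?_⟩
  · intro y
    obtain ⟨u, rfl⟩ := hs y
    obtain ⟨γ, hγ⟩ := chi0_surjective p (Additive.toMul u)
    exact ⟨Additive.ofMul γ, by show ψ (Additive.ofMul (chi0 p γ)) = ψ u; rw [hγ]; rfl⟩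
  · exact isParabolicHom_chi hp ψ (hk (-1) (by norm_num))
  · intro γ hγ
    apply h12
    apply Subtype.ext
    rw [Subgroup.coe_pow, Subgroup.coe_one]
    exact pow_twelve_eq_one_of_trace _ hγ
  · intro ℓ hℓ hℓp
    exact TB_chi hℓ hℓp ψ
  · rw [UB_chi (dvd_refl p) ψ]
    refine AddMonoidHom.ext fun γ => ?_
    show p • (ψ.comp (MonoidHom.toAdditive (chi0 p))) γ = (ψ.comp (MonoidHom.toAdditive (chi0 p))) γ
    generalize (ψ.comp (MonoidHom.toAdditive (chi0 p))) γ = y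
    have hp1 : ((p : ℕ) : ZMod (ModularCurve.eisensteinNumerator p)) = 1 := by
      have h1 : ((p - 1 : ℕ) : ZMod (ModularCurve.eisensteinNumerator p)) = 0 :=
        (ZMod.natCast_eq_zero_iff _ _).mpr (ModularCurve.eisensteinNumerator_dvd p)
      rw [Nat.cast_sub hp.one_le, Nat.cast_one, sub_eq_zero] at h1
      exact h1
    rw [nsmul_eq_mul, hp1, one_mul]

end Main

end Gamma0

end Fermat.Agent.S16.H38
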