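import Fermat.Agent.S16.Defs

/-!
# S16: second level interfaces (helper40, coordinator of cluster M)

All statements are about `M₂(Γ₀(p))`, `p ≥ 5` prime, and `q`-expansion coefficients
`ModularFormClass.qCoeff F k` (prelude, `= (qExpansion 1 F).coeff k`).

* `Stmt_Eis p`    : the Eisenstein series `E' = (p-1)/24 + Σ σ'(k) q^k` is in `M₂(Γ₀(p))`.
* `Stmt_Cusp p`   : a form in `M₂(Γ₀(p))` with `a₀ = 0` is a cusp form.
* `Stmt_Theta p`  : some `G ∈ M₂(Γ₀(p))` has `a₀ = 1` and `a_k ∈ 2ℤ` for `k ≥ 1` (theta series).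
* `Stmt_UBcore p ℓ e` : no `h ∈ M₂(Γ₀(p))` with integral coefficients, `a₀` prime to `ℓ` and
  `a_k ≡ 0 mod ℓ^e` for all `k ≥ 1`.

* `Stmt_LBalg p`, `Stmt_UBalg p` : the two algebraic inputs `h1`, `h2` of the final count
  (`WIRE`: `Stmt_LBalg p → Stmt_UBalg p → S16`; `Stmt_LB p → Stmt_LBalg p`; `Stmt_UB p → Stmt_UBalg p`).

Reductions (packages `LOC-LB`, `LOC-UB`, file `Loc.lean`):
  `Stmt_Eis p → Stmt_Cusp p → Stmt_Theta p → Stmt_LB p`
  `Stmt_Eis p → (∀ ℓ prime, Stmt_UBcore p ℓ (ubExp p ℓ)) → Stmt_UB p`.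
-/

set_option autoImplicit false

namespace Fermat.Agent.S16

open ModularFormClass CongruenceSubgroup ModularCurve UpperHalfPlane

/-- `EIS`: the Eisenstein series of weight 2 and level `p`. -/
def Stmt_Eis (p : ℕ) : Prop :=
  ∃ E : ModularForm (Gamma0 p) 2, qCoeff E 0 = ((p : ℂ) - 1) / 24 ∧
    ∀ k : ℕ, 1 ≤ k → qCoeff E k = (sigmaP p k : ℂ)

/-- `CUSP`: a modular form of weight 2 on `Γ₀(p)` whose constant term at `∞` vanishes is a
cusp form (the constant term at the cusp `0` is `-a₀`). -/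
def Stmt_Cusp (p : ℕ) : Prop :=
  ∀ F : ModularForm (Gamma0 p) 2, qCoeff F 0 = 0 →
    ∃ f : CuspForm (Gamma0 p) 2, (f : ℍ → ℂ) = (F : ℍ → ℂ)

/-- `THETA`: a weight 2 form on `Γ₀(p)` with constant term `1` and even integral higher
coefficients (the theta series of a positive definite quaternary form of level `p`). -/
def Stmt_Theta (p : ℕ) : Prop :=
  ∃ G : ModularForm (Gamma0 p) 2, qCoeff G 0 = 1 ∧
    ∀ k : ℕ, 1 ≤ k → ∃ c : ℤ, qCoeff G k = 2 * (c : ℂ)

/-- `h` has integral coefficients, constant term prime to `ℓ`, and all higher coefficients are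
divisible by `ℓ ^ e`. -/
def IsUnitConstMod (p ℓ e : ℕ) (h : ModularForm (Gamma0 p) 2) : Prop :=
  (∃ u : ℤ, ¬ (ℓ : ℤ) ∣ u ∧ qCoeff h 0 = (u : ℂ)) ∧
    ∀ k : ℕ, 1 ≤ k → ∃ a : ℤ, qCoeff h k = (ℓ : ℂ) ^ e * (a : ℂ)

/-- `UBcore`: there is no form which is a unit constant modulo `ℓ ^ e`. -/
def Stmt_UBcore (p ℓ e : ℕ) : Prop :=
  ∀ h : ModularForm (Gamma0 p) 2, ¬ IsUnitConstMod p ℓ e h

/-- Algebraic form of the lower bound (`h1` of `H44.card_quotient_map`): every Hecke polynomial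
which kills `S₂(Γ₀(p))` has Eisenstein value divisible by `n`. Follows from `Stmt_LB p` (apply
`P` to the congruent cusp form and read off `a₁`), or directly from an Eisenstein class of exact
order `n` in a torsion free Hecke module on which `ker φ` acts by zero (Shimura class, `LB-χ`). -/
def Stmt_LBalg (p : ℕ) [NeZero p] : Prop :=
  ∀ P : HeckeAlg, CuspForm.heckeEvalForms p 2 P = 0 →
    (eisensteinNumerator p : ℤ) ∣ MvPolynomial.aeval (eisensteinSystem p) P

/-- Algebraic form of the upper bound (`h2` of `H44.card_quotient_map`). -/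
def Stmt_UBalg (p : ℕ) [NeZero p] : Prop :=
  ∃ P : HeckeAlg, CuspForm.heckeEvalForms p 2 P = 0 ∧
    MvPolynomial.aeval (eisensteinSystem p) P = (eisensteinNumerator p : ℤ)

/-- The exponent needed at `ℓ`: `v_ℓ(gcd(p + 1, 12)) + 1` (for `p ≥ 5`:
`24 / gcd(p - 1, 12) = gcd(p + 1, 12)`). -/
def ubExp (p ℓ : ℕ) : ℕ := (Nat.gcd (p + 1) 12).factorization ℓ + 1

end Fermat.Agent.S16
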