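import Mathlib
import Fermat.Agent.Betti.Defs
import Fermat.Agent.S16.Defs2

/-!
# S16, package `LB-χ-1` (helper40): the Shimura class

`χ : Γ₀(p) → ℤ/n`, `γ = [a,b;c,d] ↦ log (d mod p) mod n`, for any `n ∣ p - 1`.

* `chi p n hn : Additive (Gamma0 p) →+ ZMod n`;
* `TB_chi` : `T_ℓ^B χ = (ℓ + 1) • χ` for primes `ℓ ≠ p`;
* `UB_chi` : `U_p^B χ = χ`;
* `chi_surjective`;
* `chi_parabolic`, `chi_finOrder` : `χ` kills the elements of trace `±2` and, when
  `12 * n ∣ ... ` (see statement), the elements of finite order.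
-/

set_option autoImplicit false

namespace Fermat.Agent.S16.H40

open CongruenceSubgroup Matrix.SpecialLinearGroup ModularCurve ModularCurve.Period
open Fermat.Agent.Betti ModularForm
open scoped MatrixGroups

section Log

variable (p : ℕ) [Fact p.Prime] (n : ℕ)

/-- A surjective homomorphism `(ℤ/p)ˣ → ℤ/n` for `n ∣ p - 1` (discrete logarithm modulo `n`). -/
noncomputable def logn (hn : n ∣ Nat.card (ZMod p)ˣ) : (ZMod p)ˣ →* Multiplicative (ZMod n) :=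
  (AddMonoidHom.toMultiplicative (ZMod.castHom hn (ZMod n)).toAddMonoidHom).comp
    (zmodCyclicMulEquiv (inferInstance : IsCyclic (ZMod p)ˣ)).symm.toMonoidHom

theorem logn_surjective (hn : n ∣ Nat.card (ZMod p)ˣ) : Function.Surjective (logn p n hn) := by
  intro y
  obtain ⟨x, hx⟩ := ZMod.castHom_surjective hn (Multiplicative.toAdd y)
  refine ⟨zmodCyclicMulEquiv (inferInstance : IsCyclic (ZMod p)ˣ) (Multiplicative.ofAdd x), ?_⟩
  simp only [logn, MonoidHom.coe_comp, Function.comp_apply, MulEquiv.coe_toMonoidHom,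
    MulEquiv.symm_apply_apply]
  exact congrArg Multiplicative.ofAdd hx

end Log

section Chi

variable (p : ℕ) [Fact p.Prime] (n : ℕ)

/-- The unit `d mod p` of `γ = [a,b;c,d] ∈ Γ₀(p)`. -/
noncomputable def dU : Gamma0 p →* (ZMod p)ˣ := (Gamma0Map p).toHomUnits

@[simp] theorem coe_dU (γ : Gamma0 p) :
    ((dU p γ : (ZMod p)ˣ) : ZMod p) = (((γ : SL(2, ℤ)) 1 1 : ℤ) : ZMod p) := rfl

/-- The Shimura class `χ : Γ₀(p) → ℤ/n`, `γ ↦ log (d mod p) mod n`. -/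
noncomputable def chi (hn : n ∣ Nat.card (ZMod p)ˣ) : Additive (Gamma0 p) →+ ZMod n :=
  MonoidHom.toAdditiveLeft ((logn p n hn).comp (dU p))

theorem chi_apply (hn : n ∣ Nat.card (ZMod p)ˣ) (γ : Gamma0 p) :
    chi p n hn (Additive.ofMul γ) = Multiplicative.toAdd (logn p n hn (dU p γ)) := rfl

/-- The additive logarithm `L u = log u mod n` of a unit. -/
noncomputable def L (hn : n ∣ Nat.card (ZMod p)ˣ) (u : (ZMod p)ˣ) : ZMod n :=
  Multiplicative.toAdd (logn p n hn u)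

theorem L_mul (hn : n ∣ Nat.card (ZMod p)ˣ) (u v : (ZMod p)ˣ) :
    L p n hn (u * v) = L p n hn u + L p n hn v := by
  simp [L, map_mul]

theorem L_one (hn : n ∣ Nat.card (ZMod p)ˣ) : L p n hn 1 = 0 := by
  simp [L]

/-- Transfer rule: if `d(κ) * v = u * d(γ)` in `ℤ/p` then `χ κ = χ γ + L u - L v`. -/
theorem chi_of_mul_eq (hn : n ∣ Nat.card (ZMod p)ˣ) (γ κ : Gamma0 p) (u v : (ZMod p)ˣ)
    (h : ((dU p κ : (ZMod p)ˣ) : ZMod p) * (v : ZMod p) = (u : ZMod p) * ((dU p γ : (ZMod p)ˣ) : ZMod p)) :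
    chi p n hn (Additive.ofMul κ) = chi p n hn (Additive.ofMul γ) + L p n hn u - L p n hn v := by
  have h' : dU p κ * v = u * dU p γ := Units.ext (by simpa using h)
  have h2 := congrArg (L p n hn) h'
  rw [L_mul, L_mul] at h2
  rw [chi_apply, chi_apply]
  change L p n hn (dU p κ) = L p n hn (dU p γ) + L p n hn u - L p n hn v
  linear_combination h2

theorem chi_surjective (hn : n ∣ Nat.card (ZMod p)ˣ) : Function.Surjective (chi p n hn) := by
  intro y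
  obtain ⟨u, hu⟩ := logn_surjective p n hn (Multiplicative.ofAdd y)
  -- a matrix in `Γ₀(p)` with lower right entry `≡ u mod p`
  have hp : (p : ℤ) ≠ 0 := by exact_mod_cast (Fact.out : p.Prime).ne_zero
  obtain ⟨d, hd⟩ : ∃ d : ℤ, ((d : ℤ) : ZMod p) = (u : ZMod p) :=
    ⟨((u : ZMod p)).val, by simp⟩
  have hcop : IsCoprime d (p : ℤ) := by
    have hpp : Prime (p : ℤ) := Nat.prime_iff_prime_int.mp Fact.out
    rw [isCoprime_comm]
    refine (Prime.coprime_iff_not_dvd hpp).mpr ?_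
    intro hdvd
    have : ((d : ℤ) : ZMod p) = 0 := (ZMod.intCast_zmod_eq_zero_iff_dvd _ _).mpr hdvd
    rw [hd] at this
    exact u.ne_zero this
  obtain ⟨a, b, hab⟩ := hcop
  -- a * d + b * p = 1 : matrix [a, -b; p, d]
  let M : Matrix (Fin 2) (Fin 2) ℤ := !![a, -b; (p : ℤ), d]
  have hdet : M.det = 1 := by
    simp only [M, Matrix.det_fin_two_of]
    linear_combination hab
  let g : SL(2, ℤ) := ⟨M, hdet⟩
  have hg : g ∈ Gamma0 p := by
    rw [Gamma0_mem]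
    show (((M 1 0 : ℤ)) : ZMod p) = 0
    simp [M]
  refine ⟨Additive.ofMul ⟨g, hg⟩, ?_⟩
  rw [chi_apply]
  have hdu : dU p ⟨g, hg⟩ = u := by
    apply Units.ext
    rw [coe_dU]
    show (((M 1 1 : ℤ)) : ZMod p) = _
    simp [M, hd]
  rw [hdu, hu]
  rfl

end Chi

section Entries

variable {p : ℕ} [Fact p.Prime]

/-- In `Γ₀(p)`: `a * d = 1` in `ℤ/p`. -/
theorem a_mul_d (γ : Gamma0 p) :
    ((((γ : SL(2, ℤ)) 0 0 : ℤ)) : ZMod p) * ((((γ : SL(2, ℤ)) 1 1 : ℤ)) : ZMod p) = 1 := by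
  have hdet : (γ : SL(2, ℤ)) 0 0 * (γ : SL(2, ℤ)) 1 1 - (γ : SL(2, ℤ)) 0 1 * (γ : SL(2, ℤ)) 1 0 = 1 := by
    have := (γ : SL(2, ℤ)).2
    rwa [Matrix.det_fin_two] at this
  have hc : ((((γ : SL(2, ℤ)) 1 0 : ℤ)) : ZMod p) = 0 := Gamma0_mem.mp γ.2
  have := congrArg (Int.cast : ℤ → ZMod p) hdet
  push_cast at this
  rw [hc, mul_zero, sub_zero] at this
  exact this

/-- Entry comparison: if `R * γ = κ * R'` with `R = [a,b;0,d]`, `R' = [a',b';0,d']` integral upper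
triangular and `γ, κ ∈ Γ₀(p)`, then `d * d(γ) = d(κ) * d'` and `a * a(γ) = a(κ) * a'` in `ℤ/p`. -/
theorem entry_rel (γ κ : Gamma0 p) (R R' : GL (Fin 2) ℝ) (a b d a' b' d' : ℤ)
    (hR : (R : Matrix (Fin 2) (Fin 2) ℝ) = !![(a : ℝ), (b : ℝ); 0, (d : ℝ)])
    (hR' : (R' : Matrix (Fin 2) (Fin 2) ℝ) = !![(a' : ℝ), (b' : ℝ); 0, (d' : ℝ)])
    (h : R * incl p γ = incl p κ * R') :
    (d : ZMod p) * ((((γ : SL(2, ℤ)) 1 1 : ℤ)) : ZMod p)
        = ((((κ : SL(2, ℤ)) 1 1 : ℤ)) : ZMod p) * (d' : ZMod p) ∧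
      (a : ZMod p) * ((((γ : SL(2, ℤ)) 0 0 : ℤ)) : ZMod p)
        = ((((κ : SL(2, ℤ)) 0 0 : ℤ)) : ZMod p) * (a' : ZMod p) := by
  have h11 := congrArg (fun M : GL (Fin 2) ℝ => (M : Matrix (Fin 2) (Fin 2) ℝ) 1 1) h
  have h00 := congrArg (fun M : GL (Fin 2) ℝ => (M : Matrix (Fin 2) (Fin 2) ℝ) 0 0) h
  simp only [Units.val_mul, hR, hR', incl_apply, Matrix.mul_apply, Fin.sum_univ_two] at h11 h00
  simp at h11 h00
  have hκc : ((((κ : SL(2, ℤ)) 1 0 : ℤ)) : ZMod p) = 0 := Gamma0_mem.mp κ.2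
  have hγc : ((((γ : SL(2, ℤ)) 1 0 : ℤ)) : ZMod p) = 0 := Gamma0_mem.mp γ.2
  have e11 : d * (γ : SL(2, ℤ)) 1 1 = (κ : SL(2, ℤ)) 1 0 * b' + (κ : SL(2, ℤ)) 1 1 * d' := by
    exact_mod_cast h11
  have e00 : a * (γ : SL(2, ℤ)) 0 0 + b * (γ : SL(2, ℤ)) 1 0 = (κ : SL(2, ℤ)) 0 0 * a' := by
    exact_mod_cast h00
  constructor
  · have := congrArg (Int.cast : ℤ → ZMod p) e11
    push_cast at this
    rw [hκc, zero_mul, zero_add] at this
    exact this
  · have := congrArg (Int.cast : ℤ → ZMod p) e00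
    push_cast at this
    rw [hγc, mul_zero, add_zero] at this
    exact this

end Entries

section HeckeEigen

open P2MW.S_ModularForm_heckeT_slash_eq_self_of_mem_Gamma0.ModularForm.HeckeSlashInvariance

variable (p : ℕ) [Fact p.Prime] (n : ℕ)

/-- The lower right entry of the representative `repT ℓ x`, as a unit modulo `p` (`ℓ ≠ p`). -/
noncomputable def uT {ℓ : ℕ} (hℓp : Nat.Coprime ℓ p) (x : OnePoint (ZMod ℓ)) : (ZMod p)ˣ :=
  x.elim 1 (fun _ => ZMod.unitOfCoprime ℓ hℓp)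

theorem TB_chi (hn : n ∣ Nat.card (ZMod p)ˣ) {ℓ : ℕ} (hℓ : ℓ.Prime) (hℓp : ¬ ℓ ∣ p) :
    TB p (ZMod n) hℓ hℓp (chi p n hn) = (ℓ + 1) • chi p n hn := by
  have : Fact ℓ.Prime := ⟨hℓ⟩
  have hℓ0 : ℓ ≠ 0 := hℓ.ne_zero
  have hcop : Nat.Coprime ℓ p := (Nat.Prime.coprime_iff_not_dvd hℓ).mpr hℓp
  refine AddMonoidHom.ext fun γ' => ?_
  obtain ⟨γ, rfl⟩ : ∃ γ : Gamma0 p, Additive.ofMul γ = γ' := ⟨Additive.toMul γ', rfl⟩
  rw [TB_apply_apply]
  set H := isHeckeFamily_T p hℓp with hH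
  have key : ∀ x : OnePoint (ZMod ℓ),
      chi p n hn (Additive.ofMul (H.kap γ x))
        = chi p n hn (Additive.ofMul γ) + L p n hn (uT p hcop x)
          - L p n hn (uT p hcop (H.perm γ x)) := by
    intro x
    apply chi_of_mul_eq
    have hmul := H.rep_mul γ x
    -- matrix shapes of the representatives
    have shape : ∀ y : OnePoint (ZMod ℓ), ∃ a b d : ℤ,
        ((repT ℓ y : GL (Fin 2) ℝ) : Matrix (Fin 2) (Fin 2) ℝ) = !![(a : ℝ), (b : ℝ); 0, (d : ℝ)]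
          ∧ (d : ZMod p) = ((uT p hcop y : (ZMod p)ˣ) : ZMod p) := by
      intro y
      induction y using OnePoint.rec with
      | infty =>
        refine ⟨ℓ, 0, 1, ?_, ?_⟩
        · show ((heckeDiagMatrix ℓ : GL (Fin 2) ℝ) : Matrix (Fin 2) (Fin 2) ℝ) = _
          rw [val_heckeDiagMatrix hℓ0]; simp
        · simp [uT]
      | coe j =>
        refine ⟨1, j.val, ℓ, ?_, ?_⟩
        · show ((heckeMatrix ℓ j.val : GL (Fin 2) ℝ) : Matrix (Fin 2) (Fin 2) ℝ) = _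
          rw [val_heckeMatrix hℓ0]; simp
        · simp [uT, ZMod.coe_unitOfCoprime]
    obtain ⟨a, b, d, hR, hd⟩ := shape x
    obtain ⟨a', b', d', hR', hd'⟩ := shape (H.perm γ x)
    have := (entry_rel γ (H.kap γ x) _ _ a b d a' b' d' hR hR' hmul).1
    rw [coe_dU, coe_dU, ← hd, ← hd']
    exact this.symm
  rw [Finset.sum_congr rfl (fun x _ => key x)]
  rw [Finset.sum_sub_distrib, Finset.sum_add_distrib]
  have hperm : ∑ x : OnePoint (ZMod ℓ), L p n hn (uT p hcop (H.perm γ x))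
      = ∑ x : OnePoint (ZMod ℓ), L p n hn (uT p hcop x) :=
    Equiv.sum_comp (H.permEquiv (incl_injective p) γ) (fun x => L p n hn (uT p hcop x))
  rw [hperm, add_sub_cancel_right, Finset.sum_const, Finset.card_univ]
  have hcard : Fintype.card (OnePoint (ZMod ℓ)) = ℓ + 1 := by
    show Fintype.card (Option (ZMod ℓ)) = ℓ + 1
    rw [Fintype.card_option, ZMod.card]
  rw [hcard]
  rfl

theorem UB_chi (hn : n ∣ Nat.card (ZMod p)ˣ) :
    haveI : NeZero p := ⟨(Fact.out : p.Prime).ne_zero⟩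
    UB p (ZMod n) (dvd_refl p) (chi p n hn) = chi p n hn := by
  have : NeZero p := ⟨(Fact.out : p.Prime).ne_zero⟩
  have hp0 : p ≠ 0 := (Fact.out : p.Prime).ne_zero
  refine AddMonoidHom.ext fun γ' => ?_
  obtain ⟨γ, rfl⟩ : ∃ γ : Gamma0 p, Additive.ofMul γ = γ' := ⟨Additive.toMul γ', rfl⟩
  rw [UB_apply_apply]
  set H := isHeckeFamily_U p (dvd_refl p) with hH
  have key : ∀ x : ZMod p,
      chi p n hn (Additive.ofMul (H.kap γ x)) = chi p n hn (Additive.ofMul γ) := by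
    intro x
    have h := chi_of_mul_eq p n hn γ (H.kap γ x) 1 1 ?_
    · simpa [L_one] using h
    have hmul := H.rep_mul γ x
    have hR : ((repU p x : GL (Fin 2) ℝ) : Matrix (Fin 2) (Fin 2) ℝ)
        = !![((1 : ℤ) : ℝ), ((x.val : ℤ) : ℝ); 0, ((p : ℤ) : ℝ)] := by
      show ((heckeMatrix p x.val : GL (Fin 2) ℝ) : Matrix (Fin 2) (Fin 2) ℝ) = _
      rw [val_heckeMatrix hp0]; simp
    have hR' : ((repU p (H.perm γ x) : GL (Fin 2) ℝ) : Matrix (Fin 2) (Fin 2) ℝ)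
        = !![((1 : ℤ) : ℝ), (((H.perm γ x).val : ℤ) : ℝ); 0, ((p : ℤ) : ℝ)] := by
      show ((heckeMatrix p (H.perm γ x).val : GL (Fin 2) ℝ) : Matrix (Fin 2) (Fin 2) ℝ) = _
      rw [val_heckeMatrix hp0]; simp
    have ha := (entry_rel γ (H.kap γ x) _ _ 1 x.val p 1 (H.perm γ x).val p hR hR' hmul).2
    simp only [Int.cast_one, one_mul, mul_one] at ha
    -- a(γ) = a(κ), hence d(κ) = d(γ)
    have h1 := a_mul_d γ
    have h2 := a_mul_d (H.kap γ x)
    rw [coe_dU, coe_dU, Units.val_one, mul_one, one_mul]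
    rw [← ha] at h2
    -- a * dκ = 1 = a * dγ
    have hunit : IsUnit ((((γ : SL(2, ℤ)) 0 0 : ℤ)) : ZMod p) :=
      IsUnit.of_mul_eq_one _ h1
    exact hunit.mul_left_cancel (h2.trans h1.symm)
  rw [Finset.sum_congr rfl (fun x _ => key x), Finset.sum_const, Finset.card_univ, ZMod.card]
  -- p • y = y in ZMod n since n ∣ p - 1
  have hp1 : ((p : ℕ) : ZMod n) = 1 := by
    have hcard : Nat.card (ZMod p)ˣ = p - 1 := by
      rw [Nat.card_eq_fintype_card, ZMod.card_units]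
    rw [hcard] at hn
    have hpos : 1 ≤ p := (Fact.out : p.Prime).one_lt.le
    have : ((p - 1 : ℕ) : ZMod n) = 0 := (ZMod.natCast_eq_zero_iff _ _).mpr hn
    rw [Nat.cast_sub hpos, Nat.cast_one, sub_eq_zero] at this
    exact this
  rw [nsmul_eq_mul, hp1, one_mul]

end HeckeEigen

section Vanishing

variable (p : ℕ) [Fact p.Prime] (n : ℕ)

/-- If `u ^ k = 1` and `k * n ∣ p - 1` then `log u ≡ 0 mod n`. -/
theorem L_eq_zero_of_pow (hn : n ∣ Nat.card (ZMod p)ˣ) {k : ℕ} (hk : k ≠ 0)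
    (hkn : k * n ∣ Nat.card (ZMod p)ˣ) {u : (ZMod p)ˣ} (hu : u ^ k = 1) : L p n hn u = 0 := by
  set m := Nat.card (ZMod p)ˣ with hm
  have hm0 : NeZero m := ⟨Nat.card_pos.ne'⟩
  set e := zmodCyclicMulEquiv (inferInstance : IsCyclic (ZMod p)ˣ) with he
  set t : ZMod m := Multiplicative.toAdd (e.symm u) with ht
  have hLt : L p n hn u = ZMod.castHom hn (ZMod n) t := rfl
  have hkt : (k : ZMod m) * t = 0 := by
    have h1 : e.symm (u ^ k) = 1 := by rw [hu, map_one]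
    rw [map_pow] at h1
    have h2 := congrArg Multiplicative.toAdd h1
    rw [toAdd_pow, toAdd_one] at h2
    rw [← nsmul_eq_mul]
    exact h2
  have hval : m ∣ k * t.val := by
    rw [← ZMod.natCast_eq_zero_iff, Nat.cast_mul, ZMod.natCast_val, ZMod.cast_id', id]
    exact hkt
  have hnt : n ∣ t.val := by
    have h3 : k * n ∣ k * t.val := hkn.trans hval
    exact (Nat.mul_dvd_mul_iff_left (Nat.pos_of_ne_zero hk)).mp h3
  rw [hLt, ZMod.castHom_apply, ZMod.cast_eq_val, ZMod.natCast_eq_zero_iff]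
  exact hnt

/-- `d(γ) ^ 12 = 1` for `γ ∈ Γ₀(p)` with `(tr γ)² ≤ 4` (elliptic, parabolic, `±1`). -/
theorem dU_pow_twelve (γ : Gamma0 p)
    (htr : ((γ : SL(2, ℤ)) : Matrix (Fin 2) (Fin 2) ℤ).trace ^ 2 ≤ 4) : dU p γ ^ 12 = 1 := by
  apply Units.ext
  rw [Units.val_pow_eq_pow_val, coe_dU, Units.val_one]
  set a : ZMod p := ((((γ : SL(2, ℤ)) 0 0 : ℤ)) : ZMod p) with ha
  set d : ZMod p := ((((γ : SL(2, ℤ)) 1 1 : ℤ)) : ZMod p) with hd
  have had : a * d = 1 := a_mul_d γ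
  rw [Matrix.trace_fin_two] at htr
  set t : ℤ := (γ : SL(2, ℤ)) 0 0 + (γ : SL(2, ℤ)) 1 1 with ht
  have hsum : a + d = (t : ZMod p) := by rw [ht]; push_cast; rfl
  -- d² = t d - 1
  have hquad : d ^ 2 = (t : ZMod p) * d - 1 := by
    rw [← hsum, ← had]; ring
  have ht2 : -2 ≤ t ∧ t ≤ 2 := by
    constructor <;> nlinarith
  obtain ⟨h1, h2⟩ := ht2
  interval_cases t
  · -- t = -2
    have : d ^ 2 = -2 * d - 1 := by simpa using hquad
    have h12 : d ^ 12 = 1 + (d ^ 2 + 2 * d + 1) * (d ^ 10 - 2 * d ^ 9 + 3 * d ^ 8 - 4 * d ^ 7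
        + 5 * d ^ 6 - 6 * d ^ 5 + 7 * d ^ 4 - 8 * d ^ 3 + 9 * d ^ 2 - 10 * d + 11) + (-12) * (d + 1) := by
      ring
    have hd1 : (d + 1) ^ 2 = 0 := by linear_combination this
    have hd1' : d + 1 = 0 := by simpa using pow_eq_zero_iff (two_ne_zero) |>.mp hd1
    rw [h12, hd1']
    have : d ^ 2 + 2 * d + 1 = 0 := by linear_combination hd1
    rw [this]; ring
  · -- t = -1
    have : d ^ 2 = -d - 1 := by simpa using hquad
    have h3 : d ^ 3 = 1 := by linear_combination (d - 1) * this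
    calc d ^ 12 = (d ^ 3) ^ 4 := by ring
      _ = 1 := by rw [h3, one_pow]
  · -- t = 0
    have : d ^ 2 = -1 := by simpa using hquad
    calc d ^ 12 = (d ^ 2) ^ 6 := by ring
      _ = 1 := by rw [this]; ring
  · -- t = 1
    have : d ^ 2 = d - 1 := by simpa using hquad
    have h3 : d ^ 3 = -1 := by linear_combination (d + 1) * this
    calc d ^ 12 = (d ^ 3) ^ 4 := by ring
      _ = 1 := by rw [h3]; ring
  · -- t = 2
    have : d ^ 2 = 2 * d - 1 := by simpa using hquad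
    have hd1 : (d - 1) ^ 2 = 0 := by linear_combination this
    have hd1' : d - 1 = 0 := by simpa using pow_eq_zero_iff (two_ne_zero) |>.mp hd1
    have : d = 1 := by linear_combination hd1'
    rw [this, one_pow]

/-- `χ` kills every element of `Γ₀(p)` with `(tr γ)² ≤ 4` (elliptic, parabolic, `±1`), as soon as
`gcd(p - 1, 12) * n ∣ p - 1`. -/
theorem chi_eq_zero_of_trace (hn : n ∣ Nat.card (ZMod p)ˣ)
    (hn12 : Nat.gcd (Nat.card (ZMod p)ˣ) 12 * n ∣ Nat.card (ZMod p)ˣ) (γ : Gamma0 p)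
    (htr : ((γ : SL(2, ℤ)) : Matrix (Fin 2) (Fin 2) ℤ).trace ^ 2 ≤ 4) :
    chi p n hn (Additive.ofMul γ) = 0 := by
  rw [chi_apply]
  change L p n hn (dU p γ) = 0
  have h12 : dU p γ ^ 12 = 1 := dU_pow_twelve p γ htr
  have hcard : dU p γ ^ Nat.card (ZMod p)ˣ = 1 := pow_card_eq_one'
  have hg : dU p γ ^ Nat.gcd (Nat.card (ZMod p)ˣ) 12 = 1 := by
    rw [pow_gcd_eq_one]
    exact ⟨hcard, h12⟩
  have hk : Nat.gcd (Nat.card (ZMod p)ˣ) 12 ≠ 0 := by
    intro h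
    have := Nat.eq_zero_of_gcd_eq_zero_right h
    omega
  exact L_eq_zero_of_pow p n hn hk hn12 hg

theorem chi_isParabolicHom (hn : n ∣ Nat.card (ZMod p)ˣ)
    (hn12 : Nat.gcd (Nat.card (ZMod p)ˣ) 12 * n ∣ Nat.card (ZMod p)ˣ) :
    IsParabolicHom (Gamma0 p) (chi p n hn) := by
  intro γ hγ
  exact chi_eq_zero_of_trace p n hn hn12 γ (by rw [hγ])

end Vanishing

end Fermat.Agent.S16.H40
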