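import Mathlib
import Fermat.Agent.Betti.Defs
import Fermat.Agent.S16.Defs2
import Fermat.Agent.S16.H40_Chi

/-!
# S16, lower bound by the Shimura class (helper40): `Stmt_B4 p → Stmt_TorsLift p n → Stmt_LBalg p`

* `genB p A ℓ` : the Betti Hecke generator at `ℓ` on `Hom(Γ₀(p), A)` (`U_p` if `ℓ = p`, else `T_ℓ`).
* `BettiWord p A P Φ` : `Φ` is "the" action of the Hecke polynomial `P` on `Hom(Γ₀(p), A)`
  (an inductive relation: no commutativity of the `T_ℓ^B` on `Hom(Γ₀(p), A)` is needed).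
* `Stmt_B4 p` (package B4 of `NOTES/plan/Betti.md`, Eichler–Shimura + `Stmt_period_TB/UB`):
  a Hecke polynomial which kills `S₂(Γ₀(p))` kills the parabolic homomorphisms `Γ₀(p) → ℤ`.
* `Stmt_TorsLift p n` (package TORSLIFT): a homomorphism `Γ₀(p) → ℤ/n` which kills all elements
  of trace `0, ±1, ±2` lifts to a parabolic homomorphism `Γ₀(p) → ℤ`.
* `stmt_LBalg_of` : `Stmt_B4 p → Stmt_TorsLift p (eisensteinNumerator p) → Stmt_LBalg p`.
-/

set_option autoImplicit false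

namespace Fermat.Agent.S16

open CongruenceSubgroup Matrix.SpecialLinearGroup ModularCurve ModularCurve.Period
open Fermat.Agent.Betti
open scoped MatrixGroups

/-- The Betti Hecke generator at the prime `ℓ` on `Hom(Γ₀(p), A)`. -/
noncomputable def genB (p : ℕ) [NeZero p] (A : Type) [AddCommGroup A] (ℓ : Nat.Primes) :
    (Additive (Gamma0 p) →+ A) →+ (Additive (Gamma0 p) →+ A) :=
  if h : (ℓ : ℕ) ∣ p then UB p A h else TB p A ℓ.2 h

theorem genB_of_dvd (p : ℕ) [NeZero p] (A : Type) [AddCommGroup A] (ℓ : Nat.Primes)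
    (h : (ℓ : ℕ) ∣ p) : genB p A ℓ = UB p A h := dif_pos h

theorem genB_of_not_dvd (p : ℕ) [NeZero p] (A : Type) [AddCommGroup A] (ℓ : Nat.Primes)
    (h : ¬ (ℓ : ℕ) ∣ p) : genB p A ℓ = TB p A ℓ.2 h := dif_neg h

/-- `BettiWord p A P Φ`: the endomorphism `Φ` of `Hom(Γ₀(p), A)` is obtained from the Hecke
polynomial `P` by substituting the Betti Hecke operators for the variables. -/
inductive BettiWord (p : ℕ) [NeZero p] (A : Type) [AddCommGroup A] :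
    HeckeAlg → ((Additive (Gamma0 p) →+ A) →+ (Additive (Gamma0 p) →+ A)) → Prop
  | const (a : ℤ) : BettiWord p A (MvPolynomial.C a) (a • AddMonoidHom.id _)
  | gen (ℓ : Nat.Primes) : BettiWord p A (MvPolynomial.X ℓ) (genB p A ℓ)
  | add {P Q : HeckeAlg} {Φ Ψ : (Additive (Gamma0 p) →+ A) →+ (Additive (Gamma0 p) →+ A)} :
      BettiWord p A P Φ → BettiWord p A Q Ψ → BettiWord p A (P + Q) (Φ + Ψ)
  | mul {P Q : HeckeAlg} {Φ Ψ : (Additive (Gamma0 p) →+ A) →+ (Additive (Gamma0 p) →+ A)} :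
      BettiWord p A P Φ → BettiWord p A Q Ψ → BettiWord p A (P * Q) (Φ.comp Ψ)

/-- Every Hecke polynomial has a Betti word. -/
theorem exists_bettiWord (p : ℕ) [NeZero p] (A : Type) [AddCommGroup A] (P : HeckeAlg) :
    ∃ Φ, BettiWord p A P Φ := by
  induction P using MvPolynomial.induction_on with
  | C a => exact ⟨_, BettiWord.const a⟩
  | add P Q hP hQ =>
    obtain ⟨Φ, hΦ⟩ := hP
    obtain ⟨Ψ, hΨ⟩ := hQ
    exact ⟨_, BettiWord.add hΦ hΨ⟩
  | mul_X P ℓ hP =>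
    obtain ⟨Φ, hΦ⟩ := hP
    exact ⟨_, BettiWord.mul hΦ (BettiWord.gen ℓ)⟩

/-- **B4** (Eichler–Shimura, integral Betti form): a Hecke polynomial which acts by zero on
`S₂(Γ₀(p))` acts by zero on the parabolic homomorphisms `Γ₀(p) → ℤ`. -/
def Stmt_B4 (p : ℕ) [NeZero p] : Prop :=
  ∀ (P : HeckeAlg) (Φ : (Additive (Gamma0 p) →+ ℤ) →+ (Additive (Gamma0 p) →+ ℤ)),
    BettiWord p ℤ P Φ → CuspForm.heckeEvalForms p 2 P = 0 →
    ∀ φ : Additive (Gamma0 p) →+ ℤ, IsParabolicHom (Gamma0 p) φ → Φ φ = 0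

/-- **TORSLIFT**: a homomorphism `Γ₀(p) → ℤ/n` killing all elements of trace `0, ±1, ±2`
(elliptic, parabolic, `±1`) is the reduction of a parabolic homomorphism `Γ₀(p) → ℤ`. -/
def Stmt_TorsLift (p n : ℕ) : Prop :=
  ∀ χ : Additive (Gamma0 p) →+ ZMod n,
    (∀ γ : Gamma0 p, ((γ : SL(2, ℤ)) : Matrix (Fin 2) (Fin 2) ℤ).trace ^ 2 ≤ 4 →
      χ (Additive.ofMul γ) = 0) →
    ∃ φ : Additive (Gamma0 p) →+ ℤ, IsParabolicHom (Gamma0 p) φ ∧
      ∀ γ : Gamma0 p, ((φ (Additive.ofMul γ) : ℤ) : ZMod n) = χ (Additive.ofMul γ)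

namespace H40

variable (p : ℕ) [Fact p.Prime]

/-- `U_ℓ^B χ = χ` for the prime `ℓ ∣ p` (i.e. `ℓ = p`). -/
theorem UB_chi' (n : ℕ) (hn : n ∣ Nat.card (ZMod p)ˣ) {ℓ : ℕ} (hℓ : ℓ.Prime) (h : ℓ ∣ p) :
    haveI : NeZero p := ⟨(Fact.out : p.Prime).ne_zero⟩
    UB p (ZMod n) h (chi p n hn) = chi p n hn := by
  obtain rfl : ℓ = p := (Nat.prime_dvd_prime_iff_eq hℓ Fact.out).mp h
  exact UB_chi ℓ n hn

/-- The generators act on `χ` through the Eisenstein system. -/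
theorem genB_chi (n : ℕ) (hn : n ∣ Nat.card (ZMod p)ˣ) (ℓ : Nat.Primes) :
    haveI : NeZero p := ⟨(Fact.out : p.Prime).ne_zero⟩
    genB p (ZMod n) ℓ (chi p n hn) = (eisensteinSystem p ℓ) • chi p n hn := by
  have : NeZero p := ⟨(Fact.out : p.Prime).ne_zero⟩
  by_cases h : (ℓ : ℕ) ∣ p
  · rw [genB_of_dvd _ _ _ h, eisensteinSystem_of_dvd h, one_smul]
    exact UB_chi' p n hn ℓ.2 h
  · rw [genB_of_not_dvd _ _ _ h, eisensteinSystem_of_not_dvd h]
    rw [TB_chi p n hn ℓ.2 h]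
    rw [← natCast_zsmul]
    congr 1
    push_cast
    ring

/-- A Betti word acts on `χ` by the Eisenstein value of the polynomial. -/
theorem bettiWord_chi (n : ℕ) (hn : n ∣ Nat.card (ZMod p)ˣ) :
    haveI : NeZero p := ⟨(Fact.out : p.Prime).ne_zero⟩
    ∀ (P : HeckeAlg) (Φ : (Additive (Gamma0 p) →+ ZMod n) →+ (Additive (Gamma0 p) →+ ZMod n)),
      BettiWord p (ZMod n) P Φ →
      Φ (chi p n hn) = (MvPolynomial.aeval (eisensteinSystem p) P : ℤ) • chi p n hn := by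
  have : NeZero p := ⟨(Fact.out : p.Prime).ne_zero⟩
  intro P Φ h
  induction h with
  | const a => simp
  | gen ℓ => rw [genB_chi p n hn ℓ, MvPolynomial.aeval_X]
  | add _ _ ih1 ih2 => rw [AddMonoidHom.add_apply, ih1, ih2, map_add, add_smul]
  | mul _ _ ih1 ih2 =>
    rw [AddMonoidHom.comp_apply, ih2, map_zsmul, ih1, map_mul, smul_smul, mul_comm]

/-- Reduction of the coefficients `ℤ → ℤ/n`. -/
noncomputable def red (n : ℕ) (φ : Additive (Gamma0 p) →+ ℤ) : Additive (Gamma0 p) →+ ZMod n :=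
  (Int.castAddHom (ZMod n)).comp φ

theorem genB_red (n : ℕ) (ℓ : Nat.Primes) (φ : Additive (Gamma0 p) →+ ℤ) :
    haveI : NeZero p := ⟨(Fact.out : p.Prime).ne_zero⟩
    red p n (genB p ℤ ℓ φ) = genB p (ZMod n) ℓ (red p n φ) := by
  have : NeZero p := ⟨(Fact.out : p.Prime).ne_zero⟩
  by_cases h : (ℓ : ℕ) ∣ p
  · rw [genB_of_dvd _ _ _ h, genB_of_dvd _ _ _ h, UB_apply, UB_apply]
    haveI : NeZero (ℓ : ℕ) := neZero_of_dvd h
    exact ((isHeckeFamily_U p h).heckeOp_comp (incl_injective p) _ φ).symm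
  · rw [genB_of_not_dvd _ _ _ h, genB_of_not_dvd _ _ _ h, TB_apply, TB_apply]
    haveI : Fact (ℓ : ℕ).Prime := ⟨ℓ.2⟩
    exact ((isHeckeFamily_T p h).heckeOp_comp (incl_injective p) _ φ).symm

/-- A word over `ℤ` reduces to a word over `ℤ/n` for the same polynomial. -/
theorem bettiWord_red (n : ℕ) :
    haveI : NeZero p := ⟨(Fact.out : p.Prime).ne_zero⟩
    ∀ (P : HeckeAlg) (Φ : (Additive (Gamma0 p) →+ ℤ) →+ (Additive (Gamma0 p) →+ ℤ)),
      BettiWord p ℤ P Φ →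
      ∃ Φ' : (Additive (Gamma0 p) →+ ZMod n) →+ (Additive (Gamma0 p) →+ ZMod n),
        BettiWord p (ZMod n) P Φ' ∧ ∀ φ, red p n (Φ φ) = Φ' (red p n φ) := by
  have : NeZero p := ⟨(Fact.out : p.Prime).ne_zero⟩
  intro P Φ h
  induction h with
  | const a =>
    refine ⟨_, BettiWord.const a, fun φ => ?_⟩
    refine AddMonoidHom.ext fun γ => ?_
    simp [red]
  | gen ℓ => exact ⟨_, BettiWord.gen ℓ, fun φ => genB_red p n ℓ φ⟩
  | add _ _ ih1 ih2 =>
    obtain ⟨Φ1, h1, e1⟩ := ih1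
    obtain ⟨Φ2, h2, e2⟩ := ih2
    refine ⟨_, BettiWord.add h1 h2, fun φ => ?_⟩
    rw [AddMonoidHom.add_apply, AddMonoidHom.add_apply, ← e1, ← e2]
    refine AddMonoidHom.ext fun γ => ?_
    simp [red]
  | mul _ _ ih1 ih2 =>
    obtain ⟨Φ1, h1, e1⟩ := ih1
    obtain ⟨Φ2, h2, e2⟩ := ih2
    refine ⟨_, BettiWord.mul h1 h2, fun φ => ?_⟩
    rw [AddMonoidHom.comp_apply, AddMonoidHom.comp_apply, e1, e2]

/-- **Lower bound from the Shimura class.** -/
theorem stmt_LBalg_of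
    (hB4 : haveI : NeZero p := ⟨(Fact.out : p.Prime).ne_zero⟩; Stmt_B4 p)
    (hTL : Stmt_TorsLift p (eisensteinNumerator p)) :
    haveI : NeZero p := ⟨(Fact.out : p.Prime).ne_zero⟩
    Stmt_LBalg p := by
  have : NeZero p := ⟨(Fact.out : p.Prime).ne_zero⟩
  set n := eisensteinNumerator p with hndef
  have hcard : Nat.card (ZMod p)ˣ = p - 1 := by
    rw [Nat.card_eq_fintype_card, ZMod.card_units]
  have hn : n ∣ Nat.card (ZMod p)ˣ := by rw [hcard]; exact eisensteinNumerator_dvd p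
  have hn12 : Nat.gcd (Nat.card (ZMod p)ˣ) 12 * n ∣ Nat.card (ZMod p)ˣ := by
    rw [hcard, hndef, eisensteinNumerator, Nat.mul_div_cancel' (Nat.gcd_dvd_left _ _)]
  intro P hP
  obtain ⟨Φ, hΦ⟩ := exists_bettiWord p ℤ P
  obtain ⟨φ, hφpar, hφ⟩ := hTL (chi p n hn) (chi_eq_zero_of_trace p n hn hn12)
  have hred : red p n φ = chi p n hn := by
    refine AddMonoidHom.ext fun γ' => ?_
    obtain ⟨γ, rfl⟩ : ∃ γ : Gamma0 p, Additive.ofMul γ = γ' := ⟨Additive.toMul γ', rfl⟩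
    exact hφ γ
  have h0 : Φ φ = 0 := hB4 P Φ hΦ hP φ hφpar
  obtain ⟨Φ', hΦ', hcomm⟩ := bettiWord_red p n P Φ hΦ
  have h1 := hcomm φ
  rw [h0, hred, bettiWord_chi p n hn P Φ' hΦ'] at h1
  -- evaluate at an element where χ = 1
  obtain ⟨γ, hγ⟩ := chi_surjective p n hn 1
  have h2 := congrArg (fun ψ : Additive (Gamma0 p) →+ ZMod n => ψ γ) h1
  simp only [red, AddMonoidHom.comp_apply, AddMonoidHom.zero_apply, map_zero,
    AddMonoidHom.smul_apply, hγ, zsmul_eq_mul, mul_one] at h2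
  exact (ZMod.intCast_zmod_eq_zero_iff_dvd _ _).mp h2.symm

end H40

end Fermat.Agent.S16
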