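import Mathlib.RingTheory.Valuation.ValuationSubring
import Mathlib.RingTheory.PowerSeries.Basic
import Mathlib.Tactic.LinearCombination
import Mathlib.Tactic.Ring
import Mathlib.Tactic.FieldSimp
import Mathlib.Algebra.CharZero.Defs

/-!
# S16, upper bound at `ℓ = 2`, `p ≡ 7 mod 8`: the algebra of the `ρ`-evaluation proof
(helper15; the proof is due to helper55)

`G = m + 8 h` (`m` odd) of weight `2` on `Γ₀(p)`, `G ∣ W = -(m + 8 h')`.  Put
`F₄ = (G² - m² E₄) / 16` and `F₆ = (3 m² G E₄ - 2 m³ E₆ - G³) / 32`.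

* `step1_F4_infty`, `step1_F6_infty`, `step1_F4_zero`, `step1_F6_zero`: the expansions of `F₄`,
  `F₆` at both cusps are integral (identities in a commutative ring, e.g. `ℤ⟦q⟧`).
* `rho_contra`: Step 3. In a valuation subring `A` of a field of characteristic zero with `2` a
  non-unit, the two values `x₄ = F₄(ρ)³ / Δ(ρ)`, `x₆ = F₆(ρ)² / Δ(ρ)` cannot both lie in `A`.
-/

set_option autoImplicit false

namespace Fermat.Agent.S16.H15

/-! ## Step 1: integrality of the expansions (ring identities) -/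

section Step1

variable {R : Type*} [CommRing R]

/-- `G² - m² E₄ = 16 (m h + 4 h² - 15 m² S₃)` for `G = m + 8 h`, `E₄ = 1 + 240 S₃`. -/
theorem step1_F4_infty (m h S3 : R) :
    (m + 8 * h) ^ 2 - m ^ 2 * (1 + 240 * S3) = 16 * (m * h + 4 * h ^ 2 - 15 * m ^ 2 * S3) := by
  ring

/-- `3 m² G E₄ - 2 m³ E₆ - G³` is divisible by `32` when `S₃ + S₅ = 2 T`. -/
theorem step1_F6_infty (m h S3 S5 T : R) (hT : S3 + S5 = 2 * T) :
    3 * m ^ 2 * (m + 8 * h) * (1 + 240 * S3) - 2 * m ^ 3 * (1 - 504 * S5) - (m + 8 * h) ^ 3 =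
      32 * (m ^ 3 * T + 22 * m ^ 3 * S3 + 31 * m ^ 3 * S5 + 180 * m ^ 2 * h * S3
        - 6 * m * h ^ 2 - 16 * h ^ 3) := by
  linear_combination (16 * m ^ 3) * hT

/-- At the cusp `0`: `(G ∣ W)² - m² (E₄ ∣ W)` with `G ∣ W = -(m + 8 h')`,
`E₄ ∣ W = p² (1 + 240 S₃')`, `p = 8 k - 1`. -/
theorem step1_F4_zero (m h' S3' k : R) :
    (-(m + 8 * h')) ^ 2 - m ^ 2 * ((8 * k - 1) ^ 2 * (1 + 240 * S3')) =
      16 * (m ^ 2 * (k - 4 * k ^ 2) + m * h' + 4 * h' ^ 2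
        - 15 * m ^ 2 * (8 * k - 1) ^ 2 * S3') := by
  ring

/-- At the cusp `0`: `3 m² (G ∣ W) (E₄ ∣ W) - 2 m³ (E₆ ∣ W) - (G ∣ W)³` with
`G ∣ W = -(m + 8 h')`, `E₄ ∣ W = p² (1 + 240 S₃')`, `E₆ ∣ W = p³ (1 - 504 S₅')`, `p = 8 k - 1`,
is divisible by `32` when `S₃' + S₅' = 2 T'`. -/
theorem step1_F6_zero (m h' S3' S5' T' k : R) (hT : S3' + S5' = 2 * T') :
    3 * m ^ 2 * (-(m + 8 * h')) * ((8 * k - 1) ^ 2 * (1 + 240 * S3'))
        - 2 * m ^ 3 * ((8 * k - 1) ^ 3 * (1 - 504 * S5')) - (-(m + 8 * h')) ^ 3 =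
      32 * (2 * m ^ 3 * k ^ 2 * (3 - 16 * k)
        + 12 * m ^ 2 * (k - 4 * k ^ 2) * h'
        + 6 * m * h' ^ 2 + 16 * h' ^ 3
        - 180 * m ^ 2 * (8 * k - 1) ^ 2 * h' * S3'
        - m ^ 3 * (8 * k - 1) ^ 2 * T'
        - 22 * m ^ 3 * (8 * k - 1) ^ 2 * S3'
        + m ^ 3 * (8 * k - 1) ^ 2 * S5'
        + 252 * m ^ 3 * (8 * k - 1) ^ 2 * k * S5'
        - 32 * m ^ 3 * (8 * k - 1) ^ 2 * S5') := by
  linear_combination (-(16 * m ^ 3 * (8 * k - 1) ^ 2)) * hT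

end Step1

/-! ## Step 3: the contradiction at `ρ` -/

section Step3

variable {K : Type*} [Field K]

/-- An odd integer is a unit in a valuation subring in which `2` is not a unit. -/
theorem valuation_odd_eq_one (A : ValuationSubring K) (h2 : A.valuation (2 : K) < 1)
    {n : ℤ} (hn : Odd n) : A.valuation (n : K) = 1 := by
  obtain ⟨r, rfl⟩ := hn
  have hr : A.valuation ((r : ℤ) : K) ≤ 1 := by
    rw [ValuationSubring.valuation_le_one_iff]; exact intCast_mem A r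
  have h1 : A.valuation ((2 : K) * (r : K)) < 1 := by
    rw [map_mul]; exact mul_lt_one_of_lt_of_le h2 hr
  have h3 : A.valuation ((2 : K) * (r : K)) < A.valuation (1 : K) := by rwa [map_one]
  have := Valuation.map_add_eq_of_lt_left (A.valuation) h3
  push_cast
  rw [add_comm, this, map_one]

/-- **Step 3** (division free form). -/
theorem rho_contra' [CharZero K] (A : ValuationSubring K) (h2 : A.valuation (2 : K) < 1)
    (m : ℤ) (hm : Odd m) (g e d x4 x6 : K) (hd : d ≠ 0) (he : e ^ 2 = -1728 * d)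
    (hx4 : x4 ∈ A) (hx6 : x6 ∈ A)
    (h4 : 2 ^ 12 * (x4 * d) = g ^ 6)
    (h6 : 2 ^ 10 * (x6 * d) = (2 * (m : K) ^ 3 * e + g ^ 3) ^ 2) : False := by
  have h2ne : (2 : K) ≠ 0 := two_ne_zero
  set v := A.valuation with hv
  -- the auxiliary element `y`
  obtain ⟨y, hy⟩ : ∃ y : K, y = (m : K) ^ 3 * e * g ^ 3 / (2 ^ 9 * d) := ⟨_, rfl⟩
  have hy2 : y ^ 2 = -27 * (m : K) ^ 6 * x4 := by
    rw [hy, div_pow]
    rw [div_eq_iff (pow_ne_zero 2 (mul_ne_zero (pow_ne_zero 9 h2ne) hd))]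
    have : ((m : K) ^ 3 * e * g ^ 3) ^ 2 = (m : K) ^ 6 * e ^ 2 * g ^ 6 := by ring
    rw [this, he, ← h4]
    ring
  have hm1 : v ((m : K)) = 1 := valuation_odd_eq_one A h2 hm
  have h27 : v ((27 : K)) = 1 := by
    have := valuation_odd_eq_one A h2 (n := 27) (by decide)
    simpa using this
  have hvx4 : v x4 ≤ 1 := (ValuationSubring.valuation_le_one_iff A _).mpr hx4
  have hvx6 : v x6 ≤ 1 := (ValuationSubring.valuation_le_one_iff A _).mpr hx6
  have hvy : v y ≤ 1 := by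
    have h : v y ^ 2 ≤ 1 := by
      rw [← map_pow, hy2, map_mul, map_mul, Valuation.map_neg, h27, map_pow, hm1]
      simpa using hvx4
    by_contra hcon
    rw [not_le] at hcon
    have : 1 < v y ^ 2 := one_lt_pow₀ hcon (by norm_num)
    exact absurd h (not_le.mpr this)
  -- the relation `27 m⁶ = 2 (4 y + 8 x₄ - 2 x₆)`
  have hrel : (27 : K) * (m : K) ^ 6 = 2 * (4 * y + 8 * x4 - 2 * x6) := by
    have hyd : y * (2 ^ 9 * d) = (m : K) ^ 3 * e * g ^ 3 := by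
      rw [hy, div_mul_cancel₀ _ (mul_ne_zero (pow_ne_zero 9 h2ne) hd)]
    have h256 : ((2 : K) ^ 8 * d) ≠ 0 := mul_ne_zero (pow_ne_zero 8 h2ne) hd
    apply mul_right_cancel₀ h256
    linear_combination (4 * (m : K) ^ 6) * he - 4 * hyd - h4 + h6
  have hlhs : v ((27 : K) * (m : K) ^ 6) = 1 := by
    rw [map_mul, map_pow, h27, hm1]; simp
  have hrhs : v (2 * (4 * y + 8 * x4 - 2 * x6)) < 1 := by
    rw [map_mul]
    refine mul_lt_one_of_lt_of_le h2 ?_
    rw [ValuationSubring.valuation_le_one_iff]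
    have hyA : y ∈ A := (ValuationSubring.valuation_le_one_iff A _).mp hvy
    have h4A : (4 : K) ∈ A := by simp
    have h8A : (8 : K) ∈ A := by simp
    have h2A : (2 : K) ∈ A := by simp
    exact sub_mem (A.add_mem _ _ (A.mul_mem _ _ h4A hyA) (A.mul_mem _ _ h8A hx4))
      (A.mul_mem _ _ h2A hx6)
  rw [hrel] at hlhs
  exact absurd hlhs (ne_of_lt hrhs)

/-- **Step 3.** With `e = E₆(ρ)`, `d = Δ(ρ)`, `g = G(ρ)` (so `e² = -1728 d` because `E₄(ρ) = 0`),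
the values `x₄ = F₄(ρ)³/Δ(ρ)` and `x₆ = F₆(ρ)²/Δ(ρ)`, where `F₄(ρ) = g²/16` and
`F₆(ρ) = -(2 m³ e + g³)/32`, cannot both lie in a valuation subring in which `2` is not a unit. -/
theorem rho_contra [CharZero K] (A : ValuationSubring K) (h2 : A.valuation (2 : K) < 1)
    (m : ℤ) (hm : Odd m) (g e d : K) (hd : d ≠ 0) (he : e ^ 2 = -1728 * d)
    (hx4 : (g ^ 2 / 16) ^ 3 / d ∈ A)
    (hx6 : (-(2 * (m : K) ^ 3 * e + g ^ 3) / 32) ^ 2 / d ∈ A) : False := by
  refine rho_contra' A h2 m hm g e d _ _ hd he hx4 hx6 ?_ ?_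
  · field_simp
    ring
  · field_simp
    ring

end Step3

end Fermat.Agent.S16.H15
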