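import Fermat.Agent.S20.H74_Equiv
import Fermat.Agent.S23.H22_Nice
import Mathlib.RingTheory.PowerSeries.Expand
import Mathlib.NumberTheory.ModularForms.CongruenceSubgroups

/-!
# S16, package CONJ: interface (helper79)

Setting: `p` prime, `G ∈ MF (Gamma0 p) k` (function-level modular forms of S20/H74:
holomorphic, `Γ₀(p)`-invariant, all `SL(2, ℤ)`-translates bounded at `i∞`; use
`Fermat.Agent.S20.H74.coe_mem_MF` to get there from `ModularForm (Gamma0 p) k`).

* `conjFam p k G : Option (Fin p) → ℍ → ℂ` : the `p + 1` conjugates `G` (at `none`) and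
  `G ∣[k] (S * T ^ j)` (at `some j`).
* `sExp p k G := qExpansion p (G ∣[k] S)` : the expansion of the conjugate at the cusp `0` in
  the parameter `t = exp (2 π i z / p)`.
* `expFam p hp k G : Option (Fin p) → ℂ⟦t⟧` : the `t`-expansions of the conjugates:
  `expand p (qExpansion 1 G)` (i.e. `q = t ^ p`) and `rescale (ζ ^ j) (sExp p k G)`, `ζ = zetaP p`.

Statements (all for `p` prime):
* `Stmt_conjExp p`     : every conjugate is `Nice p` and its `t`-expansion is `expFam`.
* `Stmt_symLevelOne p` : the coefficients of `∏_c (X + G_c)` are level one forms of weight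
  `k * (p + 1 - m)`, with the formal `t`-expansion.
* `Stmt_norm p`, `Stmt_trace p` : the special cases `m = 0`, `m = p`.
* `Stmt_T0 p` (helper15) : in weight 2, `sExp p 2 G = -(1/p) U_p (qExpansion 1 G)`.
-/

set_option autoImplicit false

open UpperHalfPlane ModularForm CongruenceSubgroup Polynomial
open scoped MatrixGroups ModularForm Manifold

noncomputable section

namespace Fermat.Agent.S16.H79

open Fermat.Agent.S20.H74 (MF)
open Fermat.Agent.S23.H22 (Nice)

/-- `ζ_p = exp (2 π i / p)`. -/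
def zetaP (p : ℕ) : ℂ := Complex.exp (2 * Real.pi * Complex.I / p)

/-- The `p + 1` conjugates of `G`: `G` itself and `G ∣[k] (S T^j)`, `0 ≤ j < p`. -/
def conjFam (p : ℕ) (k : ℤ) (G : ℍ → ℂ) : Option (Fin p) → ℍ → ℂ
  | none => G
  | some j => G ∣[k] (ModularGroup.S * ModularGroup.T ^ (j : ℕ))

/-- The expansion of `G ∣[k] S` in `t = exp (2 π i z / p)`. -/
def sExp (p : ℕ) (k : ℤ) (G : ℍ → ℂ) : PowerSeries ℂ :=
  qExpansion (p : ℝ) (G ∣[k] ModularGroup.S)

/-- The `t`-expansions of the `p + 1` conjugates. -/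
def expFam (p : ℕ) (hp : p ≠ 0) (k : ℤ) (G : ℍ → ℂ) : Option (Fin p) → PowerSeries ℂ
  | none => PowerSeries.expand p hp (qExpansion 1 G)
  | some j => PowerSeries.rescale (zetaP p ^ (j : ℕ)) (sExp p k G)

/-- CONJ-1: the conjugates are holomorphic, `p`-periodic, bounded at `i∞`, and their
`t`-expansions are given by `expFam`. -/
def Stmt_conjExp (p : ℕ) : Prop :=
  ∀ (hp : p.Prime) (k : ℤ) (G : ℍ → ℂ), G ∈ MF (Gamma0 p) k → ∀ c : Option (Fin p),
    Nice (p : ℝ) (conjFam p k G c) ∧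
      qExpansion (p : ℝ) (conjFam p k G c) = expFam p hp.ne_zero k G c

/-- CONJ-2: the coefficient of `X ^ m` in `∏_c (X + G_c)` (the elementary symmetric function
of degree `p + 1 - m` of the conjugates) is a level one modular form of weight
`k * (p + 1 - m)`, and its `q`-expansion is the formal symmetric function of the
`t`-expansions. -/
def Stmt_symLevelOne (p : ℕ) : Prop :=
  ∀ (hp : p.Prime) (k : ℤ) (G : ℍ → ℂ), G ∈ MF (Gamma0 p) k → ∀ m : ℕ,
    ∃ E : ModularForm 𝒮ℒ (k * ((p : ℤ) + 1 - m)),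
      (∀ z, E z = (∏ c : Option (Fin p), (X + C (conjFam p k G c z))).coeff m) ∧
      PowerSeries.expand p hp.ne_zero (qExpansion 1 E) =
        (∏ c : Option (Fin p), (X + C (expFam p hp.ne_zero k G c))).coeff m

/-- The norm to level one. -/
def Stmt_norm (p : ℕ) : Prop :=
  ∀ (hp : p.Prime) (k : ℤ) (G : ℍ → ℂ), G ∈ MF (Gamma0 p) k →
    ∃ E : ModularForm 𝒮ℒ (k * ((p : ℤ) + 1)),
      (∀ z, E z = ∏ c : Option (Fin p), conjFam p k G c z) ∧
      PowerSeries.expand p hp.ne_zero (qExpansion 1 E) =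
        ∏ c : Option (Fin p), expFam p hp.ne_zero k G c

/-- The trace to level one. -/
def Stmt_trace (p : ℕ) : Prop :=
  ∀ (hp : p.Prime) (k : ℤ) (G : ℍ → ℂ), G ∈ MF (Gamma0 p) k →
    ∃ E : ModularForm 𝒮ℒ k,
      (∀ z, E z = ∑ c : Option (Fin p), conjFam p k G c z) ∧
      PowerSeries.expand p hp.ne_zero (qExpansion 1 E) =
        ∑ c : Option (Fin p), expFam p hp.ne_zero k G c

/-- (T0) In weight 2 the expansion at the cusp `0` is `-(1/p) U_p` of the expansion at `∞`:
`(G ∣[2] S)(z) = -(1/p) ∑ a_{pn} exp (2 π i n z / p)`. -/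
def Stmt_T0 (p : ℕ) : Prop :=
  p.Prime → ∀ G : ℍ → ℂ, G ∈ MF (Gamma0 p) 2 → ∀ n : ℕ,
    (sExp p 2 G).coeff n = -(p : ℂ)⁻¹ * (qExpansion 1 G).coeff (p * n)

end Fermat.Agent.S16.H79
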