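import Fermat.Agent.S20.H74_Equiv
import Fermat.Agent.S23.H22_Nice
import Fermat.Prelude.Thm_UpperHalfPlane_qExpansion_coeff_nat_mul
import Mathlib.RingTheory.PowerSeries.Expand
import Mathlib.NumberTheory.ModularForms.CongruenceSubgroups

/-!
# S16, package CE (helper45): ring properties of the expansion at the cusp `0`

For `F ∈ MF (Gamma0 N) k` (function level modular forms of S20/H74; use `H74.coe_mem_MF rfl F`
for `F : ModularForm (Gamma0 N) k`) the conjugate `F ∣[k] S` is `N`-periodic, holomorphic and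
bounded at `i∞` (`Nice N`), and

`cuspExp N k F := qExpansion N (F ∣[k] S)`

(the expansion at the cusp `0` in the parameter `t = exp (2 π i z / N)`; the same term as
`H79.sExp`) is additive, multiplicative and `ℂ`-linear in `F`. For a level one form `E` it is
`expand N (qExpansion 1 E)`. The expansion at `∞` has the same ring properties
(`qExp_add`, `qExp_mul`, ...).

Main statements (namespace `Fermat.Agent.S16.H45`):
* `nice_slash_S`, `nice_one` : `Nice N (F ∣[k] S)`, `Nice 1 F`.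
* `cuspExp_add`, `cuspExp_sub`, `cuspExp_neg`, `cuspExp_smul`, `cuspExp_mul`, `cuspExp_pow`.
* `cuspExp_levelOne` : `cuspExp N k E = expand N (qExpansion 1 E)` for `E ∈ MF ⊤ k`.
* `qExpansion_nat_eq_expand` : `qExpansion N G = expand N (qExpansion 1 G)` for `Nice 1 G`.
* `MF_mul`, `MF_pow`, `MF_levelOne` : products of forms on the same group.
-/

set_option autoImplicit false

open UpperHalfPlane ModularForm CongruenceSubgroup Function
open scoped MatrixGroups ModularForm Manifold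

noncomputable section

namespace Fermat.Agent.S16.H45

open Fermat.Agent.S20.H74 (MF)
open Fermat.Agent.S23.H22 (Nice)

/-- The expansion of `F ∣[k] S` in `t = exp (2 π i z / N)` (same as `H79.sExp`). -/
def cuspExp (N : ℕ) (k : ℤ) (F : ℍ → ℂ) : PowerSeries ℂ :=
  qExpansion (N : ℝ) (F ∣[k] ModularGroup.S)

/-- The lower unipotent matrix `[1, 0; -n, 1]`. -/
def lowerUni (n : ℤ) : SL(2, ℤ) := ⟨!![1, 0; -n, 1], by simp [Matrix.det_fin_two]⟩

theorem coe_lowerUni (n : ℤ) : (lowerUni n).1 = !![1, 0; -n, 1] := rfl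

theorem lowerUni_mul_S (n : ℤ) :
    lowerUni n * ModularGroup.S = ModularGroup.S * ModularGroup.T ^ n := by
  apply Subtype.ext
  rw [Matrix.SpecialLinearGroup.coe_mul, Matrix.SpecialLinearGroup.coe_mul,
    ModularGroup.coe_T_zpow, ModularGroup.coe_S, coe_lowerUni]
  ext i j
  fin_cases i <;> fin_cases j <;> simp [Matrix.mul_apply, Fin.sum_univ_two]

theorem lowerUni_mem (N : ℕ) (n : ℤ) (h : (N : ℤ) ∣ n) : lowerUni n ∈ Gamma0 N := by
  rw [Gamma0_mem]
  show (((lowerUni n).1 1 0 : ℤ) : ZMod N) = 0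
  rw [coe_lowerUni]
  simpa [ZMod.intCast_zmod_eq_zero_iff_dvd] using h

variable {k l : ℤ} {Γ : Subgroup SL(2, ℤ)}

theorem slash_S_slash_T_zpow (N : ℕ) {F : ℍ → ℂ} (hF : F ∈ MF (Gamma0 N) k) (n : ℤ)
    (h : (N : ℤ) ∣ n) :
    (F ∣[k] ModularGroup.S) ∣[k] (ModularGroup.T ^ n) = F ∣[k] ModularGroup.S := by
  rw [← SlashAction.slash_mul, ← lowerUni_mul_S, SlashAction.slash_mul,
    hF.2.1 _ (lowerUni_mem N n h)]

theorem slash_T_zpow_apply (G : ℍ → ℂ) (n : ℤ) (z : ℍ) :
    (G ∣[k] (ModularGroup.T ^ n)) z = G ((n : ℝ) +ᵥ z) := by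
  rw [SL_slash_apply, modular_T_zpow_smul]
  have : denom (ModularGroup.T ^ n : SL(2, ℤ)) z = 1 := by
    show ((((ModularGroup.T ^ n : SL(2, ℤ)).1 1 0 : ℤ) : ℝ) : ℂ) * z
      + ((((ModularGroup.T ^ n : SL(2, ℤ)).1 1 1 : ℤ) : ℝ) : ℂ) = 1
    rw [ModularGroup.coe_T_zpow]
    simp
  rw [this]
  simp

/-- A function on `ℍ` which is invariant under `z ↦ z + n` is `n`-periodic after composition with
`ofComplex`. -/
theorem periodic_of_vadd (G : ℍ → ℂ) (n : ℤ) (hG : ∀ z : ℍ, G ((n : ℝ) +ᵥ z) = G z) :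
    Periodic (G ∘ ofComplex) (n : ℝ) := by
  intro w
  by_cases hw : 0 < w.im
  · have hw' : 0 < (w + ((n : ℝ) : ℂ)).im := by simpa using hw
    simp only [comp_apply, ofComplex_apply_of_im_pos hw', ofComplex_apply_of_im_pos hw]
    rw [← hG ⟨w, hw⟩]
    congr 1
    ext
    simp [add_comm]
  · have hw0 : w.im ≤ 0 := not_lt.mp hw
    have hw' : (w + ((n : ℝ) : ℂ)).im ≤ 0 := by simpa using hw0
    simp only [comp_apply, ofComplex_apply_of_im_nonpos hw', ofComplex_apply_of_im_nonpos hw0]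

/-- **CE-1**: for `F` on `Γ₀(N)` the conjugate `F ∣[k] S` is `N`-periodic, holomorphic and bounded
at `i∞`. -/
theorem nice_slash_S (N : ℕ) {F : ℍ → ℂ} (hF : F ∈ MF (Gamma0 N) k) :
    Nice (N : ℝ) (F ∣[k] ModularGroup.S) where
  per := by
    have := periodic_of_vadd (F ∣[k] ModularGroup.S) (N : ℤ) (fun z => by
      rw [← slash_T_zpow_apply (k := k) (F ∣[k] ModularGroup.S) (N : ℤ) z,
        slash_S_slash_T_zpow N hF (N : ℤ) dvd_rfl])
    simpa using this
  hol := Fermat.Agent.S20.H74.mdiff_slash hF.1 _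
  bdd := hF.2.2 _

/-- Forms on a group containing `T` are `1`-periodic, holomorphic and bounded at `i∞`. -/
theorem nice_one_of_T_mem {F : ℍ → ℂ} (hF : F ∈ MF Γ k) (hT : ModularGroup.T ∈ Γ) :
    Nice (1 : ℝ) F where
  per := by
    have := periodic_of_vadd F 1 (fun z => by
      rw [← slash_T_zpow_apply (k := k) F 1 z, zpow_one, hF.2.1 _ hT])
    simpa using this
  hol := hF.1
  bdd := Fermat.Agent.S20.H74.MF.bdd hF

theorem T_mem_Gamma0 (N : ℕ) : ModularGroup.T ∈ Gamma0 N := by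
  rw [Gamma0_mem]
  simp [ModularGroup.coe_T]

/-- Forms on `Γ₀(N)` are `1`-periodic, holomorphic and bounded at `i∞`. -/
theorem nice_one (N : ℕ) {F : ℍ → ℂ} (hF : F ∈ MF (Gamma0 N) k) : Nice (1 : ℝ) F :=
  nice_one_of_T_mem hF (T_mem_Gamma0 N)

/-! ### Products of forms on the same group -/

theorem MF_mul {F G : ℍ → ℂ} (hF : F ∈ MF Γ k) (hG : G ∈ MF Γ l) : F * G ∈ MF Γ (k + l) := by
  refine ⟨hF.1.mul hG.1, fun γ hγ => ?_, fun γ => ?_⟩
  · rw [mul_slash_SL2, hF.2.1 γ hγ, hG.2.1 γ hγ]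
  · rw [mul_slash_SL2]
    exact (hF.2.2 γ).mul (hG.2.2 γ)

theorem MF_mul' {F G : ℍ → ℂ} {m : ℤ} (hF : F ∈ MF Γ k) (hG : G ∈ MF Γ l) (hm : m = k + l) :
    F * G ∈ MF Γ m := hm ▸ MF_mul hF hG

theorem MF_one : (1 : ℍ → ℂ) ∈ MF Γ 0 := by
  refine ⟨mdifferentiable_const (c := (1 : ℂ)), fun γ _ => is_invariant_one γ, fun γ => ?_⟩
  rw [is_invariant_one]
  exact Filter.const_boundedAtFilter _ (1 : ℂ)

theorem MF_pow {F : ℍ → ℂ} (hF : F ∈ MF Γ k) (n : ℕ) : F ^ n ∈ MF Γ (n * k) := by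
  induction n with
  | zero => simpa using MF_one (Γ := Γ)
  | succ n ih =>
    rw [pow_succ]
    exact MF_mul' ih hF (by push_cast; ring)

/-- A level one form is a form on every subgroup. -/
theorem MF_levelOne {E : ℍ → ℂ} (hE : E ∈ MF ⊤ k) : E ∈ MF Γ k :=
  Fermat.Agent.S20.H74.MF.mono le_top hE

/-- Mathlib modular forms on `Γ₀(N)` are in `MF (Gamma0 N) k`. -/
theorem coe_mem_MF_Gamma0 (N : ℕ) [NeZero N] (F : ModularForm (Gamma0 N) k) :
    (⇑F : ℍ → ℂ) ∈ MF (Gamma0 N) k :=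
  Fermat.Agent.S20.H74.coe_mem_MF rfl F

/-- Level one Mathlib modular forms are in `MF (Gamma0 N) k`. -/
theorem coe_levelOne_mem_MF_Gamma0 (N : ℕ) (E : ModularForm 𝒮ℒ k) :
    (⇑E : ℍ → ℂ) ∈ MF (Gamma0 N) k :=
  MF_levelOne (Fermat.Agent.S20.H74.coe_mem_MF_top E)

/-- Every element of `MF (Gamma0 N) k` is (the function of) a Mathlib modular form. -/
theorem exists_modularForm_Gamma0 (N : ℕ) [NeZero N] {F : ℍ → ℂ} (hF : F ∈ MF (Gamma0 N) k) :
    ∃ F' : ModularForm (Gamma0 N) k, (⇑F' : ℍ → ℂ) = F :=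
  ⟨Fermat.Agent.S20.H74.toModularForm rfl F hF, rfl⟩

/-! ### The expansion at `∞` -/

section infty

variable (N : ℕ) {F G : ℍ → ℂ}

theorem qExp_add (hF : F ∈ MF (Gamma0 N) k) (hG : G ∈ MF (Gamma0 N) k) :
    qExpansion 1 (F + G) = qExpansion 1 F + qExpansion 1 G :=
  Nice.qExpansion_add one_pos (nice_one N hF) (nice_one N hG)

theorem qExp_sub (hF : F ∈ MF (Gamma0 N) k) (hG : G ∈ MF (Gamma0 N) k) :
    qExpansion 1 (F - G) = qExpansion 1 F - qExpansion 1 G :=
  Nice.qExpansion_sub one_pos (nice_one N hF) (nice_one N hG)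

theorem qExp_smul (hF : F ∈ MF (Gamma0 N) k) (c : ℂ) :
    qExpansion 1 (c • F) = c • qExpansion 1 F :=
  Nice.qExpansion_smul one_pos (nice_one N hF) c

theorem qExp_mul (hF : F ∈ MF (Gamma0 N) k) (hG : G ∈ MF (Gamma0 N) l) :
    qExpansion 1 (F * G) = qExpansion 1 F * qExpansion 1 G :=
  Nice.qExpansion_mul one_pos (nice_one N hF) (nice_one N hG)

theorem qExp_pow (hF : F ∈ MF (Gamma0 N) k) (n : ℕ) :
    qExpansion 1 (F ^ n) = qExpansion 1 F ^ n :=
  Nice.qExpansion_pow one_pos (nice_one N hF) n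

end infty

/-! ### The expansion at the cusp `0` -/

section zero

variable (N : ℕ) [NeZero N] {F G : ℍ → ℂ}

theorem natCast_pos_real : (0 : ℝ) < (N : ℝ) := Nat.cast_pos.mpr (NeZero.pos N)

/-- **CE-2**: additivity. -/
theorem cuspExp_add (hF : F ∈ MF (Gamma0 N) k) (hG : G ∈ MF (Gamma0 N) k) :
    cuspExp N k (F + G) = cuspExp N k F + cuspExp N k G := by
  unfold cuspExp
  rw [SlashAction.add_slash]
  exact Nice.qExpansion_add (natCast_pos_real N) (nice_slash_S N hF) (nice_slash_S N hG)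

theorem cuspExp_neg (hF : F ∈ MF (Gamma0 N) k) :
    cuspExp N k (-F) = -cuspExp N k F := by
  unfold cuspExp
  rw [SlashAction.neg_slash]
  exact Nice.qExpansion_neg (natCast_pos_real N) (nice_slash_S N hF)

theorem cuspExp_sub (hF : F ∈ MF (Gamma0 N) k) (hG : G ∈ MF (Gamma0 N) k) :
    cuspExp N k (F - G) = cuspExp N k F - cuspExp N k G := by
  rw [sub_eq_add_neg, cuspExp_add N hF (Submodule.neg_mem _ hG), cuspExp_neg N hG,
    sub_eq_add_neg]

/-- **CE-3**: `ℂ`-linearity. -/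
theorem cuspExp_smul (hF : F ∈ MF (Gamma0 N) k) (c : ℂ) :
    cuspExp N k (c • F) = c • cuspExp N k F := by
  unfold cuspExp
  rw [SL_smul_slash]
  exact Nice.qExpansion_smul (natCast_pos_real N) (nice_slash_S N hF) c

/-- **CE-4**: multiplicativity. -/
theorem cuspExp_mul (hF : F ∈ MF (Gamma0 N) k) (hG : G ∈ MF (Gamma0 N) l) :
    cuspExp N (k + l) (F * G) = cuspExp N k F * cuspExp N l G := by
  unfold cuspExp
  rw [mul_slash_SL2]
  exact Nice.qExpansion_mul (natCast_pos_real N) (nice_slash_S N hF) (nice_slash_S N hG)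

theorem cuspExp_mul' {m : ℤ} (hF : F ∈ MF (Gamma0 N) k) (hG : G ∈ MF (Gamma0 N) l)
    (hm : m = k + l) :
    cuspExp N m (F * G) = cuspExp N k F * cuspExp N l G := by
  subst hm
  exact cuspExp_mul N hF hG

omit [NeZero N] in
theorem cuspExp_one : cuspExp N 0 (1 : ℍ → ℂ) = 1 := by
  unfold cuspExp
  rw [is_invariant_one]
  exact qExpansion_one _

theorem cuspExp_pow (hF : F ∈ MF (Gamma0 N) k) (n : ℕ) :
    cuspExp N (n * k) (F ^ n) = cuspExp N k F ^ n := by
  induction n with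
  | zero => simpa using cuspExp_one N
  | succ n ih =>
    rw [pow_succ, pow_succ, ← ih]
    exact cuspExp_mul' N (MF_pow hF n) hF (by push_cast; ring)

/-- The `q`-expansion in the parameter `exp (2 π i z / N)` of a `1`-periodic function is the
`N`-th expansion of its `q`-expansion. -/
theorem qExpansion_nat_eq_expand (hF : Nice (1 : ℝ) F) :
    qExpansion (N : ℝ) F = PowerSeries.expand N (NeZero.ne N) (qExpansion 1 F) := by
  ext n
  have := UpperHalfPlane.qExpansion_coeff_nat_mul one_pos hF.per hF.hol hF.bdd (NeZero.pos N) n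
  rw [mul_one] at this
  rw [this, PowerSeries.coeff_expand]

/-- **CE-5**: the expansion at the cusp `0` of a level one form is the `N`-th expansion of its
`q`-expansion. -/
theorem cuspExp_levelOne {E : ℍ → ℂ} (hE : E ∈ MF ⊤ k) :
    cuspExp N k E = PowerSeries.expand N (NeZero.ne N) (qExpansion 1 E) := by
  unfold cuspExp
  rw [Fermat.Agent.S20.H74.MF.slash_top hE]
  exact qExpansion_nat_eq_expand N (nice_one_of_T_mem hE (Subgroup.mem_top _))

/-- The same for the expansion at `∞` in the parameter `exp (2 π i z / N)`. -/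
theorem qExpansion_nat_eq_expand_of_mem (hF : F ∈ MF (Gamma0 N) k) :
    qExpansion (N : ℝ) F = PowerSeries.expand N (NeZero.ne N) (qExpansion 1 F) :=
  qExpansion_nat_eq_expand N (nice_one N hF)

end zero

end Fermat.Agent.S16.H45
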