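import Fermat.Agent.S16.Defs2
import Fermat.Agent.S16.H15_RhoAlg
import Fermat.Agent.S23.H96_LevelOne
import Fermat.Prelude.Thm_CongruenceSubgroup_one_mem_strictPeriods_Gamma0

/-!
# S16, upper bound at `ℓ = 2`, `p ≡ 7 mod 8`: Step 1 (helper21)

`G ∈ M₂(Γ₀(p))` with `q`-expansion `m + 8 h`, `h ∈ ℤ⟦q⟧`.  The forms
`F₄ = (G² - m² E₄) / 16 ∈ M₄(Γ₀(p))` and `F₆ = (3 m² G E₄ - 2 m³ E₆ - G³) / 32 ∈ M₆(Γ₀(p))`
have integral `q`-expansions (`qExpansion_F4`, `qExpansion_F6`), given by the explicit series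
`f4Series m h`, `f6Series m h`.  The same at the cusp `0` in series form (`f4HatSeries_spec`,
`f6HatSeries_spec`) for any ring endomorphism `V` of `ℤ⟦q⟧` (to be applied with `V = (q ↦ q ^ p)`).

The ring identities are helper15's (`H15_RhoAlg.lean`); the integral series of `E₄`, `E₆` are
helper96's (`S23/H96_LevelOne.lean`).
-/

set_option autoImplicit false

noncomputable section

namespace Fermat.Agent.S16.H21

open UpperHalfPlane ModularForm EisensteinSeries ModularFormClass CongruenceSubgroup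
open Fermat.Agent.S23.H96 (sigmaSeries e4Series e6Series intSeries)
open scoped MatrixGroups

/-! ## Part A: series over `ℤ` -/

theorem two_dvd_pow_three_add_pow_five (d : ℤ) : (2 : ℤ) ∣ d ^ 3 + d ^ 5 := by
  have h : ∀ x : ZMod 2, x ^ 3 + x ^ 5 = 0 := by decide
  have := h (d : ZMod 2)
  have h2 := (ZMod.intCast_zmod_eq_zero_iff_dvd (d ^ 3 + d ^ 5) 2).mp (by push_cast; exact this)
  exact_mod_cast h2

theorem two_dvd_sigma_three_add_sigma_five (n : ℕ) :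
    (2 : ℤ) ∣ ((ArithmeticFunction.sigma 3 n : ℕ) : ℤ) + ((ArithmeticFunction.sigma 5 n : ℕ) : ℤ) := by
  rw [ArithmeticFunction.sigma_apply, ArithmeticFunction.sigma_apply]
  push_cast
  rw [← Finset.sum_add_distrib]
  exact Finset.dvd_sum fun d _ => two_dvd_pow_three_add_pow_five d

/-- The series `(σ₃ + σ₅) / 2`. -/
def tSeries : PowerSeries ℤ :=
  PowerSeries.mk fun n =>
    (((ArithmeticFunction.sigma 3 n : ℕ) : ℤ) + ((ArithmeticFunction.sigma 5 n : ℕ) : ℤ)) / 2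

theorem sigmaSeries_three_add_five : sigmaSeries 3 + sigmaSeries 5 = 2 * tSeries := by
  ext n
  have h2 : (2 : PowerSeries ℤ) = PowerSeries.C (2 : ℤ) := by simp
  rw [h2]
  simp only [Fermat.Agent.S23.H96.coeff_sigmaSeries, map_add, PowerSeries.coeff_C_mul, tSeries,
    PowerSeries.coeff_mk]
  have := Int.mul_ediv_cancel' (two_dvd_sigma_three_add_sigma_five n)
  lia

theorem e4Series_eq : e4Series = 1 + 240 * sigmaSeries 3 := by
  have h1 : (PowerSeries.C (240 : ℤ) : PowerSeries ℤ) = 240 := by simp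
  rw [e4Series, h1]

theorem e6Series_eq : e6Series = 1 - 504 * sigmaSeries 5 := by
  have h1 : (PowerSeries.C (504 : ℤ) : PowerSeries ℤ) = 504 := by simp
  rw [e6Series, h1]

/-- The `q`-expansion of `F₄ = (G² - m² E₄)/16` for `G = m + 8 h`. -/
def f4Series (m h : PowerSeries ℤ) : PowerSeries ℤ :=
  m * h + 4 * h ^ 2 - 15 * m ^ 2 * sigmaSeries 3

/-- The `q`-expansion of `F₆ = (3 m² G E₄ - 2 m³ E₆ - G³)/32` for `G = m + 8 h`. -/
def f6Series (m h : PowerSeries ℤ) : PowerSeries ℤ :=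
  m ^ 3 * tSeries + 22 * m ^ 3 * sigmaSeries 3 + 31 * m ^ 3 * sigmaSeries 5
    + 180 * m ^ 2 * h * sigmaSeries 3 - 6 * m * h ^ 2 - 16 * h ^ 3

theorem f4Series_spec (m h : PowerSeries ℤ) :
    (m + 8 * h) ^ 2 - m ^ 2 * e4Series = 16 * f4Series m h := by
  rw [e4Series_eq, f4Series]
  exact H15.step1_F4_infty m h (sigmaSeries 3)

theorem f6Series_spec (m h : PowerSeries ℤ) :
    3 * m ^ 2 * (m + 8 * h) * e4Series - 2 * m ^ 3 * e6Series - (m + 8 * h) ^ 3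
      = 32 * f6Series m h := by
  rw [e4Series_eq, e6Series_eq, f6Series]
  exact H15.step1_F6_infty m h (sigmaSeries 3) (sigmaSeries 5) tSeries sigmaSeries_three_add_five

/-- The `q`-expansion of `F₄ ∣ W = ((G ∣ W)² - m² (E₄ ∣ W))/16` for `G ∣ W = -(m + 8 h')`,
`E₄ ∣ W = p² V(E₄)`, `p = 8 k - 1`. -/
def f4HatSeries (V : PowerSeries ℤ →+* PowerSeries ℤ) (k m h' : PowerSeries ℤ) : PowerSeries ℤ :=
  m ^ 2 * (k - 4 * k ^ 2) + m * h' + 4 * h' ^ 2 - 15 * m ^ 2 * (8 * k - 1) ^ 2 * V (sigmaSeries 3)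

/-- The `q`-expansion of `F₆ ∣ W` for `G ∣ W = -(m + 8 h')`, `E₄ ∣ W = p² V(E₄)`,
`E₆ ∣ W = p³ V(E₆)`, `p = 8 k - 1`. -/
def f6HatSeries (V : PowerSeries ℤ →+* PowerSeries ℤ) (k m h' : PowerSeries ℤ) : PowerSeries ℤ :=
  2 * m ^ 3 * k ^ 2 * (3 - 16 * k)
    + 12 * m ^ 2 * (k - 4 * k ^ 2) * h'
    + 6 * m * h' ^ 2 + 16 * h' ^ 3
    - 180 * m ^ 2 * (8 * k - 1) ^ 2 * h' * V (sigmaSeries 3)
    - m ^ 3 * (8 * k - 1) ^ 2 * V tSeries
    - 22 * m ^ 3 * (8 * k - 1) ^ 2 * V (sigmaSeries 3)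
    + m ^ 3 * (8 * k - 1) ^ 2 * V (sigmaSeries 5)
    + 252 * m ^ 3 * (8 * k - 1) ^ 2 * k * V (sigmaSeries 5)
    - 32 * m ^ 3 * (8 * k - 1) ^ 2 * V (sigmaSeries 5)

theorem map_e4Series (V : PowerSeries ℤ →+* PowerSeries ℤ) :
    V e4Series = 1 + 240 * V (sigmaSeries 3) := by
  rw [e4Series_eq, map_add, map_one, map_mul, map_ofNat]

theorem map_e6Series (V : PowerSeries ℤ →+* PowerSeries ℤ) :
    V e6Series = 1 - 504 * V (sigmaSeries 5) := by
  rw [e6Series_eq, map_sub, map_one, map_mul, map_ofNat]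

theorem f4HatSeries_spec (V : PowerSeries ℤ →+* PowerSeries ℤ) (k m h' : PowerSeries ℤ) :
    (-(m + 8 * h')) ^ 2 - m ^ 2 * ((8 * k - 1) ^ 2 * V e4Series)
      = 16 * f4HatSeries V k m h' := by
  rw [map_e4Series, f4HatSeries]
  exact H15.step1_F4_zero m h' (V (sigmaSeries 3)) k

theorem f6HatSeries_spec (V : PowerSeries ℤ →+* PowerSeries ℤ) (k m h' : PowerSeries ℤ) :
    3 * m ^ 2 * (-(m + 8 * h')) * ((8 * k - 1) ^ 2 * V e4Series)
        - 2 * m ^ 3 * ((8 * k - 1) ^ 3 * V e6Series) - (-(m + 8 * h')) ^ 3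
      = 32 * f6HatSeries V k m h' := by
  rw [map_e4Series, map_e6Series, f6HatSeries]
  refine H15.step1_F6_zero m h' (V (sigmaSeries 3)) (V (sigmaSeries 5)) (V tSeries) k ?_
  rw [← map_add, sigmaSeries_three_add_five, map_mul, map_ofNat]

end Fermat.Agent.S16.H21

namespace Fermat.Agent.S16.H21

open UpperHalfPlane ModularForm EisensteinSeries ModularFormClass CongruenceSubgroup
open Fermat.Agent.S23.H96 (sigmaSeries e4Series e6Series intSeries)
open scoped MatrixGroups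

/-! ## Part B: the forms `F₄`, `F₆` on `Γ₀(p)` and their `q`-expansions at `∞` -/

/-- Restrict a modular form to a smaller subgroup. -/
def restrictLevel {Γ Γ' : Subgroup (GL (Fin 2) ℝ)} {k : ℤ} (h : Γ' ≤ Γ) (f : ModularForm Γ k) :
    ModularForm Γ' k where
  toFun := f
  slash_action_eq' γ hγ := f.slash_action_eq' γ (h hγ)
  holo' := f.holo'
  bdd_at_cusps' hc := f.bdd_at_cusps' (hc.mono h)

@[simp] theorem coe_restrictLevel {Γ Γ' : Subgroup (GL (Fin 2) ℝ)} {k : ℤ} (h : Γ' ≤ Γ)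
    (f : ModularForm Γ k) : ⇑(restrictLevel h f) = ⇑f := rfl

theorem Gamma0_le_SL (N : ℕ) : ((Gamma0 N : Subgroup SL(2, ℤ)) : Subgroup (GL (Fin 2) ℝ)) ≤ 𝒮ℒ := by
  rintro _ ⟨g, -, rfl⟩
  exact ⟨g, rfl⟩

/-- `E₄` as a form on `Γ₀(N)`. -/
def E4N (N : ℕ) : ModularForm (Gamma0 N) 4 := restrictLevel (Gamma0_le_SL N) E₄

/-- `E₆` as a form on `Γ₀(N)`. -/
def E6N (N : ℕ) : ModularForm (Gamma0 N) 6 := restrictLevel (Gamma0_le_SL N) E₆

@[simp] theorem coe_E4N (N : ℕ) : ⇑(E4N N) = ⇑E₄ := rfl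

@[simp] theorem coe_E6N (N : ℕ) : ⇑(E6N N) = ⇑E₆ := rfl

theorem qExpansion_E4N (N : ℕ) :
    qExpansion 1 (E4N N) = e4Series.map (Int.castRingHom ℂ) :=
  Fermat.Agent.S23.H96.qExpansion_E₄_eq

theorem qExpansion_E6N (N : ℕ) :
    qExpansion 1 (E6N N) = e6Series.map (Int.castRingHom ℂ) :=
  Fermat.Agent.S23.H96.qExpansion_E₆_eq

variable {N : ℕ}

/-- `F₄ = (G² - m² E₄) / 16`. -/
def F4 (G : ModularForm (Gamma0 N) 2) (m : ℤ) : ModularForm (Gamma0 N) 4 :=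
  (1 / 16 : ℂ) • (ModularForm.mcast (by norm_num) (G.mul G) - ((m : ℂ) ^ 2) • E4N N)

/-- `F₆ = (3 m² G E₄ - 2 m³ E₆ - G³) / 32`. -/
def F6 (G : ModularForm (Gamma0 N) 2) (m : ℤ) : ModularForm (Gamma0 N) 6 :=
  (1 / 32 : ℂ) • ((3 * (m : ℂ) ^ 2) • ModularForm.mcast (by norm_num) (G.mul (E4N N))
    - (2 * (m : ℂ) ^ 3) • E6N N - ModularForm.mcast (by norm_num) ((G.mul G).mul G))

theorem coe_F4 (G : ModularForm (Gamma0 N) 2) (m : ℤ) (z : ℍ) :
    F4 G m z = (G z ^ 2 - (m : ℂ) ^ 2 * E₄ z) / 16 := by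
  simp only [F4, smul_apply, sub_apply, ModularForm.mcast_apply, ModularForm.coe_mul,
    Pi.mul_apply, smul_eq_mul, coe_E4N]
  ring

theorem coe_F6 (G : ModularForm (Gamma0 N) 2) (m : ℤ) (z : ℍ) :
    F6 G m z = (3 * (m : ℂ) ^ 2 * G z * E₄ z - 2 * (m : ℂ) ^ 3 * E₆ z - G z ^ 3) / 32 := by
  simp only [F6, smul_apply, sub_apply, ModularForm.mcast_apply, ModularForm.coe_mul,
    Pi.mul_apply, smul_eq_mul, coe_E4N, coe_E6N]
  ring

theorem map_C_int (m : ℤ) :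
    (PowerSeries.C (m : ℤ) : PowerSeries ℤ).map (Int.castRingHom ℂ) = PowerSeries.C (m : ℂ) := by
  ext n
  rw [PowerSeries.coeff_map, PowerSeries.coeff_C, PowerSeries.coeff_C]
  split_ifs <;> simp

/-- The `q`-expansion of `F₄` is integral. -/
theorem qExpansion_F4 (G : ModularForm (Gamma0 N) 2) (m : ℤ) (h : PowerSeries ℤ)
    (hG : qExpansion 1 G = (PowerSeries.C m + 8 * h).map (Int.castRingHom ℂ)) :
    qExpansion 1 (F4 G m) = (f4Series (PowerSeries.C m) h).map (Int.castRingHom ℂ) := by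
  have hp := one_mem_strictPeriods_Gamma0 N
  have h1 : qExpansion 1 (F4 G m) = (1 / 16 : ℂ) • (qExpansion 1 G * qExpansion 1 G
      - ((m : ℂ) ^ 2) • qExpansion 1 (E4N N)) := by
    rw [F4, FunLike.coe_smul, ModularForm.qExpansion_smul one_pos hp, FunLike.coe_sub,
      ModularForm.qExpansion_sub one_pos hp,
      ModularForm.qExpansion_mcast, ModularForm.qExpansion_mul one_pos hp, FunLike.coe_smul,
      ModularForm.qExpansion_smul one_pos hp]
  have h2 := congrArg (PowerSeries.map (Int.castRingHom ℂ)) (f4Series_spec (PowerSeries.C m) h)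
  rw [h1, hG, qExpansion_E4N]
  simp only [map_sub, map_mul, map_pow, map_add, map_C_int, map_ofNat] at h2 ⊢
  rw [PowerSeries.smul_eq_C_mul, PowerSeries.smul_eq_C_mul]
  have h16 : (16 : PowerSeries ℂ) = PowerSeries.C (16 : ℂ) := (map_ofNat PowerSeries.C 16).symm
  have hm : (PowerSeries.C ((m : ℂ) ^ 2) : PowerSeries ℂ) = PowerSeries.C (m : ℂ) ^ 2 := by simp
  have hinv : (PowerSeries.C (1 / 16 : ℂ) : PowerSeries ℂ) * PowerSeries.C (16 : ℂ) = 1 := by
    rw [← map_mul]; norm_num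
  rw [hm]
  calc PowerSeries.C (1 / 16 : ℂ) * ((PowerSeries.C (m : ℂ) + 8 * PowerSeries.map (Int.castRingHom ℂ) h)
        * (PowerSeries.C (m : ℂ) + 8 * PowerSeries.map (Int.castRingHom ℂ) h)
        - PowerSeries.C (m : ℂ) ^ 2 * PowerSeries.map (Int.castRingHom ℂ) e4Series)
      = PowerSeries.C (1 / 16 : ℂ) * ((PowerSeries.C (m : ℂ) + 8 * PowerSeries.map (Int.castRingHom ℂ) h) ^ 2
        - PowerSeries.C (m : ℂ) ^ 2 * PowerSeries.map (Int.castRingHom ℂ) e4Series) := by ring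
    _ = PowerSeries.C (1 / 16 : ℂ) * (16 * PowerSeries.map (Int.castRingHom ℂ)
          (f4Series (PowerSeries.C m) h)) := by rw [h2]
    _ = (PowerSeries.C (1 / 16 : ℂ) * PowerSeries.C (16 : ℂ)) * PowerSeries.map (Int.castRingHom ℂ)
          (f4Series (PowerSeries.C m) h) := by rw [h16]; ring
    _ = _ := by rw [hinv, one_mul]

end Fermat.Agent.S16.H21
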