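import Fermat.Agent.S16.Defs2
import Mathlib.NumberTheory.ModularForms.LevelOne.Basic
import Mathlib.RingTheory.PowerSeries.Expand

/-!
# S16, package TRID (helper26): interface

* `Useries p φ` : the operator `U_p` on power series, `∑ a_n q^n ↦ ∑ a_{pn} q^n`.
* `Stmt_TRID p` : for `h ∈ M₂(Γ₀(p))` and a level one form `A` of weight `k` there is a level one
  form `F_A` of weight `k + 2` with `q`-expansion
  `p^k · h(q) · A(q^p) − U_p ((U_p h) · A)`   (`F_A = p^k · Tr (h · V_p A)`).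
* `Stmt_DeltaTest p` : if `h ∈ M₂(Γ₀(p))` is a unit constant modulo `ℓ^e`, `ℓ ≠ p`, then
  `ℓ^e ∣ p + 1`   (`A = Δ`: `F_Δ = 0`, so `τ(p) ≡ 0` and `τ(p²) ≡ p¹²`, and `τ(p²) = τ(p)² − p¹¹`).

Proofs: `H26_Trid.lean` (from the interfaces of package CONJ), `H26_DeltaTest.lean`.
-/

set_option autoImplicit false

open UpperHalfPlane ModularForm CongruenceSubgroup
open scoped MatrixGroups ModularForm

noncomputable section

namespace Fermat.Agent.S16.H26

/-- The operator `U_p` on power series: `∑ a_n q^n ↦ ∑ a_{pn} q^n`. -/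
def Useries (p : ℕ) (φ : PowerSeries ℂ) : PowerSeries ℂ :=
  PowerSeries.mk fun n => PowerSeries.coeff (p * n) φ

@[simp] lemma coeff_Useries (p : ℕ) (φ : PowerSeries ℂ) (n : ℕ) :
    PowerSeries.coeff n (Useries p φ) = PowerSeries.coeff (p * n) φ := by
  simp [Useries]

/-- `TRID`: the trace identity. -/
def Stmt_TRID (p : ℕ) : Prop :=
  ∀ (hp : p.Prime) (h : ModularForm (Gamma0 p) 2) (k : ℤ) (A : ModularForm 𝒮ℒ k),
    ∃ F : ModularForm 𝒮ℒ (k + 2),
      qExpansion 1 F =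
        (p : ℂ) ^ k • (qExpansion 1 h * PowerSeries.expand p hp.ne_zero (qExpansion 1 A)) -
          Useries p (Useries p (qExpansion 1 h) * qExpansion 1 A)

/-- The `Δ`-test. -/
def Stmt_DeltaTest (p : ℕ) : Prop :=
  p.Prime → ∀ ℓ e : ℕ, ℓ.Prime → ℓ ≠ p → ∀ h : ModularForm (Gamma0 p) 2,
    IsUnitConstMod p ℓ e h → ℓ ^ e ∣ p + 1

end Fermat.Agent.S16.H26
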