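import Fermat.Agent.S16.H79_ConjDefs
import Fermat.Agent.S16.H26_TridDefs
import Fermat.Agent.S23.H22_LevelRaiseExp

/-!
# S16, package TRID (helper26): the trace identity

For `h ∈ M₂(Γ₀(p))` and a level one form `A` of weight `k`,
`F_A := p^k · h · V_p A − U_p ((U_p h) · A)` is a level one form of weight `k + 2`
(`p^k · Tr (h · V_p A)`), where `V_p A (z) = A (p z)` and `U_p` is the operator
`∑ a_n q^n ↦ ∑ a_{pn} q^n` on `q`-expansions.

Inputs (interfaces of package CONJ, `H79_ConjDefs.lean`): `Stmt_conjExp`, `Stmt_trace`, `Stmt_T0`.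
-/

set_option autoImplicit false

open UpperHalfPlane ModularForm CongruenceSubgroup
open scoped MatrixGroups ModularForm Manifold

noncomputable section

namespace Fermat.Agent.S16.H26

open Fermat.Agent.S16.H79 Fermat.Agent.S20.H74 Fermat.Agent.S23.H22

lemma zetaP_pow_self {p : ℕ} (hp : p ≠ 0) : zetaP p ^ p = 1 := by
  have hp' : (p : ℂ) ≠ 0 := by exact_mod_cast hp
  rw [zetaP, ← Complex.exp_nat_mul]
  rw [show (p : ℂ) * (2 * Real.pi * Complex.I / p) = 2 * Real.pi * Complex.I by field_simp]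
  exact Complex.exp_two_pi_mul_I

/-- The matrix identity `diag(p, 1) · S = S · [[1, 0], [0, p]]`. -/
lemma heckeDiag_mul_S (p : ℕ) (hp : p ≠ 0) :
    heckeDiagMatrix p * Matrix.SpecialLinearGroup.mapGL ℝ ModularGroup.S =
      Matrix.SpecialLinearGroup.mapGL ℝ ModularGroup.S * heckeMatrix p 0 := by
  apply Matrix.GeneralLinearGroup.ext
  intro i j
  simp only [Matrix.GeneralLinearGroup.coe_mul, val_heckeDiagMatrix hp, val_heckeMatrix hp,
    Matrix.SpecialLinearGroup.mapGL_coe_matrix]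
  have hS : ((Matrix.SpecialLinearGroup.map (algebraMap ℤ ℝ) ModularGroup.S : SL(2, ℝ)) :
      Matrix (Fin 2) (Fin 2) ℝ) = !![0, -1; 1, 0] := by
    ext a b
    rw [Matrix.SpecialLinearGroup.map_apply_coe, ModularGroup.coe_S]
    fin_cases a <;> fin_cases b <;> simp
  rw [hS]
  fin_cases i <;> fin_cases j <;> simp [Matrix.mul_apply, Fin.sum_univ_two]

/-- `(A ∣ α_p) ∣ S = A ∣ [[1, 0], [0, p]]` for a level one form `A`. -/
lemma levelRaise_slash_S {p : ℕ} [NeZero p] {k : ℤ} (A : ModularForm 𝒮ℒ k) :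
    (levelRaise p A : ℍ → ℂ) ∣[k] ModularGroup.S = (A : ℍ → ℂ) ∣[k] heckeMatrix p 0 := by
  rw [levelRaise_coe, ModularForm.SL_slash, ← SlashAction.slash_mul]
  have h := heckeDiag_mul_S p (NeZero.ne p)
  rw [show (Matrix.SpecialLinearGroup.toGL ((Matrix.SpecialLinearGroup.map (Int.castRingHom ℝ))
      ModularGroup.S)) = Matrix.SpecialLinearGroup.mapGL ℝ ModularGroup.S from rfl, h,
    SlashAction.slash_mul]
  congr 1
  exact SlashInvariantFormClass.slash_action_eq A _ ⟨ModularGroup.S, rfl⟩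

/-- The parameter at width `p` of `τ` is the parameter at width `1` of `τ / p`. -/
lemma qParam_heckeMatrix_zero {p : ℕ} (hp : p ≠ 0) (τ : ℍ) :
    Function.Periodic.qParam 1 ((heckeMatrix p 0 • τ : ℍ) : ℂ) =
      Function.Periodic.qParam (p : ℝ) (τ : ℂ) := by
  rw [coe_heckeMatrix_smul hp]
  simp [Function.Periodic.qParam, mul_div_assoc]

/-- The expansion of `A ∣ [[1, 0], [0, p]]` (`= p⁻¹ A (z / p)`) in `t = exp (2 π i z / p)`. -/
lemma qExpansion_slash_heckeMatrix_zero {p : ℕ} (hp : p ≠ 0) {k : ℤ} (A : ModularForm 𝒮ℒ k)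
    (hN : Nice (p : ℝ) ((A : ℍ → ℂ) ∣[k] heckeMatrix p 0)) :
    qExpansion (p : ℝ) ((A : ℍ → ℂ) ∣[k] heckeMatrix p 0) = (p : ℂ)⁻¹ • qExpansion 1 A := by
  have hpos : (0 : ℝ) < p := by exact_mod_cast Nat.pos_of_ne_zero hp
  have hA := nice_levelOne A
  ext m
  symm
  rw [PowerSeries.coeff_smul]
  have key := UpperHalfPlane.qExpansion_coeff_unique
    (c := fun m => (p : ℂ)⁻¹ * PowerSeries.coeff m (qExpansion 1 A))
    (ModularForm.translate A (heckeMatrix p 0)) hpos
    (by rw [ModularForm.coe_translate]; exact hN.analyticAt hpos) (fun τ => ?_) m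
  · rw [ModularForm.coe_translate] at key
    exact key
  have h1 := UpperHalfPlane.hasSum_qExpansion one_pos hA.per hA.hol hA.bdd (heckeMatrix p 0 • τ)
  rw [qParam_heckeMatrix_zero hp] at h1
  have h2 := h1.mul_left (p : ℂ)⁻¹
  rw [ModularForm.coe_translate, slash_heckeMatrix_apply k hp]
  have h3 : (fun m : ℕ => ((p : ℂ)⁻¹ * PowerSeries.coeff m (qExpansion 1 A)) •
      Function.Periodic.qParam (p : ℝ) (τ : ℂ) ^ m) =
      fun i : ℕ => (p : ℂ)⁻¹ * PowerSeries.coeff i (qExpansion 1 A) •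
        Function.Periodic.qParam (p : ℝ) (τ : ℂ) ^ i := by
    funext m
    rw [smul_eq_mul, smul_eq_mul, mul_assoc]
  rw [h3]
  exact h2

/-- The `q`-expansion of the level raise, as a power series identity. -/
lemma qExpansion_levelRaise_eq {p : ℕ} [NeZero p] {k : ℤ} (A : ModularForm 𝒮ℒ k) :
    qExpansion 1 (levelRaise p A) =
      (p : ℂ) ^ (k - 1) • PowerSeries.expand p (NeZero.ne p) (qExpansion 1 A) := by
  ext n
  rw [qExpansion_levelRaise_coeff, PowerSeries.coeff_smul, PowerSeries.coeff_expand]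
  split_ifs <;> simp

/-- `T0` as a power series identity. -/
lemma sExp_eq_of_T0 {p : ℕ} (hp : p.Prime) (hT0 : Stmt_T0 p) (h : ModularForm (Gamma0 p) 2) :
    sExp p 2 h = (-(p : ℂ)⁻¹) • Useries p (qExpansion 1 h) := by
  have : NeZero p := ⟨hp.ne_zero⟩
  ext n
  rw [hT0 hp h (coe_mem_MF rfl h) n, PowerSeries.coeff_smul, coeff_Useries, smul_eq_mul]

/-- **TRID**: the trace identity, from the interfaces of package CONJ. -/
theorem trid {p : ℕ} (hCE : Stmt_conjExp p) (hTr : Stmt_trace p) (hT0 : Stmt_T0 p) :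
    Stmt_TRID p := by
  intro hp h k A
  have : NeZero p := ⟨hp.ne_zero⟩
  have hp0 : p ≠ 0 := hp.ne_zero
  have hpC : (p : ℂ) ≠ 0 := by exact_mod_cast hp0
  have hpos : (0 : ℝ) < p := by exact_mod_cast hp.pos
  set L : ModularForm (G0 p) k := levelRaise p A with hL
  set Hf : ℍ → ℂ := (h : ℍ → ℂ) * (L : ℍ → ℂ) with hHf
  have hmem : Hf ∈ MF (Gamma0 p) (2 + k) := coe_mem_MF rfl (h.mul L)
  obtain ⟨E, -, hE⟩ := hTr hp (2 + k) Hf hmem
  have hh_mem : (h : ℍ → ℂ) ∈ MF (Gamma0 p) 2 := coe_mem_MF rfl h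
  have hL_mem : (L : ℍ → ℂ) ∈ MF (Gamma0 p) k := coe_mem_MF rfl L
  have hconj0 : ∀ (k : ℤ) (G : ℍ → ℂ),
      conjFam p k G (some ⟨0, hp.pos⟩) = G ∣[k] ModularGroup.S := by
    intro k G
    simp [conjFam]
  have hNh : Nice (p : ℝ) ((h : ℍ → ℂ) ∣[(2 : ℤ)] ModularGroup.S) := by
    have := (hCE hp 2 h hh_mem (some ⟨0, hp.pos⟩)).1
    rwa [hconj0] at this
  have hNL : Nice (p : ℝ) ((L : ℍ → ℂ) ∣[k] ModularGroup.S) := by
    have := (hCE hp k L hL_mem (some ⟨0, hp.pos⟩)).1
    rwa [hconj0] at this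
  have hNA : Nice (p : ℝ) ((A : ℍ → ℂ) ∣[k] heckeMatrix p 0) := by
    rw [← levelRaise_slash_S]; exact hNL
  -- the expansion at the cusp `0`
  have hsExp : sExp p (2 + k) Hf =
      (-((p : ℂ)⁻¹ * (p : ℂ)⁻¹)) • (Useries p (qExpansion 1 h) * qExpansion 1 A) := by
    unfold sExp at *
    rw [hHf, ModularForm.mul_slash_SL2, Nice.qExpansion_mul hpos hNh hNL, levelRaise_slash_S,
      qExpansion_slash_heckeMatrix_zero hp0 A hNA]
    have := sExp_eq_of_T0 hp hT0 h
    unfold sExp at this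
    rw [this]
    simp only [smul_mul_assoc, mul_smul_comm, smul_smul]
    congr 1
    ring
  -- the expansion at `∞`
  have hq : qExpansion 1 Hf = qExpansion 1 h * qExpansion 1 L :=
    Nice.qExpansion_mul one_pos (nice_G0 p h) (nice_G0 p L)
  refine ⟨ModularForm.mcast (by ring) ((p : ℂ) • E), ?_⟩
  rw [ModularForm.qExpansion_mcast]
  have hsm : qExpansion 1 ((p : ℂ) • E : ModularForm 𝒮ℒ (2 + k)) = (p : ℂ) • qExpansion 1 E :=
    Nice.qExpansion_smul one_pos (nice_levelOne E) (p : ℂ)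
  rw [hsm]
  ext n
  have hcoef := congrArg (PowerSeries.coeff (p * n)) hE
  rw [PowerSeries.coeff_expand, if_pos (dvd_mul_right p n), Nat.mul_div_cancel_left n hp.pos,
    Fintype.sum_option, map_add, map_sum] at hcoef
  have hnone : PowerSeries.coeff (p * n) (expFam p hp0 (2 + k) Hf none) =
      PowerSeries.coeff n (qExpansion 1 Hf) := by
    simp only [expFam]
    rw [PowerSeries.coeff_expand, if_pos (dvd_mul_right p n), Nat.mul_div_cancel_left n hp.pos]
  have hsome : ∀ j : Fin p, PowerSeries.coeff (p * n) (expFam p hp0 (2 + k) Hf (some j)) =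
      PowerSeries.coeff (p * n) (sExp p (2 + k) Hf) := by
    intro j
    simp only [expFam]
    rw [PowerSeries.coeff_rescale, ← pow_mul, mul_comm (j : ℕ) (p * n), mul_assoc, pow_mul,
      zetaP_pow_self hp0, one_pow, one_mul]
  rw [hnone, Finset.sum_congr rfl (fun j _ => hsome j), Finset.sum_const, Finset.card_univ,
    Fintype.card_fin, nsmul_eq_mul, hsExp, hq, qExpansion_levelRaise_eq] at hcoef
  rw [PowerSeries.coeff_smul, hcoef, map_sub, PowerSeries.coeff_smul, coeff_Useries]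
  simp only [PowerSeries.coeff_smul, mul_smul_comm, smul_eq_mul]
  have hpk : (p : ℂ) ^ k = (p : ℂ) * (p : ℂ) ^ (k - 1) := by
    rw [← zpow_one_add₀ hpC]; congr 1; ring
  rw [hpk]
  field_simp
  ring

end Fermat.Agent.S16.H26
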