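import Mathlib
import Fermat.Agent.S16.Defs2
import Fermat.Agent.S20.H70_PartD
import Fermat.Agent.S20.H70_Ramanujan
import Fermat.Prelude.Thm_CongruenceSubgroup_one_mem_strictPeriods_Gamma0

/-!
# S16, package EIS (helper6): the Eisenstein series of weight 2 and level `N`

`E'(z) = (N E₂(N z) - E₂(z)) / 24 ∈ M₂(Γ₀(N))`, with `q`-expansion
`(N - 1)/24 + Σ_{k ≥ 1} σ'(k) q^k`, `σ'(k) = Σ_{d ∣ k, N ∤ d} d`.

Main statements:
* `eisFun_slash` : for every `g ∈ SL(2, ℤ)`: `(E₂∣diag(N,1) - E₂) ∣ g = E₂ ∣ [a, b; 0, d] - E₂`.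
* `eisForm N : ModularForm (Gamma0 N) 2`.
* `stmt_Eis : ∀ N, N ≠ 0 → Stmt_Eis N`.
-/

set_option autoImplicit false

noncomputable section

namespace Fermat.Agent.S16.H6

open UpperHalfPlane hiding I
open ModularForm EisensteinSeries Filter Topology Complex CongruenceSubgroup
open Matrix Matrix.SpecialLinearGroup
open scoped MatrixGroups Manifold Real
open Fermat.Agent.S20.H70

/-- The function `E₂ ∣[2] diag(N, 1) - E₂`, i.e. `z ↦ N E₂(N z) - E₂(z)`. -/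
def eisFun (N : ℕ) (hN : N ≠ 0) : ℍ → ℂ := (E2 ∣[(2 : ℤ)] diagN N hN) - E2

lemma E2_slash_mapGL (γ : SL(2, ℤ)) :
    E2 ∣[(2 : ℤ)] mapGL ℝ γ = E2 - (1 / (2 * riemannZeta 2)) • D2 γ :=
  E2_slash_action γ

/-- Key computation: if `diag(N,1) g = γ' [a, b; 0, d]` then `D₂ γ' ∣ [a, b; 0, d] = D₂ g`. -/
lemma D2_slash_utGL (N : ℕ) (hN : N ≠ 0) (g γ' : SL(2, ℤ)) (a d : ℕ) (b : ℤ)
    (ha : 0 < a) (hd : 0 < d)
    (h : diagN N hN * mapGL ℝ g = mapGL ℝ γ' * utGL a b d (natCast_mul_natCast_ne_zero ha hd)) :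
    D2 γ' ∣[(2 : ℤ)] utGL a b d (natCast_mul_natCast_ne_zero ha hd) = D2 g := by
  have hpos : (0 : ℝ) < (a : ℝ) * d := by positivity
  have h10 : ((g 1 0 : ℤ) : ℝ) = (γ' 1 0 : ℝ) * a := by
    have := congrArg (fun M : GL (Fin 2) ℝ => (M : Matrix (Fin 2) (Fin 2) ℝ) 1 0) h
    simpa [diagN, Matrix.mul_apply, Fin.sum_univ_two, mapGL_val_apply] using this
  have h11 : ((g 1 1 : ℤ) : ℝ) = (γ' 1 0 : ℝ) * b + γ' 1 1 * d := by
    have := congrArg (fun M : GL (Fin 2) ℝ => (M : Matrix (Fin 2) (Fin 2) ℝ) 1 1) h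
    simpa [diagN, Matrix.mul_apply, Fin.sum_univ_two, mapGL_val_apply] using this
  ext z
  rw [slash_utGL_apply 2 a b d _ hpos]
  simp only [D2]
  have hsmul : ((utGL a b d (natCast_mul_natCast_ne_zero ha hd) • z : ℍ) : ℂ)
      = ((a : ℂ) * z + b) / d := by
    rw [UpperHalfPlane.coe_smul_of_det_pos (by rw [det_utGL]; exact hpos)]
    simp [UpperHalfPlane.num, UpperHalfPlane.denom]
  have hden1 : denom (γ' : GL (Fin 2) ℝ) (utGL a b d (natCast_mul_natCast_ne_zero ha hd) • z : ℍ)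
      = (γ' 1 0 : ℂ) * (((a : ℂ) * z + b) / d) + γ' 1 1 := by
    rw [← hsmul]
    simp [UpperHalfPlane.denom]
  have hden2 : denom (g : GL (Fin 2) ℝ) z = (g 1 0 : ℂ) * z + g 1 1 := by
    simp [UpperHalfPlane.denom]
  have hdz : denom (g : GL (Fin 2) ℝ) z ≠ 0 := UpperHalfPlane.denom_ne_zero _ z
  have hdw : denom (γ' : GL (Fin 2) ℝ)
      (utGL a b d (natCast_mul_natCast_ne_zero ha hd) • z : ℍ) ≠ 0 :=
    UpperHalfPlane.denom_ne_zero _ _
  have h10c : (g 1 0 : ℂ) = (γ' 1 0 : ℂ) * a := by exact_mod_cast h10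
  have h11c : (g 1 1 : ℂ) = (γ' 1 0 : ℂ) * b + γ' 1 1 * d := by exact_mod_cast h11
  have hdc : (d : ℂ) ≠ 0 := by exact_mod_cast hd.ne'
  rw [hden1] at hdw ⊢
  rw [hden2] at hdz ⊢
  rw [h10c, h11c] at hdz ⊢
  have e1 : ((((a : ℝ) * (d : ℝ) : ℝ) : ℂ)) ^ ((2 : ℤ) - 1) = (a : ℂ) * d := by
    norm_num
  have e2 : (((d : ℝ) : ℂ)) ^ (-2 : ℤ) = ((d : ℂ) ^ 2)⁻¹ := by
    rw [_root_.zpow_neg]
    push_cast
    rfl
  rw [e1, e2]
  have hdw' : (γ' 1 0 : ℂ) * ((a : ℂ) * z + b) + γ' 1 1 * d ≠ 0 := by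
    intro h0
    apply hdw
    field_simp
    linear_combination h0
  field_simp
  congr 1
  ring

lemma sub_slash_GL (k : ℤ) (A : GL (Fin 2) ℝ) (f g : ℍ → ℂ) :
    (f - g) ∣[k] A = f ∣[k] A - g ∣[k] A := by
  rw [sub_eq_add_neg, SlashAction.add_slash, SlashAction.neg_slash, ← sub_eq_add_neg]

/-- For every `g ∈ SL(2, ℤ)`: `(E₂∣diag(N,1) - E₂) ∣ g = E₂ ∣ [a, b; 0, d] - E₂`, where
`a = gcd(N, g 1 0)` and `a d = N`. -/
lemma eisFun_slash (N : ℕ) (hN : N ≠ 0) (g : SL(2, ℤ)) :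
    ∃ (a d : ℕ) (b : ℤ) (ha : 0 < a) (hd : 0 < d), a * d = N ∧ a = Int.gcd N (g 1 0) ∧
      eisFun N hN ∣[(2 : ℤ)] mapGL ℝ g =
        E2 ∣[(2 : ℤ)] utGL a b d (natCast_mul_natCast_ne_zero ha hd) - E2 := by
  obtain ⟨a, d, b, γ', ha, hd, had, hagcd, hmat⟩ := hermite_decomp N hN g
  refine ⟨a, d, b, ha, hd, had, hagcd, ?_⟩
  have hpos : (0 : ℝ) < (a : ℝ) * d := by positivity
  rw [eisFun, sub_slash_GL, ← SlashAction.slash_mul, hmat, SlashAction.slash_mul,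
    E2_slash_mapGL, E2_slash_mapGL, sub_slash_GL, ModularForm.smul_slash,
    D2_slash_utGL N hN g γ' a d b ha hd hmat, σ_utGL _ _ _ _ hpos]
  simp

/-- `(E₂∣diag(N,1) - E₂) ∣ g → a/d - 1` at `i∞`. -/
lemma tendsto_eisFun_slash (N : ℕ) (hN : N ≠ 0) (g : SL(2, ℤ)) :
    ∃ c : ℂ, Tendsto (eisFun N hN ∣[(2 : ℤ)] mapGL ℝ g) atImInfty (𝓝 c) := by
  obtain ⟨a, d, b, ha, hd, -, -, hF⟩ := eisFun_slash N hN g
  have hpos : (0 : ℝ) < (a : ℝ) * d := by positivity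
  rw [hF]
  exact ⟨_, (tendsto_slash_utGL 2 a b d (natCast_mul_natCast_ne_zero ha hd) hpos
    tendsto_E2_atImInfty).sub tendsto_E2_atImInfty⟩

lemma eisFun_slash_of_mem_Gamma0 (N : ℕ) (hN : N ≠ 0) (g : SL(2, ℤ)) (hg : g ∈ Gamma0 N) :
    eisFun N hN ∣[(2 : ℤ)] mapGL ℝ g = eisFun N hN := by
  obtain ⟨g', hg'⟩ := diagN_mul_mapGL_of_mem_Gamma0 N hN g hg
  have h1 : (0 : ℝ) < (N : ℝ) * 1 := by
    rw [mul_one]; exact_mod_cast Nat.pos_of_ne_zero hN
  have hD : D2 g' ∣[(2 : ℤ)] diagN N hN = D2 g := by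
    have := D2_slash_utGL N hN g g' N 1 0 (Nat.pos_of_ne_zero hN) one_pos (by
      rw [hg']
      congr 1
      apply Matrix.GeneralLinearGroup.ext
      intro i j
      fin_cases i <;> fin_cases j <;> simp [diagN])
    rw [← this]
    congr 1
    apply Matrix.GeneralLinearGroup.ext
    intro i j
    fin_cases i <;> fin_cases j <;> simp [diagN]
  have hσ : UpperHalfPlane.σ (diagN N hN) = .refl ℝ ℂ := σ_utGL _ _ _ _ h1
  rw [eisFun, sub_slash_GL, ← SlashAction.slash_mul, hg', SlashAction.slash_mul,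
    E2_slash_mapGL, E2_slash_mapGL, sub_slash_GL, ModularForm.smul_slash, hD, hσ]
  simp

/-- The Eisenstein series `z ↦ N E₂(N z) - E₂(z)` as a modular form of weight 2 on `Γ₀(N)`. -/
def eisForm (N : ℕ) [NeZero N] : ModularForm (Gamma0 N) 2 where
  toFun := eisFun N (NeZero.ne N)
  slash_action_eq' A hA := by
    obtain ⟨g, hg, rfl⟩ := hA
    exact eisFun_slash_of_mem_Gamma0 N (NeZero.ne N) g hg
  holo' := (E2_mdifferentiable.slash 2 (diagN N (NeZero.ne N))).sub E2_mdifferentiable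
  bdd_at_cusps' hc := by
    rw [Subgroup.IsArithmetic.isCusp_iff_isCusp_SL2Z] at hc
    rw [OnePoint.isBoundedAt_iff_forall_SL2Z hc]
    intro γ _
    obtain ⟨c, ht⟩ := tendsto_eisFun_slash N (NeZero.ne N) γ
    exact ht.isBigO_one ℝ

@[simp] lemma coe_eisForm (N : ℕ) [NeZero N] : ⇑(eisForm N) = eisFun N (NeZero.ne N) := rfl


/-- `σ₁(k) = σ'(k) + N σ₁(k/N) [N ∣ k]`. -/
lemma sigma_eq_sigmaP_add (N k : ℕ) (hN : N ≠ 0) (hk : k ≠ 0) :
    ArithmeticFunction.sigma 1 k = sigmaP N k + (if N ∣ k then N * ArithmeticFunction.sigma 1 (k / N) else 0) := by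
  rw [ArithmeticFunction.sigma_one_apply]
  unfold sigmaP
  rw [← Finset.sum_filter_add_sum_filter_not (s := k.divisors) (p := fun d => ¬ N ∣ d)]
  congr 1
  simp only [not_not]
  split_ifs with h
  · obtain ⟨k', rfl⟩ := h
    have hk' : k' ≠ 0 := by
      rintro rfl
      simp at hk
    rw [Nat.mul_div_cancel_left _ (Nat.pos_of_ne_zero hN), ArithmeticFunction.sigma_one_apply,
      Finset.mul_sum]
    symm
    apply Finset.sum_bij (fun d _ => N * d)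
    · intro d hd
      simp only [Finset.mem_filter, Nat.mem_divisors] at hd ⊢
      exact ⟨⟨Nat.mul_dvd_mul_left N hd.1, hk⟩, Dvd.intro d rfl⟩
    · intro a _ b _ hab
      exact Nat.eq_of_mul_eq_mul_left (Nat.pos_of_ne_zero hN) hab
    · intro e he
      simp only [Finset.mem_filter, Nat.mem_divisors] at he
      obtain ⟨⟨he1, _⟩, e', rfl⟩ := he
      refine ⟨e', ?_, rfl⟩
      simp only [Nat.mem_divisors]
      exact ⟨(Nat.mul_dvd_mul_iff_left (Nat.pos_of_ne_zero hN)).mp he1, hk'⟩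
    · intro d _
      rfl
  · apply Finset.sum_eq_zero
    intro d hd
    simp only [Finset.mem_filter, Nat.mem_divisors] at hd
    exact absurd (hd.2.trans hd.1.1) h


local notation "𝕢" => Function.Periodic.qParam

/-- The coefficients of `N E₂(N z) - E₂(z)`. -/
def eisCoeff (N m : ℕ) : ℂ := (N : ℂ) * (if N ∣ m then E2coeff (m / N) else 0) - E2coeff m

lemma coe_diagN_smul (N : ℕ) (hN : N ≠ 0) (τ : ℍ) :
    ((diagN N hN • τ : ℍ) : ℂ) = (N : ℂ) * τ := by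
  have h1 : (0 : ℝ) < (N : ℝ) * 1 := by
    rw [mul_one]; exact_mod_cast Nat.pos_of_ne_zero hN
  rw [diagN, UpperHalfPlane.coe_smul_of_det_pos (by rw [det_utGL]; exact h1)]
  simp [UpperHalfPlane.num, UpperHalfPlane.denom]

lemma eisFun_apply (N : ℕ) (hN : N ≠ 0) (τ : ℍ) :
    eisFun N hN τ = (N : ℂ) * E2 (diagN N hN • τ) - E2 τ := by
  have h1 : (0 : ℝ) < (N : ℝ) * 1 := by
    rw [mul_one]; exact_mod_cast Nat.pos_of_ne_zero hN
  rw [eisFun, Pi.sub_apply, diagN, slash_utGL_apply 2 _ _ _ _ h1]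
  simp
  ring

lemma hasSum_eisFun (N : ℕ) (hN : N ≠ 0) (τ : ℍ) :
    HasSum (fun m : ℕ ↦ eisCoeff N m • 𝕢 1 (τ : ℂ) ^ m) (eisFun N hN τ) := by
  have hq : 𝕢 1 (((diagN N hN • τ : ℍ) : ℂ)) = 𝕢 1 (τ : ℂ) ^ N := by
    rw [coe_diagN_smul, Function.Periodic.qParam, Function.Periodic.qParam, ← Complex.exp_nat_mul]
    congr 1
    ring
  have h1 := hasSum_E2_qParam (diagN N hN • τ)
  simp only [hq, ← pow_mul] at h1
  have hinj : Function.Injective (fun m : ℕ => N * m) :=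
    fun a b hab => Nat.eq_of_mul_eq_mul_left (Nat.pos_of_ne_zero hN) hab
  have h2 : HasSum (fun n : ℕ ↦ (if N ∣ n then E2coeff (n / N) else 0) • 𝕢 1 (τ : ℂ) ^ n)
      (E2 (diagN N hN • τ)) := by
    rw [← hinj.hasSum_iff]
    · convert h1 using 2 with m
      simp [Nat.mul_div_cancel_left _ (Nat.pos_of_ne_zero hN)]
    · intro n hn
      have : ¬ N ∣ n := by
        rintro ⟨m, rfl⟩
        exact hn ⟨m, rfl⟩
      simp [this]
  have h3 := (h2.mul_left (N : ℂ)).sub (hasSum_E2_qParam τ)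
  rw [eisFun_apply]
  have h4 : (fun m : ℕ ↦ eisCoeff N m • 𝕢 1 (τ : ℂ) ^ m) = fun b : ℕ ↦
      (N : ℂ) * (if N ∣ b then E2coeff (b / N) else 0) • 𝕢 1 (τ : ℂ) ^ b
        - E2coeff b • 𝕢 1 (τ : ℂ) ^ b := by
    funext m
    simp only [eisCoeff, smul_eq_mul]
    ring
  rw [h4]
  exact h3

/-- **EIS**: the Eisenstein series of weight 2 and level `N`. -/
theorem stmt_Eis (N : ℕ) (hN : N ≠ 0) : Stmt_Eis N := by
  have : NeZero N := ⟨hN⟩
  have hsum : ∀ τ : ℍ, HasSum (fun m : ℕ ↦ ((1 / 24 : ℂ) * eisCoeff N m) • 𝕢 1 (τ : ℂ) ^ m)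
      (((1 / 24 : ℂ) • eisForm N) τ) := by
    intro τ
    have h := (hasSum_eisFun N hN τ).mul_left (1 / 24 : ℂ)
    have h4 : (fun m : ℕ ↦ ((1 / 24 : ℂ) * eisCoeff N m) • 𝕢 1 (τ : ℂ) ^ m)
        = fun m : ℕ ↦ (1 / 24 : ℂ) * eisCoeff N m • 𝕢 1 (τ : ℂ) ^ m := by
      funext m
      simp only [smul_eq_mul]
      ring
    rw [h4]
    exact h
  have hcoeff : ∀ m : ℕ, (1 / 24 : ℂ) * eisCoeff N m
      = ModularFormClass.qCoeff (⇑((1 / 24 : ℂ) • eisForm N : ModularForm (Gamma0 N) 2)) m := by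
    intro m
    exact ModularFormClass.qExpansion_coeff_unique (f := (1 / 24 : ℂ) • eisForm N) one_pos
      (CongruenceSubgroup.one_mem_strictPeriods_Gamma0 N) hsum m
  refine ⟨(1 / 24 : ℂ) • eisForm N, ?_, ?_⟩
  · rw [← hcoeff 0]
    simp [eisCoeff, E2coeff]
    ring
  · intro k hk
    rw [← hcoeff k]
    have hk0 : k ≠ 0 := by omega
    have harith := sigma_eq_sigmaP_add N k hN hk0
    have harith' : (ArithmeticFunction.sigma 1 k : ℂ) = (sigmaP N k : ℂ)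
        + (if N ∣ k then (N : ℂ) * (ArithmeticFunction.sigma 1 (k / N) : ℂ) else 0) := by
      have := congrArg (fun n : ℕ => (n : ℂ)) harith
      simp only [Nat.cast_add] at this
      rw [this]
      split_ifs <;> simp
    simp only [eisCoeff, E2coeff, if_neg hk0]
    rw [harith']
    by_cases h : N ∣ k
    · have hkN : k / N ≠ 0 := by
        obtain ⟨m, rfl⟩ := h
        rw [Nat.mul_div_cancel_left _ (Nat.pos_of_ne_zero hN)]
        rintro rfl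
        simp at hk0
      rw [if_pos h, if_pos h, if_neg hkN]
      ring
    · rw [if_neg h, if_neg h]
      ring

end Fermat.Agent.S16.H6
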