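import Fermat.Agent.S16.H15_Cosets
import Fermat.Agent.S16.H79_ConjDefs
import Fermat.Agent.S23.H22_LevelRaiseExp
import Fermat.Agent.S28.H30_Conj
import Mathlib.NumberTheory.ModularForms.LevelOne.DimensionFormula

/-!
# S16 (T0): in weight 2 the expansion at the cusp `0` is `-(1/p) U_p` of the expansion at `∞`
(helper15)
-/

set_option autoImplicit false
set_option linter.unusedSectionVars false

open UpperHalfPlane ModularForm SlashInvariantForm CongruenceSubgroup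
open scoped MatrixGroups ModularForm Manifold

noncomputable section

namespace Fermat.Agent.S16.H15

open Fermat.Agent.S23.H22 (G0 Q toSL piPerm q1 quotientFunc_q1 Nice)
open Fermat.Agent.S20.H74 (MF)
open Fermat.Agent.S16.H79 (conjFam sExp Stmt_T0)

/-! ### Step A: the trace of a weight 2 form vanishes -/

theorem sum_conjFam_eq_trace (p : ℕ) [NeZero p] (hp : p.Prime) (k : ℤ)
    (H : ModularForm (G0 p) k) (z : ℍ) :
    ModularForm.trace 𝒮ℒ H z = ∑ c : Option (Fin p), conjFam p k H c z := by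
  rw [ModularForm.coe_trace]
  rw [Finset.sum_apply]
  rw [← Equiv.sum_comp (cosetEquiv p hp)]
  refine Finset.sum_congr rfl fun c _ => ?_
  rw [quotientFunc_cosetEquiv p hp H c]
  rcases c with _ | j <;> rfl

/-- The sum of the `p + 1` conjugates of a weight 2 form on `Γ₀(p)` vanishes. -/
theorem sum_conjFam_eq_zero (p : ℕ) [NeZero p] (hp : p.Prime) (H : ℍ → ℂ)
    (hH : H ∈ MF (Gamma0 p) 2) (z : ℍ) :
    ∑ c : Option (Fin p), conjFam p 2 H c z = 0 := by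
  set Hm : ModularForm (G0 p) 2 := Fermat.Agent.S20.H74.toModularForm rfl H hH with hHm
  have h0 : ModularForm.trace 𝒮ℒ Hm = 0 :=
    rank_zero_iff_forall_zero.mp levelOne_weight_two_rank_zero _
  have h1 := sum_conjFam_eq_trace p hp 2 Hm z
  rw [h0] at h1
  have h2 : (⇑Hm : ℍ → ℂ) = H := rfl
  rw [h2] at h1
  rw [← h1]
  rfl

/-! ### Step B: the Fricke transform `G ∣ S ∣ diag(p, 1)` -/

/-- The Fricke transform `G ∣[k] S ∣[k] diag(p, 1)`, i.e. `G ∣[k] W` for `W = !![0, -1; p, 0]`. -/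
def fricke (p : ℕ) (k : ℤ) (G : ℍ → ℂ) : ℍ → ℂ :=
  (G ∣[k] ModularGroup.S) ∣[k] heckeDiagMatrix p

lemma fricke_eq (p : ℕ) (k : ℤ) (G : ℍ → ℂ) :
    fricke p k G = G ∣[k] ((ModularGroup.S : GL (Fin 2) ℝ) * heckeDiagMatrix p) := by
  rw [fricke, SL_slash, SlashAction.slash_mul]

lemma S_mul_S_mem_Gamma0 (N : ℕ) : ModularGroup.S * ModularGroup.S ∈ Gamma0 N := by
  rw [Gamma0_mem]
  have : (ModularGroup.S * ModularGroup.S : SL(2, ℤ)).1 = !![-1, 0; 0, -1] := by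
    rw [Matrix.SpecialLinearGroup.coe_mul, ModularGroup.coe_S]
    ext a b
    fin_cases a <;> fin_cases b <;> simp [Matrix.mul_apply, Fin.sum_univ_two]
  show (((ModularGroup.S * ModularGroup.S : SL(2, ℤ)).1 1 0 : ℤ) : ZMod N) = 0
  rw [this]
  simp


lemma coe_mapGL_eq (g : SL(2, ℤ)) :
    ((Matrix.SpecialLinearGroup.mapGL ℝ g : GL (Fin 2) ℝ) : Matrix (Fin 2) (Fin 2) ℝ) =
      (Int.castRingHom ℝ).mapMatrix (g : Matrix (Fin 2) (Fin 2) ℤ) := by
  rw [Matrix.SpecialLinearGroup.mapGL_coe_matrix]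
  rfl

lemma S_mul_S_coe : (ModularGroup.S * ModularGroup.S : SL(2, ℤ)).1 = !![-1, 0; 0, -1] := by
  rw [Matrix.SpecialLinearGroup.coe_mul, ModularGroup.coe_S]
  ext a b
  fin_cases a <;> fin_cases b <;> simp [Matrix.mul_apply, Fin.sum_univ_two]

/-- The matrix identity `S · diag(p,1) · S T^j = S² · !![1, j; 0, p]`. -/
lemma S_diag_STj (p : ℕ) (hp : p ≠ 0) (j : ℕ) :
    (ModularGroup.S : GL (Fin 2) ℝ) * heckeDiagMatrix p *
        ((ModularGroup.S * ModularGroup.T ^ j : SL(2, ℤ)) : GL (Fin 2) ℝ) =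
      ((ModularGroup.S * ModularGroup.S : SL(2, ℤ)) : GL (Fin 2) ℝ) * heckeMatrix p j := by
  apply Units.ext
  rw [Units.val_mul, Units.val_mul, Units.val_mul]
  show ((Matrix.SpecialLinearGroup.mapGL ℝ ModularGroup.S : GL (Fin 2) ℝ) :
        Matrix (Fin 2) (Fin 2) ℝ) *
      ((heckeDiagMatrix p : GL (Fin 2) ℝ) : Matrix (Fin 2) (Fin 2) ℝ) *
      ((Matrix.SpecialLinearGroup.mapGL ℝ (ModularGroup.S * ModularGroup.T ^ j) : GL (Fin 2) ℝ) :
        Matrix (Fin 2) (Fin 2) ℝ) =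
    ((Matrix.SpecialLinearGroup.mapGL ℝ (ModularGroup.S * ModularGroup.S) : GL (Fin 2) ℝ) :
        Matrix (Fin 2) (Fin 2) ℝ) *
      ((heckeMatrix p j : GL (Fin 2) ℝ) : Matrix (Fin 2) (Fin 2) ℝ)
  have hT : (ModularGroup.S * ModularGroup.T ^ j : SL(2, ℤ)).1 = !![0, -1; 1, (j : ℤ)] :=
    STj_coe j
  rw [coe_mapGL_eq, coe_mapGL_eq, coe_mapGL_eq, hT, S_mul_S_coe, ModularGroup.coe_S,
    val_heckeDiagMatrix hp, val_heckeMatrix hp]
  ext a b
  fin_cases a <;> fin_cases b <;>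
    simp [Matrix.mul_apply, Fin.sum_univ_two, Matrix.map_apply]

/-- The conjugates of the Fricke transform at the cusp `0` are the terms of `U_p`. -/
lemma fricke_slash_STj (p : ℕ) (hp : p ≠ 0) (k : ℤ) (G : ℍ → ℂ) (hG : G ∈ MF (Gamma0 p) k)
    (j : ℕ) :
    fricke p k G ∣[k] (ModularGroup.S * ModularGroup.T ^ j) = G ∣[k] heckeMatrix p j := by
  rw [fricke_eq, SL_slash, ← SlashAction.slash_mul, S_diag_STj p hp j, SlashAction.slash_mul,
    ← SL_slash, hG.2.1 _ (S_mul_S_mem_Gamma0 p)]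

lemma S_conj_mem_Gamma0 (p : ℕ) [NeZero p] (γ : SL(2, ℤ)) (hγ : γ ∈ Gamma0 p) :
    ModularGroup.S * Fermat.Agent.S23.H22.conjGamma0 p γ hγ * ModularGroup.S⁻¹ ∈ Gamma0 p := by
  rw [mem_Gamma0_iff_dvd]
  have h : (ModularGroup.S * Fermat.Agent.S23.H22.conjGamma0 p γ hγ * ModularGroup.S⁻¹ :
      SL(2, ℤ)).1 = ModularGroup.S.1 * (Fermat.Agent.S23.H22.conjGamma0 p γ hγ).1 *
        (ModularGroup.S⁻¹ : SL(2, ℤ)).1 := by
    rw [Matrix.SpecialLinearGroup.coe_mul, Matrix.SpecialLinearGroup.coe_mul]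
  show (p : ℤ) ∣ (ModularGroup.S * Fermat.Agent.S23.H22.conjGamma0 p γ hγ * ModularGroup.S⁻¹ :
      SL(2, ℤ)).1 1 0
  rw [h, Matrix.SpecialLinearGroup.coe_inv, ModularGroup.coe_S,
    Fermat.Agent.S23.H22.coe_conjGamma0, Matrix.adjugate_fin_two_of]
  simp [Matrix.mul_apply, Fin.sum_univ_two]

lemma coe_eq_mapGL (γ : SL(2, ℤ)) :
    (γ : GL (Fin 2) ℝ) = Matrix.SpecialLinearGroup.mapGL ℝ γ := rfl

/-- The Fricke transform is invariant under `Γ₀(p)`. -/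
lemma fricke_slash_Gamma0 (p : ℕ) [NeZero p] (k : ℤ) (G : ℍ → ℂ) (hG : G ∈ MF (Gamma0 p) k)
    (γ : SL(2, ℤ)) (hγ : γ ∈ Gamma0 p) : fricke p k G ∣[k] γ = fricke p k G := by
  have h1 : (ModularGroup.S : GL (Fin 2) ℝ) * heckeDiagMatrix p * (γ : GL (Fin 2) ℝ) =
      ((ModularGroup.S * Fermat.Agent.S23.H22.conjGamma0 p γ hγ * ModularGroup.S⁻¹ : SL(2, ℤ)) :
        GL (Fin 2) ℝ) * ((ModularGroup.S : GL (Fin 2) ℝ) * heckeDiagMatrix p) := by
    simp only [coe_eq_mapGL]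
    rw [mul_assoc, Fermat.Agent.S23.H22.heckeDiag_mul_mapGL p γ hγ, ← mul_assoc, ← mul_assoc]
    congr 1
    rw [← map_mul, ← map_mul]
    congr 1
    group
  rw [fricke_eq, SL_slash, ← SlashAction.slash_mul, h1, SlashAction.slash_mul, ← SL_slash,
    hG.2.1 _ (S_conj_mem_Gamma0 p γ hγ)]

/-- The Fricke transform of a modular form on `Γ₀(p)` is a modular form on `Γ₀(p)`. -/
theorem fricke_mem_MF (p : ℕ) [NeZero p] (k : ℤ) (G : ℍ → ℂ) (hG : G ∈ MF (Gamma0 p) k) :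
    fricke p k G ∈ MF (Gamma0 p) k := by
  refine ⟨(hG.1.slash k _).slash k _, fun γ hγ => fricke_slash_Gamma0 p k G hG γ hγ,
    fun γ => ?_⟩
  obtain ⟨γ', a, b, d, h, -, -, hmat⟩ := Fermat.Agent.S28.H30.exists_hnf_gcd p γ
  have h1 : (ModularGroup.S : GL (Fin 2) ℝ) * heckeDiagMatrix p * (γ : GL (Fin 2) ℝ) =
      ((ModularGroup.S * γ' : SL(2, ℤ)) : GL (Fin 2) ℝ) * upperTriangularGL a b d h := by
    simp only [coe_eq_mapGL]
    rw [mul_assoc, hmat, ← mul_assoc, ← map_mul]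
  rw [fricke_eq, SL_slash, ← SlashAction.slash_mul, h1, SlashAction.slash_mul, ← SL_slash]
  refine (hG.2.2 _).slash k ?_
  rw [val_upperTriangularGL]
  rfl

/-! ### Step C: regularity and expansions -/

lemma nice_one_of_mem_MF (p : ℕ) [NeZero p] (k : ℤ) (G : ℍ → ℂ) (hG : G ∈ MF (Gamma0 p) k) :
    Nice 1 G :=
  Fermat.Agent.S23.H22.nice_G0 p (Fermat.Agent.S20.H74.toModularForm (𝒢 := G0 p) rfl G hG)

lemma S_Tpow_conj_mem_Gamma0 (p : ℕ) :
    ModularGroup.S * ModularGroup.T ^ p * ModularGroup.S⁻¹ ∈ Gamma0 p := by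
  rw [mem_Gamma0_iff_dvd]
  have h : (ModularGroup.S * ModularGroup.T ^ p * ModularGroup.S⁻¹ : SL(2, ℤ)).1 =
      (STj p).1 * (ModularGroup.S⁻¹ : SL(2, ℤ)).1 := by
    rw [Matrix.SpecialLinearGroup.coe_mul]
    rfl
  show (p : ℤ) ∣ (ModularGroup.S * ModularGroup.T ^ p * ModularGroup.S⁻¹ : SL(2, ℤ)).1 1 0
  rw [h, STj_coe, Matrix.SpecialLinearGroup.coe_inv, ModularGroup.coe_S,
    Matrix.adjugate_fin_two_of]
  simp [Matrix.mul_apply, Fin.sum_univ_two]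

lemma slash_S_slash_Tpow (p : ℕ) (k : ℤ) (G : ℍ → ℂ) (hG : G ∈ MF (Gamma0 p) k) :
    (G ∣[k] ModularGroup.S) ∣[k] (ModularGroup.T ^ p) = G ∣[k] ModularGroup.S := by
  have h : ModularGroup.S * ModularGroup.T ^ p =
      (ModularGroup.S * ModularGroup.T ^ p * ModularGroup.S⁻¹) * ModularGroup.S := by group
  rw [← SlashAction.slash_mul, h, SlashAction.slash_mul, hG.2.1 _ (S_Tpow_conj_mem_Gamma0 p)]

lemma slash_Tpow_apply (k : ℤ) (g : ℍ → ℂ) (n : ℕ) (τ : ℍ) :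
    (g ∣[k] (ModularGroup.T ^ n)) τ = g ((ModularGroup.T ^ n) • τ) := by
  rw [SL_slash_apply]
  have hd : denom ((ModularGroup.T ^ n : SL(2, ℤ)) : GL (Fin 2) ℝ) τ = 1 := by
    have h1 : (ModularGroup.T ^ n : SL(2, ℤ)).1 = !![1, (n : ℤ); 0, 1] := by
      rw [← zpow_natCast, ModularGroup.coe_T_zpow]
    show ((((Matrix.SpecialLinearGroup.mapGL ℝ (ModularGroup.T ^ n) : GL (Fin 2) ℝ) :
      Matrix (Fin 2) (Fin 2) ℝ) 1 0 : ℝ) : ℂ) * (τ : ℂ) +
      ((((Matrix.SpecialLinearGroup.mapGL ℝ (ModularGroup.T ^ n) : GL (Fin 2) ℝ) :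
      Matrix (Fin 2) (Fin 2) ℝ) 1 1 : ℝ) : ℂ) = 1
    rw [coe_mapGL_eq, h1]
    simp
  rw [hd, one_zpow, mul_one]

/-- `G ∣ S` is `p`-periodic, holomorphic and bounded at `i∞`. -/
lemma nice_slash_S (p : ℕ) (k : ℤ) (G : ℍ → ℂ) (hG : G ∈ MF (Gamma0 p) k) :
    Nice (p : ℝ) (G ∣[k] ModularGroup.S) where
  per := by
    have := Fermat.Agent.S23.H83.periodic_comp_ofComplex_of_coe_add
      (g := G ∣[k] ModularGroup.S) p (fun τ τ' h => by
        have h1 : τ' = (ModularGroup.T ^ p) • τ := by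
          apply UpperHalfPlane.ext
          rw [h, ← zpow_natCast, ModularGroup.coe_T_zpow_smul_eq]
          simp
        rw [h1, ← slash_Tpow_apply k (G ∣[k] ModularGroup.S) p τ, slash_S_slash_Tpow p k G hG])
    simpa using this
  hol := hG.1.slash k _
  bdd := hG.2.2 _

lemma qParam_heckeDiag_smul (p : ℕ) (hp : p ≠ 0) (τ : ℍ) :
    Function.Periodic.qParam (p : ℝ) ((heckeDiagMatrix p • τ : ℍ) : ℂ) =
      Function.Periodic.qParam 1 (τ : ℂ) := by
  rw [coe_heckeDiagMatrix_smul hp]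
  have hp' : (p : ℂ) ≠ 0 := by exact_mod_cast hp
  rw [Function.Periodic.qParam, Function.Periodic.qParam]
  congr 1
  rw [Complex.ofReal_natCast, Complex.ofReal_one, div_one, mul_div_assoc,
    mul_div_cancel_left₀ _ hp']

/-- The `q`-expansion of the Fricke transform is `p ^ (k - 1)` times the expansion of `G ∣ S`
in the parameter `exp (2 π i z / p)`. -/
theorem qExpansion_fricke_coeff (p : ℕ) [NeZero p] (k : ℤ) (G : ℍ → ℂ)
    (hG : G ∈ MF (Gamma0 p) k) (n : ℕ) :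
    (qExpansion 1 (fricke p k G)).coeff n = (p : ℂ) ^ (k - 1) * (sExp p k G).coeff n := by
  have hp : p ≠ 0 := NeZero.ne p
  have hp' : (0 : ℝ) < (p : ℝ) := by exact_mod_cast Nat.pos_of_ne_zero hp
  have hN := nice_one_of_mem_MF p k _ (fricke_mem_MF p k G hG)
  have hg := nice_slash_S p k G hG
  have hsum : ∀ τ : ℍ, HasSum (fun m : ℕ => ((p : ℂ) ^ (k - 1) * (sExp p k G).coeff m) •
      Function.Periodic.qParam 1 (τ : ℂ) ^ m) (fricke p k G τ) := by
    intro τ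
    have h1 := hasSum_qExpansion hp' hg.per hg.hol hg.bdd (heckeDiagMatrix p • τ)
    rw [qParam_heckeDiag_smul p hp τ] at h1
    have h2 := h1.mul_left ((p : ℂ) ^ (k - 1))
    have h3 : fricke p k G τ =
        (p : ℂ) ^ (k - 1) * (G ∣[k] ModularGroup.S) (heckeDiagMatrix p • τ) :=
      slash_heckeDiagMatrix_apply k hp _ τ
    rw [h3]
    have h4 : (fun m : ℕ => ((p : ℂ) ^ (k - 1) * (sExp p k G).coeff m) •
        Function.Periodic.qParam 1 (τ : ℂ) ^ m) =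
        fun m : ℕ => (p : ℂ) ^ (k - 1) * ((qExpansion (p : ℝ) (G ∣[k] ModularGroup.S)).coeff m •
          Function.Periodic.qParam 1 (τ : ℂ) ^ m) := by
      funext m
      simp only [smul_eq_mul, sExp, mul_assoc]
    rw [h4]
    exact h2
  exact (UpperHalfPlane.qExpansion_coeff_unique
    (ContinuousMap.mk (fricke p k G) hN.hol.continuous) one_pos (hN.analyticAt one_pos)
    hsum n).symm

/-! ### Step D: `G ∣ W = -U_p G` in weight 2 and (T0) -/

/-- **Fricke relation in weight 2**: `G ∣ W + U_p G = 0` for `G ∈ M₂(Γ₀(p))`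
(the trace of `G ∣ W` to level one vanishes). -/
theorem fricke_add_heckeU (p : ℕ) [NeZero p] (hp : p.Prime) (G : ℍ → ℂ)
    (hG : G ∈ MF (Gamma0 p) 2) : fricke p 2 G + heckeU 2 p G = 0 := by
  funext z
  have h := sum_conjFam_eq_zero p hp (fricke p 2 G) (fricke_mem_MF p 2 G hG) z
  rw [Fintype.sum_option] at h
  have h1 : ∀ j : Fin p, conjFam p 2 (fricke p 2 G) (some j) z = (G ∣[(2 : ℤ)] heckeMatrix p j) z := by
    intro j
    show (fricke p 2 G ∣[(2 : ℤ)] (ModularGroup.S * ModularGroup.T ^ (j : ℕ))) z = _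
    rw [fricke_slash_STj p hp.ne_zero 2 G hG]
  have h2 : conjFam p 2 (fricke p 2 G) none z = fricke p 2 G z := rfl
  rw [h2, Finset.sum_congr rfl (fun j _ => h1 j),
    Fin.sum_univ_eq_sum_range (fun j => (G ∣[(2 : ℤ)] heckeMatrix p j) z) p] at h
  rw [Pi.add_apply, heckeU, Finset.sum_apply]
  exact h

/-- **(T0)**: in weight 2 the expansion of `G ∣ S` in `exp (2 π i z / p)` is `-(1/p) U_p` of the
`q`-expansion of `G`. -/
theorem stmt_T0 (p : ℕ) : Stmt_T0 p := by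
  intro hp G hG n
  have : NeZero p := ⟨hp.ne_zero⟩
  have hp' : (p : ℂ) ≠ 0 := by exact_mod_cast hp.ne_zero
  have h1 := qExpansion_fricke_coeff p 2 G hG n
  have h2 : fricke p 2 G = - heckeU 2 p G :=
    eq_neg_of_add_eq_zero_left (fricke_add_heckeU p hp G hG)
  have hG1 := nice_one_of_mem_MF p 2 G hG
  have hU : Nice 1 (heckeU 2 p G) :=
    ⟨periodic_heckeU_comp_ofComplex hG1.per 2 p, mdifferentiable_heckeU hG1.hol 2 p,
      isBoundedAtImInfty_heckeU hG1.bdd 2 p⟩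
  have h3 : (qExpansion 1 (fricke p 2 G)).coeff n = - (qExpansion 1 G).coeff (n * p) := by
    rw [h2, Fermat.Agent.S23.H22.Nice.qExpansion_neg one_pos hU, map_neg]
    have := UpperHalfPlane.qCoeff_heckeU hG1.per hG1.hol hG1.bdd 2 hp.ne_zero n
    unfold ModularFormClass.qCoeff at this
    rw [this]
    rfl
  rw [h3] at h1
  have h4 : ((p : ℂ) ^ ((2 : ℤ) - 1)) = (p : ℂ) := by norm_num
  rw [h4] at h1
  rw [mul_comm p n]
  have h5 : (sExp p 2 G).coeff n = (p : ℂ)⁻¹ * ((p : ℂ) * (sExp p 2 G).coeff n) := by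
    rw [← mul_assoc, inv_mul_cancel₀ hp', one_mul]
  rw [h5, ← h1]
  ring

end Fermat.Agent.S16.H15
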