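import Fermat.Agent.S16.H26_TridDefs
import Fermat.Agent.S23.H96_LevelOne
import Fermat.Agent.S23.H22_Nice
import Fermat.Prelude.Def_ModularForm_HeckeOperatorForms
import Fermat.Prelude.Thm_UpperHalfPlane_qCoeff_heckeT
import Mathlib.NumberTheory.ModularForms.LevelOne.DimensionFormula

/-!
# S16, package TRID (helper26): the `Δ`-test

`deltaTest : Stmt_TRID p → Stmt_DeltaTest p`: if `h ∈ M₂(Γ₀(p))` is a unit constant modulo `ℓ^e`
(`ℓ ≠ p`) then `ℓ^e ∣ p + 1`.

Proof: `F_Δ` (from `TRID`, weight 14, constant term 0) vanishes, so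
`p¹² · (h · V_p Δ)_n = ((U_p h) · Δ)_{pn}`; modulo `ℓ^e` this reads `p¹² τ(n / p) ≡ τ(p n)`.
`n = 1`: `τ(p) ≡ 0`; `n = p`: `τ(p²) ≡ p¹²`; and `τ(p²) = τ(p)² − p¹¹` (`T_p Δ = τ(p) Δ`).
-/

set_option autoImplicit false

open UpperHalfPlane ModularForm CongruenceSubgroup
open scoped MatrixGroups ModularForm Manifold

noncomputable section

namespace Fermat.Agent.S16.H26

open Fermat.Agent.S23

/-- `Δ` as a modular form of level one. -/
def DeltaMF : ModularForm 𝒮ℒ 12 := ModularFormClass.modularForm CuspForm.discriminant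

lemma coe_DeltaMF : (DeltaMF : ℍ → ℂ) = ModularForm.discriminant := rfl

/-- The Ramanujan `τ`-function. -/
def tau (n : ℕ) : ℤ :=
  Classical.choose ((H96.mem_intSeries_iff _).mp H96.qExpansion_discriminant_mem_intSeries n)

lemma coeff_qExpansion_discriminant (n : ℕ) :
    PowerSeries.coeff n (qExpansion 1 ModularForm.discriminant) = (tau n : ℂ) :=
  Classical.choose_spec
    ((H96.mem_intSeries_iff _).mp H96.qExpansion_discriminant_mem_intSeries n)

lemma tau_zero : tau 0 = 0 := by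
  have h := coeff_qExpansion_discriminant 0
  have h0 : PowerSeries.coeff 0 (qExpansion 1 ModularForm.discriminant) = 0 := by
    simpa using CuspFormClass.qExpansion_coeff_zero CuspForm.discriminant one_pos
      one_mem_strictPeriods_SL
  rw [h0] at h
  exact_mod_cast h.symm

lemma tau_one : tau 1 = 1 := by
  have h := coeff_qExpansion_discriminant 1
  rw [discriminant_qExpansion_coeff_one] at h
  exact_mod_cast h.symm

lemma mem_Gamma0_one (γ : SL(2, ℤ)) : γ ∈ Gamma0 1 := by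
  rw [Gamma0_mem]
  exact Subsingleton.elim _ _

lemma mem_coe_Gamma0_one {γ : GL (Fin 2) ℝ} (hγ : γ ∈ 𝒮ℒ) :
    γ ∈ (Gamma0 1 : Subgroup (GL (Fin 2) ℝ)) := by
  obtain ⟨g, rfl⟩ := hγ
  exact ⟨g, mem_Gamma0_one g, rfl⟩

lemma coe_Gamma0_one_le {γ : GL (Fin 2) ℝ} (hγ : γ ∈ (Gamma0 1 : Subgroup (GL (Fin 2) ℝ))) :
    γ ∈ 𝒮ℒ := by
  obtain ⟨g, -, rfl⟩ := hγ
  exact ⟨g, rfl⟩

/-- `T_p Δ` as a modular form of level one. -/
def heckeTDelta {p : ℕ} (hp : p.Prime) : ModularForm 𝒮ℒ 12 where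
  toFun := heckeT 12 p ModularForm.discriminant
  slash_action_eq' γ hγ :=
    heckeT_slash_eq_self_of_mem_Gamma0 (N := 1) 12 hp (by simpa using hp.one_lt.ne')
      (fun γ hγ => SlashInvariantFormClass.slash_action_eq CuspForm.discriminant γ
        (coe_Gamma0_one_le hγ)) γ (mem_coe_Gamma0_one hγ)
  holo' := mdifferentiable_heckeT (ModularFormClass.holo CuspForm.discriminant) 12 p
  bdd_at_cusps' hc := ModularFormClass.isBoundedAt_heckeT CuspForm.discriminant p hc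

lemma coe_heckeTDelta {p : ℕ} (hp : p.Prime) :
    (heckeTDelta hp : ℍ → ℂ) = heckeT 12 p ModularForm.discriminant := rfl

lemma coeff_heckeTDelta {p : ℕ} (hp : p.Prime) (n : ℕ) :
    PowerSeries.coeff n (qExpansion 1 (heckeTDelta hp)) =
      coeffHeckeT 12 p (fun m => (tau m : ℂ)) n := by
  have hA := H22.nice_levelOne CuspForm.discriminant
  have h := UpperHalfPlane.qCoeff_heckeT hA.per hA.hol hA.bdd 12 hp.ne_zero n
  have h2 : ModularFormClass.qCoeff (CuspForm.discriminant : ℍ → ℂ) = fun m => (tau m : ℂ) := by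
    funext m
    exact coeff_qExpansion_discriminant m
  rw [h2] at h
  exact h

/-- A level one form of weight `14` without constant term vanishes. -/
lemma eq_zero_of_weight_fourteen (F : ModularForm 𝒮ℒ 14)
    (h0 : PowerSeries.coeff 0 (qExpansion 1 F) = 0) : F = 0 := by
  have h2 : CuspForm.discriminantEquiv (toCuspForm F h0) = 0 := by
    have : ∀ G : ModularForm 𝒮ℒ (14 - 12), G = 0 := by
      intro G
      have hr : Module.rank ℂ (ModularForm 𝒮ℒ (14 - 12)) = 0 := by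
        rw [show (14 : ℤ) - 12 = 2 by norm_num]
        exact levelOne_weight_two_rank_zero
      exact rank_zero_iff_forall_zero.mp hr G
    exact this _
  have h3 : toCuspForm F h0 = 0 := by
    simpa using h2
  ext z
  have := congrArg (fun G : CuspForm 𝒮ℒ 14 => G z) h3
  simpa [toCuspForm_apply] using this

/-- `τ(p²) = τ(p)² − p¹¹`. -/
theorem tau_sq {p : ℕ} (hp : p.Prime) : tau (p * p) = tau p ^ 2 - (p : ℤ) ^ 11 := by
  have h0 : PowerSeries.coeff 0 (qExpansion 1 (heckeTDelta hp)) = 0 := by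
    rw [coeff_heckeTDelta, coeffHeckeT_apply]
    simp [tau_zero]
  obtain ⟨c, hc⟩ := CuspForm.exists_smul_discriminant_of_weight_eq_twelve
    (toCuspForm (heckeTDelta hp) h0)
  have hfun : (heckeTDelta hp : ℍ → ℂ) = c • ModularForm.discriminant := by
    funext z
    have := congrArg (fun G : CuspForm 𝒮ℒ 12 => G z) hc
    simp only [toCuspForm_apply] at this
    rw [← this]
    rfl
  have hcoef : ∀ n, coeffHeckeT 12 p (fun m => (tau m : ℂ)) n = c * (tau n : ℂ) := by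
    intro n
    have hN : H22.Nice 1 ModularForm.discriminant := H22.nice_levelOne CuspForm.discriminant
    rw [← coeff_heckeTDelta hp, hfun, H22.Nice.qExpansion_smul one_pos hN c,
      PowerSeries.coeff_smul, smul_eq_mul, coeff_qExpansion_discriminant n]
  have h1 := hcoef 1
  rw [coeffHeckeT_of_not_dvd 12 (by simpa using hp.one_lt.ne' : ¬ p ∣ 1), one_mul, tau_one,
    Int.cast_one, mul_one] at h1
  have hp2 := hcoef p
  rw [coeffHeckeT_of_dvd 12 (dvd_refl p), Nat.div_self hp.pos, tau_one, Int.cast_one, mul_one,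
    ← h1] at hp2
  have : ((tau (p * p) : ℤ) : ℂ) = ((tau p ^ 2 - (p : ℤ) ^ 11 : ℤ) : ℂ) := by
    push_cast
    have e : ((p : ℂ) ^ ((12 : ℤ) - 1)) = (p : ℂ) ^ 11 := by
      rw [show ((12 : ℤ) - 1) = ((11 : ℕ) : ℤ) by norm_num, zpow_natCast]
    rw [e] at hp2
    linear_combination hp2
  exact_mod_cast this

/-- A sum over the antidiagonal whose terms with `i ≠ 0` are divisible by `m` is congruent to
the term `(0, n)`. -/
lemma dvd_sum_antidiagonal_sub {m : ℤ} (n : ℕ) (f : ℕ × ℕ → ℤ)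
    (hf : ∀ x ∈ Finset.HasAntidiagonal.antidiagonal n, x.1 ≠ 0 → m ∣ f x) :
    m ∣ (∑ x ∈ Finset.HasAntidiagonal.antidiagonal n, f x) - f (0, n) := by
  have hmem : (0, n) ∈ Finset.HasAntidiagonal.antidiagonal n := by simp
  rw [← Finset.add_sum_erase _ _ hmem, add_sub_cancel_left]
  refine Finset.dvd_sum fun x hx => ?_
  rw [Finset.mem_erase] at hx
  refine hf x hx.2 fun h0 => hx.1 ?_
  have := Finset.HasAntidiagonal.mem_antidiagonal.mp hx.2
  ext
  · exact h0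
  · simp only
    omega

/-- The congruences `p¹² τ(n / p) ≡ τ(p n) mod ℓ^e` obtained from `F_Δ = 0`. -/
theorem tau_congr {p : ℕ} (hT : Stmt_TRID p) (hp : p.Prime) {ℓ e : ℕ} (hℓ : ℓ.Prime)
    (h : ModularForm (Gamma0 p) 2) (hh : IsUnitConstMod p ℓ e h) (n : ℕ) :
    ((ℓ : ℤ) ^ e) ∣ (p : ℤ) ^ 12 * (if p ∣ n then tau (n / p) else 0) - tau (p * n) := by
  obtain ⟨⟨u, hu, hu0⟩, hk⟩ := hh
  choose! a ha using hk
  set hs : ℕ → ℤ := fun n => if n = 0 then u else (ℓ : ℤ) ^ e * a n with hhs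
  have hcoef : ∀ n, PowerSeries.coeff n (qExpansion 1 h) = (hs n : ℂ) := by
    intro n
    by_cases hn : n = 0
    · subst hn
      simpa [hhs, ModularFormClass.qCoeff] using hu0
    · have := ha n (Nat.one_le_iff_ne_zero.mpr hn)
      simp only [ModularFormClass.qCoeff] at this
      rw [this]
      simp [hhs, hn]
  have hdvd : ∀ n, n ≠ 0 → ((ℓ : ℤ) ^ e) ∣ hs n := by
    intro n hn
    simp only [hhs, if_neg hn]
    exact dvd_mul_right _ _
  have hs0 : hs 0 = u := by simp [hhs]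
  obtain ⟨F, hF⟩ := hT hp h 12 DeltaMF
  have hF0 : PowerSeries.coeff 0 (qExpansion 1 F) = 0 := by
    rw [hF, map_sub, PowerSeries.coeff_smul, coeff_Useries, mul_zero, PowerSeries.coeff_mul,
      PowerSeries.coeff_mul, Finset.Nat.antidiagonal_zero, Finset.sum_singleton, Finset.sum_singleton,
      PowerSeries.coeff_expand, coe_DeltaMF]
    simp [coeff_qExpansion_discriminant, tau_zero]
  have hFz : F = 0 := eq_zero_of_weight_fourteen F hF0
  have hq : qExpansion 1 F = 0 := by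
    rw [hFz]
    exact UpperHalfPlane.qExpansion_zero 1
  rw [hq] at hF
  have hn := congrArg (PowerSeries.coeff n) hF
  rw [map_zero, map_sub, PowerSeries.coeff_smul, coeff_Useries, PowerSeries.coeff_mul,
    PowerSeries.coeff_mul, coe_DeltaMF] at hn
  simp only [coeff_Useries, hcoef, coeff_qExpansion_discriminant, PowerSeries.coeff_expand,
    smul_eq_mul] at hn
  -- the integer identity
  have hint : (p : ℤ) ^ 12 * (∑ x ∈ Finset.HasAntidiagonal.antidiagonal n,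
        hs x.1 * (if p ∣ x.2 then tau (x.2 / p) else 0)) =
      ∑ x ∈ Finset.HasAntidiagonal.antidiagonal (p * n), hs (p * x.1) * tau x.2 := by
    have : (((p : ℤ) ^ 12 * (∑ x ∈ Finset.HasAntidiagonal.antidiagonal n,
        hs x.1 * (if p ∣ x.2 then tau (x.2 / p) else 0)) : ℤ) : ℂ) =
      ((∑ x ∈ Finset.HasAntidiagonal.antidiagonal (p * n), hs (p * x.1) * tau x.2 : ℤ) : ℂ) := by
      push_cast
      have e1 : ((p : ℂ) ^ (12 : ℤ)) = (p : ℂ) ^ 12 := by
        rw [show (12 : ℤ) = ((12 : ℕ) : ℤ) by norm_num, zpow_natCast]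
      rw [e1] at hn
      linear_combination -hn
    exact_mod_cast this
  have h1 := dvd_sum_antidiagonal_sub (m := (ℓ : ℤ) ^ e) n
    (fun x => hs x.1 * (if p ∣ x.2 then tau (x.2 / p) else 0))
    (fun x _ hx => Dvd.dvd.mul_right (hdvd x.1 hx) _)
  have h2 := dvd_sum_antidiagonal_sub (m := (ℓ : ℤ) ^ e) (p * n)
    (fun x => hs (p * x.1) * tau x.2)
    (fun x _ hx => Dvd.dvd.mul_right (hdvd (p * x.1) (mul_ne_zero hp.ne_zero hx)) _)
  simp only [mul_zero, hs0] at h1 h2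
  have h3 : ((ℓ : ℤ) ^ e) ∣ u * ((p : ℤ) ^ 12 * (if p ∣ n then tau (n / p) else 0) -
      tau (p * n)) := by
    have h4 := h2.sub (Dvd.dvd.mul_left h1 ((p : ℤ) ^ 12))
    have e3 : u * ((p : ℤ) ^ 12 * (if p ∣ n then tau (n / p) else 0) - tau (p * n)) =
        (∑ x ∈ Finset.HasAntidiagonal.antidiagonal (p * n), hs (p * x.1) * tau x.2) -
          u * tau (p * n) -
        (p : ℤ) ^ 12 * ((∑ x ∈ Finset.HasAntidiagonal.antidiagonal n,
          hs x.1 * (if p ∣ x.2 then tau (x.2 / p) else 0)) -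
          u * (if p ∣ n then tau (n / p) else 0)) := by
      rw [← hint]; ring
    rw [e3]
    exact h4
  have hcop : IsCoprime ((ℓ : ℤ) ^ e) u := by
    apply IsCoprime.pow_left
    rw [Int.isCoprime_iff_gcd_eq_one]
    exact Int.isCoprime_iff_gcd_eq_one.mp
      ((Prime.coprime_iff_not_dvd (Nat.prime_iff_prime_int.mp hℓ)).mpr hu)
  exact hcop.dvd_of_dvd_mul_left h3

/-- **The `Δ`-test.** -/
theorem deltaTest {p : ℕ} (hT : Stmt_TRID p) : Stmt_DeltaTest p := by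
  intro hp ℓ e hℓ hne h hh
  have hp1 : ¬ p ∣ 1 := by simpa using hp.one_lt.ne'
  have h1 := tau_congr hT hp hℓ h hh 1
  rw [if_neg hp1, mul_zero, zero_sub, mul_one, dvd_neg] at h1
  have h2 := tau_congr hT hp hℓ h hh p
  rw [if_pos (dvd_refl p), Nat.div_self hp.pos, tau_one, mul_one, tau_sq hp] at h2
  have h3 : ((ℓ : ℤ) ^ e) ∣ (p : ℤ) ^ 11 * ((p : ℤ) + 1) := by
    have e3 : (p : ℤ) ^ 11 * ((p : ℤ) + 1) =
        ((p : ℤ) ^ 12 - (tau p ^ 2 - (p : ℤ) ^ 11)) + tau p * tau p := by ring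
    rw [e3]
    exact dvd_add h2 (Dvd.dvd.mul_right h1 _)
  have hcop : IsCoprime ((ℓ : ℤ) ^ e) ((p : ℤ) ^ 11) := by
    apply IsCoprime.pow
    exact Nat.isCoprime_iff_coprime.mpr ((Nat.coprime_primes hℓ hp).mpr hne)
  have h4 := hcop.dvd_of_dvd_mul_left h3
  exact_mod_cast h4

/-- The core statement at `ℓ ≠ p` for every exponent `e` with `ℓ ^ e ∤ p + 1`. -/
theorem ubCore_of_not_dvd {p ℓ e : ℕ} (hT : Stmt_TRID p) (hp : p.Prime) (hℓ : ℓ.Prime)
    (hne : ℓ ≠ p) (hnd : ¬ ℓ ^ e ∣ p + 1) : Stmt_UBcore p ℓ e :=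
  fun h hh => hnd (deltaTest hT hp ℓ e hℓ hne h hh)

/-- If `ℓ ^ k` divides `p + 1` and `12` then `k + 1 ≤ ubExp p ℓ`. -/
lemma succ_le_ubExp {p ℓ k : ℕ} (hℓ : ℓ.Prime) (h1 : ℓ ^ k ∣ p + 1) (h2 : ℓ ^ k ∣ 12) :
    k + 1 ≤ ubExp p ℓ := by
  have hg : Nat.gcd (p + 1) 12 ≠ 0 := by
    intro h0
    have := Nat.eq_zero_of_gcd_eq_zero_right h0
    omega
  have := (hℓ.pow_dvd_iff_le_factorization hg).mp (Nat.dvd_gcd h1 h2)
  unfold ubExp
  omega

/-- The core statement at `ℓ ≠ p` with the exponent `ubExp p ℓ`, whenever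
`v_ℓ(p + 1) ≤ v_ℓ(12)`: here `ℓ ^ k` exactly divides `p + 1`, and `ℓ ^ k ∣ 12`. -/
theorem ubCore_ubExp_of_exact {p ℓ k : ℕ} (hT : Stmt_TRID p) (hp : p.Prime) (hℓ : ℓ.Prime)
    (hne : ℓ ≠ p) (h1 : ℓ ^ k ∣ p + 1) (h2 : ℓ ^ k ∣ 12) (h3 : ¬ ℓ ^ (k + 1) ∣ p + 1) :
    Stmt_UBcore p ℓ (ubExp p ℓ) :=
  ubCore_of_not_dvd hT hp hℓ hne fun hd =>
    h3 ((pow_dvd_pow ℓ (succ_le_ubExp hℓ h1 h2)).trans hd)

/-- `ℓ ∤ p + 1` (all `ℓ ≥ 5` prime to `p + 1`; `ℓ = 3`, `p ≡ 1 mod 3`). -/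
theorem ubCore_ubExp_of_not_dvd {p ℓ : ℕ} (hT : Stmt_TRID p) (hp : p.Prime) (hℓ : ℓ.Prime)
    (hne : ℓ ≠ p) (h : ¬ ℓ ∣ p + 1) : Stmt_UBcore p ℓ (ubExp p ℓ) :=
  ubCore_ubExp_of_exact (k := 0) hT hp hℓ hne (by simp) (by simp) (by simpa using h)

/-- `ℓ = 2`, `p ≡ 1 mod 4`. -/
theorem ubCore_two_of_one_mod_four {p : ℕ} (hT : Stmt_TRID p) (hp : p.Prime)
    (h : p % 4 = 1) : Stmt_UBcore p 2 (ubExp p 2) :=
  ubCore_ubExp_of_exact (k := 1) hT hp Nat.prime_two (by rintro rfl; omega)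
    (by rw [pow_one]; omega) (by norm_num) (by norm_num; omega)

/-- `ℓ = 2`, `p ≡ 3 mod 8`. -/
theorem ubCore_two_of_three_mod_eight {p : ℕ} (hT : Stmt_TRID p) (hp : p.Prime)
    (h : p % 8 = 3) : Stmt_UBcore p 2 (ubExp p 2) :=
  ubCore_ubExp_of_exact (k := 2) hT hp Nat.prime_two (by rintro rfl; omega)
    (by norm_num; omega) (by norm_num) (by norm_num; omega)

/-- `ℓ = 3`, `p ≡ 2, 5 mod 9`. -/
theorem ubCore_three_of_not_nine {p : ℕ} (hT : Stmt_TRID p) (hp : p.Prime)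
    (h : p % 3 = 2) (h9 : p % 9 ≠ 8) : Stmt_UBcore p 3 (ubExp p 3) :=
  ubCore_ubExp_of_exact (k := 1) hT hp Nat.prime_three (by rintro rfl; omega)
    (by rw [pow_one]; omega) (by norm_num) (by norm_num; omega)

end Fermat.Agent.S16.H26
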