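import Fermat.Agent.S16.H79_ConjDefs
import Fermat.Agent.S23.H83_QExp
import Fermat.Prelude.Thm_UpperHalfPlane_qExpansion_coeff_nat_mul

/-!
# S16, package CONJ, part 1 (helper79): the conjugates and their `t`-expansions

* `nice_slash` : for `G ∈ MF (Gamma0 p) k` every translate `G ∣[k] γ` is holomorphic,
  `p`-periodic and bounded at `i∞`;
* `qExpansion_slash_mul_T_pow` : `qExpansion p (G ∣[k] (γ * T ^ j)) = rescale (ζ ^ j) (…)`;
* `qExpansion_natCast_eq_expand` : `qExpansion p G = expand p (qExpansion 1 G)`;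
* `stmt_conjExp : Stmt_conjExp p`.
-/

set_option autoImplicit false

open UpperHalfPlane ModularForm CongruenceSubgroup Polynomial Function
open scoped MatrixGroups ModularForm Manifold

noncomputable section

namespace Fermat.Agent.S16.H79

open Fermat.Agent.S20.H74 (MF mdiff_slash)
open Fermat.Agent.S23.H22 (Nice)

lemma denom_T_zpow (n : ℤ) (z : ℍ) : denom (ModularGroup.T ^ n : SL(2, ℤ)) z = 1 := by
  rw [ModularGroup.denom_apply, ModularGroup.coe_T_zpow]
  simp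

/-- Slash by `T ^ n` is translation by `n`. -/
lemma slash_T_zpow_apply (k : ℤ) (f : ℍ → ℂ) (n : ℤ) (z : ℍ) :
    (f ∣[k] (ModularGroup.T ^ n)) z = f ((n : ℝ) +ᵥ z) := by
  rw [SL_slash_apply, UpperHalfPlane.modular_T_zpow_smul]
  have := denom_T_zpow n z
  rw [this]
  simp

/-- Conjugates of `T ^ (p n)` lie in `Γ₀(p)`. -/
lemma conj_T_zpow_mem_Gamma0 (p : ℕ) (γ : SL(2, ℤ)) (n : ℤ) :
    γ * ModularGroup.T ^ ((p : ℤ) * n) * γ⁻¹ ∈ Gamma0 p := by
  rw [Gamma0_mem]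
  have h : ((γ * ModularGroup.T ^ ((p : ℤ) * n) * γ⁻¹ : SL(2, ℤ)) : Matrix (Fin 2) (Fin 2) ℤ) 1 0
      = -((p : ℤ) * n * (γ 1 0) ^ 2) := by
    rw [Matrix.SpecialLinearGroup.coe_mul, Matrix.SpecialLinearGroup.coe_mul,
      ModularGroup.coe_T_zpow, Matrix.SpecialLinearGroup.coe_inv, Matrix.adjugate_fin_two]
    simp [Matrix.mul_apply, Fin.sum_univ_two]
    ring
  rw [h]
  push_cast
  simp

variable {p : ℕ} {k : ℤ} {G : ℍ → ℂ}

/-- Every translate of a form on `Γ₀(p)` is invariant under `T ^ p`. -/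
lemma slash_slash_T_pow (hG : G ∈ MF (Gamma0 p) k) (γ : SL(2, ℤ)) :
    (G ∣[k] γ) ∣[k] (ModularGroup.T ^ (p : ℤ)) = G ∣[k] γ := by
  rw [← SlashAction.slash_mul]
  have h : γ * ModularGroup.T ^ (p : ℤ) = (γ * ModularGroup.T ^ ((p : ℤ) * 1) * γ⁻¹) * γ := by
    rw [mul_one]; group
  rw [h, SlashAction.slash_mul, hG.2.1 _ (conj_T_zpow_mem_Gamma0 p γ 1)]

lemma slash_apply_vadd (hG : G ∈ MF (Gamma0 p) k) (γ : SL(2, ℤ)) (z : ℍ) :
    (G ∣[k] γ) ((p : ℝ) +ᵥ z) = (G ∣[k] γ) z := by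
  have h1 := slash_T_zpow_apply k (G ∣[k] γ) (p : ℤ) z
  rw [slash_slash_T_pow hG γ] at h1
  rw [h1]
  simp

/-- Every translate of a form on `Γ₀(p)` is holomorphic, `p`-periodic and bounded at `i∞`. -/
theorem nice_slash (hG : G ∈ MF (Gamma0 p) k) (γ : SL(2, ℤ)) : Nice (p : ℝ) (G ∣[k] γ) where
  per := by
    have := Fermat.Agent.S23.H83.periodic_comp_ofComplex_of_coe_add (g := G ∣[k] γ) p (by
      intro τ τ' h
      have : τ' = (p : ℝ) +ᵥ τ := by
        ext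
        rw [h, UpperHalfPlane.coe_vadd]
        push_cast
        ring
      rw [this, slash_apply_vadd hG γ])
    simpa using this
  hol := mdiff_slash hG.1 γ
  bdd := hG.2.2 γ

/-- A form on `Γ₀(p)` is `1`-periodic. -/
theorem nice_one (hG : G ∈ MF (Gamma0 p) k) : Nice (1 : ℝ) G where
  per := by
    have := Fermat.Agent.S23.H83.periodic_comp_ofComplex_of_coe_add (g := G) 1 (by
      intro τ τ' h
      have hτ : τ' = ((1 : ℤ) : ℝ) +ᵥ τ := by
        ext
        rw [h, UpperHalfPlane.coe_vadd]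
        push_cast
        ring
      have hT : ModularGroup.T ^ (1 : ℤ) ∈ Gamma0 p := by
        rw [Gamma0_mem, ModularGroup.coe_T_zpow]
        simp
      rw [hτ, ← slash_T_zpow_apply k G 1 τ, hG.2.1 _ hT])
    simpa using this
  hol := hG.1
  bdd := by simpa using hG.2.2 1

lemma natCast_pos_real (hp : p ≠ 0) : (0 : ℝ) < (p : ℝ) :=
  Nat.cast_pos.mpr (Nat.pos_of_ne_zero hp)

/-- For a `1`-periodic function the `t`-expansion is the `q`-expansion with `q = t ^ p`. -/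
theorem qExpansion_natCast_eq_expand (hp : p ≠ 0) {F : ℍ → ℂ} (hF : Nice (1 : ℝ) F) :
    qExpansion (p : ℝ) F = PowerSeries.expand p hp (qExpansion 1 F) := by
  ext n
  have := UpperHalfPlane.qExpansion_coeff_nat_mul (h := 1) one_pos hF.per hF.hol hF.bdd
    (Nat.pos_of_ne_zero hp) n
  rw [mul_one] at this
  rw [this, PowerSeries.coeff_expand]

/-- `𝕢_p (z + j) = ζ ^ j * 𝕢_p z`. -/
lemma qParam_vadd (hp : p ≠ 0) (j : ℕ) (z : ℍ) :
    Periodic.qParam (p : ℝ) ((((j : ℤ) : ℝ) +ᵥ z : ℍ) : ℂ) =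
      zetaP p ^ j * Periodic.qParam (p : ℝ) (z : ℂ) := by
  have hp' : (p : ℂ) ≠ 0 := by exact_mod_cast hp
  rw [UpperHalfPlane.coe_vadd, zetaP, Periodic.qParam, Periodic.qParam, ← Complex.exp_nat_mul,
    ← Complex.exp_add]
  congr 1
  push_cast
  field_simp

/-- Uniqueness of the expansion, for plain functions. -/
lemma qExpansion_coeff_unique_of_nice {h : ℝ} (hh : 0 < h) {F : ℍ → ℂ} (hF : Nice h F)
    {c : ℕ → ℂ}
    (hsum : ∀ τ : ℍ, HasSum (fun m : ℕ => c m • Periodic.qParam h (τ : ℂ) ^ m) (F τ)) (m : ℕ) :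
    c m = (qExpansion h F).coeff m :=
  UpperHalfPlane.qExpansion_coeff_unique (ContinuousMap.mk F hF.hol.continuous) hh
    (hF.analyticAt hh) hsum m

/-- The `t`-expansion of `G ∣[k] (γ T^j)`. -/
theorem qExpansion_slash_mul_T_pow (hp : p ≠ 0) (hG : G ∈ MF (Gamma0 p) k) (γ : SL(2, ℤ))
    (j : ℕ) :
    qExpansion (p : ℝ) (G ∣[k] (γ * ModularGroup.T ^ j)) =
      PowerSeries.rescale (zetaP p ^ j) (qExpansion (p : ℝ) (G ∣[k] γ)) := by
  have hpos := natCast_pos_real hp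
  have hN := nice_slash hG (γ * ModularGroup.T ^ j)
  have hγ := nice_slash hG γ
  have hsum : ∀ τ : ℍ, HasSum (fun m : ℕ =>
      ((zetaP p ^ j) ^ m * (qExpansion (p : ℝ) (G ∣[k] γ)).coeff m) •
        Periodic.qParam (p : ℝ) (τ : ℂ) ^ m) ((G ∣[k] (γ * ModularGroup.T ^ j)) τ) := by
    intro τ
    have h1 : (G ∣[k] (γ * ModularGroup.T ^ j)) τ = (G ∣[k] γ) ((((j : ℤ) : ℝ)) +ᵥ τ) := by
      rw [SlashAction.slash_mul, ← zpow_natCast, slash_T_zpow_apply]
    rw [h1]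
    have h2 := hasSum_qExpansion hpos hγ.per hγ.hol hγ.bdd ((((j : ℤ) : ℝ)) +ᵥ τ)
    have h3 := qParam_vadd hp j τ
    rw [h3] at h2
    have h4 : (fun m : ℕ => ((zetaP p ^ j) ^ m * (qExpansion (p : ℝ) (G ∣[k] γ)).coeff m) •
        Periodic.qParam (p : ℝ) (τ : ℂ) ^ m) =
        fun m : ℕ => (qExpansion (p : ℝ) (G ∣[k] γ)).coeff m •
          (zetaP p ^ j * Periodic.qParam (p : ℝ) (τ : ℂ)) ^ m := by
      funext m
      simp only [smul_eq_mul]
      ring
    rw [h4]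
    exact h2
  have key := qExpansion_coeff_unique_of_nice hpos hN hsum
  ext m
  rw [PowerSeries.coeff_rescale]
  exact (key m).symm

/-- **CONJ-1**. -/
theorem stmt_conjExp (p : ℕ) : Stmt_conjExp p := by
  intro hp k G hG c
  cases c with
  | none =>
    refine ⟨?_, ?_⟩
    · have := nice_slash hG 1
      simpa [conjFam] using this
    · exact qExpansion_natCast_eq_expand hp.ne_zero (nice_one hG)
  | some j =>
    refine ⟨nice_slash hG _, ?_⟩
    exact qExpansion_slash_mul_T_pow hp.ne_zero hG ModularGroup.S j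

end Fermat.Agent.S16.H79
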