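import Fermat.Agent.S16.Defs2
import Mathlib.NumberTheory.ModularForms.QExpansion
import Mathlib.NumberTheory.ModularForms.LevelOne.Basic
import Mathlib.RingTheory.PowerSeries.Expand

/-!
# S16, upper bound at `ℓ = 3` (and the norm–Sturm principle): interfaces (helper32)

* `cuspExp p k F` : the expansion of `F ∣[k] S` in `t = e^{2πiz/p}` (expansion at the cusp `0`);
* `zetaP p = e^{2πi/p}`;
* `Stmt_T0 p` : for `h ∈ M₂(Γ₀(p))`: `cuspExp h = -(1/p) U_p(h)` (from `h ∣ W = - U_p h`);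
* `Stmt_NormExp p k` : the norm of `F ∈ M_k(Γ₀(p))` to level one, with its `q`-expansion:
  `N(F)(q) = F(q) · ∏_{j<p} (cuspExp F)(ζ^j t)`, stated after `t = q^{1/p}`, i.e. after
  `PowerSeries.expand p`.
-/

set_option autoImplicit false

noncomputable section

namespace Fermat.Agent.S16.H32

open UpperHalfPlane ModularForm ModularFormClass CongruenceSubgroup
open scoped MatrixGroups ModularForm Real

/-- The expansion at the cusp `0`: the `t`-expansion (`t = e^{2πiz/p}`) of `F ∣[k] S`. -/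
def cuspExp (p : ℕ) (k : ℤ) (F : ℍ → ℂ) : PowerSeries ℂ :=
  qExpansion (p : ℝ) (F ∣[k] ModularGroup.S)

/-- The root of unity `e^{2πi/p}`. -/
def zetaP (p : ℕ) : ℂ := Complex.exp (2 * π * Complex.I / p)

/-- `T0`: for `h` of weight 2 on `Γ₀(p)`, the expansion at the cusp `0` is `-(1/p) U_p h`. -/
def Stmt_T0 (p : ℕ) : Prop :=
  ∀ h : ModularForm (Gamma0 p) 2, ∀ n : ℕ,
    (cuspExp p 2 h).coeff n = -(p : ℂ)⁻¹ * (qExpansion 1 h).coeff (p * n)

/-- `NORM`: the norm to level one of a form of weight `k` on `Γ₀(p)` and its `q`-expansion. -/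
def Stmt_NormExp (p : ℕ) (k : ℤ) : Prop :=
  ∀ (hp : p ≠ 0) (F : ModularForm (Gamma0 p) k), ∃ N : ModularForm 𝒮ℒ (k * (p + 1)),
    PowerSeries.expand p hp (qExpansion 1 N) =
      PowerSeries.expand p hp (qExpansion 1 F) *
        ∏ j ∈ Finset.range p, PowerSeries.rescale (zetaP p ^ j) (cuspExp p k F)

end Fermat.Agent.S16.H32
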