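import Fermat.Agent.S16.H8_Sym
import Fermat.Agent.S16.H79_ConjExp
import Fermat.Agent.S16.H32_NormDefs

/-!
# S16, package CONJ: final statements and adapters (helper8)

* `stmt_symLevelOne p : H79.Stmt_symLevelOne p`, `stmt_norm p : H79.Stmt_norm p`,
  `stmt_trace p : H79.Stmt_trace p` (unconditional: `H79.stmt_conjExp` + `H8_Sym.lean`);
* `stmt_NormExp (hp : p.Prime) (k : ℤ) : H32.Stmt_NormExp p k` (the shape used by UB3).
-/

set_option autoImplicit false

open UpperHalfPlane ModularForm CongruenceSubgroup Polynomial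
open scoped MatrixGroups ModularForm Manifold

noncomputable section

namespace Fermat.Agent.S16.H8

open Fermat.Agent.S16.H79

theorem stmt_symLevelOne (p : ℕ) : Stmt_symLevelOne p :=
  symLevelOne_of_conjExp p (stmt_conjExp p)

theorem stmt_norm (p : ℕ) : Stmt_norm p := norm_of_conjExp p (stmt_conjExp p)

theorem stmt_trace (p : ℕ) : Stmt_trace p := trace_of_conjExp p (stmt_conjExp p)

/-- The norm in the shape of `H32_NormDefs.lean`. -/
theorem stmt_NormExp {p : ℕ} (hp : p.Prime) (k : ℤ) : Fermat.Agent.S16.H32.Stmt_NormExp p k := by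
  intro hp0 F
  have : NeZero p := ⟨hp.ne_zero⟩
  have hF : (⇑F : ℍ → ℂ) ∈ Fermat.Agent.S20.H74.MF (Gamma0 p) k :=
    Fermat.Agent.S20.H74.coe_mem_MF rfl F
  obtain ⟨N, -, hN⟩ := stmt_norm p hp k F hF
  refine ⟨N, ?_⟩
  rw [hN, Fintype.prod_option]
  simp only [expFam]
  congr 1
  exact Fin.prod_univ_eq_prod_range
    (fun j => PowerSeries.rescale (zetaP p ^ j) (sExp p k (⇑F : ℍ → ℂ))) p

end Fermat.Agent.S16.H8
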