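import Fermat.Agent.S16.H26_Trid
import Fermat.Agent.S16.H26_DeltaTest
import Fermat.Agent.S16.H15_T0
import Fermat.Agent.S16.H79_ConjExp
import Fermat.Agent.S16.H8_NormAdapt

/-!
# S16, package TRID (helper26): unconditional statements

* `stmt_TRID p : Stmt_TRID p` (trace identity), from `H79.stmt_conjExp`, `H8.stmt_trace`,
  `H15.stmt_T0`;
* `stmt_DeltaTest p : Stmt_DeltaTest p`;
* the cases of `Stmt_UBcore p ℓ (ubExp p ℓ)` which the `Δ`-test decides.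
-/

set_option autoImplicit false

namespace Fermat.Agent.S16.H26

/-- The trace identity, unconditionally. -/
theorem stmt_TRID (p : ℕ) : Stmt_TRID p :=
  trid (Fermat.Agent.S16.H79.stmt_conjExp p) (Fermat.Agent.S16.H8.stmt_trace p)
    (Fermat.Agent.S16.H15.stmt_T0 p)

/-- The `Δ`-test, unconditionally. -/
theorem stmt_DeltaTest (p : ℕ) : Stmt_DeltaTest p := deltaTest (stmt_TRID p)

/-- `ℓ ≠ p`, `ℓ ∤ p + 1`. -/
theorem stmt_UBcore_of_not_dvd {p ℓ : ℕ} (hp : p.Prime) (hℓ : ℓ.Prime) (hne : ℓ ≠ p)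
    (h : ¬ ℓ ∣ p + 1) : Stmt_UBcore p ℓ (ubExp p ℓ) :=
  ubCore_ubExp_of_not_dvd (stmt_TRID p) hp hℓ hne h

/-- `ℓ = 2`, `p ≡ 1 mod 4`. -/
theorem stmt_UBcore_two_of_one_mod_four {p : ℕ} (hp : p.Prime) (h : p % 4 = 1) :
    Stmt_UBcore p 2 (ubExp p 2) :=
  ubCore_two_of_one_mod_four (stmt_TRID p) hp h

/-- `ℓ = 2`, `p ≡ 3 mod 8`. -/
theorem stmt_UBcore_two_of_three_mod_eight {p : ℕ} (hp : p.Prime) (h : p % 8 = 3) :
    Stmt_UBcore p 2 (ubExp p 2) :=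
  ubCore_two_of_three_mod_eight (stmt_TRID p) hp h

/-- `ℓ = 3`, `p ≡ 2, 5 mod 9`. -/
theorem stmt_UBcore_three_of_not_nine {p : ℕ} (hp : p.Prime) (h : p % 3 = 2) (h9 : p % 9 ≠ 8) :
    Stmt_UBcore p 3 (ubExp p 3) :=
  ubCore_three_of_not_nine (stmt_TRID p) hp h h9

end Fermat.Agent.S16.H26
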