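import Fermat.Agent.S16.H32_NormDefs
import Mathlib.NumberTheory.ModularForms.EisensteinSeries.Basic
import Mathlib.NumberTheory.ModularForms.LevelOne.GradedRing

/-!
# S16, upper bound at `ℓ = 3`: the interface `CE4` (helper32)

`Stmt_CE4 p` : for `h ∈ M₂(Γ₀(p))` and `a b : ℂ` the form `F = a h² - b E₄ ∈ M₄(Γ₀(p))`, with its
expansions at both cusps.
-/

set_option autoImplicit false

noncomputable section

namespace Fermat.Agent.S16.H32

open UpperHalfPlane ModularForm ModularFormClass CongruenceSubgroup EisensteinSeries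
open scoped MatrixGroups ModularForm Real

/-- `CE4`: the form `a h² - b E₄` of weight 4 on `Γ₀(p)` with its two expansions. -/
def Stmt_CE4 (p : ℕ) : Prop :=
  ∀ (hp : p ≠ 0) (h : ModularForm (Gamma0 p) 2) (a b : ℂ), ∃ F : ModularForm (Gamma0 p) 4,
    qExpansion 1 F = a • (qExpansion 1 h) ^ 2 - b • qExpansion 1 E₄ ∧
    cuspExp p 4 F = a • (cuspExp p 2 h) ^ 2 - b • PowerSeries.expand p hp (qExpansion 1 E₄)

end Fermat.Agent.S16.H32
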