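import Fermat.Agent.S16.H45_CuspExp
import Fermat.Agent.S16.H32_UB3Defs

/-!
# S16, package CE4 (helper45): the form `F = a • h ^ 2 - b • E₄` with both expansions

`stmt_CE4 p : H32.Stmt_CE4 p` : for `h ∈ M₂(Γ₀(p))` and `a b : ℂ` there is
`F ∈ M₄(Γ₀(p))` with `qExpansion 1 F = a • (qExpansion 1 h) ^ 2 - b • qExpansion 1 E₄` and
`cuspExp p 4 F = a • (cuspExp p 2 h) ^ 2 - b • expand p (qExpansion 1 E₄)`.
-/

set_option autoImplicit false

open UpperHalfPlane ModularForm CongruenceSubgroup Function EisensteinSeries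
open scoped MatrixGroups ModularForm Manifold

noncomputable section

namespace Fermat.Agent.S16.H45

open Fermat.Agent.S20.H74 (MF)

theorem cuspExp_eq (p : ℕ) (k : ℤ) (F : ℍ → ℂ) :
    Fermat.Agent.S16.H32.cuspExp p k F = cuspExp p k F := rfl

/-- General version: `F = a • h ^ 2 - b • E` for `h` of weight `k` on `Γ₀(N)` and `E` of level
one and weight `2 k`. -/
theorem exists_sq_sub_levelOne (N : ℕ) [NeZero N] {k m : ℤ} (hm : m = k + k)
    (h : ModularForm (Gamma0 N) k) (E : ModularForm 𝒮ℒ m) (a b : ℂ) :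
    ∃ F : ModularForm (Gamma0 N) m,
      (⇑F : ℍ → ℂ) = a • ((⇑h : ℍ → ℂ) * ⇑h) - b • (⇑E : ℍ → ℂ) ∧
      qExpansion 1 F = a • (qExpansion 1 h) ^ 2 - b • qExpansion 1 E ∧
      cuspExp N m F = a • (cuspExp N k h) ^ 2
        - b • PowerSeries.expand N (NeZero.ne N) (qExpansion 1 E) := by
  have hh : (⇑h : ℍ → ℂ) ∈ MF (Gamma0 N) k := coe_mem_MF_Gamma0 N h
  have hE1 : (⇑E : ℍ → ℂ) ∈ MF ⊤ m := Fermat.Agent.S20.H74.coe_mem_MF_top E
  have hE : (⇑E : ℍ → ℂ) ∈ MF (Gamma0 N) m := MF_levelOne hE1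
  have hh2 : (⇑h : ℍ → ℂ) * ⇑h ∈ MF (Gamma0 N) m := MF_mul' hh hh hm
  have hah2 : a • ((⇑h : ℍ → ℂ) * ⇑h) ∈ MF (Gamma0 N) m := Submodule.smul_mem _ a hh2
  have hbE : b • (⇑E : ℍ → ℂ) ∈ MF (Gamma0 N) m := Submodule.smul_mem _ b hE
  obtain ⟨F, hF⟩ := exists_modularForm_Gamma0 N (Submodule.sub_mem _ hah2 hbE)
  refine ⟨F, hF, ?_, ?_⟩
  · rw [hF, qExp_sub N hah2 hbE, qExp_smul N hh2, qExp_smul N hE, qExp_mul N hh hh, sq]
  · rw [hF, cuspExp_sub N hah2 hbE, cuspExp_smul N hh2, cuspExp_smul N hE,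
      cuspExp_mul' N hh hh hm, cuspExp_levelOne N hE1, sq]

/-- **CE4** (interface of helper32). -/
theorem stmt_CE4 (p : ℕ) : Fermat.Agent.S16.H32.Stmt_CE4 p := by
  intro hp h a b
  have : NeZero p := ⟨hp⟩
  obtain ⟨F, -, h1, h2⟩ := exists_sq_sub_levelOne p (k := 2) (m := 4) (by norm_num) h E₄ a b
  exact ⟨F, h1, h2⟩

end Fermat.Agent.S16.H45
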