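import Fermat.Agent.S16.H55_RhoInt
import Fermat.Agent.S16.H79_ConjDefs
import Fermat.Agent.S23.H22_SymPoly
import Mathlib.Algebra.Polynomial.Lifts
import Mathlib.RingTheory.IntegralClosure.IsIntegral.Basic

/-!
# S16, package RHO-INT (helper55), part (b): values of the conjugates at a zero of `E₄`

`p` prime, `A` a (function level) modular form of weight `12 m` on `Γ₀(p)`, `O` a subring of `ℂ`
containing all coefficients of the `t`-expansions `expFam` of the `p + 1` conjugates of `A`.
Then for every zero `z₀` of `E₄` and every conjugate `A_c`, the number `A_c z₀ / Δ z₀ ^ m` is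
integral over `O`.  The symmetric function statement `H79.Stmt_symLevelOne p` is a hypothesis.
-/

set_option autoImplicit false

noncomputable section

namespace Fermat.Agent.S16.H55

open UpperHalfPlane ModularForm EisensteinSeries ModularFormClass CongruenceSubgroup Polynomial
open scoped MatrixGroups

open Fermat.Agent.S20.H74 (MF)

/-- A product of linear polynomials `X + C e_c` with all `e_c` in a subring `S` has all its
coefficients in `S`. -/
theorem coeff_prod_X_add_C_mem {R : Type*} [CommRing R] (S : Subring R) {ι : Type*}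
    (s : Finset ι) (e : ι → R) (he : ∀ c ∈ s, e c ∈ S) (n : ℕ) :
    (∏ c ∈ s, (X + C (e c))).coeff n ∈ S := by
  classical
  have h : (∏ c ∈ s, (X + C (e c)) : R[X]) ∈ Polynomial.lifts S.subtype := by
    refine Subsemiring.prod_mem _ fun c hc => ?_
    refine Subsemiring.add_mem _ (Polynomial.X_mem_lifts _) ?_
    exact Polynomial.C'_mem_lifts ⟨⟨e c, he c hc⟩, rfl⟩
  rw [Polynomial.lifts_iff_coeff_lifts] at h
  obtain ⟨x, hx⟩ := h n
  rw [← hx]
  exact x.2

/-- **RHO-INT (b).** -/
theorem isIntegral_conj_value (p : ℕ) (hp : p.Prime)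
    (hsym : Fermat.Agent.S16.H79.Stmt_symLevelOne p) (O : Subring ℂ) (m : ℕ) (A : ℍ → ℂ)
    (hA : A ∈ MF (Gamma0 p) (12 * (m : ℤ)))
    (hO : ∀ c, Fermat.Agent.S16.H79.expFam p hp.ne_zero (12 * (m : ℤ)) A c ∈ serO O)
    (z₀ : ℍ) (h₀ : E₄ z₀ = 0) (c : Option (Fin p)) :
    IsIntegral O
      (Fermat.Agent.S16.H79.conjFam p (12 * (m : ℤ)) A c z₀ / ModularForm.discriminant z₀ ^ m) := by
  classical
  set a : Option (Fin p) → ℂ := fun c => Fermat.Agent.S16.H79.conjFam p (12 * (m : ℤ)) A c z₀
    with ha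
  set D : ℂ := ModularForm.discriminant z₀ ^ m with hD
  have hD0 : D ≠ 0 := pow_ne_zero _ (ModularForm.discriminant_ne_zero z₀)
  have hcard : Fintype.card (Option (Fin p)) = p + 1 := by simp
  -- the monic polynomial
  set P : ℂ[X] := ∏ c : Option (Fin p), (X + C (a c / D)) with hP
  have hPmonic : P.Monic := by
    rw [hP]
    exact monic_prod_of_monic _ _ fun c _ => monic_X_add_C _
  have hPdeg : P.natDegree = p + 1 := by
    rw [hP, natDegree_prod_of_monic _ _ fun c _ => monic_X_add_C _]
    simp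
  -- its coefficients lie in `O`
  have hcoeff : ∀ n, P.coeff n ∈ O := by
    intro n
    rcases le_or_gt n (p + 1) with hn | hn
    · obtain ⟨E, hE, hEq⟩ := hsym hp (12 * (m : ℤ)) A hA n
      -- the coefficients of `E` lie in `O`
      have hEO : ∀ j, (qExpansion 1 E).coeff j ∈ O := by
        intro j
        have h1 : (PowerSeries.expand p hp.ne_zero (qExpansion 1 E)).coeff (p * j) =
            (qExpansion 1 E).coeff j := PowerSeries.coeff_expand_mul p hp.ne_zero _ j
        rw [← h1, hEq]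
        have h2 := coeff_prod_X_add_C_mem (serO O) Finset.univ
          (fun c => Fermat.Agent.S16.H79.expFam p hp.ne_zero (12 * (m : ℤ)) A c)
          (fun c _ => hO c) n
        exact (mem_serO_iff O _).mp h2 (p * j)
      have hk : (12 * (m : ℤ)) * ((p : ℤ) + 1 - n) = 12 * ((m * (p + 1 - n) : ℕ) : ℤ) := by
        push_cast [Nat.cast_sub hn]
        ring
      obtain ⟨cn, hcnO, hcn⟩ := levelOne_value_mem O z₀ h₀ (m * (p + 1 - n)) _ hk E hEO
      have hscale := Fermat.Agent.S23.H22.coeff_prod_scale (fun _ : Option (Fin p) => (1 : ℂ)) a D hD0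
        0 (-1) n
      have e1 : (∏ c : Option (Fin p), (C ((1 : ℂ) * D ^ (0 : ℤ)) * X + C (a c * D ^ (-1 : ℤ))))
          = P := by
        rw [hP]
        refine Finset.prod_congr rfl fun c _ => ?_
        simp [div_eq_mul_inv]
      have e2 : (∏ c : Option (Fin p), (C (1 : ℂ) * X + C (a c))) =
          ∏ c : Option (Fin p), (X + C (a c)) := by
        refine Finset.prod_congr rfl fun c _ => ?_
        simp
      rw [e1, e2, ← hE z₀, hcn, hcard] at hscale
      rw [hscale]
      have e3 : D ^ ((0 : ℤ) * (n : ℤ) + (-1) * (((p + 1 : ℕ) : ℤ) - (n : ℤ))) *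
          (cn * ModularForm.discriminant z₀ ^ (m * (p + 1 - n))) = cn := by
        have h4 : ModularForm.discriminant z₀ ^ (m * (p + 1 - n)) = D ^ (p + 1 - n) := by
          rw [hD, ← pow_mul]
        rw [h4, ← zpow_natCast D (p + 1 - n), Nat.cast_sub hn]
        have h5 : D ^ ((0 : ℤ) * (n : ℤ) + (-1) * (((p + 1 : ℕ) : ℤ) - (n : ℤ))) *
            (cn * D ^ (((p + 1 : ℕ) : ℤ) - (n : ℤ))) =
            cn * (D ^ ((0 : ℤ) * (n : ℤ) + (-1) * (((p + 1 : ℕ) : ℤ) - (n : ℤ))) *
              D ^ (((p + 1 : ℕ) : ℤ) - (n : ℤ))) := by ring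
        rw [h5, ← zpow_add₀ hD0]
        have : (0 : ℤ) * (n : ℤ) + (-1) * (((p + 1 : ℕ) : ℤ) - (n : ℤ)) +
            (((p + 1 : ℕ) : ℤ) - (n : ℤ)) = 0 := by ring
        rw [this, zpow_zero, mul_one]
      rw [e3]
      exact hcnO
    · rw [coeff_eq_zero_of_natDegree_lt (by rw [hPdeg]; exact hn)]
      exact O.zero_mem
  -- lift to `O[X]`
  have hlift : P ∈ Polynomial.lifts (algebraMap O ℂ) := by
    rw [Polynomial.lifts_iff_coeff_lifts]
    intro n
    exact ⟨⟨P.coeff n, hcoeff n⟩, rfl⟩
  obtain ⟨Q, hQ, -, hQm⟩ := Polynomial.lifts_and_natDegree_eq_and_monic hlift hPmonic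
  have hroot : P.eval (-(a c / D)) = 0 := by
    rw [hP, eval_prod]
    refine Finset.prod_eq_zero (Finset.mem_univ c) ?_
    simp
  have hneg : IsIntegral O (-(a c / D)) := by
    refine ⟨Q, hQm, ?_⟩
    rw [← Polynomial.eval_map, hQ, hroot]
  simpa using hneg.neg

end Fermat.Agent.S16.H55
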