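import Fermat.Agent.S16.H79_ConjDefs
import Fermat.Agent.S23.H22_SymPoly
import Fermat.Agent.S20.H74_Coset
import Fermat.Agent.S20.H19_Cosets
import Mathlib.RingTheory.Polynomial.Vieta

/-!
# S16, package CONJ, part SYM (helper8)

`symLevelOne_of_conjExp : Stmt_conjExp p → Stmt_symLevelOne p`, and the corollaries
`norm_of_conjExp : Stmt_conjExp p → Stmt_norm p`, `trace_of_conjExp : Stmt_conjExp p → Stmt_trace p`.

Ingredients:
* `cosetOf p : Option (Fin p) → SL(2, ℤ) ⧸ Γ₀(p)` (`none ↦ 1`, `some j ↦ (S T^j)⁻¹`) is a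
  bijection for `p` prime (`cosetEquiv`), so `SL(2, ℤ)` permutes the conjugates (`conjPerm`,
  `conjFam_slash`);
* `S23/H22_SymPoly.exists_modularForm_coeff_famPoly` (level one structure of the coefficients);
* Vieta (`Finset.prod_X_add_C_coeff`) and `Nice.qExpansion_sum/prod` for the formal expansion.
-/

set_option autoImplicit false

open UpperHalfPlane ModularForm CongruenceSubgroup Polynomial
open scoped MatrixGroups ModularForm Manifold

noncomputable section

namespace Fermat.Agent.S16.H8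

open Fermat.Agent.S20.H74 (MF cf cf_mk cf_slash cf_one)
open Fermat.Agent.S23.H22 (Nice)
open Fermat.Agent.S16.H79

/-! ### Cosets -/

/-- The coset of `Γ₀(p)` attached to a conjugate index. -/
def cosetOf (p : ℕ) : Option (Fin p) → SL(2, ℤ) ⧸ Gamma0 p
  | none => QuotientGroup.mk 1
  | some j => QuotientGroup.mk (ModularGroup.S * ModularGroup.T ^ (j : ℕ))⁻¹

lemma ST_inv_apply_zero_zero (j : ℕ) :
    ((ModularGroup.S * ModularGroup.T ^ j)⁻¹ : SL(2, ℤ)) 0 0 = (j : ℤ) := by
  rw [Matrix.SpecialLinearGroup.coe_inv, Matrix.adjugate_fin_two,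
    Matrix.SpecialLinearGroup.coe_mul, ModularGroup.coe_S, ← zpow_natCast,
    ModularGroup.coe_T_zpow]
  simp [Matrix.mul_apply, Fin.sum_univ_two]

lemma ST_inv_apply_one_zero (j : ℕ) :
    ((ModularGroup.S * ModularGroup.T ^ j)⁻¹ : SL(2, ℤ)) 1 0 = -1 := by
  rw [Matrix.SpecialLinearGroup.coe_inv, Matrix.adjugate_fin_two,
    Matrix.SpecialLinearGroup.coe_mul, ModularGroup.coe_S, ← zpow_natCast,
    ModularGroup.coe_T_zpow]
  simp [Matrix.mul_apply, Fin.sum_univ_two]

lemma cosetOf_injective {p : ℕ} (hp : p.Prime) : Function.Injective (cosetOf p) := by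
  have hp1 : ¬ ((p : ℤ) ∣ 1) := by
    intro h
    have := Int.natCast_dvd_natCast.mp (by simpa using h : ((p : ℕ) : ℤ) ∣ ((1 : ℕ) : ℤ))
    exact hp.one_lt.ne' (Nat.dvd_one.mp this)
  rintro (_ | i) (_ | j) h
  · rfl
  · exfalso
    simp only [cosetOf] at h
    rw [Fermat.Agent.S20.H19.coset_eq_iff, ST_inv_apply_zero_zero, ST_inv_apply_one_zero] at h
    simp at h
    exact hp1 h
  · exfalso
    simp only [cosetOf] at h
    rw [Fermat.Agent.S20.H19.coset_eq_iff, ST_inv_apply_zero_zero, ST_inv_apply_one_zero] at h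
    simp at h
    exact hp1 h
  · simp only [cosetOf] at h
    rw [Fermat.Agent.S20.H19.coset_eq_iff, ST_inv_apply_zero_zero, ST_inv_apply_one_zero,
      ST_inv_apply_zero_zero, ST_inv_apply_one_zero] at h
    have h2 : ((p : ℤ)) ∣ (j : ℤ) - (i : ℤ) := by
      have : ((i : ℕ) : ℤ) * -1 - -1 * ((j : ℕ) : ℤ) = (j : ℤ) - (i : ℤ) := by ring
      rwa [this] at h
    have h3 : ((i : ℕ) : ℤ) ≡ ((j : ℕ) : ℤ) [ZMOD (p : ℤ)] := (Int.modEq_iff_dvd).mpr h2
    have h4 : (i : ℕ) ≡ (j : ℕ) [MOD p] := Int.natCast_modEq_iff.mp h3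
    have h5 : (i : ℕ) = (j : ℕ) := Nat.ModEq.eq_of_lt_of_lt h4 i.2 j.2
    exact congrArg some (Fin.ext h5)

lemma cosetOf_surjective {p : ℕ} (hp : p.Prime) : Function.Surjective (cosetOf p) := by
  have : Fact p.Prime := ⟨hp⟩
  intro q
  induction q using QuotientGroup.induction_on with
  | H g =>
    by_cases hc : (p : ℤ) ∣ g 1 0
    · refine ⟨none, ?_⟩
      simp only [cosetOf]
      rw [Fermat.Agent.S20.H19.coset_eq_iff]
      simpa using hc
    · have hc' : ((g 1 0 : ℤ) : ZMod p) ≠ 0 := by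
        rwa [Ne, ZMod.intCast_zmod_eq_zero_iff_dvd]
      set x : ZMod p := -((g 0 0 : ℤ) : ZMod p) * ((g 1 0 : ℤ) : ZMod p)⁻¹ with hx
      refine ⟨some ⟨x.val, ZMod.val_lt x⟩, ?_⟩
      simp only [cosetOf]
      rw [Fermat.Agent.S20.H19.coset_eq_iff, ST_inv_apply_zero_zero, ST_inv_apply_one_zero,
        ← ZMod.intCast_zmod_eq_zero_iff_dvd]
      push_cast
      rw [ZMod.natCast_zmod_val, hx]
      field_simp
      ring

/-- The `p + 1` cosets of `Γ₀(p)` in `SL(2, ℤ)`. -/
def cosetEquiv {p : ℕ} (hp : p.Prime) : Option (Fin p) ≃ SL(2, ℤ) ⧸ Gamma0 p :=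
  Equiv.ofBijective (cosetOf p) ⟨cosetOf_injective hp, cosetOf_surjective hp⟩

@[simp] lemma cosetEquiv_apply {p : ℕ} (hp : p.Prime) (c : Option (Fin p)) :
    cosetEquiv hp c = cosetOf p c := rfl

/-- The permutation of the conjugate indices induced by `γ ∈ SL(2, ℤ)` (slash by `γ`). -/
def conjPerm {p : ℕ} (hp : p.Prime) (γ : SL(2, ℤ)) : Equiv.Perm (Option (Fin p)) :=
  (cosetEquiv hp).trans ((MulAction.toPerm (γ⁻¹ : SL(2, ℤ))).trans (cosetEquiv hp).symm)

lemma cosetOf_conjPerm {p : ℕ} (hp : p.Prime) (γ : SL(2, ℤ)) (c : Option (Fin p)) :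
    cosetOf p (conjPerm hp γ c) = (γ⁻¹ : SL(2, ℤ)) • cosetOf p c := by
  exact (cosetEquiv hp).apply_symm_apply ((γ⁻¹ : SL(2, ℤ)) • cosetOf p c)

/-! ### The conjugates are the coset functions -/

variable {p : ℕ} {k : ℤ} {G : ℍ → ℂ}

lemma conjFam_eq_cf (hG : ∀ γ ∈ Gamma0 p, G ∣[k] γ = G) (c : Option (Fin p)) :
    conjFam p k G c = cf (Gamma0 p) k G (cosetOf p c) := by
  cases c with
  | none => simp only [conjFam, cosetOf]; rw [cf_one hG]
  | some j => simp only [conjFam, cosetOf]; rw [cf_mk hG, inv_inv]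

lemma conjFam_slash (hp : p.Prime) (hG : ∀ γ ∈ Gamma0 p, G ∣[k] γ = G) (γ : SL(2, ℤ))
    (c : Option (Fin p)) :
    conjFam p k G c ∣[k] γ = conjFam p k G (conjPerm hp γ c) := by
  rw [conjFam_eq_cf hG, conjFam_eq_cf hG, cf_slash hG, cosetOf_conjPerm]

lemma conjFam_mdiff (hG : G ∈ MF (Gamma0 p) k) (c : Option (Fin p)) :
    MDiff (conjFam p k G c) := by
  cases c with
  | none => exact hG.1
  | some j => exact Fermat.Agent.S20.H74.mdiff_slash hG.1 _

lemma conjFam_bdd (hG : G ∈ MF (Gamma0 p) k) (c : Option (Fin p)) :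
    IsBoundedAtImInfty (conjFam p k G c) := by
  cases c with
  | none => exact Fermat.Agent.S20.H74.MF.bdd hG
  | some j => exact hG.2.2 _

/-! ### Level one structure -/

/-- The coefficients of `∏_c (X + G_c)` are level one modular forms. -/
theorem exists_sym (hp : p.Prime) (hG : G ∈ MF (Gamma0 p) k) (m : ℕ) :
    ∃ E : ModularForm 𝒮ℒ (k * ((p : ℤ) + 1 - m)),
      ∀ z, E z = (∏ c : Option (Fin p), (X + C (conjFam p k G c z))).coeff m := by
  obtain ⟨F, hF⟩ := Fermat.Agent.S23.H22.exists_modularForm_coeff_famPoly (a := 0) (b := k)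
    (conjPerm hp) (fun _ => (1 : ℍ → ℂ)) (conjFam p k G)
    (fun γ _ => is_invariant_one γ) (fun γ i => conjFam_slash hp hG.2.1 γ i)
    (fun _ => mdifferentiable_const) (conjFam_mdiff hG)
    (fun _ => Filter.const_boundedAtFilter _ _) (conjFam_bdd hG) m
  have hw : (0 : ℤ) * m + k * ((Fintype.card (Option (Fin p)) : ℤ) - m) =
      k * ((p : ℤ) + 1 - m) := by
    simp [Fintype.card_option]
  refine ⟨ModularForm.mcast hw F, fun z => ?_⟩
  rw [ModularForm.mcast_apply, hF]
  simp [Fermat.Agent.S23.H22.famPoly]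

/-! ### The formal expansion -/

lemma coeff_prod_X_add_C_eq_zero {R : Type*} [CommRing R] {ι : Type*} [Fintype ι]
    (r : ι → R) {m : ℕ} (hm : Fintype.card ι < m) :
    (∏ c : ι, (X + C (r c))).coeff m = 0 := by
  have h1 : ∀ i : ι, (X + C (r i) : R[X]).natDegree ≤ 1 := fun i => by
    have := natDegree_linear_le (a := (1 : R)) (b := r i)
    simpa using this
  have h2 : (∏ c : ι, (X + C (r c)) : R[X]).natDegree ≤ Fintype.card ι := by
    refine (natDegree_prod_le (Finset.univ : Finset ι) (fun c => (X + C (r c) : R[X]))).trans ?_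
    calc ∑ i : ι, (X + C (r i) : R[X]).natDegree ≤ ∑ _i : ι, 1 :=
          Finset.sum_le_sum fun i _ => h1 i
      _ = Fintype.card ι := by simp
  exact coeff_eq_zero_of_natDegree_lt (lt_of_le_of_lt h2 hm)

lemma nice_qExpansion_prod {h : ℝ} (hh : 0 < h) {κ : Type*} (s : Finset κ) {F : κ → ℍ → ℂ}
    (hF : ∀ i ∈ s, Nice h (F i)) :
    qExpansion h (∏ i ∈ s, F i) = ∏ i ∈ s, qExpansion h (F i) := by
  classical
  induction s using Finset.induction_on with
  | empty => simpa using qExpansion_one h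
  | insert i t hi IH =>
    rw [Finset.prod_insert hi, Finset.prod_insert hi,
      Nice.qExpansion_mul hh (hF i (Finset.mem_insert_self _ _))
        (Nice.prod t fun j hj => hF j (Finset.mem_insert_of_mem hj)),
      IH fun j hj => hF j (Finset.mem_insert_of_mem hj)]

/-- CONJ-2 from CONJ-1. -/
theorem symLevelOne_of_conjExp (p : ℕ) (h : Stmt_conjExp p) : Stmt_symLevelOne p := by
  intro hp k G hG m
  have hpos : (0 : ℝ) < (p : ℝ) := by exact_mod_cast hp.pos
  obtain ⟨E, hE⟩ := exists_sym hp hG m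
  refine ⟨E, hE, ?_⟩
  have hEmem : (E : ℍ → ℂ) ∈ MF (Gamma0 p) (k * ((p : ℤ) + 1 - m)) :=
    Fermat.Agent.S20.H74.MF.mono le_top (Fermat.Agent.S20.H74.coe_mem_MF_top E)
  have h1 := (h hp _ _ hEmem none).2
  simp only [conjFam, expFam] at h1
  rw [← h1]
  have hnice : ∀ c, Nice (p : ℝ) (conjFam p k G c) := fun c => (h hp k G hG c).1
  have hexp : ∀ c, qExpansion (p : ℝ) (conjFam p k G c) = expFam p hp.ne_zero k G c :=
    fun c => (h hp k G hG c).2
  by_cases hm : m ≤ Fintype.card (Option (Fin p))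
  · have hm' : m ≤ (Finset.univ : Finset (Option (Fin p))).card := by simpa using hm
    rw [Finset.prod_X_add_C_coeff _ _ hm']
    have hEfun : (E : ℍ → ℂ) = ∑ t ∈ (Finset.univ : Finset (Option (Fin p))).powersetCard
        ((Finset.univ : Finset (Option (Fin p))).card - m), ∏ i ∈ t, conjFam p k G i := by
      ext z
      rw [hE, Finset.prod_X_add_C_coeff _ _ hm']
      simp [Finset.sum_apply, Finset.prod_apply]
    rw [hEfun, Nice.qExpansion_sum hpos _ (fun t _ => Nice.prod t fun i _ => hnice i)]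
    refine Finset.sum_congr rfl fun t _ => ?_
    rw [nice_qExpansion_prod hpos t (fun i _ => hnice i)]
    exact Finset.prod_congr rfl fun i _ => hexp i
  · rw [not_le] at hm
    rw [coeff_prod_X_add_C_eq_zero _ hm]
    have hEfun : (E : ℍ → ℂ) = 0 := by
      ext z
      rw [hE, coeff_prod_X_add_C_eq_zero _ hm]
      rfl
    rw [hEfun]
    exact qExpansion_zero _

/-- The norm to level one, from CONJ-1. -/
theorem norm_of_conjExp (p : ℕ) (h : Stmt_conjExp p) : Stmt_norm p := by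
  intro hp k G hG
  obtain ⟨E, hE, hE'⟩ := symLevelOne_of_conjExp p h hp k G hG 0
  have hw : k * ((p : ℤ) + 1 - (0 : ℕ)) = k * ((p : ℤ) + 1) := by simp
  refine ⟨ModularForm.mcast hw E, fun z => ?_, ?_⟩
  · rw [ModularForm.mcast_apply, hE, coeff_zero_eq_eval_zero, eval_prod]
    simp
  · have : (⇑(ModularForm.mcast hw E) : ℍ → ℂ) = ⇑E := rfl
    rw [this, hE', coeff_zero_eq_eval_zero, eval_prod]
    simp

lemma coeff_prod_X_add_C_pred {R : Type*} [CommRing R] (n : ℕ) (r : Option (Fin n) → R) :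
    (∏ c : Option (Fin n), (X + C (r c))).coeff n = ∑ c, r c := by
  have hcard : (Finset.univ : Finset (Option (Fin n))).card = n + 1 := by
    simp [Fintype.card_option]
  rw [Finset.prod_X_add_C_coeff _ _ (by rw [hcard]; exact Nat.le_succ n), hcard,
    Nat.add_sub_cancel_left, Finset.powersetCard_one, Finset.sum_map]
  simp

/-- The trace to level one, from CONJ-1. -/
theorem trace_of_conjExp (p : ℕ) (h : Stmt_conjExp p) : Stmt_trace p := by
  intro hp k G hG
  obtain ⟨E, hE, hE'⟩ := symLevelOne_of_conjExp p h hp k G hG p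
  have hw : k * ((p : ℤ) + 1 - (p : ℕ)) = k := by
    have : ((p : ℤ) + 1 - (p : ℕ)) = 1 := by ring
    rw [this, mul_one]
  refine ⟨ModularForm.mcast hw E, fun z => ?_, ?_⟩
  · rw [ModularForm.mcast_apply, hE, coeff_prod_X_add_C_pred]
  · have : (⇑(ModularForm.mcast hw E) : ℍ → ℂ) = ⇑E := rfl
    rw [this, hE', coeff_prod_X_add_C_pred]

end Fermat.Agent.S16.H8
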