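import Fermat.Agent.S16.H79_ConjExp
import Fermat.Agent.S16.H32_NormDefs
import Fermat.Agent.S16.H45_CuspExp
import Fermat.Agent.S16.H55_RhoFam
import Fermat.Agent.S16.H8_Sym

/-!
# S16, package CONJ (helper79): adapters between the interfaces, coefficient subrings

* `sExp_eq_cuspExp`, `zetaP_eq` : `H79.sExp = H45.cuspExp = H32.cuspExp`, `H79.zetaP = H32.zetaP`
  (all `rfl`), so the ring lemmas `H45.cuspExp_add`, `cuspExp_mul`, ... apply to `sExp`.
* `stmt_symLevelOne`, `stmt_norm`, `stmt_trace`, `stmt_normExp` : UNCONDITIONAL (from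
  `stmt_conjExp` and helper8's `H8_Sym`).
* `stmt_T0_modularForm`   : `Stmt_T0 p → p.Prime → H32.Stmt_T0 p`.
* `stmt_normExp_modularForm` : `Stmt_norm p → p.Prime → H32.Stmt_NormExp p k`.
* `prod_expFam` : `∏ c, expFam c = expand p (qExpansion 1 G) * ∏ j ∈ range p, rescale (ζ^j) (sExp G)`.
* `expFam_mem_serO`, `qExpansion_mem_serO_of_sym` : if the expansions of `G` at `∞` and at `0` have
  coefficients in a subring `O ∋ ζ_p` then so do the level one forms of `Stmt_symLevelOne`.
-/

set_option autoImplicit false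

open UpperHalfPlane ModularForm CongruenceSubgroup Polynomial Function
open scoped MatrixGroups ModularForm Manifold

noncomputable section

namespace Fermat.Agent.S16.H79

open Fermat.Agent.S20.H74 (MF)
open Fermat.Agent.S23.H22 (Nice)
open Fermat.Agent.S16.H55 (serO mem_serO_iff)

variable {p : ℕ} {k : ℤ} {G : ℍ → ℂ}

theorem sExp_eq_cuspExp (p : ℕ) (k : ℤ) (G : ℍ → ℂ) :
    sExp p k G = Fermat.Agent.S16.H45.cuspExp p k G := rfl

theorem sExp_eq_cuspExp32 (p : ℕ) (k : ℤ) (G : ℍ → ℂ) :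
    sExp p k G = Fermat.Agent.S16.H32.cuspExp p k G := rfl

theorem zetaP_eq (p : ℕ) : zetaP p = Fermat.Agent.S16.H32.zetaP p := rfl

/-- The product of the `t`-expansions of the conjugates. -/
theorem prod_expFam (hp : p ≠ 0) (k : ℤ) (G : ℍ → ℂ) :
    ∏ c : Option (Fin p), expFam p hp k G c =
      PowerSeries.expand p hp (qExpansion 1 G) *
        ∏ j ∈ Finset.range p, PowerSeries.rescale (zetaP p ^ j) (sExp p k G) := by
  rw [Fintype.prod_option]
  congr 1
  exact Fin.prod_univ_eq_prod_range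
    (fun j => PowerSeries.rescale (zetaP p ^ j) (sExp p k G)) p

/-- The sum of the `t`-expansions of the conjugates. -/
theorem sum_expFam (hp : p ≠ 0) (k : ℤ) (G : ℍ → ℂ) :
    ∑ c : Option (Fin p), expFam p hp k G c =
      PowerSeries.expand p hp (qExpansion 1 G) +
        ∑ j ∈ Finset.range p, PowerSeries.rescale (zetaP p ^ j) (sExp p k G) := by
  rw [Fintype.sum_option]
  congr 1
  exact Fin.sum_univ_eq_sum_range
    (fun j => PowerSeries.rescale (zetaP p ^ j) (sExp p k G)) p

/-- `Stmt_T0` in the `ModularForm` shape of `H32`. -/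
theorem stmt_T0_modularForm (h : Stmt_T0 p) (hp : p.Prime) : Fermat.Agent.S16.H32.Stmt_T0 p := by
  intro F n
  have : NeZero p := ⟨hp.ne_zero⟩
  exact h hp F (Fermat.Agent.S16.H45.coe_mem_MF_Gamma0 p F) n

/-- `Stmt_norm` in the `ModularForm` shape of `H32`. -/
theorem stmt_normExp_modularForm (h : Stmt_norm p) (hp : p.Prime) (k : ℤ) :
    Fermat.Agent.S16.H32.Stmt_NormExp p k := by
  intro hp0 F
  have : NeZero p := ⟨hp.ne_zero⟩
  obtain ⟨E, -, hE⟩ := h hp k F (Fermat.Agent.S16.H45.coe_mem_MF_Gamma0 p F)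
  refine ⟨E, ?_⟩
  rw [hE, prod_expFam]
  rfl

/-! ### Unconditional statements (with helper8's `H8_Sym`) -/

/-- **CONJ-2**, unconditional. -/
theorem stmt_symLevelOne (p : ℕ) : Stmt_symLevelOne p :=
  Fermat.Agent.S16.H8.symLevelOne_of_conjExp p (stmt_conjExp p)

/-- The norm to level one, unconditional. -/
theorem stmt_norm (p : ℕ) : Stmt_norm p :=
  Fermat.Agent.S16.H8.norm_of_conjExp p (stmt_conjExp p)

/-- The trace to level one, unconditional. -/
theorem stmt_trace (p : ℕ) : Stmt_trace p :=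
  Fermat.Agent.S16.H8.trace_of_conjExp p (stmt_conjExp p)

/-- `H32.Stmt_NormExp`, unconditional. -/
theorem stmt_normExp (hp : p.Prime) (k : ℤ) : Fermat.Agent.S16.H32.Stmt_NormExp p k :=
  stmt_normExp_modularForm (stmt_norm p) hp k

/-! ### Coefficient subrings -/

theorem expand_mem_serO (O : Subring ℂ) (hp : p ≠ 0) {P : PowerSeries ℂ} (hP : P ∈ serO O) :
    PowerSeries.expand p hp P ∈ serO O := by
  rw [mem_serO_iff] at hP ⊢
  intro n
  rw [PowerSeries.coeff_expand]
  split_ifs
  · exact hP _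
  · exact O.zero_mem

theorem mem_serO_of_expand_mem (O : Subring ℂ) (hp : p ≠ 0) {P : PowerSeries ℂ}
    (hP : PowerSeries.expand p hp P ∈ serO O) : P ∈ serO O := by
  rw [mem_serO_iff] at hP ⊢
  intro n
  have := hP (p * n)
  rwa [PowerSeries.coeff_expand_mul] at this

theorem rescale_mem_serO (O : Subring ℂ) {a : ℂ} (ha : a ∈ O) {P : PowerSeries ℂ}
    (hP : P ∈ serO O) : PowerSeries.rescale a P ∈ serO O := by
  rw [mem_serO_iff] at hP ⊢
  intro n
  rw [PowerSeries.coeff_rescale]
  exact O.mul_mem (O.pow_mem ha n) (hP n)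

/-- If the expansions of `G` at `∞` and at `0` have coefficients in `O ∋ ζ_p`, so do the
`t`-expansions of all conjugates. -/
theorem expFam_mem_serO (O : Subring ℂ) (hp : p ≠ 0) (hζ : zetaP p ∈ O)
    (hinf : qExpansion 1 G ∈ serO O) (h0 : sExp p k G ∈ serO O) (c : Option (Fin p)) :
    expFam p hp k G c ∈ serO O := by
  cases c with
  | none => exact expand_mem_serO O hp hinf
  | some j => exact rescale_mem_serO O (O.pow_mem hζ _) h0

/-- The level one forms of `Stmt_symLevelOne` have coefficients in `O`. -/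
theorem qExpansion_mem_serO_of_sym (O : Subring ℂ) (hp : p ≠ 0)
    (hO : ∀ c, expFam p hp k G c ∈ serO O) {k' : ℤ} (E : ModularForm 𝒮ℒ k') (m : ℕ)
    (hE : PowerSeries.expand p hp (qExpansion 1 E) =
      (∏ c : Option (Fin p), (X + C (expFam p hp k G c))).coeff m) :
    qExpansion 1 E ∈ serO O := by
  refine mem_serO_of_expand_mem O hp ?_
  rw [hE]
  exact Fermat.Agent.S16.H55.coeff_prod_X_add_C_mem (serO O) Finset.univ _
    (fun c _ => hO c) m

/-- The norm has coefficients in `O`. -/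
theorem qExpansion_mem_serO_of_norm (O : Subring ℂ) (hp : p ≠ 0)
    (hO : ∀ c, expFam p hp k G c ∈ serO O) {k' : ℤ} (E : ModularForm 𝒮ℒ k')
    (hE : PowerSeries.expand p hp (qExpansion 1 E) = ∏ c : Option (Fin p), expFam p hp k G c) :
    qExpansion 1 E ∈ serO O := by
  refine mem_serO_of_expand_mem O hp ?_
  rw [hE]
  exact Subring.prod_mem _ fun c _ => hO c

/-- `ζ_p ^ p = 1`. -/
theorem zetaP_pow (hp : p ≠ 0) : zetaP p ^ p = 1 := by
  have hp' : (p : ℂ) ≠ 0 := by exact_mod_cast hp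
  rw [zetaP, ← Complex.exp_nat_mul, mul_div_cancel₀ _ hp']
  exact Complex.exp_two_pi_mul_I

end Fermat.Agent.S16.H79
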