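import Fermat.Agent.S16.H32_UB3
import Fermat.Agent.S16.H79_ConjAdapt
import Fermat.Agent.S16.H45_CE4

/-!
# S16, upper bound at `ℓ = 3`, `p ≡ 2 mod 3`: final form (helper32)

`ub3_two_mod_three` : for a prime `p ≡ 2 mod 3`, `H79.Stmt_T0 p → Stmt_UBcore p 3 2`
(`NORM` by helper79 + helper8, `CE4` by helper45, norm–Sturm principle `H32_NSCore`).
-/

set_option autoImplicit false

namespace Fermat.Agent.S16.H32

/-- **UB at `3`** for `p ≡ 2 mod 3`, modulo `T0` only. -/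
theorem ub3_two_mod_three (p : ℕ) (hp : p.Prime) (h3 : p % 3 = 2)
    (T0 : Fermat.Agent.S16.H79.Stmt_T0 p) : Stmt_UBcore p 3 2 :=
  ub3_of_interfaces p hp h3 (Fermat.Agent.S16.H79.stmt_T0_modularForm T0 hp)
    (Fermat.Agent.S16.H79.stmt_normExp hp 4) (Fermat.Agent.S16.H45.stmt_CE4 p)

end Fermat.Agent.S16.H32
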