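import Fermat.Agent.S16.H55_UB2Final
import Fermat.Agent.S16.H26_DeltaTest
import Fermat.Agent.S16.H26_Trid
import Fermat.Agent.S16.H79_ConjExp

/-!
# S16, UB2 (helper55): the local upper bound at `ℓ = 2`, UNCONDITIONAL

`ubcore_two_done : p.Prime → p ≠ 2 → Stmt_UBcore p 2 (ubExp p 2)`.

* `p ≡ 7 mod 8` : evaluation at `ρ` (`ubcore_two_seven`);
* `p ≡ 1 mod 4`, `p ≡ 3 mod 8` : the `Δ`-test of helper26 (`H26.deltaTest`, `H26.trid`).
-/

set_option autoImplicit false

noncomputable section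

namespace Fermat.Agent.S16.H55

/-- The `Δ`-test, unconditional (helper26 + CONJ + `T0`). -/
theorem stmt_deltaTest (p : ℕ) : Fermat.Agent.S16.H26.Stmt_DeltaTest p :=
  Fermat.Agent.S16.H26.deltaTest
    (Fermat.Agent.S16.H26.trid (Fermat.Agent.S16.H79.stmt_conjExp p)
      (Fermat.Agent.S16.H8.stmt_trace p) (Fermat.Agent.S16.H15.stmt_T0 p))

/-- **UB2, unconditional**: for every odd prime `p` there is no weight 2 form on `Γ₀(p)` with
integral coefficients, odd constant term, and all higher coefficients divisible by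
`2 ^ ubExp p 2`. -/
theorem ubcore_two_done (p : ℕ) (hp : p.Prime) (hp2 : p ≠ 2) : Stmt_UBcore p 2 (ubExp p 2) :=
  ubcore_two_of_deltaTest p hp hp2 (stmt_deltaTest p)

end Fermat.Agent.S16.H55
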