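import Fermat.Agent.S16.H32_UB5
import Fermat.Agent.S16.H32_UB3Final
import Fermat.Agent.S16.H15_T0
import Fermat.Agent.S16.H26_TridFinal
import Fermat.Agent.S16.H55_UB2Done

/-!
# S16: the local upper bounds at all primes `ℓ`, UNCONDITIONAL (helper32)

`ubcore_all : p.Prime → 5 ≤ p → ∀ ℓ, ℓ.Prime → Stmt_UBcore p ℓ (ubExp p ℓ)`.

* `ℓ ≥ 5` (including `ℓ = p`) : norm–Sturm principle, `H32.ub_ge_five`;
* `ℓ = 3`, `p ≡ 2 mod 3` : norm–Sturm principle, `H32.ub3_two_mod_three`;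
* `ℓ = 3`, `p ≡ 1 mod 3` : `Δ`-test (helper26);
* `ℓ = 2` : helper55 (`ρ`-evaluation for `p ≡ 7 mod 8`, `Δ`-test otherwise).
`T0` is by helper15, `CONJ` by helper79 + helper8, `CE` by helper45.
-/

set_option autoImplicit false

namespace Fermat.Agent.S16.H32

/-- Monotonicity of `IsUnitConstMod` in the exponent. -/
theorem isUnitConstMod_mono {p ℓ e e' : ℕ} (hee : e ≤ e') {h : ModularForm (CongruenceSubgroup.Gamma0 p) 2}
    (hh : IsUnitConstMod p ℓ e' h) : IsUnitConstMod p ℓ e h := by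
  refine ⟨hh.1, fun k hk => ?_⟩
  obtain ⟨a, ha⟩ := hh.2 k hk
  refine ⟨(ℓ : ℤ) ^ (e' - e) * a, ?_⟩
  rw [ha]
  push_cast
  rw [← mul_assoc, ← pow_add, Nat.add_sub_cancel' hee]

/-- Monotonicity of `Stmt_UBcore` in the exponent. -/
theorem ubcore_mono {p ℓ e e' : ℕ} (hee : e ≤ e') (h : Stmt_UBcore p ℓ e) : Stmt_UBcore p ℓ e' :=
  fun f hf => h f (isUnitConstMod_mono hee hf)

theorem one_le_ubExp (p ℓ : ℕ) : 1 ≤ ubExp p ℓ := by
  unfold ubExp
  omega

/-- **UB3, unconditional.** -/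
theorem ubcore_three (p : ℕ) (hp : p.Prime) (h5 : 5 ≤ p) : Stmt_UBcore p 3 (ubExp p 3) := by
  have h3 : p % 3 ≠ 0 := by
    intro h
    have hd : 3 ∣ p := Nat.dvd_of_mod_eq_zero h
    have := (Nat.prime_dvd_prime_iff_eq Nat.prime_three hp).mp hd
    omega
  by_cases h2 : p % 3 = 2
  · refine ubcore_mono ?_ (ub3_two_mod_three p hp h2 (Fermat.Agent.S16.H15.stmt_T0 p))
    exact Fermat.Agent.S16.H26.succ_le_ubExp (k := 1) Nat.prime_three
      (by rw [pow_one]; omega) (by norm_num)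
  · exact Fermat.Agent.S16.H26.stmt_UBcore_of_not_dvd hp Nat.prime_three (by omega)
      (by omega)

/-- **All local upper bounds, unconditional.** -/
theorem ubcore_all (p : ℕ) (hp : p.Prime) (h5 : 5 ≤ p) (ℓ : ℕ) (hℓ : ℓ.Prime) :
    Stmt_UBcore p ℓ (ubExp p ℓ) := by
  by_cases hℓ5 : 5 ≤ ℓ
  · exact ubcore_mono (one_le_ubExp p ℓ)
      (ub_ge_five p ℓ hp hℓ hℓ5 (Fermat.Agent.S16.H15.stmt_T0 p))
  · have hℓ2 := hℓ.two_le
    have hlt : ℓ < 5 := not_le.mp hℓ5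
    interval_cases ℓ
    · exact Fermat.Agent.S16.H55.ubcore_two_done p hp (by omega)
    · exact ubcore_three p hp h5
    · exact absurd hℓ (by decide)

end Fermat.Agent.S16.H32
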