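import Fermat.Agent.S16.Assembly
import Fermat.Agent.S16.H32_UBAll

/-!
# S16 from the single remaining leaf TORSLIFT (helper40, coordinator of cluster M)

`S16_of_torsLift` : the frozen conclusion of S16 for the prime `p`, from
`Stmt_TorsLift p (eisensteinNumerator p)` (needed for `p ≥ 5` only).

All local upper bounds are unconditional (`H32.ubcore_all`, helper32; with helper15, helper21,
helper26, helper55, helper79, helper8, helper45).
-/

set_option autoImplicit false

namespace Fermat.Agent.S16

open CuspForm ModularFormClass CongruenceSubgroup ModularCurve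

theorem S16_of_torsLift (p : ℕ) [Fact p.Prime]
    (hTL : 5 ≤ p → Stmt_TorsLift p (eisensteinNumerator p)) :
    Nat.card (↥(heckeLatticeAlgebra p ∅) ⧸
        Ideal.map ((latticeRestrictHom p ∅).toRingHom.comp (heckeEvalForms p 2))
          (eisensteinIdeal p)) =
      eisensteinNumerator p :=
  S16_of_leaves p hTL (fun h5 ℓ hℓ => H32.ubcore_all p Fact.out h5 ℓ hℓ)

end Fermat.Agent.S16

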