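import Fermat.Agent.S16.Defs2
import Fermat.Prelude.Thm_CongruenceSubgroup_one_mem_strictPeriods_Gamma0

/-!
# S16, package LOC-UB (helper38)

`Stmt_Eis p → (∀ ℓ prime, Stmt_UBcore p ℓ (ubExp p ℓ)) → Stmt_UB p` for a prime `p ≥ 5`.

If `f` is a cusp form with `a_k(f) ≡ σ'(k) mod ℓ^(v_ℓ(n)+1)` (`n = eisensteinNumerator p`), then
`h := (g₁' g₂ / ℓ^a) • (E - f)` (`g₁ = gcd(p-1,12) = ℓ^c g₁'`, `g₂ = gcd(p+1,12)`, `a = v_ℓ(n)`)
has constant term `g₁' n'` (prime to `ℓ`) and higher coefficients divisible by `ℓ^(v_ℓ(g₂)+1)`.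
-/

set_option autoImplicit false

namespace Fermat.Agent.S16.H38

open ModularFormClass CongruenceSubgroup ModularCurve UpperHalfPlane

/-- `gcd(p-1,12) * gcd(p+1,12) = 24` for a prime `p ≥ 5`. -/
theorem gcd_mul_gcd {p : ℕ} (hp : p.Prime) (hp5 : 5 ≤ p) :
    Nat.gcd (p - 1) 12 * Nat.gcd (p + 1) 12 = 24 := by
  have h2 : ¬ 2 ∣ p := fun h => by
    have := (Nat.prime_dvd_prime_iff_eq Nat.prime_two hp).mp h; omega
  have h3 : ¬ 3 ∣ p := fun h => by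
    have := (Nat.prime_dvd_prime_iff_eq Nat.prime_three hp).mp h; omega
  have hr : p % 12 = 1 ∨ p % 12 = 5 ∨ p % 12 = 7 ∨ p % 12 = 11 := by omega
  have e1 : Nat.gcd (p - 1) 12 = Nat.gcd ((p - 1) % 12) 12 := by
    rw [Nat.gcd_comm, Nat.gcd_rec]
  have e2 : Nat.gcd (p + 1) 12 = Nat.gcd ((p + 1) % 12) 12 := by
    rw [Nat.gcd_comm, Nat.gcd_rec]
  rw [e1, e2]
  rcases hr with h | h | h | h
  · have a1 : (p - 1) % 12 = 0 := by omega
    have a2 : (p + 1) % 12 = 2 := by omega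
    rw [a1, a2]; rfl
  · have a1 : (p - 1) % 12 = 4 := by omega
    have a2 : (p + 1) % 12 = 6 := by omega
    rw [a1, a2]; rfl
  · have a1 : (p - 1) % 12 = 6 := by omega
    have a2 : (p + 1) % 12 = 8 := by omega
    rw [a1, a2]; rfl
  · have a1 : (p - 1) % 12 = 10 := by omega
    have a2 : (p + 1) % 12 = 0 := by omega
    rw [a1, a2]; rfl

/-- `q`-coefficients of `s • (E - f)`. -/
theorem qCoeff_smul_sub {p : ℕ} (E : ModularForm (Gamma0 p) 2) (f : CuspForm (Gamma0 p) 2)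
    (s : ℂ) (k : ℕ) :
    qCoeff ⇑(s • (E - ModularFormClass.modularForm f)) k = s * (qCoeff ⇑E k - qCoeff ⇑f k) := by
  have hΓ := CongruenceSubgroup.one_mem_strictPeriods_Gamma0 p
  have h1 : ⇑(s • (E - ModularFormClass.modularForm f)) =
      s • ⇑(E - ModularFormClass.modularForm f) := rfl
  have h2 : ⇑(E - ModularFormClass.modularForm f) = ⇑E - ⇑f := rfl
  simp only [qCoeff]
  rw [h1, ModularForm.qExpansion_smul one_pos hΓ s (E - ModularFormClass.modularForm f), h2,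
    ModularForm.qExpansion_sub one_pos hΓ E f]
  simp

/-- `IsEisCongr` is monotone for divisibility of the modulus. -/
theorem isEisCongr_of_dvd {p m m' : ℕ} (h : m' ∣ m) {f : CuspForm (Gamma0 p) 2}
    (hf : IsEisCongr p m f) : IsEisCongr p m' f := by
  intro k hk
  obtain ⟨c, hc, hd⟩ := hf k hk
  exact ⟨c, hc, (Int.natCast_dvd_natCast.mpr h).trans hd⟩

/-- Local step: the core statement at `ℓ` gives the upper bound at `ℓ`. -/
theorem ubAt_of_ubCore {p ℓ : ℕ} (hp : p.Prime) (hp5 : 5 ≤ p) (hℓ : ℓ.Prime)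
    (hE : Stmt_Eis p) (hU : Stmt_UBcore p ℓ (ubExp p ℓ)) : Stmt_UBat p ℓ := by
  intro f hf
  obtain ⟨E, hE0, hEk⟩ := hE
  have hg : Nat.gcd (p - 1) 12 * Nat.gcd (p + 1) 12 = 24 := gcd_mul_gcd hp hp5
  have hng : eisensteinNumerator p * Nat.gcd (p - 1) 12 = p - 1 :=
    Nat.div_mul_cancel (Nat.gcd_dvd_left _ _)
  generalize hn : eisensteinNumerator p = n at hng hf
  generalize hg₁ : Nat.gcd (p - 1) 12 = g₁ at hng hg
  have hue : ubExp p ℓ = (Nat.gcd (p + 1) 12).factorization ℓ + 1 := rfl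
  rw [hue] at hU
  generalize hg₂ : Nat.gcd (p + 1) 12 = g₂ at hg hU
  have hn0 : n ≠ 0 := by
    rintro rfl
    omega
  have hg₁0 : g₁ ≠ 0 := by
    rintro rfl
    omega
  have hg₂0 : g₂ ≠ 0 := by
    rintro rfl
    omega
  have hn' : ℓ ^ n.factorization ℓ * (n / ℓ ^ n.factorization ℓ) = n :=
    Nat.ordProj_mul_ordCompl_eq_self n ℓ
  have hn'd : ¬ ℓ ∣ n / ℓ ^ n.factorization ℓ := Nat.not_dvd_ordCompl hℓ hn0
  have hg₁' : ℓ ^ g₁.factorization ℓ * (g₁ / ℓ ^ g₁.factorization ℓ) = g₁ :=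
    Nat.ordProj_mul_ordCompl_eq_self g₁ ℓ
  have hg₁'d : ¬ ℓ ∣ g₁ / ℓ ^ g₁.factorization ℓ := Nat.not_dvd_ordCompl hℓ hg₁0
  have hg₂' : ℓ ^ g₂.factorization ℓ * (g₂ / ℓ ^ g₂.factorization ℓ) = g₂ :=
    Nat.ordProj_mul_ordCompl_eq_self g₂ ℓ
  generalize n.factorization ℓ = a at hn' hn'd hf
  generalize n / ℓ ^ a = n' at hn' hn'd
  generalize g₁.factorization ℓ = c at hg₁' hg₁'d
  generalize g₁ / ℓ ^ c = g₁' at hg₁' hg₁'d
  generalize g₂.factorization ℓ = e at hg₂' hU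
  generalize g₂ / ℓ ^ e = g₂' at hg₂'
  have hℓC : (ℓ : ℂ) ≠ 0 := Nat.cast_ne_zero.mpr hℓ.ne_zero
  have hg₁C : (g₁ : ℂ) ≠ 0 := Nat.cast_ne_zero.mpr hg₁0
  have hg₂C : (g₂ : ℂ) ≠ 0 := Nat.cast_ne_zero.mpr hg₂0
  have hp1 : (p : ℂ) - 1 = (ℓ : ℂ) ^ a * n' * g₁ := by
    have h1 : ((p - 1 : ℕ) : ℂ) = (p : ℂ) - 1 := by
      rw [Nat.cast_sub (by omega)]; simp
    rw [← h1, ← hng, ← hn']
    push_cast
    ring
  have h24 : (24 : ℂ) = g₁ * g₂ := by exact_mod_cast hg.symm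
  have hg₂C' : (g₂ : ℂ) = (ℓ : ℂ) ^ e * g₂' := by exact_mod_cast hg₂'.symm
  apply hU ((((g₁' : ℂ) * g₂) / (ℓ : ℂ) ^ a) • (E - ModularFormClass.modularForm f))
  refine ⟨⟨((g₁' * n' : ℕ) : ℤ), ?_, ?_⟩, ?_⟩
  · rw [Int.natCast_dvd_natCast, hℓ.dvd_mul]
    tauto
  · have hf0 : qCoeff ⇑f 0 = 0 :=
      CuspFormClass.qExpansion_coeff_zero f one_pos
        (CongruenceSubgroup.one_mem_strictPeriods_Gamma0 p)
    rw [qCoeff_smul_sub, hE0, hf0, hp1, h24]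
    push_cast
    field_simp
    ring
  · intro k hk
    obtain ⟨ck, hck, d, hd⟩ := hf k hk
    refine ⟨-((g₁' : ℤ) * g₂' * d), ?_⟩
    have hck' : (ck : ℂ) = (sigmaP p k : ℂ) + (ℓ : ℂ) ^ (a + 1) * d := by
      have : ck = (sigmaP p k : ℤ) + ((ℓ ^ (a + 1) : ℕ) : ℤ) * d := by linarith
      rw [this]
      push_cast
      ring
    rw [qCoeff_smul_sub, hEk k hk, hck, hck', hg₂C']
    push_cast
    field_simp
    ring

/-- **LOC-UB**: the Eisenstein series and the local core statements give `Stmt_UB p`. -/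
theorem locUB {p : ℕ} (hp : p.Prime) (hp5 : 5 ≤ p) (hE : Stmt_Eis p)
    (hU : ∀ ℓ : ℕ, ℓ.Prime → Stmt_UBcore p ℓ (ubExp p ℓ)) : Stmt_UB p := by
  rintro m ⟨f, hf⟩
  rw [Nat.dvd_iff_prime_pow_dvd_dvd]
  intro ℓ k hℓ hk
  by_cases hka : k ≤ (eisensteinNumerator p).factorization ℓ
  · exact (pow_dvd_pow ℓ hka).trans (Nat.ordProj_dvd _ ℓ)
  · exfalso
    have hka' : (eisensteinNumerator p).factorization ℓ + 1 ≤ k := not_le.mp hka
    have h1 : ℓ ^ ((eisensteinNumerator p).factorization ℓ + 1) ∣ m :=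
      (pow_dvd_pow ℓ hka').trans hk
    exact ubAt_of_ubCore hp hp5 hℓ hE (hU ℓ hℓ) f (isEisCongr_of_dvd h1 hf)

end Fermat.Agent.S16.H38
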