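import Mathlib
import Fermat.Agent.Betti.H76_Rel
import Fermat.Agent.S16.H40_LBchi

/-!
# S16: `Stmt_B4 p` holds (helper40), from helper76's `Betti.H76.wordB_int_eq_zero_of_wordS`

Bridge between the inductive relation `BettiWord` (on `MvPolynomial Nat.Primes ℤ`) and the words
of `Betti/H76_Rel.lean` (on `FreeAlgebra ℤ (Gen ∅)`).

* `stmt_B4 p : Stmt_B4 p`;
* `stmt_LBalg_of_torsLift p : Stmt_TorsLift p (eisensteinNumerator p) → Stmt_LBalg p`.
-/

set_option autoImplicit false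

namespace Fermat.Agent.S16.H40

open CongruenceSubgroup ModularCurve ModularCurve.Period
open Fermat.Agent.Betti Fermat.Agent.Betti.H76
open scoped MatrixGroups

variable (p : ℕ) [NeZero p]

/-- A prime as a Hecke generator index outside the empty set. -/
def toGen (ℓ : Nat.Primes) : Gen (∅ : Set ℕ) := ⟨ℓ.1, ℓ.2, Set.notMem_empty _⟩

theorem genS_toGen (ℓ : Nat.Primes) :
    H76.genS p ∅ (toGen ℓ)
      = ((CuspForm.heckeFormsGen p 2 ℓ : CuspForm.heckeAlgebra p 2 ∅) :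
          Module.End ℂ (CuspForm (Gamma0 p) 2)) := by
  by_cases h : (ℓ : ℕ) ∣ p
  · rw [CuspForm.heckeFormsGen_of_dvd h]
    unfold H76.genS
    rw [dif_pos (show (toGen ℓ).1 ∣ p from h)]
    rfl
  · rw [CuspForm.heckeFormsGen_of_not_dvd h]
    unfold H76.genS
    rw [dif_neg (show ¬ (toGen ℓ).1 ∣ p from h)]
    rfl

theorem genB_toGen (A : Type) [AddCommGroup A] (ℓ : Nat.Primes) (φ : Additive (Gamma0 p) →+ A) :
    H76.genB p ∅ A (toGen ℓ) φ = Fermat.Agent.S16.genB p A ℓ φ := by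
  by_cases h : (ℓ : ℕ) ∣ p
  · rw [genB_of_dvd _ _ _ h]
    unfold H76.genB
    rw [dif_pos (show (toGen ℓ).1 ∣ p from h)]
    rfl
  · rw [genB_of_not_dvd _ _ _ h]
    unfold H76.genB
    rw [dif_neg (show ¬ (toGen ℓ).1 ∣ p from h)]
    rfl

/-- Every `BettiWord` comes from a word in the free algebra. -/
theorem exists_freeWord (A : Type) [AddCommGroup A] :
    ∀ (P : HeckeAlg) (Φ : (Additive (Gamma0 p) →+ A) →+ (Additive (Gamma0 p) →+ A)),
      BettiWord p A P Φ →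
      ∃ w : FreeAlgebra ℤ (Gen (∅ : Set ℕ)),
        wordS p ∅ w = ((CuspForm.heckeEvalForms p 2 P : CuspForm.heckeAlgebra p 2 ∅) :
            Module.End ℂ (CuspForm (Gamma0 p) 2)) ∧
        ∀ φ, wordB p ∅ A w φ = Φ φ := by
  intro P Φ h
  induction h with
  | const a =>
    refine ⟨algebraMap ℤ _ a, ?_, fun φ => ?_⟩
    · rw [AlgHom.commutes, CuspForm.heckeEvalForms_C]
      rfl
    · rw [AlgHom.commutes]
      simp
  | gen ℓ =>
    refine ⟨FreeAlgebra.ι ℤ (toGen ℓ), ?_, fun φ => ?_⟩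
    · rw [wordS_ι, genS_toGen]
      congr 1
      exact (CuspForm.heckeEvalForms_heckeGen p 2 ℓ).symm
    · rw [wordB_ι, genB_toGen]
  | add _ _ ih1 ih2 =>
    obtain ⟨w1, h1, e1⟩ := ih1
    obtain ⟨w2, h2, e2⟩ := ih2
    refine ⟨w1 + w2, ?_, fun φ => ?_⟩
    · rw [map_add, map_add, h1, h2]; rfl
    · rw [map_add, LinearMap.add_apply, e1, e2]; rfl
  | mul _ _ ih1 ih2 =>
    obtain ⟨w1, h1, e1⟩ := ih1
    obtain ⟨w2, h2, e2⟩ := ih2
    refine ⟨w1 * w2, ?_, fun φ => ?_⟩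
    · rw [map_mul, map_mul, h1, h2]; rfl
    · rw [map_mul, Module.End.mul_apply, e2, e1]; rfl

/-- **B4**: a Hecke polynomial killing `S₂(Γ₀(p))` kills the parabolic homomorphisms
`Γ₀(p) → ℤ`. -/
theorem stmt_B4 : Stmt_B4 p := by
  intro P Φ hΦ hP φ hφ
  obtain ⟨w, hw, hwB⟩ := exists_freeWord p ℤ P Φ hΦ
  rw [hP] at hw
  have hw0 : wordS p ∅ w = 0 := hw
  rw [← hwB φ]
  exact wordB_int_eq_zero_of_wordS p ∅ w hw0 hφ

end Fermat.Agent.S16.H40

namespace Fermat.Agent.S16.H40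

open ModularCurve

/-- **Lower bound, final form**: `TORSLIFT` for `n = eisensteinNumerator p` gives `Stmt_LBalg p`. -/
theorem stmt_LBalg_of_torsLift (p : ℕ) [Fact p.Prime]
    (hTL : Stmt_TorsLift p (eisensteinNumerator p)) : Stmt_LBalg p :=
  stmt_LBalg_of p (stmt_B4 p) hTL

end Fermat.Agent.S16.H40
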