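import Fermat.Agent.S16.H44_WireAll
import Fermat.Prelude.Def_ModularCurve_GenusNumerics

/-!
# S16 WIRE, small primes (helper44)

For `p ∈ {2, 3, 5, 7, 13}` the genus formula gives `0`, so `S₂(Γ₀(p)) = 0` (S20) and both
`Stmt_LB p` and `Stmt_UB p` hold trivially (`eisensteinNumerator p = 1`).

* `genusFormula_small` : `genusFormula p = 0` for `p ∈ {2, 3, 5, 7, 13}`.
* `stmt_LB_of_forms_zero`, `stmt_UB_of_forms_zero`.
* `S16_small p hint hS20 hsmall` : the frozen S16 statement for these `p`, where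
  `hS20 : (finrank ℂ S₂(Γ₀(p)) : ℚ) = genusFormula p` (= `Fermat.Agent.S20.result p`).
-/

set_option autoImplicit false

namespace Fermat.Agent.S16.H44

open CuspForm ModularFormClass CongruenceSubgroup ModularCurve

theorem dedekindPsi_prime {p : ℕ} (hp : p.Prime) : dedekindPsi p = p + 1 := by
  unfold dedekindPsi
  rw [hp.divisors, Finset.filter_true_of_mem]
  · rw [Finset.sum_pair hp.one_lt.ne, Nat.div_one, Nat.div_self hp.pos, add_comm]
  · intro d hd
    rw [Finset.mem_insert, Finset.mem_singleton] at hd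
    rcases hd with rfl | rfl
    · exact squarefree_one
    · exact hp.prime.squarefree

theorem cuspCount_prime {p : ℕ} (hp : p.Prime) : cuspCount p = 2 := by
  unfold cuspCount
  rw [hp.divisors, Finset.sum_pair hp.one_lt.ne, Nat.div_one, Nat.div_self hp.pos]
  simp

theorem nuTwo_two : nuTwo 2 = 1 := by
  unfold nuTwo; rw [Nat.card_eq_fintype_card]; decide

theorem nuThree_two : nuThree 2 = 0 := by
  unfold nuThree; rw [Nat.card_eq_fintype_card]; decide

theorem nuTwo_three : nuTwo 3 = 0 := by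
  unfold nuTwo; rw [Nat.card_eq_fintype_card]; decide

theorem nuThree_three : nuThree 3 = 1 := by
  unfold nuThree; rw [Nat.card_eq_fintype_card]; decide

theorem nuTwo_five : nuTwo 5 = 2 := by
  unfold nuTwo; rw [Nat.card_eq_fintype_card]; decide

theorem nuThree_five : nuThree 5 = 0 := by
  unfold nuThree; rw [Nat.card_eq_fintype_card]; decide

theorem nuTwo_seven : nuTwo 7 = 0 := by
  unfold nuTwo; rw [Nat.card_eq_fintype_card]; decide

theorem nuThree_seven : nuThree 7 = 2 := by
  unfold nuThree; rw [Nat.card_eq_fintype_card]; decide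

theorem nuTwo_thirteen : nuTwo 13 = 2 := by
  unfold nuTwo; rw [Nat.card_eq_fintype_card]; decide

theorem nuThree_thirteen : nuThree 13 = 2 := by
  unfold nuThree; rw [Nat.card_eq_fintype_card]; decide

theorem genusFormula_small {p : ℕ} (h : p = 2 ∨ p = 3 ∨ p = 5 ∨ p = 7 ∨ p = 13) :
    genusFormula p = 0 := by
  unfold genusFormula
  rcases h with rfl | rfl | rfl | rfl | rfl
  · rw [dedekindPsi_prime Nat.prime_two, cuspCount_prime Nat.prime_two, nuTwo_two, nuThree_two]
    norm_num
  · rw [dedekindPsi_prime Nat.prime_three, cuspCount_prime Nat.prime_three, nuTwo_three,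
      nuThree_three]
    norm_num
  · rw [dedekindPsi_prime Nat.prime_five, cuspCount_prime Nat.prime_five, nuTwo_five,
      nuThree_five]
    norm_num
  · rw [dedekindPsi_prime (by norm_num : Nat.Prime 7), cuspCount_prime (by norm_num : Nat.Prime 7),
      nuTwo_seven, nuThree_seven]
    norm_num
  · rw [dedekindPsi_prime (by norm_num : Nat.Prime 13),
      cuspCount_prime (by norm_num : Nat.Prime 13), nuTwo_thirteen, nuThree_thirteen]
    norm_num

theorem eisensteinNumerator_small {p : ℕ} (h : p = 2 ∨ p = 3 ∨ p = 5 ∨ p = 7 ∨ p = 13) :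
    eisensteinNumerator p = 1 := by
  rcases h with rfl | rfl | rfl | rfl | rfl <;> decide

theorem finiteDimensional_of_hasIntegralStructure {N : ℕ} [NeZero N]
    (hint : HasIntegralStructure N 2) : FiniteDimensional ℂ (CuspForm (Gamma0 N) 2) := by
  obtain ⟨s, hs⟩ := CuspForm.intLattice_fg N 2
  refine ⟨⟨s, ?_⟩⟩
  unfold HasIntegralStructure at hint
  rw [← hint, ← hs, Submodule.span_span_of_tower]

theorem forms_zero_of_finrank {N : ℕ} [NeZero N] (hint : HasIntegralStructure N 2)
    (h0 : Module.finrank ℂ (CuspForm (Gamma0 N) 2) = 0) (f : CuspForm (Gamma0 N) 2) : f = 0 := by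
  haveI := finiteDimensional_of_hasIntegralStructure hint
  haveI : Subsingleton (CuspForm (Gamma0 N) 2) := Module.finrank_zero_iff.mp h0
  exact Subsingleton.elim _ _

theorem stmt_LB_of_numerator_one {p : ℕ} (h : eisensteinNumerator p = 1) : Stmt_LB p := by
  refine ⟨0, fun k _ => ⟨0, ?_, ?_⟩⟩
  · rw [Fermat.Agent.S49.qCoeff_zero_form]; simp
  · rw [h]; simp

theorem stmt_UB_of_forms_zero {p : ℕ} (hp : p.Prime)
    (h0 : ∀ f : CuspForm (Gamma0 p) 2, f = 0) : Stmt_UB p := by
  rintro m ⟨f, hf⟩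
  obtain ⟨c, hc, hdc⟩ := hf 1 le_rfl
  rw [h0 f, Fermat.Agent.S49.qCoeff_zero_form] at hc
  have hc0 : c = 0 := by exact_mod_cast hc.symm
  rw [hc0, sigmaP_one_of_prime hp] at hdc
  have h1 : (m : ℤ) ∣ 1 := by simpa using hdc
  have h2 : m ∣ 1 := by exact_mod_cast h1
  rw [Nat.dvd_one.mp h2]
  exact one_dvd _

/-- S16 for `p ∈ {2, 3, 5, 7, 13}`, from S23 and S20. -/
theorem S16_small (p : ℕ) [Fact p.Prime] (hint : HasIntegralStructure p 2)
    (hS20 : (Module.finrank ℂ (CuspForm (Gamma0 p) 2) : ℚ) = genusFormula p)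
    (hsmall : p = 2 ∨ p = 3 ∨ p = 5 ∨ p = 7 ∨ p = 13) :
    Nat.card (↥(heckeLatticeAlgebra p ∅) ⧸
        Ideal.map ((latticeRestrictHom p ∅).toRingHom.comp (heckeEvalForms p 2))
          (eisensteinIdeal p)) =
      eisensteinNumerator p := by
  have h0 : Module.finrank ℂ (CuspForm (Gamma0 p) 2) = 0 := by
    rw [genusFormula_small hsmall] at hS20
    exact_mod_cast hS20
  exact S16_of_LB_UB p hint (stmt_LB_of_numerator_one (eisensteinNumerator_small hsmall))
    (stmt_UB_of_forms_zero Fact.out (forms_zero_of_finrank hint h0))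

end Fermat.Agent.S16.H44
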