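import Fermat.Agent.S16.H44_WireAll
import Fermat.Agent.S16.H44_Small
import Fermat.Agent.S16.H38_LocUB
import Fermat.Agent.S16.H6_Eis
import Fermat.Agent.S16.H40_B4
import Fermat.Agent.S20
import Fermat.Agent.S23

/-!
# S16: assembly (helper40, coordinator of cluster M)

`S16_of_leaves` : S16 for every prime `p` from the two remaining families of leaves (`p ≥ 5`)

* `Stmt_TorsLift p (eisensteinNumerator p)`   (package TORSLIFT, lower bound);
* `Stmt_UBcore p ℓ (ubExp p ℓ)` for every prime `ℓ`   (packages UB2, UB3, UB5, upper bound).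

Everything else is proved: WIRE (helper44), LOC-UB (helper38), EIS (helper6), the Shimura class
and B4 (helper40, helper38, helper76, helper20), small `p` (helper44, from S20 and S23).
-/

set_option autoImplicit false

namespace Fermat.Agent.S16

open CuspForm ModularFormClass CongruenceSubgroup ModularCurve

theorem S16_of_leaves (p : ℕ) [Fact p.Prime]
    (hTL : 5 ≤ p → Stmt_TorsLift p (eisensteinNumerator p))
    (hUB : 5 ≤ p → ∀ ℓ : ℕ, ℓ.Prime → Stmt_UBcore p ℓ (ubExp p ℓ)) :
    Nat.card (↥(heckeLatticeAlgebra p ∅) ⧸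
        Ideal.map ((latticeRestrictHom p ∅).toRingHom.comp (heckeEvalForms p 2))
          (eisensteinIdeal p)) =
      eisensteinNumerator p := by
  have hp : p.Prime := Fact.out
  have hint : HasIntegralStructure p 2 := Fermat.Agent.S23.result p
  by_cases h5 : 5 ≤ p
  · exact H44.S16_of_LBalg_UB p hint (H40.stmt_LBalg_of_torsLift p (hTL h5))
      (H38.locUB hp h5 (H6.stmt_Eis p hp.ne_zero) (hUB h5))
  · have hsmall : p = 2 ∨ p = 3 ∨ p = 5 ∨ p = 7 ∨ p = 13 := by
      have h2 := hp.two_le
      have hlt : p < 5 := not_le.mp h5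
      interval_cases p
      · exact Or.inl rfl
      · exact Or.inr (Or.inl rfl)
      · exact absurd hp (by decide)
    exact H44.S16_small p hint (Fermat.Agent.S20.result p) hsmall

end Fermat.Agent.S16
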