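import Fermat.Prelude.Def_CuspForm_HeckeLocal
import Fermat.Prelude.Def_CuspForm_HeckeEvalForms
import Fermat.Prelude.Def_HeckeGalois_EichlerShimura
import Fermat.Prelude.Def_ModularCurve_ModularUnit

/-!
# S16 (Eisenstein ideal index): interfaces (helper40, coordinator of cluster M)

`T := heckeLatticeAlgebra p ∅`, `I := ` image of the Eisenstein ideal. Then `T ⧸ I ≃ ℤ ⧸ (m)` and
`|T ⧸ I| = n := (p - 1) / gcd (p - 1, 12)` is equivalent to the two statements below:

* `Stmt_LB p` : some cusp form of weight 2 on `Γ₀(p)` with integral `q`-expansion is congruent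
  modulo `n` to the Eisenstein series `Σ σ'(k) q^k`, `σ'(k) = Σ_{d ∣ k, p ∤ d} d`;
* `Stmt_UB p` : if such a congruence holds modulo `m` then `m ∣ n` (`m = 0`: equality).

The proof of S16 from these two is `Fermat.Agent.S16.wiring` (file `Wiring.lean`).
-/

set_option autoImplicit false

namespace Fermat.Agent.S16

open CuspForm ModularFormClass CongruenceSubgroup ModularCurve

/-- `σ'(k) = Σ_{d ∣ k, p ∤ d} d`, the `k`-th coefficient of the Eisenstein series of weight 2
and level `p`. -/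
def sigmaP (p k : ℕ) : ℕ := ∑ d ∈ k.divisors with ¬ p ∣ d, d

/-- `f ≡ Σ_{k ≥ 1} σ'(k) q^k mod m`: every coefficient `a_k(f)`, `k ≥ 1`, is an integer
congruent to `σ'(k)` modulo `m`. For `m = 0` this says `a_k(f) = σ'(k)`. -/
def IsEisCongr (p m : ℕ) (f : CuspForm (Gamma0 p) 2) : Prop :=
  ∀ k : ℕ, 1 ≤ k → ∃ c : ℤ, qCoeff f k = (c : ℂ) ∧ (m : ℤ) ∣ c - (sigmaP p k : ℤ)

/-- Lower bound input: the Eisenstein congruence modulo `n = eisensteinNumerator p` exists. -/
def Stmt_LB (p : ℕ) : Prop :=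
  ∃ f : CuspForm (Gamma0 p) 2, IsEisCongr p (eisensteinNumerator p) f

/-- Upper bound input: an Eisenstein congruence modulo `m` forces `m ∣ n`. -/
def Stmt_UB (p : ℕ) : Prop :=
  ∀ m : ℕ, (∃ f : CuspForm (Gamma0 p) 2, IsEisCongr p m f) → m ∣ eisensteinNumerator p

/-- Local form of `Stmt_LB` at a prime `ℓ`: congruence modulo the exact power of `ℓ` in `n`. -/
def Stmt_LBat (p ℓ : ℕ) : Prop :=
  ∃ f : CuspForm (Gamma0 p) 2, IsEisCongr p (ℓ ^ (eisensteinNumerator p).factorization ℓ) f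

/-- Local form of `Stmt_UB` at a prime `ℓ`: no congruence modulo `ℓ ^ (v_ℓ(n) + 1)`. -/
def Stmt_UBat (p ℓ : ℕ) : Prop :=
  ∀ f : CuspForm (Gamma0 p) 2,
    ¬ IsEisCongr p (ℓ ^ ((eisensteinNumerator p).factorization ℓ + 1)) f

end Fermat.Agent.S16
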