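import Fermat.Agent.S23.H22_Family
import Mathlib.NumberTheory.ModularForms.NormTrace
import Mathlib.NumberTheory.Modular
import Mathlib.Algebra.Field.ZMod

/-!
# S16 (T0), part 1: the cosets of `Γ₀(p)` in `SL(2, ℤ)` for `p` prime (helper15)

The `p + 1` conjugates of a form `H` on `Γ₀(p)` are `H` and `H ∣ S T^j`, `0 ≤ j < p`.
-/

set_option autoImplicit false
set_option linter.unusedSectionVars false

open UpperHalfPlane ModularForm SlashInvariantForm
open scoped MatrixGroups ModularForm Manifold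

noncomputable section

namespace Fermat.Agent.S16.H15

open Fermat.Agent.S23.H22 (G0 Q toSL piPerm q1 quotientFunc_q1)

/-- The representative `S T^j`. -/
def STj (j : ℕ) : SL(2, ℤ) := ModularGroup.S * ModularGroup.T ^ j

lemma STj_coe (j : ℕ) : (STj j : Matrix (Fin 2) (Fin 2) ℤ) = !![0, -1; 1, (j : ℤ)] := by
  rw [STj, Matrix.SpecialLinearGroup.coe_mul, ModularGroup.coe_S, ← zpow_natCast,
    ModularGroup.coe_T_zpow]
  ext a b
  fin_cases a <;> fin_cases b <;> simp [Matrix.mul_apply, Fin.sum_univ_two]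

lemma STj_inv_coe (j : ℕ) :
    ((STj j)⁻¹ : SL(2, ℤ)).1 = !![(j : ℤ), 1; -1, 0] := by
  rw [Matrix.SpecialLinearGroup.coe_inv, STj_coe, Matrix.adjugate_fin_two_of]
  simp

variable (N : ℕ) [NeZero N]

/-- The coset whose conjugate is `H ∣ γ`. -/
def cosetOf (γ : SL(2, ℤ)) : Q N := (⟦toSL γ⁻¹⟧ : Q N)

lemma toSL_mul (α β : SL(2, ℤ)) : toSL (α * β) = toSL α * toSL β := by
  apply Subtype.ext
  simp [toSL]

lemma toSL_inv (α : SL(2, ℤ)) : toSL α⁻¹ = (toSL α)⁻¹ := by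
  apply Subtype.ext
  simp [toSL]

lemma toSL_mem_iff (γ : SL(2, ℤ)) :
    toSL γ ∈ (G0 N).subgroupOf 𝒮ℒ ↔ γ ∈ CongruenceSubgroup.Gamma0 N := by
  rw [Subgroup.mem_subgroupOf]
  constructor
  · rintro ⟨δ, hδ, h⟩
    have : δ = γ := by
      apply Matrix.SpecialLinearGroup.mapGL_injective (R := ℤ) (S := ℝ)
      simpa [toSL] using h
    exact this ▸ hδ
  · intro h
    exact ⟨γ, h, rfl⟩

lemma cosetOf_eq_iff (α β : SL(2, ℤ)) :
    cosetOf N α = cosetOf N β ↔ α * β⁻¹ ∈ CongruenceSubgroup.Gamma0 N := by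
  unfold cosetOf
  show ((toSL α⁻¹ : ↥𝒮ℒ) : Q N) = ((toSL β⁻¹ : ↥𝒮ℒ) : Q N) ↔ _
  rw [QuotientGroup.eq, ← toSL_inv, inv_inv, ← toSL_mul, toSL_mem_iff]

lemma cosetOf_one : cosetOf N 1 = q1 := by
  unfold cosetOf q1
  rw [inv_one]
  have : toSL 1 = 1 := Subtype.ext (by simp [toSL])
  rw [this]

lemma quotientFunc_cosetOf {F : Type*} [FunLike F ℍ ℂ] {k : ℤ}
    [SlashInvariantFormClass F (G0 N) k] (f : F) (γ : SL(2, ℤ)) :
    quotientFunc f (cosetOf N γ) = (f : ℍ → ℂ) ∣[k] γ := by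
  unfold cosetOf
  rw [quotientFunc_mk, SL_slash]
  congr 1
  simp only [toSL, map_inv, inv_inv]
  rfl

lemma exists_cosetOf (q : Q N) : ∃ γ : SL(2, ℤ), q = cosetOf N γ := by
  induction q using Quotient.inductionOn with
  | h r =>
    obtain ⟨r, γ, rfl⟩ := r
    refine ⟨γ⁻¹, ?_⟩
    unfold cosetOf
    rw [inv_inv]
    rfl

omit [NeZero N] in
lemma mem_Gamma0_iff_dvd (γ : SL(2, ℤ)) :
    γ ∈ CongruenceSubgroup.Gamma0 N ↔ (N : ℤ) ∣ γ 1 0 := by
  rw [CongruenceSubgroup.Gamma0_mem]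
  exact ZMod.intCast_zmod_eq_zero_iff_dvd _ _

lemma cosetOf_eq_q1_iff (γ : SL(2, ℤ)) : cosetOf N γ = q1 ↔ (N : ℤ) ∣ γ 1 0 := by
  rw [← cosetOf_one, cosetOf_eq_iff, inv_one, mul_one, mem_Gamma0_iff_dvd]

lemma mul_STj_inv_apply (γ : SL(2, ℤ)) (j : ℕ) :
    (γ * (STj j)⁻¹ : SL(2, ℤ)) 1 0 = γ 1 0 * j - γ 1 1 := by
  have h : (γ * (STj j)⁻¹ : SL(2, ℤ)).1 = γ.1 * ((STj j)⁻¹ : SL(2, ℤ)).1 :=
    Matrix.SpecialLinearGroup.coe_mul _ _
  show (γ * (STj j)⁻¹ : SL(2, ℤ)).1 1 0 = _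
  rw [h, STj_inv_coe]
  simp [Matrix.mul_apply, Fin.sum_univ_two]
  ring

lemma cosetOf_eq_STj_iff (γ : SL(2, ℤ)) (j : ℕ) :
    cosetOf N γ = cosetOf N (STj j) ↔ (N : ℤ) ∣ γ 1 0 * j - γ 1 1 := by
  rw [cosetOf_eq_iff, mem_Gamma0_iff_dvd, mul_STj_inv_apply]

lemma STj_apply_one_zero (j : ℕ) : (STj j) 1 0 = 1 := by
  show (STj j).1 1 0 = 1
  rw [STj_coe]; simp

lemma STj_apply_one_one (j : ℕ) : (STj j) 1 1 = j := by
  show (STj j).1 1 1 = j
  rw [STj_coe]; simp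

/-- The enumeration of the cosets: `none ↦ Γ₀(p)`, `some j ↦ Γ₀(p) S T^j`. -/
def cosetMap (p : ℕ) [NeZero p] : Option (Fin p) → Q p
  | none => q1
  | some j => cosetOf p (STj (j : ℕ))

lemma cosetMap_injective (p : ℕ) [NeZero p] (hp : 1 < p) : Function.Injective (cosetMap p) := by
  have hp' : ¬ (p : ℤ) ∣ 1 := by
    intro h
    have := Int.le_of_dvd one_pos h
    omega
  intro a b hab
  rcases a with _ | i <;> rcases b with _ | j
  · rfl
  · exfalso
    have h := hab.symm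
    simp only [cosetMap] at h
    rw [cosetOf_eq_q1_iff, STj_apply_one_zero] at h
    exact hp' h
  · exfalso
    simp only [cosetMap] at hab
    rw [cosetOf_eq_q1_iff, STj_apply_one_zero] at hab
    exact hp' hab
  · simp only [cosetMap] at hab
    rw [cosetOf_eq_STj_iff, STj_apply_one_zero, STj_apply_one_one, one_mul] at hab
    congr 1
    apply Fin.ext
    have hi := i.2
    have hj := j.2
    obtain ⟨c, hc⟩ := hab
    have h1 : ((j : ℕ) : ℤ) - (i : ℕ) = p * c := hc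
    have hc0 : c = 0 := by
      by_contra hne
      rcases lt_or_gt_of_ne hne with h | h
      · have : (p : ℤ) * c ≤ p * (-1) := mul_le_mul_of_nonneg_left (by omega) (by positivity)
        omega
      · have : (p : ℤ) * 1 ≤ p * c := mul_le_mul_of_nonneg_left (by omega) (by positivity)
        omega
    rw [hc0, mul_zero] at h1
    omega

lemma cosetMap_surjective (p : ℕ) [NeZero p] (hp : p.Prime) :
    Function.Surjective (cosetMap p) := by
  intro q
  obtain ⟨γ, rfl⟩ := exists_cosetOf p q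
  by_cases hc : (p : ℤ) ∣ γ 1 0
  · exact ⟨none, ((cosetOf_eq_q1_iff p γ).mpr hc).symm⟩
  · have hc' : ((γ 1 0 : ℤ) : ZMod p) ≠ 0 := by
      rwa [Ne, ZMod.intCast_zmod_eq_zero_iff_dvd]
    obtain ⟨j, hj⟩ : ∃ j : ZMod p, ((γ 1 0 : ℤ) : ZMod p) * j = ((γ 1 1 : ℤ) : ZMod p) := by
      have hF : Fact p.Prime := ⟨hp⟩
      have hu : IsUnit ((γ 1 0 : ℤ) : ZMod p) := isUnit_iff_ne_zero.mpr hc'
      obtain ⟨b, hb⟩ := hu.exists_right_inv
      exact ⟨b * ((γ 1 1 : ℤ) : ZMod p), by rw [← mul_assoc, hb, one_mul]⟩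
    have hjlt : j.val < p := ZMod.val_lt j
    refine ⟨some ⟨j.val, hjlt⟩, ?_⟩
    simp only [cosetMap]
    symm
    rw [cosetOf_eq_STj_iff, ← ZMod.intCast_zmod_eq_zero_iff_dvd]
    push_cast
    rw [ZMod.natCast_zmod_val, hj, sub_self]

/-- The cosets of `Γ₀(p)` in `SL(2, ℤ)`, `p` prime. -/
def cosetEquiv (p : ℕ) [NeZero p] (hp : p.Prime) : Option (Fin p) ≃ Q p :=
  Equiv.ofBijective (cosetMap p) ⟨cosetMap_injective p hp.one_lt, cosetMap_surjective p hp⟩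

lemma cosetEquiv_none (p : ℕ) [NeZero p] (hp : p.Prime) : cosetEquiv p hp none = q1 := rfl

lemma cosetEquiv_some (p : ℕ) [NeZero p] (hp : p.Prime) (j : Fin p) :
    cosetEquiv p hp (some j) = cosetOf p (STj (j : ℕ)) := rfl

/-- The conjugates of a `Γ₀(p)`-invariant function along the enumeration of the cosets. -/
lemma quotientFunc_cosetEquiv (p : ℕ) [NeZero p] (hp : p.Prime) {F : Type*} [FunLike F ℍ ℂ]
    {k : ℤ} [SlashInvariantFormClass F (G0 p) k] (f : F) (c : Option (Fin p)) :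
    quotientFunc f (cosetEquiv p hp c) =
      match c with
      | none => (f : ℍ → ℂ)
      | some j => (f : ℍ → ℂ) ∣[k] (ModularGroup.S * ModularGroup.T ^ (j : ℕ)) := by
  rcases c with _ | j
  · rw [cosetEquiv_none, quotientFunc_q1]
  · rw [cosetEquiv_some, quotientFunc_cosetOf]
    rfl

end Fermat.Agent.S16.H15
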