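import Fermat.Agent.S16.H21_Step1
import Fermat.Agent.S16.H79_ConjDefs
import Fermat.Agent.S16.H55_RhoInt
import Fermat.Prelude.Thm_UpperHalfPlane_qExpansion_coeff_nat_mul

/-!
# S16, upper bound at `ℓ = 2`, `p ≡ 7 mod 8`: Step 1, final form (helper21)

Output for helper55's assembly (`H55_UB2.lean`): for `h ∈ M₂(Γ₀(p))` with `q`-expansion
`u + 8 ∑ a_k q^k`, `p ≡ 7 mod 8`, and every subring `O ⊆ ℂ` with `1/p, ζ_p ∈ O`, the functions
`A₄ = F₄³` and `A₆ = F₆²` are in `MF (Gamma0 p) 12` and all their `t`-expansions `expFam` have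
coefficients in `O` (`step1_A4`, `step1_A6`).  Hypotheses: `H79.Stmt_T0 p`, `H79.Stmt_conjExp p`.
-/

set_option autoImplicit false

noncomputable section

namespace Fermat.Agent.S16.H21

open UpperHalfPlane ModularForm EisensteinSeries ModularFormClass CongruenceSubgroup
open Fermat.Agent.S23.H96 (sigmaSeries e4Series e6Series intSeries)
open Fermat.Agent.S16.H55 (serO mem_serO_iff intSeries_le_serO)
open Fermat.Agent.S20.H74 (MF)
open Fermat.Agent.S23.H22 (Nice)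
open scoped MatrixGroups ModularForm

/-! ## Closure properties of `serO` -/

theorem map_int_mem_serO (O : Subring ℂ) (Q : PowerSeries ℤ) :
    Q.map (Int.castRingHom ℂ) ∈ serO O :=
  intSeries_le_serO O ⟨Q, rfl⟩

theorem C_mem_serO (O : Subring ℂ) {c : ℂ} (hc : c ∈ O) : PowerSeries.C c ∈ serO O := by
  rw [mem_serO_iff]
  intro n
  rw [PowerSeries.coeff_C]
  split_ifs
  · exact hc
  · exact O.zero_mem

theorem expand_mem_serO (O : Subring ℂ) (p : ℕ) (hp : p ≠ 0) {P : PowerSeries ℂ}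
    (hP : P ∈ serO O) : PowerSeries.expand p hp P ∈ serO O := by
  rw [mem_serO_iff] at hP ⊢
  intro n
  rw [PowerSeries.coeff_expand]
  split_ifs
  · exact hP _
  · exact O.zero_mem

theorem rescale_mem_serO (O : Subring ℂ) {a : ℂ} (ha : a ∈ O) {P : PowerSeries ℂ}
    (hP : P ∈ serO O) : PowerSeries.rescale a P ∈ serO O := by
  rw [mem_serO_iff] at hP ⊢
  intro n
  rw [PowerSeries.coeff_rescale]
  exact O.mul_mem (O.pow_mem ha n) (hP n)

/-! ## Level one forms in the parameter `t = q^(1/p)` -/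

theorem nice_natCast {F : ℍ → ℂ} (hF : Nice 1 F) (p : ℕ) : Nice (p : ℝ) F where
  per := by
    have := hF.per.nat_mul p
    simpa using this
  hol := hF.hol
  bdd := hF.bdd

theorem qExpansion_natCast {F : ℍ → ℂ} (hF : Nice 1 F) (p : ℕ) (hp : p ≠ 0) :
    qExpansion (p : ℝ) F = PowerSeries.expand p hp (qExpansion 1 F) := by
  ext n
  have h := UpperHalfPlane.qExpansion_coeff_nat_mul (h := 1) one_pos hF.per hF.hol hF.bdd
    (M := p) (Nat.pos_of_ne_zero hp) n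
  rw [mul_one] at h
  rw [h, PowerSeries.coeff_expand]

/-! ## The `q`-expansion data of `h` -/

/-- The series `∑_{k ≥ 1} a_k q^k`. -/
def tailSeries (a : ℕ → ℤ) : PowerSeries ℤ := PowerSeries.mk fun k => if k = 0 then 0 else a k

theorem coeff_map_C_add_eight_tail (u : ℤ) (a : ℕ → ℤ) (n : ℕ) :
    ((PowerSeries.C u + 8 * tailSeries a).map (Int.castRingHom ℂ)).coeff n =
      if n = 0 then (u : ℂ) else 8 * (a n : ℂ) := by
  have h8 : (8 : PowerSeries ℤ) = PowerSeries.C (8 : ℤ) := (map_ofNat PowerSeries.C 8).symm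
  rw [PowerSeries.coeff_map, map_add, PowerSeries.coeff_C, h8, PowerSeries.coeff_C_mul, tailSeries,
    PowerSeries.coeff_mk]
  split_ifs with h
  · simp
  · simp

variable {p : ℕ}

theorem qExpansion_eq_of_coeffs (h : ModularForm (Gamma0 p) 2) (u : ℤ) (a : ℕ → ℤ)
    (hu : qCoeff h 0 = (u : ℂ)) (ha : ∀ k, 1 ≤ k → qCoeff h k = 8 * (a k : ℂ)) :
    qExpansion 1 h = (PowerSeries.C u + 8 * tailSeries a).map (Int.castRingHom ℂ) := by
  ext n
  rw [coeff_map_C_add_eight_tail]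
  split_ifs with hn
  · subst hn; exact hu
  · exact ha n (Nat.one_le_iff_ne_zero.mpr hn)

/-- (T0) in series form: `sExp p 2 h = -(1/p) (u + 8 ∑ a_{pk} t^k)`. -/
theorem sExp_two_eq (hp : p.Prime) (hT0 : H79.Stmt_T0 p) (h : ModularForm (Gamma0 p) 2)
    (u : ℤ) (a : ℕ → ℤ)
    (hu : qCoeff h 0 = (u : ℂ)) (ha : ∀ k, 1 ≤ k → qCoeff h k = 8 * (a k : ℂ)) :
    H79.sExp p 2 h = PowerSeries.C (-(p : ℂ)⁻¹) *
      (PowerSeries.C u + 8 * tailSeries fun n => a (p * n)).map (Int.castRingHom ℂ) := by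
  have : NeZero p := ⟨hp.ne_zero⟩
  ext n
  rw [hT0 hp h (Fermat.Agent.S20.H74.coe_mem_MF rfl h) n, PowerSeries.coeff_C_mul,
    coeff_map_C_add_eight_tail]
  congr 1
  split_ifs with hn
  · subst hn; rw [mul_zero]; exact hu
  · exact ha _ (Nat.one_le_iff_ne_zero.mpr (Nat.mul_ne_zero hp.ne_zero hn))

/-! ## The conjugate at the cusp `0` -/

/-- Niceness of `G ∣[k] S`, from CONJ-1. -/
theorem nice_slash_S (hp : p.Prime) (hconj : H79.Stmt_conjExp p) (k : ℤ) (G : ℍ → ℂ)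
    (hG : G ∈ MF (Gamma0 p) k) : Nice (p : ℝ) (G ∣[k] ModularGroup.S) := by
  have := (hconj hp k G hG (some ⟨0, hp.pos⟩)).1
  simpa [H79.conjFam] using this

theorem levelOne_slash_S {k : ℤ} (F : ModularForm 𝒮ℒ k) :
    (F : ℍ → ℂ) ∣[k] ModularGroup.S = F :=
  SlashInvariantFormClass.slash_action_eq F (Matrix.SpecialLinearGroup.mapGL ℝ ModularGroup.S)
    ⟨_, rfl⟩

theorem coe_F4_eq (h : ModularForm (Gamma0 p) 2) (u : ℤ) :
    (F4 h u : ℍ → ℂ) = (1 / 16 : ℂ) • ((h : ℍ → ℂ) * (h : ℍ → ℂ) - ((u : ℂ) ^ 2) • (E₄ : ℍ → ℂ)) := by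
  funext z
  rw [coe_F4]
  simp only [Pi.smul_apply, Pi.sub_apply, Pi.mul_apply, smul_eq_mul]
  ring

theorem coe_F6_eq (h : ModularForm (Gamma0 p) 2) (u : ℤ) :
    (F6 h u : ℍ → ℂ) = (1 / 32 : ℂ) • ((3 * (u : ℂ) ^ 2) • ((h : ℍ → ℂ) * (E₄ : ℍ → ℂ))
      - (2 * (u : ℂ) ^ 3) • (E₆ : ℍ → ℂ) - (h : ℍ → ℂ) * (h : ℍ → ℂ) * (h : ℍ → ℂ)) := by
  funext z
  rw [coe_F6]
  simp only [Pi.smul_apply, Pi.sub_apply, Pi.mul_apply, smul_eq_mul]
  ring

theorem F4_slash_S (h : ModularForm (Gamma0 p) 2) (u : ℤ) :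
    (F4 h u : ℍ → ℂ) ∣[(4 : ℤ)] ModularGroup.S =
      (1 / 16 : ℂ) • ((h : ℍ → ℂ) ∣[(2 : ℤ)] ModularGroup.S * (h : ℍ → ℂ) ∣[(2 : ℤ)] ModularGroup.S
        - ((u : ℂ) ^ 2) • (E₄ : ℍ → ℂ)) := by
  rw [coe_F4_eq, ModularForm.SL_smul_slash, sub_eq_add_neg, SlashAction.add_slash,
    SlashAction.neg_slash, ModularForm.SL_smul_slash, levelOne_slash_S E₄, ← sub_eq_add_neg]
  have e := ModularForm.mul_slash_SL2 2 2 ModularGroup.S (h : ℍ → ℂ) (h : ℍ → ℂ)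
  rw [show (2 : ℤ) + 2 = 4 from rfl] at e
  rw [e]

theorem F6_slash_S (h : ModularForm (Gamma0 p) 2) (u : ℤ) :
    (F6 h u : ℍ → ℂ) ∣[(6 : ℤ)] ModularGroup.S =
      (1 / 32 : ℂ) • ((3 * (u : ℂ) ^ 2) • ((h : ℍ → ℂ) ∣[(2 : ℤ)] ModularGroup.S * (E₄ : ℍ → ℂ))
        - (2 * (u : ℂ) ^ 3) • (E₆ : ℍ → ℂ)
        - (h : ℍ → ℂ) ∣[(2 : ℤ)] ModularGroup.S * (h : ℍ → ℂ) ∣[(2 : ℤ)] ModularGroup.S
          * (h : ℍ → ℂ) ∣[(2 : ℤ)] ModularGroup.S) := by
  rw [coe_F6_eq, ModularForm.SL_smul_slash, sub_eq_add_neg, SlashAction.add_slash,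
    SlashAction.neg_slash, sub_eq_add_neg, SlashAction.add_slash, SlashAction.neg_slash,
    ModularForm.SL_smul_slash, ModularForm.SL_smul_slash, levelOne_slash_S E₆,
    ← sub_eq_add_neg, ← sub_eq_add_neg]
  have e1 := ModularForm.mul_slash_SL2 2 4 ModularGroup.S (h : ℍ → ℂ) (E₄ : ℍ → ℂ)
  rw [show (2 : ℤ) + 4 = 6 from rfl, levelOne_slash_S E₄] at e1
  have e2 : ((h : ℍ → ℂ) * (h : ℍ → ℂ) * (h : ℍ → ℂ)) ∣[(6 : ℤ)] ModularGroup.S =
      (h : ℍ → ℂ) ∣[(2 : ℤ)] ModularGroup.S * (h : ℍ → ℂ) ∣[(2 : ℤ)] ModularGroup.S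
          * (h : ℍ → ℂ) ∣[(2 : ℤ)] ModularGroup.S := by
    have a := ModularForm.mul_slash_SL2 (2 + 2) 2 ModularGroup.S ((h : ℍ → ℂ) * (h : ℍ → ℂ))
      (h : ℍ → ℂ)
    have b := ModularForm.mul_slash_SL2 2 2 ModularGroup.S (h : ℍ → ℂ) (h : ℍ → ℂ)
    rw [b] at a
    exact a
  rw [e1, e2]

/-! ## Algebra -/

theorem f4_alg {R : Type*} [CommRing R] (c16 cP cPi cu Mh W x : R) (h16 : c16 * 16 = 1)
    (hP : cP * cPi = 1)
    (hspec : (-(cu + 8 * Mh)) ^ 2 - cu ^ 2 * (cP ^ 2 * W) = 16 * x) :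
    c16 * ((-cPi * (cu + 8 * Mh)) * (-cPi * (cu + 8 * Mh)) - cu ^ 2 * W) = cPi ^ 2 * x := by
  linear_combination (c16 * cPi ^ 2) * hspec + (cPi ^ 2 * x) * h16
    + (c16 * cu ^ 2 * W * (cP * cPi + 1)) * hP

theorem f6_alg {R : Type*} [CommRing R] (c32 cP cPi cu Mh W4 W6 y : R) (h32 : c32 * 32 = 1)
    (hP : cP * cPi = 1)
    (hspec : 3 * cu ^ 2 * (-(cu + 8 * Mh)) * (cP ^ 2 * W4) - 2 * cu ^ 3 * (cP ^ 3 * W6)
      - (-(cu + 8 * Mh)) ^ 3 = 32 * y) :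
    c32 * (3 * cu ^ 2 * ((-cPi * (cu + 8 * Mh)) * W4) - 2 * cu ^ 3 * W6
      - (-cPi * (cu + 8 * Mh)) * (-cPi * (cu + 8 * Mh)) * (-cPi * (cu + 8 * Mh)))
      = cPi ^ 3 * y := by
  linear_combination (c32 * cPi ^ 3) * hspec + (cPi ^ 3 * y) * h32
    + (c32 * (3 * cu ^ 2 * (cu + 8 * Mh) * cPi * W4 * (cP * cPi + 1)
        + 2 * cu ^ 3 * W6 * ((cP * cPi) ^ 2 + cP * cPi + 1))) * hP

/-! ## The `t`-expansions of `F₄ ∣ S` and `F₆ ∣ S` -/

/-- `expand p` on `ℤ⟦q⟧` as a ring homomorphism. -/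
def expandZ (p : ℕ) (hp : p ≠ 0) : PowerSeries ℤ →+* PowerSeries ℤ :=
  (PowerSeries.expand p hp : PowerSeries ℤ →ₐ[ℤ] PowerSeries ℤ).toRingHom

theorem expandZ_apply (p : ℕ) (hp : p ≠ 0) (Q : PowerSeries ℤ) :
    expandZ p hp Q = PowerSeries.expand p hp Q := rfl

/-- The constant series `(p + 1) / 8`. -/
def kSeries (p : ℕ) : PowerSeries ℤ := PowerSeries.C (((p + 1) / 8 : ℕ) : ℤ)

theorem map_eight_kSeries (hp8 : p % 8 = 7) :
    (8 * PowerSeries.map (Int.castRingHom ℂ) (kSeries p) - 1 : PowerSeries ℂ)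
      = PowerSeries.C (p : ℂ) := by
  have h1 : (8 : ℤ) * (((p + 1) / 8 : ℕ) : ℤ) - 1 = (p : ℤ) := by omega
  have h8 : (8 : PowerSeries ℂ) = PowerSeries.C (8 : ℂ) := (map_ofNat PowerSeries.C 8).symm
  rw [kSeries, map_C_int, h8, ← map_mul, ← map_one (PowerSeries.C (R := ℂ)), ← map_sub]
  congr 1
  have := congrArg (Int.cast : ℤ → ℂ) h1
  push_cast at this ⊢
  exact this

theorem qExpansion_p_levelOne_int (hp : p ≠ 0) {k : ℤ} (F : ModularForm 𝒮ℒ k)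
    (Q : PowerSeries ℤ) (hF : qExpansion 1 F = Q.map (Int.castRingHom ℂ)) :
    qExpansion (p : ℝ) F = (expandZ p hp Q).map (Int.castRingHom ℂ) := by
  rw [qExpansion_natCast (Fermat.Agent.S23.H22.nice_levelOne F) p hp, hF, expandZ_apply,
    PowerSeries.map_expand]

section

variable (hp : p.Prime) (hp8 : p % 8 = 7) (hT0 : H79.Stmt_T0 p) (hconj : H79.Stmt_conjExp p)
  (h : ModularForm (Gamma0 p) 2) (u : ℤ) (a : ℕ → ℤ)
  (hu : qCoeff h 0 = (u : ℂ)) (ha : ∀ k, 1 ≤ k → qCoeff h k = 8 * (a k : ℂ))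

include hp hp8 hT0 hconj hu ha

theorem sExp_F4 :
    H79.sExp p 4 (F4 h u) = PowerSeries.C ((p : ℂ)⁻¹) ^ 2 *
      (f4HatSeries (expandZ p hp.ne_zero) (kSeries p) (PowerSeries.C u)
        (tailSeries fun n => a (p * n))).map (Int.castRingHom ℂ) := by
  have hNZ : NeZero p := ⟨hp.ne_zero⟩
  have hpos : (0 : ℝ) < (p : ℝ) := by exact_mod_cast hp.pos
  have hpC : (p : ℂ) ≠ 0 := by exact_mod_cast hp.ne_zero
  have hg : Nice (p : ℝ) ((h : ℍ → ℂ) ∣[(2 : ℤ)] ModularGroup.S) :=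
    nice_slash_S hp hconj 2 h (Fermat.Agent.S20.H74.coe_mem_MF rfl h)
  have hE4 : Nice (p : ℝ) (E₄ : ℍ → ℂ) := nice_natCast (Fermat.Agent.S23.H22.nice_levelOne E₄) p
  have hsg := sExp_two_eq hp hT0 h u a hu ha
  rw [H79.sExp] at hsg
  have hspec := congrArg (PowerSeries.map (Int.castRingHom ℂ))
    (f4HatSeries_spec (expandZ p hp.ne_zero) (kSeries p) (PowerSeries.C u)
      (tailSeries fun n => a (p * n)))
  simp only [map_sub, map_mul, map_pow, map_neg, map_add, map_ofNat, map_one] at hspec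
  rw [map_eight_kSeries hp8] at hspec
  have hq : qExpansion (p : ℝ) ((F4 h u : ℍ → ℂ) ∣[(4 : ℤ)] ModularGroup.S) =
      PowerSeries.C (1 / 16 : ℂ) * (qExpansion (p : ℝ) ((h : ℍ → ℂ) ∣[(2 : ℤ)] ModularGroup.S)
        * qExpansion (p : ℝ) ((h : ℍ → ℂ) ∣[(2 : ℤ)] ModularGroup.S)
        - PowerSeries.C ((u : ℂ) ^ 2) * qExpansion (p : ℝ) (E₄ : ℍ → ℂ)) := by
    rw [F4_slash_S, Nice.qExpansion_smul hpos ((hg.mul hg).sub (hE4.smul _)),
      Nice.qExpansion_sub hpos (hg.mul hg) (hE4.smul _), Nice.qExpansion_mul hpos hg hg,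
      Nice.qExpansion_smul hpos hE4, PowerSeries.smul_eq_C_mul, PowerSeries.smul_eq_C_mul]
  rw [H79.sExp, hq, hsg,
    qExpansion_p_levelOne_int hp.ne_zero E₄ e4Series Fermat.Agent.S23.H96.qExpansion_E₄_eq]
  rw [map_add, map_mul, map_ofNat, map_pow, map_neg]
  simp only [map_C_int] at hspec ⊢
  have h16 : PowerSeries.C (1 / 16 : ℂ) * (16 : PowerSeries ℂ) = 1 := by
    have h16' : (16 : PowerSeries ℂ) = PowerSeries.C (16 : ℂ) :=
      (map_ofNat PowerSeries.C 16).symm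
    rw [h16', ← map_mul]; norm_num
  have hPPi : PowerSeries.C (p : ℂ) * PowerSeries.C ((p : ℂ)⁻¹) = 1 := by
    rw [← map_mul, mul_inv_cancel₀ hpC, map_one]
  exact f4_alg (PowerSeries.C (1 / 16 : ℂ)) (PowerSeries.C (p : ℂ)) (PowerSeries.C ((p : ℂ)⁻¹))
    (PowerSeries.C (u : ℂ))
    (PowerSeries.map (Int.castRingHom ℂ) (tailSeries fun n => a (p * n)))
    (PowerSeries.map (Int.castRingHom ℂ) (expandZ p hp.ne_zero e4Series))
    _ h16 hPPi hspec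

theorem sExp_F6 :
    H79.sExp p 6 (F6 h u) = PowerSeries.C ((p : ℂ)⁻¹) ^ 3 *
      (f6HatSeries (expandZ p hp.ne_zero) (kSeries p) (PowerSeries.C u)
        (tailSeries fun n => a (p * n))).map (Int.castRingHom ℂ) := by
  have hNZ : NeZero p := ⟨hp.ne_zero⟩
  have hpos : (0 : ℝ) < (p : ℝ) := by exact_mod_cast hp.pos
  have hpC : (p : ℂ) ≠ 0 := by exact_mod_cast hp.ne_zero
  have hg : Nice (p : ℝ) ((h : ℍ → ℂ) ∣[(2 : ℤ)] ModularGroup.S) :=
    nice_slash_S hp hconj 2 h (Fermat.Agent.S20.H74.coe_mem_MF rfl h)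
  have hE4 : Nice (p : ℝ) (E₄ : ℍ → ℂ) := nice_natCast (Fermat.Agent.S23.H22.nice_levelOne E₄) p
  have hE6 : Nice (p : ℝ) (E₆ : ℍ → ℂ) := nice_natCast (Fermat.Agent.S23.H22.nice_levelOne E₆) p
  have hsg := sExp_two_eq hp hT0 h u a hu ha
  rw [H79.sExp] at hsg
  have hspec := congrArg (PowerSeries.map (Int.castRingHom ℂ))
    (f6HatSeries_spec (expandZ p hp.ne_zero) (kSeries p) (PowerSeries.C u)
      (tailSeries fun n => a (p * n)))
  simp only [map_sub, map_mul, map_pow, map_neg, map_add, map_ofNat, map_one] at hspec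
  rw [map_eight_kSeries hp8] at hspec
  have hq : qExpansion (p : ℝ) ((F6 h u : ℍ → ℂ) ∣[(6 : ℤ)] ModularGroup.S) =
      PowerSeries.C (1 / 32 : ℂ) * (PowerSeries.C (3 * (u : ℂ) ^ 2) *
          (qExpansion (p : ℝ) ((h : ℍ → ℂ) ∣[(2 : ℤ)] ModularGroup.S)
            * qExpansion (p : ℝ) (E₄ : ℍ → ℂ))
        - PowerSeries.C (2 * (u : ℂ) ^ 3) * qExpansion (p : ℝ) (E₆ : ℍ → ℂ)
        - qExpansion (p : ℝ) ((h : ℍ → ℂ) ∣[(2 : ℤ)] ModularGroup.S)
          * qExpansion (p : ℝ) ((h : ℍ → ℂ) ∣[(2 : ℤ)] ModularGroup.S)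
          * qExpansion (p : ℝ) ((h : ℍ → ℂ) ∣[(2 : ℤ)] ModularGroup.S)) := by
    rw [F6_slash_S,
      Nice.qExpansion_smul hpos ((((hg.mul hE4).smul _).sub (hE6.smul _)).sub ((hg.mul hg).mul hg)),
      Nice.qExpansion_sub hpos (((hg.mul hE4).smul _).sub (hE6.smul _)) ((hg.mul hg).mul hg),
      Nice.qExpansion_sub hpos ((hg.mul hE4).smul _) (hE6.smul _),
      Nice.qExpansion_smul hpos (hg.mul hE4), Nice.qExpansion_mul hpos hg hE4,
      Nice.qExpansion_smul hpos hE6, Nice.qExpansion_mul hpos (hg.mul hg) hg,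
      Nice.qExpansion_mul hpos hg hg,
      PowerSeries.smul_eq_C_mul, PowerSeries.smul_eq_C_mul, PowerSeries.smul_eq_C_mul]
  rw [H79.sExp, hq, hsg,
    qExpansion_p_levelOne_int hp.ne_zero E₄ e4Series Fermat.Agent.S23.H96.qExpansion_E₄_eq,
    qExpansion_p_levelOne_int hp.ne_zero E₆ e6Series Fermat.Agent.S23.H96.qExpansion_E₆_eq]
  simp only [map_add, map_mul, map_ofNat, map_pow, map_neg, map_C_int] at hspec ⊢
  have h32 : PowerSeries.C (1 / 32 : ℂ) * (32 : PowerSeries ℂ) = 1 := by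
    have h32' : (32 : PowerSeries ℂ) = PowerSeries.C (32 : ℂ) :=
      (map_ofNat PowerSeries.C 32).symm
    rw [h32', ← map_mul]; norm_num
  have hPPi : PowerSeries.C (p : ℂ) * PowerSeries.C ((p : ℂ)⁻¹) = 1 := by
    rw [← map_mul, mul_inv_cancel₀ hpC, map_one]
  exact f6_alg (PowerSeries.C (1 / 32 : ℂ)) (PowerSeries.C (p : ℂ)) (PowerSeries.C ((p : ℂ)⁻¹))
    (PowerSeries.C (u : ℂ))
    (PowerSeries.map (Int.castRingHom ℂ) (tailSeries fun n => a (p * n)))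
    (PowerSeries.map (Int.castRingHom ℂ) (expandZ p hp.ne_zero e4Series))
    (PowerSeries.map (Int.castRingHom ℂ) (expandZ p hp.ne_zero e6Series))
    _ h32 hPPi hspec

end

/-! ## `F₆` at `∞` -/

/-- The `q`-expansion of `F₆` is integral. -/
theorem qExpansion_F6 {N : ℕ} (G : ModularForm (Gamma0 N) 2) (m : ℤ) (h : PowerSeries ℤ)
    (hG : qExpansion 1 G = (PowerSeries.C m + 8 * h).map (Int.castRingHom ℂ)) :
    qExpansion 1 (F6 G m) = (f6Series (PowerSeries.C m) h).map (Int.castRingHom ℂ) := by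
  have hp := one_mem_strictPeriods_Gamma0 N
  have hg : Nice 1 (G : ℍ → ℂ) := Fermat.Agent.S23.H22.nice_of_modularForm G one_pos hp
  have hE4 : Nice 1 (E₄ : ℍ → ℂ) := Fermat.Agent.S23.H22.nice_levelOne E₄
  have hE6 : Nice 1 (E₆ : ℍ → ℂ) := Fermat.Agent.S23.H22.nice_levelOne E₆
  have hq : qExpansion 1 (F6 G m) = PowerSeries.C (1 / 32 : ℂ) * (PowerSeries.C (3 * (m : ℂ) ^ 2) *
        (qExpansion 1 G * qExpansion 1 E₄) - PowerSeries.C (2 * (m : ℂ) ^ 3) * qExpansion 1 E₆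
        - qExpansion 1 G * qExpansion 1 G * qExpansion 1 G) := by
    rw [coe_F6_eq,
      Nice.qExpansion_smul one_pos ((((hg.mul hE4).smul _).sub (hE6.smul _)).sub ((hg.mul hg).mul hg)),
      Nice.qExpansion_sub one_pos (((hg.mul hE4).smul _).sub (hE6.smul _)) ((hg.mul hg).mul hg),
      Nice.qExpansion_sub one_pos ((hg.mul hE4).smul _) (hE6.smul _),
      Nice.qExpansion_smul one_pos (hg.mul hE4), Nice.qExpansion_mul one_pos hg hE4,
      Nice.qExpansion_smul one_pos hE6, Nice.qExpansion_mul one_pos (hg.mul hg) hg,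
      Nice.qExpansion_mul one_pos hg hg,
      PowerSeries.smul_eq_C_mul, PowerSeries.smul_eq_C_mul, PowerSeries.smul_eq_C_mul]
  have hspec := congrArg (PowerSeries.map (Int.castRingHom ℂ)) (f6Series_spec (PowerSeries.C m) h)
  rw [hq, hG, Fermat.Agent.S23.H96.qExpansion_E₄_eq, Fermat.Agent.S23.H96.qExpansion_E₆_eq]
  simp only [map_add, map_sub, map_mul, map_ofNat, map_pow, map_C_int] at hspec ⊢
  have h32 : PowerSeries.C (1 / 32 : ℂ) * (32 : PowerSeries ℂ) = 1 := by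
    have h32' : (32 : PowerSeries ℂ) = PowerSeries.C (32 : ℂ) :=
      (map_ofNat PowerSeries.C 32).symm
    rw [h32', ← map_mul]; norm_num
  linear_combination (PowerSeries.C (1 / 32 : ℂ)) * hspec
    + ((PowerSeries.map (Int.castRingHom ℂ)) (f6Series (PowerSeries.C m) h)) * h32

/-! ## The weight 12 functions `A₄ = F₄³`, `A₆ = F₆²` -/

/-- `F₄³` as a form of weight 12. -/
def F4cube {N : ℕ} (G : ModularForm (Gamma0 N) 2) (m : ℤ) : ModularForm (Gamma0 N) 12 :=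
  ModularForm.mcast (by norm_num) ((F4 G m).pow 3)

/-- `F₆²` as a form of weight 12. -/
def F6sq {N : ℕ} (G : ModularForm (Gamma0 N) 2) (m : ℤ) : ModularForm (Gamma0 N) 12 :=
  ModularForm.mcast (by norm_num) ((F6 G m).pow 2)

theorem coe_F4cube {N : ℕ} (G : ModularForm (Gamma0 N) 2) (m : ℤ) :
    (F4cube G m : ℍ → ℂ) = (F4 G m : ℍ → ℂ) * (F4 G m : ℍ → ℂ) * (F4 G m : ℍ → ℂ) := by
  funext z
  simp only [F4cube, ModularForm.mcast_apply, ModularForm.coe_pow, Pi.pow_apply, Pi.mul_apply]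
  ring

theorem coe_F6sq {N : ℕ} (G : ModularForm (Gamma0 N) 2) (m : ℤ) :
    (F6sq G m : ℍ → ℂ) = (F6 G m : ℍ → ℂ) * (F6 G m : ℍ → ℂ) := by
  funext z
  simp only [F6sq, ModularForm.mcast_apply, ModularForm.coe_pow, Pi.pow_apply, Pi.mul_apply]
  ring

theorem F4cube_slash_S {N : ℕ} (G : ModularForm (Gamma0 N) 2) (m : ℤ) :
    (F4cube G m : ℍ → ℂ) ∣[(12 : ℤ)] ModularGroup.S =
      (F4 G m : ℍ → ℂ) ∣[(4 : ℤ)] ModularGroup.S * (F4 G m : ℍ → ℂ) ∣[(4 : ℤ)] ModularGroup.S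
        * (F4 G m : ℍ → ℂ) ∣[(4 : ℤ)] ModularGroup.S := by
  rw [coe_F4cube]
  have a := ModularForm.mul_slash_SL2 (4 + 4) 4 ModularGroup.S
    ((F4 G m : ℍ → ℂ) * (F4 G m : ℍ → ℂ)) (F4 G m : ℍ → ℂ)
  have b := ModularForm.mul_slash_SL2 4 4 ModularGroup.S (F4 G m : ℍ → ℂ) (F4 G m : ℍ → ℂ)
  rw [b] at a
  exact a

theorem F6sq_slash_S {N : ℕ} (G : ModularForm (Gamma0 N) 2) (m : ℤ) :
    (F6sq G m : ℍ → ℂ) ∣[(12 : ℤ)] ModularGroup.S =
      (F6 G m : ℍ → ℂ) ∣[(6 : ℤ)] ModularGroup.S * (F6 G m : ℍ → ℂ) ∣[(6 : ℤ)] ModularGroup.S := by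
  rw [coe_F6sq]
  exact ModularForm.mul_slash_SL2 6 6 ModularGroup.S (F6 G m : ℍ → ℂ) (F6 G m : ℍ → ℂ)

/-! ## Integrality of all `t`-expansions -/

section

variable (hp : p.Prime) (hp8 : p % 8 = 7) (hT0 : H79.Stmt_T0 p) (hconj : H79.Stmt_conjExp p)
  (h : ModularForm (Gamma0 p) 2) (u : ℤ) (a : ℕ → ℤ)
  (hu : qCoeff h 0 = (u : ℂ)) (ha : ∀ k, 1 ≤ k → qCoeff h k = 8 * (a k : ℂ))
  (O : Subring ℂ) (hpO : ((p : ℂ))⁻¹ ∈ O) (hζ : H79.zetaP p ∈ O)

include hp hp8 hT0 hconj hu ha hpO hζ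

theorem expFam_F4cube_mem (c : Option (Fin p)) :
    H79.expFam p hp.ne_zero 12 (F4cube h u) c ∈ serO O := by
  have hNZ : NeZero p := ⟨hp.ne_zero⟩
  have hpos : (0 : ℝ) < (p : ℝ) := by exact_mod_cast hp.pos
  cases c with
  | none =>
    have hf : Nice 1 (F4 h u : ℍ → ℂ) :=
      Fermat.Agent.S23.H22.nice_of_modularForm (F4 h u) one_pos (one_mem_strictPeriods_Gamma0 p)
    have hq := qExpansion_F4 h u (tailSeries a) (qExpansion_eq_of_coeffs h u a hu ha)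
    refine expand_mem_serO O p hp.ne_zero ?_
    rw [coe_F4cube, Nice.qExpansion_mul one_pos (hf.mul hf) hf, Nice.qExpansion_mul one_pos hf hf,
      hq]
    exact Subring.mul_mem _ (Subring.mul_mem _ (map_int_mem_serO O _) (map_int_mem_serO O _))
      (map_int_mem_serO O _)
  | some j =>
    have hf : Nice (p : ℝ) ((F4 h u : ℍ → ℂ) ∣[(4 : ℤ)] ModularGroup.S) :=
      nice_slash_S hp hconj 4 (F4 h u) (Fermat.Agent.S20.H74.coe_mem_MF rfl (F4 h u))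
    have hq := sExp_F4 hp hp8 hT0 hconj h u a hu ha
    rw [H79.sExp] at hq
    refine rescale_mem_serO O (O.pow_mem hζ _) ?_
    rw [H79.sExp, F4cube_slash_S, Nice.qExpansion_mul hpos (hf.mul hf) hf,
      Nice.qExpansion_mul hpos hf hf, hq]
    have h1 : PowerSeries.C ((p : ℂ)⁻¹) ^ 2 *
        (PowerSeries.map (Int.castRingHom ℂ)) (f4HatSeries (expandZ p hp.ne_zero) (kSeries p)
          (PowerSeries.C u) (tailSeries fun n => a (p * n))) ∈ serO O :=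
      Subring.mul_mem _ (Subring.pow_mem _ (C_mem_serO O hpO) 2) (map_int_mem_serO O _)
    exact Subring.mul_mem _ (Subring.mul_mem _ h1 h1) h1

theorem expFam_F6sq_mem (c : Option (Fin p)) :
    H79.expFam p hp.ne_zero 12 (F6sq h u) c ∈ serO O := by
  have hNZ : NeZero p := ⟨hp.ne_zero⟩
  have hpos : (0 : ℝ) < (p : ℝ) := by exact_mod_cast hp.pos
  cases c with
  | none =>
    have hf : Nice 1 (F6 h u : ℍ → ℂ) :=
      Fermat.Agent.S23.H22.nice_of_modularForm (F6 h u) one_pos (one_mem_strictPeriods_Gamma0 p)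
    have hq := qExpansion_F6 h u (tailSeries a) (qExpansion_eq_of_coeffs h u a hu ha)
    refine expand_mem_serO O p hp.ne_zero ?_
    rw [coe_F6sq, Nice.qExpansion_mul one_pos hf hf, hq]
    exact Subring.mul_mem _ (map_int_mem_serO O _) (map_int_mem_serO O _)
  | some j =>
    have hf : Nice (p : ℝ) ((F6 h u : ℍ → ℂ) ∣[(6 : ℤ)] ModularGroup.S) :=
      nice_slash_S hp hconj 6 (F6 h u) (Fermat.Agent.S20.H74.coe_mem_MF rfl (F6 h u))
    have hq := sExp_F6 hp hp8 hT0 hconj h u a hu ha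
    rw [H79.sExp] at hq
    refine rescale_mem_serO O (O.pow_mem hζ _) ?_
    rw [H79.sExp, F6sq_slash_S, Nice.qExpansion_mul hpos hf hf, hq]
    have h1 : PowerSeries.C ((p : ℂ)⁻¹) ^ 3 *
        (PowerSeries.map (Int.castRingHom ℂ)) (f6HatSeries (expandZ p hp.ne_zero) (kSeries p)
          (PowerSeries.C u) (tailSeries fun n => a (p * n))) ∈ serO O :=
      Subring.mul_mem _ (Subring.pow_mem _ (C_mem_serO O hpO) 3) (map_int_mem_serO O _)
    exact Subring.mul_mem _ h1 h1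

end

end Fermat.Agent.S16.H21
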