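import Fermat.Agent.S16.H55_RhoFam
import Fermat.Agent.S16.H15_RhoAlg
import Fermat.Agent.S16.Defs2
import Fermat.Agent.S20.H61_LI
import Mathlib.RingTheory.Valuation.Integral
import Fermat.Agent.S28.H48_ValSub

/-!
# S16, UB2 for `p ≡ 7 mod 8` (helper55): final assembly of the evaluation at `ρ`

`ubcore_two_of_seven` : `Stmt_symLevelOne p → Stmt_Step1 p → p % 8 = 7 → Stmt_UBcore p 2 3`.

Inputs:
* `H79.Stmt_symLevelOne p` (helper79, package CONJ);
* `Stmt_Step1 p` (below; package Step 1, helper21): for `G = u + 8 (...)` the functions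
  `A₄ = ((G² - u² E₄)/16)³` and `A₆ = ((3u² G E₄ - 2u³ E₆ - G³)/32)²` are forms of weight 12 on
  `Γ₀(p)` whose conjugates have `t`-expansions with coefficients in every subring of `ℂ`
  containing `1/p` and `ζ_p`;
* `H55.isIntegral_conj_value` (RHO-INT) and `H15.rho_contra` (Step 3).
-/

set_option autoImplicit false

noncomputable section

namespace Fermat.Agent.S16.H55

open UpperHalfPlane ModularForm EisensteinSeries ModularFormClass CongruenceSubgroup
open scoped MatrixGroups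

open Fermat.Agent.S20.H74 (MF rho)

/-- The weight 12 function `((G² - u² E₄)/16)³`. -/
def A4 (u : ℤ) (G : ℍ → ℂ) : ℍ → ℂ := fun z => ((G z ^ 2 - (u : ℂ) ^ 2 * E₄ z) / 16) ^ 3

/-- The weight 12 function `((3u² G E₄ - 2u³ E₆ - G³)/32)²`. -/
def A6 (u : ℤ) (G : ℍ → ℂ) : ℍ → ℂ :=
  fun z => ((3 * (u : ℂ) ^ 2 * G z * E₄ z - 2 * (u : ℂ) ^ 3 * E₆ z - G z ^ 3) / 32) ^ 2

/-- **Step 1** (interface): integrality of the conjugates of `A₄`, `A₆`. -/
def Stmt_Step1 (p : ℕ) : Prop :=
  ∀ (hp : p.Prime), p % 8 = 7 → ∀ (h : ModularForm (Gamma0 p) 2) (u : ℤ), Odd u →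
    qCoeff h 0 = (u : ℂ) → (∀ k : ℕ, 1 ≤ k → ∃ a : ℤ, qCoeff h k = 8 * (a : ℂ)) →
    ∀ O : Subring ℂ, ((p : ℂ))⁻¹ ∈ O → Fermat.Agent.S16.H79.zetaP p ∈ O →
      (A4 u h ∈ MF (Gamma0 p) 12 ∧
        ∀ c, Fermat.Agent.S16.H79.expFam p hp.ne_zero 12 (A4 u h) c ∈ serO O) ∧
      (A6 u h ∈ MF (Gamma0 p) 12 ∧
        ∀ c, Fermat.Agent.S16.H79.expFam p hp.ne_zero 12 (A6 u h) c ∈ serO O)

/-- Elements of `K` integral over a valuation subring lie in it. -/
theorem mem_valuationSubring_of_isIntegral {K : Type*} [Field K] (A : ValuationSubring K) (x : K)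
    (hx : IsIntegral A.toSubring x) : x ∈ A := by
  have hv : A.valuation.Integers A := by
    have := Valuation.valuationSubring.integers A.valuation
    rwa [ValuationSubring.valuationSubring_valuation] at this
  have hx' : IsIntegral A x := hx
  have := hv.mem_of_integral hx'
  rw [Valuation.mem_integer_iff] at this
  exact (ValuationSubring.valuation_le_one_iff A x).mp this

/-- There is a valuation subring of `ℂ` in which `2` is not a unit. -/
theorem exists_valuationSubring_two :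
    ∃ A : ValuationSubring ℂ, A.valuation (2 : ℂ) < 1 := by
  obtain ⟨A, -, hA⟩ := Fermat.Agent.S28.H48.exists_valuationSubring 2
  refine ⟨A, ?_⟩
  have h2 : ¬ A.valuation (((2 : ℕ) : ℂ))⁻¹ ≤ 1 := fun h =>
    hA ((ValuationSubring.valuation_le_one_iff A _).mp h)
  rw [not_le, map_inv₀] at h2
  have h0 : A.valuation ((2 : ℕ) : ℂ) ≠ 0 := by
    rw [Valuation.ne_zero_iff]; norm_num
  have h3 : A.valuation ((2 : ℕ) : ℂ) < 1 := by
    by_contra hcon
    rw [not_lt] at hcon
    have : (A.valuation ((2 : ℕ) : ℂ))⁻¹ ≤ 1 := inv_le_one_of_one_le₀ hcon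
    exact absurd h2 (not_lt.mpr this)
  simpa using h3

/-- **UB2 for `p ≡ 7 mod 8`.** -/
theorem ubcore_two_of_seven (p : ℕ) (hp : p.Prime) (h8 : p % 8 = 7)
    (hsym : Fermat.Agent.S16.H79.Stmt_symLevelOne p) (hstep : Stmt_Step1 p) :
    Stmt_UBcore p 2 3 := by
  rintro h ⟨⟨u, hu, hu0⟩, hk⟩
  have hodd : Odd u := by
    rcases Int.even_or_odd u with he | ho
    · exact absurd (by simpa using he.two_dvd) hu
    · exact ho
  have hk' : ∀ k : ℕ, 1 ≤ k → ∃ a : ℤ, qCoeff h k = 8 * (a : ℂ) := by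
    intro k hk1
    obtain ⟨a, ha⟩ := hk k hk1
    exact ⟨a, by rw [ha]; norm_num⟩
  obtain ⟨A, hA2⟩ := exists_valuationSubring_two
  set O : Subring ℂ := A.toSubring with hO
  have hpodd : Odd (p : ℤ) := by
    have : p % 2 = 1 := by omega
    exact_mod_cast Nat.odd_iff.mpr this
  have hpinv : ((p : ℂ))⁻¹ ∈ O := by
    have hv : A.valuation ((p : ℤ) : ℂ) = 1 := Fermat.Agent.S16.H15.valuation_odd_eq_one A hA2 hpodd
    have : A.valuation ((p : ℂ))⁻¹ ≤ 1 := by
      rw [map_inv₀]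
      have : A.valuation (p : ℂ) = 1 := by simpa using hv
      rw [this, inv_one]
    exact (ValuationSubring.valuation_le_one_iff A _).mp this
  have hzeta : Fermat.Agent.S16.H79.zetaP p ∈ O := by
    have hz : Fermat.Agent.S16.H79.zetaP p ^ p = 1 := by
      unfold Fermat.Agent.S16.H79.zetaP
      rw [← Complex.exp_nat_mul]
      have hp0 : (p : ℂ) ≠ 0 := Nat.cast_ne_zero.mpr hp.ne_zero
      rw [mul_div_cancel₀ _ hp0]
      exact Complex.exp_two_pi_mul_I
    have h1 : (A.valuation (Fermat.Agent.S16.H79.zetaP p)) ^ p = 1 := by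
      rw [← map_pow, hz, map_one]
    have h2 : A.valuation (Fermat.Agent.S16.H79.zetaP p) = 1 := by
      rcases pow_eq_one_iff.mp h1 with h | h
      · exact h
      · exact absurd h hp.ne_zero
    exact (ValuationSubring.valuation_le_one_iff A _).mp (le_of_eq h2)
  obtain ⟨⟨hA4, hO4⟩, ⟨hA6, hO6⟩⟩ := hstep hp h8 h u hodd hu0 hk' O hpinv hzeta
  have h12 : (12 : ℤ) = 12 * ((1 : ℕ) : ℤ) := by norm_num
  have hx4 := isIntegral_conj_value p hp hsym O 1 (A4 u h) (h12 ▸ hA4)
    (fun c => by have := hO4 c; rwa [h12] at this) rho Fermat.Agent.S20.H61.E₄_rho none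
  have hx6 := isIntegral_conj_value p hp hsym O 1 (A6 u h) (h12 ▸ hA6)
    (fun c => by have := hO6 c; rwa [h12] at this) rho Fermat.Agent.S20.H61.E₄_rho none
  have hx4' := mem_valuationSubring_of_isIntegral A _ hx4
  have hx6' := mem_valuationSubring_of_isIntegral A _ hx6
  have hd : ModularForm.discriminant rho ≠ 0 := ModularForm.discriminant_ne_zero rho
  have he : E₆ rho ^ 2 = -1728 * ModularForm.discriminant rho := by
    have := ModularForm.discriminant_eq_E₄_cube_sub_E₆_sq rho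
    rw [Fermat.Agent.S20.H61.E₄_rho] at this
    rw [this]
    ring
  refine Fermat.Agent.S16.H15.rho_contra A hA2 u hodd (h rho) (E₆ rho)
    (ModularForm.discriminant rho) hd he ?_ ?_
  · have : (h rho ^ 2 / 16) ^ 3 / ModularForm.discriminant rho =
        Fermat.Agent.S16.H79.conjFam p (12 * ((1 : ℕ) : ℤ)) (A4 u h) none rho /
          ModularForm.discriminant rho ^ 1 := by
      simp [Fermat.Agent.S16.H79.conjFam, A4, Fermat.Agent.S20.H61.E₄_rho]
    rw [this]
    exact hx4'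
  · have : (-(2 * (u : ℂ) ^ 3 * E₆ rho + h rho ^ 3) / 32) ^ 2 / ModularForm.discriminant rho =
        Fermat.Agent.S16.H79.conjFam p (12 * ((1 : ℕ) : ℤ)) (A6 u h) none rho /
          ModularForm.discriminant rho ^ 1 := by
      simp only [Fermat.Agent.S16.H79.conjFam, A6, Fermat.Agent.S20.H61.E₄_rho, pow_one]
      congr 2
      ring
    rw [this]
    exact hx6'

end Fermat.Agent.S16.H55
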