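import Fermat.Agent.S16.H21_Step1C
import Fermat.Agent.S16.H55_UB2

/-!
# S16, UB2 (`ℓ = 2`, `p ≡ 7 mod 8`): Step 1 in helper55's interface shape (helper21)

* `stmt_step1 : H79.Stmt_T0 p → H79.Stmt_conjExp p → H55.Stmt_Step1 p`
* `ubcore_two_of_seven' : H79.Stmt_symLevelOne p → H79.Stmt_T0 p → H79.Stmt_conjExp p →
    p.Prime → p % 8 = 7 → Stmt_UBcore p 2 3`
-/

set_option autoImplicit false

noncomputable section

namespace Fermat.Agent.S16.H21

open UpperHalfPlane ModularForm EisensteinSeries ModularFormClass CongruenceSubgroup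
open Fermat.Agent.S16.H55 (serO)
open Fermat.Agent.S20.H74 (MF)
open scoped MatrixGroups ModularForm

theorem A4_eq {p : ℕ} (h : ModularForm (Gamma0 p) 2) (u : ℤ) :
    H55.A4 u h = (F4cube h u : ℍ → ℂ) := by
  funext z
  rw [coe_F4cube]
  simp only [H55.A4, Pi.mul_apply, coe_F4]
  ring

theorem A6_eq {p : ℕ} (h : ModularForm (Gamma0 p) 2) (u : ℤ) :
    H55.A6 u h = (F6sq h u : ℍ → ℂ) := by
  funext z
  rw [coe_F6sq]
  simp only [H55.A6, Pi.mul_apply, coe_F6]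
  ring

/-- **Step 1** in the shape required by `H55.ubcore_two_of_seven`. -/
theorem stmt_step1 (p : ℕ) (hT0 : H79.Stmt_T0 p) (hconj : H79.Stmt_conjExp p) :
    H55.Stmt_Step1 p := by
  intro hp hp8 h u _ hu hk O hpO hζ
  have hNZ : NeZero p := ⟨hp.ne_zero⟩
  choose! a ha using hk
  rw [A4_eq, A6_eq]
  exact ⟨⟨Fermat.Agent.S20.H74.coe_mem_MF rfl (F4cube h u),
      fun c => expFam_F4cube_mem hp hp8 hT0 hconj h u a hu ha O hpO hζ c⟩,
    ⟨Fermat.Agent.S20.H74.coe_mem_MF rfl (F6sq h u),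
      fun c => expFam_F6sq_mem hp hp8 hT0 hconj h u a hu ha O hpO hζ c⟩⟩

/-- **UB2 for `p ≡ 7 mod 8`** from the three CONJ statements. -/
theorem ubcore_two_of_seven' (p : ℕ) (hp : p.Prime) (h8 : p % 8 = 7)
    (hsym : H79.Stmt_symLevelOne p) (hT0 : H79.Stmt_T0 p) (hconj : H79.Stmt_conjExp p) :
    Stmt_UBcore p 2 3 :=
  H55.ubcore_two_of_seven p hp h8 hsym (stmt_step1 p hT0 hconj)

end Fermat.Agent.S16.H21
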