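import Mathlib.RingTheory.PowerSeries.Expand
import Mathlib.RingTheory.PowerSeries.Basic
import Mathlib.Algebra.BigOperators.Ring.Finset

/-!
# S16, package `H32_NormAlg`: the formal norm congruence (helper32)

For a commutative ring `S`, `ζ ∈ S` with `ζ ^ p = 1` and power series `A, B'` over `S`:
`∏_{j<p} (expand_p A + ℓ B')(ζ^j t) = expand_p (A ^ p) + ℓ T` for some `T ∈ S⟦t⟧`.
-/

set_option autoImplicit false

noncomputable section

namespace Fermat.Agent.S16.H32

open PowerSeries

variable {S : Type*} [CommRing S]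

theorem rescale_expand_of_pow_eq_one (p : ℕ) (hp : p ≠ 0) (ζ : S) (hζ : ζ ^ p = 1)
    (A : PowerSeries S) : rescale ζ (expand p hp A) = expand p hp A := by
  ext n
  rw [coeff_rescale, coeff_expand]
  split_ifs with h
  · obtain ⟨m, rfl⟩ := h
    rw [pow_mul, hζ, one_pow, one_mul]
  · simp

theorem prod_add_C_mul {ι : Type*} (s : Finset ι) (a : PowerSeries S) (ℓ : S)
    (b : ι → PowerSeries S) :
    ∃ T : PowerSeries S, ∏ j ∈ s, (a + C ℓ * b j) = a ^ s.card + C ℓ * T := by
  classical
  induction s using Finset.induction_on with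
  | empty => exact ⟨0, by simp⟩
  | insert i t hi IH =>
    obtain ⟨T, hT⟩ := IH
    refine ⟨b i * a ^ t.card + a * T + C ℓ * b i * T, ?_⟩
    rw [Finset.prod_insert hi, hT, Finset.card_insert_of_notMem hi]
    ring

/-- **The formal norm congruence.** -/
theorem prod_rescale_congr (p : ℕ) (hp : p ≠ 0) (ζ : S) (hζ : ζ ^ p = 1) (ℓ : S)
    (A B' : PowerSeries S) :
    ∃ T : PowerSeries S,
      ∏ j ∈ Finset.range p, rescale (ζ ^ j) (expand p hp A + C ℓ * B') =
        expand p hp (A ^ p) + C ℓ * T := by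
  have h1 : ∀ j, rescale (ζ ^ j) (expand p hp A + C ℓ * B') =
      expand p hp A + C ℓ * rescale (ζ ^ j) B' := by
    intro j
    rw [map_add, map_mul, rescale_expand_of_pow_eq_one p hp (ζ ^ j)
      (by rw [← pow_mul, mul_comm, pow_mul, hζ, one_pow])]
    congr 2
    ext n
    rw [coeff_rescale, coeff_C]
    split_ifs with h
    · subst h; simp
    · simp
  simp_rw [h1]
  obtain ⟨T, hT⟩ := prod_add_C_mul (Finset.range p) (expand p hp A) ℓ
    (fun j => rescale (ζ ^ j) B')
  exact ⟨T, by rw [hT, Finset.card_range, map_pow]⟩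

end Fermat.Agent.S16.H32
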