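import Fermat.Agent.S16.H32_Sturm
import Fermat.Agent.S16.H32_NormAlg
import Mathlib.RingTheory.PowerSeries.NoZeroDivisors
import Mathlib.RingTheory.IntegralClosure.IntegrallyClosed
import Mathlib.RingTheory.Polynomial.RationalRoot

/-!
# S16, package `H32_NSCore`: the norm–Sturm principle (helper32)

Let `N` be a level one form of weight `k'` whose `q`-expansion is a "norm":
`expand_p (N(q)) = expand_p P · ∏_{j<p} Bc(ζ^j t)` with `P ≡ A∞`, `Bc ≡ expand_p A₀` modulo `ℓ`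
(error terms with coefficients in a subring `R ∋ ζ` of `ℂ` with `ℓ R ∩ ℤ = ℓ ℤ`), `A∞, A₀ ∈ ℤ⟦q⟧`.
If `A∞ · A₀ ^ p` vanishes modulo `ℓ` up to order `k' / 12`, it vanishes modulo `ℓ`
(`ns_core`), hence (`ℓ` prime) `A∞ ≡ 0` or `A₀ ≡ 0` modulo `ℓ` (`ns_core_prime`).

`algInt` is the subring of algebraic integers of `ℂ`; it satisfies the hypotheses on `R`
(`zeta_mem_algInt`, `dvd_of_mem_mul_algInt`).
-/

set_option autoImplicit false

noncomputable section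

namespace Fermat.Agent.S16.H32

open UpperHalfPlane ModularForm ModularFormClass PowerSeries
open scoped MatrixGroups

/-- The subring of algebraic integers of `ℂ`. -/
def algInt : Subring ℂ := (integralClosure ℤ ℂ).toSubring

theorem mem_algInt_iff (x : ℂ) : x ∈ algInt ↔ IsIntegral ℤ x := Iff.rfl

theorem zeta_mem_algInt {p : ℕ} (hp : p ≠ 0) {ζ : ℂ} (hζ : ζ ^ p = 1) : ζ ∈ algInt := by
  rw [mem_algInt_iff]
  refine ⟨Polynomial.X ^ p - 1, Polynomial.monic_X_pow_sub_C 1 hp, ?_⟩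
  simp [hζ]

theorem dvd_of_mem_mul_algInt {ℓ : ℕ} (hℓ : ℓ ≠ 0) (c : ℤ)
    (h : ∃ r ∈ algInt, (c : ℂ) = (ℓ : ℂ) * r) : (ℓ : ℤ) ∣ c := by
  obtain ⟨r, hr, hc⟩ := h
  have hℓC : (ℓ : ℂ) ≠ 0 := by exact_mod_cast hℓ
  have hrq : r = ((c / ℓ : ℚ) : ℂ) := by
    push_cast
    rw [hc]
    field_simp
  rw [mem_algInt_iff, hrq] at hr
  have h2 : IsIntegral ℤ ((c / ℓ : ℚ)) :=
    (isIntegral_algebraMap_iff (algebraMap ℚ ℂ).injective).mp hr
  obtain ⟨y, hy⟩ := IsIntegrallyClosed.isIntegral_iff.mp h2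
  refine ⟨y, ?_⟩
  have hℓQ : (ℓ : ℚ) ≠ 0 := by exact_mod_cast hℓ
  have : (c : ℚ) = (ℓ : ℚ) * (y : ℚ) := by
    have hy' : (y : ℚ) = c / ℓ := by simpa using hy
    rw [hy']
    field_simp
  exact_mod_cast this

section congr

variable (R : Subring ℂ) (p : ℕ) (hp : p ≠ 0) (ζ : ℂ) (hζ : ζ ^ p = 1) (hζR : ζ ∈ R) (ℓ : ℕ)

include hζ hζR in
/-- **The norm congruence** over `ℂ`. -/
theorem ns_congr (Nq P Bc : PowerSeries ℂ)
    (hN : expand p hp Nq = expand p hp P * ∏ j ∈ Finset.range p, rescale (ζ ^ j) Bc)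
    (Ainf A0 : PowerSeries ℤ) (TP TB : PowerSeries R)
    (hP : P = Ainf.map (Int.castRingHom ℂ) + C (ℓ : ℂ) * TP.map R.subtype)
    (hB : Bc = expand p hp (A0.map (Int.castRingHom ℂ)) + C (ℓ : ℂ) * TB.map R.subtype)
    (n : ℕ) :
    ∃ r ∈ R, Nq.coeff n = (((Ainf * A0 ^ p).coeff n : ℤ) : ℂ) + (ℓ : ℂ) * r := by
  set φ : PowerSeries R →+* PowerSeries ℂ := PowerSeries.map R.subtype with hφ
  have hint : ∀ Q : PowerSeries ℤ, φ (Q.map (Int.castRingHom R)) = Q.map (Int.castRingHom ℂ) := by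
    intro Q
    ext m
    simp [hφ]
  have hC : φ (C ((ℓ : ℕ) : R)) = C (ℓ : ℂ) := by
    ext m
    simp only [hφ, coeff_map, coeff_C]
    split_ifs <;> simp
  set ζ' : R := ⟨ζ, hζR⟩ with hζ'
  have hζ'1 : ζ' ^ p = 1 := by
    apply Subtype.ext
    simpa [hζ'] using hζ
  set A0R : PowerSeries R := A0.map (Int.castRingHom R) with hA0R
  set AinfR : PowerSeries R := Ainf.map (Int.castRingHom R) with hAinfR
  set BcR : PowerSeries R := expand p hp A0R + C ((ℓ : ℕ) : R) * TB with hBcR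
  set PR : PowerSeries R := AinfR + C ((ℓ : ℕ) : R) * TP with hPR
  have hφB : φ BcR = Bc := by
    rw [hBcR, map_add, map_mul, hC, hB]
    congr 1
    rw [hφ, PowerSeries.map_expand, ← hφ, hint]
  have hφP : φ PR = P := by
    rw [hPR, map_add, map_mul, hC, hP, hint]
  obtain ⟨T, hT⟩ := prod_rescale_congr p hp ζ' hζ'1 ((ℓ : ℕ) : R) A0R TB
  have hprod : φ (∏ j ∈ Finset.range p, rescale (ζ' ^ j) BcR) =
      ∏ j ∈ Finset.range p, rescale (ζ ^ j) Bc := by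
    rw [map_prod]
    refine Finset.prod_congr rfl fun j _ => ?_
    rw [← hφB, hφ]
    have := rescale_map R.subtype (ζ' ^ j) BcR
    rw [← this]
    simp [hζ']
  set W : PowerSeries R := expand p hp (TP * A0R ^ p) + expand p hp PR * T with hW
  have hkey : expand p hp Nq = φ (expand p hp (AinfR * A0R ^ p) + C ((ℓ : ℕ) : R) * W) := by
    rw [hN, ← hprod, hT, ← hφP]
    have e1 : expand p hp (φ PR) = φ (expand p hp PR) := by
      rw [hφ, PowerSeries.map_expand]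
    rw [e1, ← map_mul]
    congr 1
    rw [hW, hPR]
    simp only [map_add, map_mul, map_pow, expand_C]
    ring
  have hcoef := congrArg (fun Q => Q.coeff (p * n)) hkey
  simp only [coeff_expand_mul] at hcoef
  refine ⟨R.subtype (W.coeff (p * n)), (W.coeff (p * n)).2, ?_⟩
  rw [hcoef, hφ, coeff_map, map_add, coeff_expand_mul, map_add]
  congr 1
  · have : (AinfR * A0R ^ p) = (Ainf * A0 ^ p).map (Int.castRingHom R) := by
      rw [hAinfR, hA0R, map_mul, map_pow]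
    rw [this, coeff_map]
    simp
  · rw [coeff_C_mul]
    simp

end congr

/-- The additive subgroup `ℓ R` of `ℂ`. -/
def mulSubgroup (R : Subring ℂ) (ℓ : ℕ) : AddSubgroup ℂ :=
  R.toAddSubgroup.map (AddMonoidHom.mulLeft (ℓ : ℂ))

theorem mem_mulSubgroup (R : Subring ℂ) (ℓ : ℕ) (x : ℂ) :
    x ∈ mulSubgroup R ℓ ↔ ∃ r ∈ R, x = (ℓ : ℂ) * r := by
  simp only [mulSubgroup, AddSubgroup.mem_map, AddMonoidHom.coe_mulLeft]
  constructor
  · rintro ⟨r, hr, rfl⟩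
    exact ⟨r, hr, rfl⟩
  · rintro ⟨r, hr, rfl⟩
    exact ⟨r, hr, rfl⟩

/-- **The norm–Sturm principle.** -/
theorem ns_core (R : Subring ℂ) (p : ℕ) (hp : p ≠ 0) (ζ : ℂ) (hζ : ζ ^ p = 1) (hζR : ζ ∈ R)
    (ℓ : ℕ) (hRℓ : ∀ c : ℤ, (∃ r ∈ R, (c : ℂ) = (ℓ : ℂ) * r) → (ℓ : ℤ) ∣ c)
    {k' : ℤ} (N : ModularForm 𝒮ℒ k') (P Bc : PowerSeries ℂ)
    (hN : expand p hp (qExpansion 1 N) =
      expand p hp P * ∏ j ∈ Finset.range p, rescale (ζ ^ j) Bc)
    (Ainf A0 : PowerSeries ℤ) (TP TB : PowerSeries R)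
    (hP : P = Ainf.map (Int.castRingHom ℂ) + C (ℓ : ℂ) * TP.map R.subtype)
    (hB : Bc = expand p hp (A0.map (Int.castRingHom ℂ)) + C (ℓ : ℂ) * TB.map R.subtype)
    (hord : ∀ n : ℕ, (n : ℤ) ≤ k' / 12 → (ℓ : ℤ) ∣ (Ainf * A0 ^ p).coeff n) :
    ∀ n : ℕ, (ℓ : ℤ) ∣ (Ainf * A0 ^ p).coeff n := by
  have hcong := ns_congr R p hp ζ hζ hζR ℓ (qExpansion 1 N) P Bc hN Ainf A0 TP TB hP hB
  have hlow : ∀ n : ℕ, (n : ℤ) ≤ k' / 12 → (qExpansion 1 N).coeff n ∈ mulSubgroup R ℓ := by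
    intro n hn
    obtain ⟨r, hr, hc⟩ := hcong n
    obtain ⟨c', hc'⟩ := hord n hn
    rw [mem_mulSubgroup]
    refine ⟨(c' : ℂ) + r, R.add_mem (intCast_mem R c') hr, ?_⟩
    rw [hc, hc']
    push_cast
    ring
  have hall := sturm_addSubgroup (mulSubgroup R ℓ) N hlow
  intro n
  obtain ⟨r, hr, hc⟩ := hcong n
  obtain ⟨r', hr', hc''⟩ := (mem_mulSubgroup R ℓ _).mp (hall n)
  refine hRℓ _ ⟨r' - r, R.sub_mem hr' hr, ?_⟩
  have : (((Ainf * A0 ^ p).coeff n : ℤ) : ℂ) = (qExpansion 1 N).coeff n - (ℓ : ℂ) * r := by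
    rw [hc]; ring
  rw [this, hc'']
  ring

/-- An integral power series all of whose coefficients are divisible by `ℓ` maps to zero over
`ZMod ℓ`, and conversely. -/
theorem map_zmod_eq_zero_iff (ℓ : ℕ) (A : PowerSeries ℤ) :
    A.map (Int.castRingHom (ZMod ℓ)) = 0 ↔ ∀ n, (ℓ : ℤ) ∣ A.coeff n := by
  constructor
  · intro h n
    have := congrArg (fun Q => Q.coeff n) h
    simp only [coeff_map, map_zero] at this
    exact (ZMod.intCast_zmod_eq_zero_iff_dvd _ _).mp (by simpa using this)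
  · intro h
    ext n
    simp only [coeff_map, map_zero]
    exact (ZMod.intCast_zmod_eq_zero_iff_dvd _ _).mpr (h n)

/-- **The norm–Sturm principle, prime form**: one of the two reductions vanishes. -/
theorem ns_core_prime (R : Subring ℂ) (p : ℕ) (hp : p ≠ 0) (ζ : ℂ) (hζ : ζ ^ p = 1) (hζR : ζ ∈ R)
    (ℓ : ℕ) (hℓ : ℓ.Prime) (hRℓ : ∀ c : ℤ, (∃ r ∈ R, (c : ℂ) = (ℓ : ℂ) * r) → (ℓ : ℤ) ∣ c)
    {k' : ℤ} (N : ModularForm 𝒮ℒ k') (P Bc : PowerSeries ℂ)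
    (hN : expand p hp (qExpansion 1 N) =
      expand p hp P * ∏ j ∈ Finset.range p, rescale (ζ ^ j) Bc)
    (Ainf A0 : PowerSeries ℤ) (TP TB : PowerSeries R)
    (hP : P = Ainf.map (Int.castRingHom ℂ) + C (ℓ : ℂ) * TP.map R.subtype)
    (hB : Bc = expand p hp (A0.map (Int.castRingHom ℂ)) + C (ℓ : ℂ) * TB.map R.subtype)
    (hord : ∀ n : ℕ, (n : ℤ) ≤ k' / 12 → (ℓ : ℤ) ∣ (Ainf * A0 ^ p).coeff n) :
    (∀ n : ℕ, (ℓ : ℤ) ∣ Ainf.coeff n) ∨ (∀ n : ℕ, (ℓ : ℤ) ∣ A0.coeff n) := by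
  have : Fact ℓ.Prime := ⟨hℓ⟩
  have h := ns_core R p hp ζ hζ hζR ℓ hRℓ N P Bc hN Ainf A0 TP TB hP hB hord
  rw [← map_zmod_eq_zero_iff, map_mul, map_pow] at h
  rcases mul_eq_zero.mp h with h1 | h1
  · exact Or.inl ((map_zmod_eq_zero_iff ℓ Ainf).mp h1)
  · exact Or.inr ((map_zmod_eq_zero_iff ℓ A0).mp (pow_eq_zero_iff (hp) |>.mp h1))

end Fermat.Agent.S16.H32
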