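import Fermat.Agent.S23.H96_LevelOne

/-!
# S16, package `H32_Sturm`: the integral Sturm bound in level one (helper32)

For a level one modular form `f` of weight `k`, every `q`-expansion coefficient `a_n(f)` is a
`ℤ`-linear combination of `a_0(f), …, a_{⌊k/12⌋}(f)`. We state this without any coefficient ring:

* `sturm_addSubgroup` : if `M` is an additive subgroup of `ℂ` and `a_n(f) ∈ M` for all
  `n ≤ k / 12`, then `a_n(f) ∈ M` for all `n`.

With `M = ℓ • R` (`R` a subring of `ℂ`) this is the Sturm bound modulo `ℓ`.
-/

set_option autoImplicit false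

noncomputable section

namespace Fermat.Agent.S16.H32

open UpperHalfPlane ModularForm EisensteinSeries ModularFormClass
open scoped MatrixGroups
open Fermat.Agent.S23.H96

/-- Coefficients of a product with an integral series lie in an additive subgroup if those of the
other factor do. -/
theorem coeff_intMul_mem (M : AddSubgroup ℂ) (D : PowerSeries ℤ) (B : PowerSeries ℂ) (n : ℕ)
    (hB : ∀ i ≤ n, B.coeff i ∈ M) :
    (D.map (Int.castRingHom ℂ) * B).coeff n ∈ M := by
  rw [PowerSeries.coeff_mul]
  refine AddSubgroup.sum_mem _ fun ij hij => ?_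
  have hle : ij.2 ≤ n := by
    have := Finset.mem_antidiagonal.mp hij
    omega
  rw [PowerSeries.coeff_map]
  have : (Int.castRingHom ℂ) (D.coeff ij.1) * B.coeff ij.2 = (D.coeff ij.1) • B.coeff ij.2 := by
    simp
  rw [this]
  exact AddSubgroup.zsmul_mem _ (hB _ hle) _

/-- Division by a series `D = q + …` with integral coefficients. -/
theorem coeff_mem_of_intMul (M : AddSubgroup ℂ) (D : PowerSeries ℤ) (A B : PowerSeries ℂ)
    (hD0 : D.coeff 0 = 0) (hD1 : D.coeff 1 = 1)
    (hAB : A = D.map (Int.castRingHom ℂ) * B) :
    ∀ n : ℕ, (∀ i ≤ n + 1, A.coeff i ∈ M) → B.coeff n ∈ M := by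
  intro n
  induction n using Nat.strong_induction_on with
  | _ n ih =>
    intro hA
    have h1 : A.coeff (n + 1) = B.coeff n +
        ∑ k ∈ Finset.range n, B.coeff k * ((D.coeff (n + 1 - k) : ℤ) : ℂ) := by
      rw [hAB, mul_comm, PowerSeries.coeff_mul, Finset.Nat.sum_antidiagonal_eq_sum_range_succ_mk,
        Finset.sum_range_succ_comm, Finset.sum_range_succ_comm]
      simp only [PowerSeries.coeff_map, eq_intCast]
      have e1 : n + 1 - (n + 1) = 0 := by omega
      have e2 : n + 1 - n = 1 := by omega
      rw [e1, e2, hD0, hD1]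
      simp
    have h2 : B.coeff n = A.coeff (n + 1) -
        ∑ k ∈ Finset.range n, B.coeff k * ((D.coeff (n + 1 - k) : ℤ) : ℂ) := by
      rw [h1]; ring
    rw [h2]
    refine AddSubgroup.sub_mem _ (hA _ le_rfl) (AddSubgroup.sum_mem _ fun k hk => ?_)
    have hk' := Finset.mem_range.mp hk
    have hBk : B.coeff k ∈ M := ih k hk' fun i hi => hA i (by omega)
    have : B.coeff k * ((D.coeff (n + 1 - k) : ℤ) : ℂ) = (D.coeff (n + 1 - k)) • B.coeff k := by
      simp [mul_comm]
    rw [this]
    exact AddSubgroup.zsmul_mem _ hBk _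

theorem coeff_zero_form_mem (M : AddSubgroup ℂ) {k : ℤ} {f : ModularForm 𝒮ℒ k} (hf : f = 0)
    (n : ℕ) : (qExpansion 1 f).coeff n ∈ M := by
  subst hf
  have : qExpansion 1 ((0 : ModularForm 𝒮ℒ k) : ℍ → ℂ) = 0 := by
    rw [FunLike.coe_zero]
    exact qExpansion_zero 1
  rw [this]
  simp

theorem sturm_aux (M : AddSubgroup ℂ) (m : ℕ) : ∀ k : ℤ, k ≤ m → ∀ f : ModularForm 𝒮ℒ k,
    (∀ n : ℕ, (n : ℤ) ≤ k / 12 → (qExpansion 1 f).coeff n ∈ M) →
    ∀ n : ℕ, (qExpansion 1 f).coeff n ∈ M := by
  induction m using Nat.strong_induction_on with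
  | _ m ih =>
    intro k hk f hf n
    rcases lt_trichotomy k 0 with hneg | rfl | hpos
    · exact coeff_zero_form_mem M
        (rank_zero_iff_forall_zero.mp (levelOne_neg_weight_rank_zero hneg) f) n
    · obtain ⟨c, hc⟩ := levelOne_weight_zero_const f
      have h0 : (qExpansion 1 f).coeff 0 ∈ M := hf 0 (by simp)
      rcases Nat.eq_zero_or_pos n with rfl | hn
      · exact h0
      · have hf1 : f = c • (1 : ModularForm 𝒮ℒ 0) := by
          ext z
          simp [hc]
        have hq : qExpansion 1 (f : ℍ → ℂ) = c • (1 : PowerSeries ℂ) := by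
          rw [hf1, FunLike.coe_smul, ModularForm.qExpansion_smul one_pos one_mem_strictPeriods_SL,
            ModularForm.qExpansion_one]
        rw [hq, PowerSeries.coeff_smul, PowerSeries.coeff_one, if_neg (by omega)]
        simp
    · rcases Int.even_or_odd k with he | ho
      · rcases lt_or_ge k 4 with h4 | h4
        · have hk2 : k = 2 := by
            obtain ⟨r, hr⟩ := he
            omega
          subst hk2
          exact coeff_zero_form_mem M
            (rank_zero_iff_forall_zero.mp levelOne_weight_two_rank_zero f) n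
        · obtain ⟨U, hU, hU0⟩ := exists_unitForm h4 he
          obtain ⟨Q, hQ⟩ := hU
          set a0 := (qExpansion 1 f).coeff 0 with ha0
          have ha0M : a0 ∈ M := hf 0 (by positivity)
          have hUmem : ∀ i, a0 * (qExpansion 1 U).coeff i ∈ M := by
            intro i
            rw [← hQ, PowerSeries.coeff_map]
            have : a0 * (Int.castRingHom ℂ) (Q.coeff i) = (Q.coeff i) • a0 := by
              simp [mul_comm]
            rw [this]
            exact AddSubgroup.zsmul_mem _ ha0M _
          have hg : qExpansion 1 ((f - a0 • U : ModularForm 𝒮ℒ k) : ℍ → ℂ)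
              = qExpansion 1 f - a0 • qExpansion 1 U := by
            rw [FunLike.coe_sub, ModularForm.qExpansion_sub one_pos one_mem_strictPeriods_SL,
              FunLike.coe_smul, ModularForm.qExpansion_smul one_pos one_mem_strictPeriods_SL]
          have h0 : (qExpansion 1 (f - a0 • U : ModularForm 𝒮ℒ k)).coeff 0 = 0 := by
            rw [hg, map_sub, PowerSeries.coeff_smul, hU0]
            simp [ha0]
          have hfac := qExpansion_eq_qExpansion_discriminant_mul (f - a0 • U) h0
          rw [qExpansion_discriminant_eq] at hfac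
          set G := CuspForm.discriminantEquiv (toCuspForm (f - a0 • U : ModularForm 𝒮ℒ k) h0)
            with hG
          have hgcoeff : ∀ i : ℕ, (i : ℤ) ≤ k / 12 →
              (qExpansion 1 (f - a0 • U : ModularForm 𝒮ℒ k)).coeff i ∈ M := by
            intro i hi
            rw [hg, map_sub, PowerSeries.coeff_smul]
            exact AddSubgroup.sub_mem _ (hf i hi) (by simpa [smul_eq_mul] using hUmem i)
          have hGlow : ∀ i : ℕ, (i : ℤ) ≤ (k - 12) / 12 → (qExpansion 1 G).coeff i ∈ M := by
            intro i hi
            refine coeff_mem_of_intMul M deltaSeries _ _ coeff_zero_deltaSeries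
              coeff_one_deltaSeries hfac i fun j hj => hgcoeff j ?_
            have : (k - 12) / 12 = k / 12 - 1 := by omega
            omega
          have hGall : ∀ i : ℕ, (qExpansion 1 G).coeff i ∈ M :=
            ih (k - 12).toNat (by omega) (k - 12) (Int.self_le_toNat _) G hGlow
          have hgall : (qExpansion 1 (f - a0 • U : ModularForm 𝒮ℒ k)).coeff n ∈ M := by
            rw [hfac]
            exact coeff_intMul_mem M deltaSeries _ n fun i _ => hGall i
          have hfn : (qExpansion 1 f).coeff n = (qExpansion 1 (f - a0 • U : ModularForm 𝒮ℒ k)).coeff n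
              + a0 * (qExpansion 1 U).coeff n := by
            rw [hg, map_sub, PowerSeries.coeff_smul]
            simp
          rw [hfn]
          exact AddSubgroup.add_mem _ hgall (hUmem n)
      · exact coeff_zero_form_mem M (levelOne_odd_weight_eq_zero ho f) n

/-- **Integral Sturm bound in level one.** If the `q`-expansion coefficients `a_n(f)`, `n ≤ k/12`,
of a level one form of weight `k` lie in an additive subgroup `M` of `ℂ`, then all coefficients
lie in `M`. -/
theorem sturm_addSubgroup (M : AddSubgroup ℂ) {k : ℤ} (f : ModularForm 𝒮ℒ k)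
    (hf : ∀ n : ℕ, (n : ℤ) ≤ k / 12 → (qExpansion 1 f).coeff n ∈ M) (n : ℕ) :
    (qExpansion 1 f).coeff n ∈ M :=
  sturm_aux M k.toNat k (Int.self_le_toNat k) f hf n

end Fermat.Agent.S16.H32
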