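import Fermat.Agent.S23.H96_LevelOne
import Mathlib.RingTheory.PowerSeries.Expand

/-!
# S16, upper bound at `ℓ = 3`, `p ≡ 2 mod 3`: the power series algebra (helper32)

`H = u + 9 g` (the `q`-expansion of `h`), `Ĥ = U_p H`. Then
* `(p² H² - u² E₄)/3 = A∞ + 3 T_P`, `A∞ = u² (p² - 1)/3 - 80 u² S₃`;
* `(Ĥ² - u² E₄(t^p))/3 = A₀(t^p) + 3 T_B`, `A₀ = - 80 u² S₃`.
-/

set_option autoImplicit false

noncomputable section

namespace Fermat.Agent.S16.H32

open PowerSeries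
open Fermat.Agent.S23.H96 (sigmaSeries e4Series coeff_sigmaSeries)

/-- The series `u + 9 ∑_{k ≥ 1} a_k q^k`. -/
def hSer (u : ℤ) (a : ℕ → ℤ) : PowerSeries ℤ := PowerSeries.mk fun k => if k = 0 then u else 9 * a k

/-- The series `∑_{k ≥ 1} a_k q^k`. -/
def gSer (a : ℕ → ℤ) : PowerSeries ℤ := PowerSeries.mk fun k => if k = 0 then 0 else a k

/-- `U_p` on power series. -/
def UpSer (p : ℕ) (A : PowerSeries ℤ) : PowerSeries ℤ := PowerSeries.mk fun n => A.coeff (p * n)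

theorem hSer_eq (u : ℤ) (a : ℕ → ℤ) : hSer u a = C u + C 9 * gSer a := by
  ext k
  simp only [hSer, gSer, coeff_mk, map_add, coeff_C, coeff_C_mul]
  split_ifs <;> simp

theorem UpSer_hSer (p : ℕ) (hp : p ≠ 0) (u : ℤ) (a : ℕ → ℤ) :
    UpSer p (hSer u a) = C u + C 9 * gSer (fun n => a (p * n)) := by
  ext k
  simp only [UpSer, hSer, gSer, coeff_mk, map_add, coeff_C, coeff_C_mul, mul_eq_zero]
  by_cases hk : k = 0
  · simp [hk]
  · simp [hk, hp]

/-- `A₀ = -80 u² S₃`. -/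
def A0ser (u : ℤ) : PowerSeries ℤ := C (-80 * u ^ 2) * sigmaSeries 3

/-- `A∞ = u² (p² - 1)/3 - 80 u² S₃`. -/
def Ainfser (p : ℕ) (u : ℤ) : PowerSeries ℤ := C (u ^ 2 * (((p : ℤ) ^ 2 - 1) / 3)) + A0ser u

theorem coeff_zero_A0ser (u : ℤ) : (A0ser u).coeff 0 = 0 := by
  rw [A0ser, coeff_C_mul, coeff_sigmaSeries]
  simp

theorem coeff_one_A0ser (u : ℤ) : (A0ser u).coeff 1 = -80 * u ^ 2 := by
  rw [A0ser, coeff_C_mul, coeff_sigmaSeries]
  simp

theorem coeff_one_Ainfser (p : ℕ) (u : ℤ) : (Ainfser p u).coeff 1 = -80 * u ^ 2 := by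
  rw [Ainfser, map_add, coeff_one_A0ser, coeff_C, if_neg one_ne_zero, zero_add]

theorem not_three_dvd_coeff (u : ℤ) (hu : ¬ (3 : ℤ) ∣ u) : ¬ (3 : ℤ) ∣ -80 * u ^ 2 := by
  intro h
  have h3 : Prime (3 : ℤ) := Int.prime_three
  rcases h3.dvd_or_dvd h with h1 | h1
  · norm_num at h1
  · exact hu (h3.dvd_of_dvd_pow h1)

theorem three_dvd_sq_sub_one (p : ℕ) (h3 : p % 3 = 2) : (3 : ℤ) ∣ (p : ℤ) ^ 2 - 1 := by
  have : ((p : ℤ) ^ 2 - 1) = ((p : ℤ) - 1) * ((p : ℤ) + 1) := by ring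
  rw [this]
  refine Dvd.dvd.mul_left ?_ _
  omega

/-- The error term at `∞`. -/
def TPser (p : ℕ) (u : ℤ) (a : ℕ → ℤ) : PowerSeries ℤ :=
  C (2 * (p : ℤ) ^ 2 * u) * gSer a + C (9 * (p : ℤ) ^ 2) * gSer a ^ 2

/-- The error term at `0`. -/
def TBser (p : ℕ) (u : ℤ) (a : ℕ → ℤ) : PowerSeries ℤ :=
  C (2 * u) * gSer (fun n => a (p * n)) + C 9 * gSer (fun n => a (p * n)) ^ 2

/-- The identity at the cusp `∞`, over `ℤ`. -/
theorem ub3_identity_inf (p : ℕ) (h3 : p % 3 = 2) (u : ℤ) (a : ℕ → ℤ) :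
    C ((p : ℤ) ^ 2) * hSer u a ^ 2 - C (u ^ 2) * e4Series =
      C 3 * (Ainfser p u + C 3 * TPser p u a) := by
  rw [TPser]
  obtain ⟨m, hm⟩ := three_dvd_sq_sub_one p h3
  have hdiv : ((p : ℤ) ^ 2 - 1) / 3 = m := by
    rw [hm]; exact Int.mul_ediv_cancel_left _ (by norm_num)
  have hp2 : (p : ℤ) ^ 2 = 3 * m + 1 := by linarith
  rw [hSer_eq, Ainfser, A0ser, hdiv, e4Series, hp2]
  simp only [map_mul, map_add, map_pow, map_neg, map_one, map_ofNat]
  ring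

/-- The identity at the cusp `0`, over `ℤ`. -/
theorem ub3_identity_zero (p : ℕ) (hp : p ≠ 0) (u : ℤ) (a : ℕ → ℤ) :
    UpSer p (hSer u a) ^ 2 - C (u ^ 2) * expand p hp e4Series =
      C 3 * (expand p hp (A0ser u) + C 3 * TBser p u a) := by
  rw [TBser, UpSer_hSer p hp, A0ser, e4Series]
  simp only [map_mul, map_add, map_pow, map_neg, map_one, map_ofNat, expand_C]
  ring

theorem third_smul_map (Q Z : PowerSeries ℤ) (h : Q = C 3 * Z) :
    (1 / 3 : ℂ) • Q.map (Int.castRingHom ℂ) = Z.map (Int.castRingHom ℂ) := by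
  subst h
  ext n
  rw [coeff_smul, coeff_map, coeff_map, coeff_C_mul]
  simp only [eq_intCast, Int.cast_mul, Int.cast_ofNat, smul_eq_mul]
  ring

theorem map_add_three_mul (A T : PowerSeries ℤ) :
    (A + C 3 * T).map (Int.castRingHom ℂ) =
      A.map (Int.castRingHom ℂ) + C (3 : ℂ) * T.map (Int.castRingHom ℂ) := by
  rw [map_add, map_mul, PowerSeries.map_C]
  simp

/-- The identity at the cusp `∞`, over `ℂ`. -/
theorem ub3_identity_inf_C (p : ℕ) (h3 : p % 3 = 2) (u : ℤ) (a : ℕ → ℤ) :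
    ((p : ℂ) ^ 2 / 3) • ((hSer u a).map (Int.castRingHom ℂ)) ^ 2
      - ((u : ℂ) ^ 2 / 3) • e4Series.map (Int.castRingHom ℂ) =
    (Ainfser p u).map (Int.castRingHom ℂ) + C (3 : ℂ) * (TPser p u a).map (Int.castRingHom ℂ) := by
  rw [← map_add_three_mul, ← third_smul_map _ _ (ub3_identity_inf p h3 u a), ← map_pow]
  ext n
  simp only [map_sub, coeff_smul, coeff_map, coeff_C_mul]
  simp only [eq_intCast, Int.cast_mul, Int.cast_pow, Int.cast_natCast, smul_eq_mul]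
  ring

/-- The identity at the cusp `0`, over `ℂ`. -/
theorem ub3_identity_zero_C (p : ℕ) (hp : p ≠ 0) (u : ℤ) (a : ℕ → ℤ) :
    ((p : ℂ) ^ 2 / 3) •
        (C (-(p : ℂ)⁻¹) * (UpSer p (hSer u a)).map (Int.castRingHom ℂ)) ^ 2
      - ((u : ℂ) ^ 2 / 3) • expand p hp (e4Series.map (Int.castRingHom ℂ)) =
    expand p hp ((A0ser u).map (Int.castRingHom ℂ))
      + C (3 : ℂ) * (TBser p u a).map (Int.castRingHom ℂ) := by
  have hpC : (p : ℂ) ≠ 0 := by exact_mod_cast hp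
  rw [← PowerSeries.map_expand, ← PowerSeries.map_expand, ← map_add_three_mul,
    ← third_smul_map _ _ (ub3_identity_zero p hp u a), mul_pow, ← map_pow, ← map_pow]
  ext n
  simp only [map_sub, coeff_smul, coeff_map, coeff_C_mul]
  simp only [eq_intCast, Int.cast_mul, Int.cast_pow, smul_eq_mul]
  field_simp

end Fermat.Agent.S16.H32
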