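import Fermat.Agent.S16.H32_NSCore
import Fermat.Agent.S16.H32_UB3Alg
import Fermat.Agent.S16.H32_UB3Defs

/-!
# S16, upper bound at `ℓ = 3`, `p ≡ 2 mod 3` (helper32)

`ub3_of_interfaces` : `Stmt_T0 p → Stmt_NormExp p 4 → Stmt_CE4 p → Stmt_UBcore p 3 2`
for every prime `p ≡ 2 mod 3`: there is no `h ∈ M₂(Γ₀(p))` with integral coefficients,
`a₀(h)` prime to `3` and `a_k(h) ≡ 0 mod 9` for all `k ≥ 1`.

Proof: `F = (p² h² - u² E₄)/3`; the norm of `F` to level one is `≡ (A∞ · A₀^p)(q)` modulo `3`,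
vanishes to order `≥ p > 4(p+1)/12`, and is not `≡ 0`: contradiction with the Sturm bound.
-/

set_option autoImplicit false

noncomputable section

namespace Fermat.Agent.S16.H32

open UpperHalfPlane ModularForm ModularFormClass CongruenceSubgroup EisensteinSeries PowerSeries
open scoped MatrixGroups ModularForm Real
open Fermat.Agent.S23.H96 (sigmaSeries e4Series coeff_sigmaSeries qExpansion_E₄_eq)

theorem zetaP_pow (p : ℕ) (hp : p ≠ 0) : zetaP p ^ p = 1 := by
  rw [zetaP, ← Complex.exp_nat_mul]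
  have hpC : (p : ℂ) ≠ 0 := by exact_mod_cast hp
  have : (p : ℂ) * (2 * π * Complex.I / p) = 2 * π * Complex.I := by
    field_simp
  rw [this, Complex.exp_two_pi_mul_I]

theorem map_map_int (R : Subring ℂ) (Q : PowerSeries ℤ) :
    (Q.map (Int.castRingHom R)).map R.subtype = Q.map (Int.castRingHom ℂ) := by
  ext m
  simp

theorem ub3_of_interfaces (p : ℕ) (hp : p.Prime) (h3 : p % 3 = 2) (T0 : Stmt_T0 p)
    (NE : Stmt_NormExp p 4) (CE : Stmt_CE4 p) : Stmt_UBcore p 3 2 := by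
  rintro h ⟨⟨u, hu, h0⟩, hk⟩
  have p0 : p ≠ 0 := hp.ne_zero
  have hpC : (p : ℂ) ≠ 0 := by exact_mod_cast p0
  have hu' : ¬ (3 : ℤ) ∣ u := by simpa using hu
  -- the integral series
  have hk' : ∀ k : ℕ, ∃ a : ℤ, 1 ≤ k → qCoeff h k = 9 * (a : ℂ) := by
    intro k
    by_cases h1 : 1 ≤ k
    · obtain ⟨a, ha⟩ := hk k h1
      refine ⟨a, fun _ => ?_⟩
      rw [ha]
      norm_num
    · exact ⟨0, fun h => absurd h h1⟩
  choose a ha using hk'
  have hH : qExpansion 1 h = (hSer u a).map (Int.castRingHom ℂ) := by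
    ext k
    rw [coeff_map, hSer, coeff_mk]
    by_cases hk0 : k = 0
    · subst hk0
      simpa [qCoeff] using h0
    · rw [if_neg hk0]
      have := ha k (Nat.one_le_iff_ne_zero.mpr hk0)
      rw [qCoeff] at this
      rw [this]
      simp
  have hcusp : cuspExp p 2 h = C (-(p : ℂ)⁻¹) * (UpSer p (hSer u a)).map (Int.castRingHom ℂ) := by
    ext n
    rw [T0 h n, coeff_C_mul, coeff_map, UpSer, coeff_mk, hH, coeff_map]
  obtain ⟨F, hF1, hF2⟩ := CE p0 h ((p : ℂ) ^ 2 / 3) ((u : ℂ) ^ 2 / 3)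
  obtain ⟨N, hN⟩ := NE p0 F
  -- the two congruences
  have h3C : (((3 : ℕ) : ℂ)) = 3 := by norm_num
  have hP : qExpansion 1 F = (Ainfser p u).map (Int.castRingHom ℂ)
      + C (((3 : ℕ) : ℂ)) * ((TPser p u a).map (Int.castRingHom algInt)).map algInt.subtype := by
    rw [map_map_int, hF1, hH, qExpansion_E₄_eq, h3C]
    exact ub3_identity_inf_C p h3 u a
  have hB : cuspExp p 4 F = expand p p0 ((A0ser u).map (Int.castRingHom ℂ))
      + C (((3 : ℕ) : ℂ)) * ((TBser p u a).map (Int.castRingHom algInt)).map algInt.subtype := by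
    rw [map_map_int, hF2, hcusp, qExpansion_E₄_eq, h3C]
    exact ub3_identity_zero_C p p0 u a
  -- the order condition
  have hord : ∀ n : ℕ, (n : ℤ) ≤ (4 * ((p : ℤ) + 1)) / 12 →
      ((3 : ℕ) : ℤ) ∣ (Ainfser p u * A0ser u ^ p).coeff n := by
    intro n hn
    have hnp : n < p := by
      have hp1 : 1 ≤ p := hp.one_lt.le
      omega
    have hX : (X : PowerSeries ℤ) ∣ A0ser u := X_dvd_iff.mpr (by
      simpa using coeff_zero_A0ser u)
    have hXp : (X : PowerSeries ℤ) ^ p ∣ Ainfser p u * A0ser u ^ p :=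
      Dvd.dvd.mul_left (pow_dvd_pow_of_dvd hX p) _
    rw [(X_pow_dvd_iff.mp hXp) n hnp]
    exact dvd_zero _
  have hmain := ns_core_prime algInt p p0 (zetaP p) (zetaP_pow p p0)
    (zeta_mem_algInt p0 (zetaP_pow p p0)) 3 Nat.prime_three
    (fun c hc => dvd_of_mem_mul_algInt (by norm_num) c hc) N (qExpansion 1 F) (cuspExp p 4 F) hN
    (Ainfser p u) (A0ser u) _ _ hP hB hord
  rcases hmain with h1 | h1
  · have := h1 1
    rw [coeff_one_Ainfser] at this
    exact not_three_dvd_coeff u hu' (by exact_mod_cast this)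
  · have := h1 1
    rw [coeff_one_A0ser] at this
    exact not_three_dvd_coeff u hu' (by exact_mod_cast this)

end Fermat.Agent.S16.H32
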