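import Fermat.Agent.S16.H32_UB3Alg

/-!
# S16, upper bound at `ℓ ≥ 5` (including `ℓ = p`): the power series algebra (helper32)

`H = u + ℓ g`, `Ĥ = U_p H`.
* weight 4: `p² H² - u² E₄ = A∞ + ℓ T_P`, `Ĥ² - u² E₄(t^p) = A₀(t^p) + ℓ T_B`, `A₀ = -240 u² S₃`;
* weight 6: `p³ H³ + u³ E₆ = A∞' + ℓ T_P'`, `-Ĥ³ + u³ E₆(t^p) = A₀'(t^p) + ℓ T_B'`,
  `A₀' = -504 u³ S₅`.
-/

set_option autoImplicit false

noncomputable section

namespace Fermat.Agent.S16.H32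

open PowerSeries
open Fermat.Agent.S23.H96 (sigmaSeries e4Series e6Series coeff_sigmaSeries)

/-- The series `u + ℓ ∑_{k ≥ 1} a_k q^k`. -/
def hSerL (ℓ u : ℤ) (a : ℕ → ℤ) : PowerSeries ℤ :=
  PowerSeries.mk fun k => if k = 0 then u else ℓ * a k

theorem hSerL_eq (ℓ u : ℤ) (a : ℕ → ℤ) : hSerL ℓ u a = C u + C ℓ * gSer a := by
  ext k
  simp only [hSerL, gSer, coeff_mk, map_add, coeff_C, coeff_C_mul]
  split_ifs <;> simp

theorem UpSer_hSerL (p : ℕ) (hp : p ≠ 0) (ℓ u : ℤ) (a : ℕ → ℤ) :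
    UpSer p (hSerL ℓ u a) = C u + C ℓ * gSer (fun n => a (p * n)) := by
  ext k
  simp only [UpSer, hSerL, gSer, coeff_mk, map_add, coeff_C, coeff_C_mul, mul_eq_zero]
  by_cases hk : k = 0
  · simp [hk]
  · simp [hk, hp]

theorem map_add_C_mul (ℓ : ℤ) (A T : PowerSeries ℤ) :
    (A + C ℓ * T).map (Int.castRingHom ℂ) =
      A.map (Int.castRingHom ℂ) + C (ℓ : ℂ) * T.map (Int.castRingHom ℂ) := by
  rw [map_add, map_mul, PowerSeries.map_C]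
  simp

/-! ### Weight 4 -/

/-- `A₀ = -240 u² S₃`. -/
def A0four (u : ℤ) : PowerSeries ℤ := C (-240 * u ^ 2) * sigmaSeries 3

/-- `A∞ = u² (p² - 1) - 240 u² S₃`. -/
def Ainffour (p : ℕ) (u : ℤ) : PowerSeries ℤ := C (u ^ 2 * ((p : ℤ) ^ 2 - 1)) + A0four u

/-- The error term at `∞`. -/
def TPfour (p : ℕ) (ℓ u : ℤ) (a : ℕ → ℤ) : PowerSeries ℤ :=
  C (2 * (p : ℤ) ^ 2 * u) * gSer a + C ((p : ℤ) ^ 2 * ℓ) * gSer a ^ 2

/-- The error term at `0`. -/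
def TBfour (p : ℕ) (ℓ u : ℤ) (a : ℕ → ℤ) : PowerSeries ℤ :=
  C (2 * u) * gSer (fun n => a (p * n)) + C ℓ * gSer (fun n => a (p * n)) ^ 2

theorem coeff_zero_A0four (u : ℤ) : (A0four u).coeff 0 = 0 := by
  rw [A0four, coeff_C_mul, coeff_sigmaSeries]
  simp

theorem coeff_one_A0four (u : ℤ) : (A0four u).coeff 1 = -240 * u ^ 2 := by
  rw [A0four, coeff_C_mul, coeff_sigmaSeries]
  simp

theorem coeff_one_Ainffour (p : ℕ) (u : ℤ) : (Ainffour p u).coeff 1 = -240 * u ^ 2 := by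
  rw [Ainffour, map_add, coeff_one_A0four, coeff_C, if_neg one_ne_zero, zero_add]

theorem four_identity_inf (p : ℕ) (ℓ u : ℤ) (a : ℕ → ℤ) :
    C ((p : ℤ) ^ 2) * hSerL ℓ u a ^ 2 - C (u ^ 2) * e4Series =
      Ainffour p u + C ℓ * TPfour p ℓ u a := by
  rw [TPfour, hSerL_eq, Ainffour, A0four, e4Series]
  simp only [map_mul, map_add, map_sub, map_pow, map_neg, map_one, map_ofNat]
  ring

theorem four_identity_zero (p : ℕ) (hp : p ≠ 0) (ℓ u : ℤ) (a : ℕ → ℤ) :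
    UpSer p (hSerL ℓ u a) ^ 2 - C (u ^ 2) * expand p hp e4Series =
      expand p hp (A0four u) + C ℓ * TBfour p ℓ u a := by
  rw [TBfour, UpSer_hSerL p hp, A0four, e4Series]
  simp only [map_mul, map_add, map_pow, map_neg, map_one, map_ofNat, expand_C]
  ring

theorem four_identity_inf_C (p : ℕ) (ℓ u : ℤ) (a : ℕ → ℤ) :
    ((p : ℂ) ^ 2) • ((hSerL ℓ u a).map (Int.castRingHom ℂ)) ^ 2
      - ((u : ℂ) ^ 2) • e4Series.map (Int.castRingHom ℂ) =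
    (Ainffour p u).map (Int.castRingHom ℂ)
      + C (ℓ : ℂ) * (TPfour p ℓ u a).map (Int.castRingHom ℂ) := by
  rw [← map_add_C_mul, ← four_identity_inf, ← map_pow]
  ext n
  simp only [map_sub, coeff_smul, coeff_map, coeff_C_mul]
  simp only [eq_intCast, Int.cast_mul, Int.cast_pow, Int.cast_natCast, smul_eq_mul]

theorem four_identity_zero_C (p : ℕ) (hp : p ≠ 0) (ℓ u : ℤ) (a : ℕ → ℤ) :
    ((p : ℂ) ^ 2) •
        (C (-(p : ℂ)⁻¹) * (UpSer p (hSerL ℓ u a)).map (Int.castRingHom ℂ)) ^ 2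
      - ((u : ℂ) ^ 2) • expand p hp (e4Series.map (Int.castRingHom ℂ)) =
    expand p hp ((A0four u).map (Int.castRingHom ℂ))
      + C (ℓ : ℂ) * (TBfour p ℓ u a).map (Int.castRingHom ℂ) := by
  have hpC : (p : ℂ) ≠ 0 := by exact_mod_cast hp
  rw [← PowerSeries.map_expand, ← PowerSeries.map_expand, ← map_add_C_mul,
    ← four_identity_zero p hp, mul_pow, ← map_pow, ← map_pow]
  ext n
  simp only [map_sub, coeff_smul, coeff_map, coeff_C_mul]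
  simp only [eq_intCast, Int.cast_mul, Int.cast_pow, smul_eq_mul]
  field_simp

/-! ### Weight 6 -/

/-- `A₀' = -504 u³ S₅`. -/
def A0six (u : ℤ) : PowerSeries ℤ := C (-504 * u ^ 3) * sigmaSeries 5

/-- `A∞' = u³ (p³ + 1) - 504 u³ S₅`. -/
def Ainfsix (p : ℕ) (u : ℤ) : PowerSeries ℤ := C (u ^ 3 * ((p : ℤ) ^ 3 + 1)) + A0six u

/-- The error term at `∞`. -/
def TPsix (p : ℕ) (ℓ u : ℤ) (a : ℕ → ℤ) : PowerSeries ℤ :=
  C (3 * (p : ℤ) ^ 3 * u ^ 2) * gSer a + C (3 * (p : ℤ) ^ 3 * u * ℓ) * gSer a ^ 2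
    + C ((p : ℤ) ^ 3 * ℓ ^ 2) * gSer a ^ 3

/-- The error term at `0`. -/
def TBsix (p : ℕ) (ℓ u : ℤ) (a : ℕ → ℤ) : PowerSeries ℤ :=
  -(C (3 * u ^ 2) * gSer (fun n => a (p * n)) + C (3 * u * ℓ) * gSer (fun n => a (p * n)) ^ 2
    + C (ℓ ^ 2) * gSer (fun n => a (p * n)) ^ 3)

theorem coeff_zero_A0six (u : ℤ) : (A0six u).coeff 0 = 0 := by
  rw [A0six, coeff_C_mul, coeff_sigmaSeries]
  simp

theorem coeff_one_A0six (u : ℤ) : (A0six u).coeff 1 = -504 * u ^ 3 := by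
  rw [A0six, coeff_C_mul, coeff_sigmaSeries]
  simp

theorem coeff_one_Ainfsix (p : ℕ) (u : ℤ) : (Ainfsix p u).coeff 1 = -504 * u ^ 3 := by
  rw [Ainfsix, map_add, coeff_one_A0six, coeff_C, if_neg one_ne_zero, zero_add]

theorem six_identity_inf (p : ℕ) (ℓ u : ℤ) (a : ℕ → ℤ) :
    C ((p : ℤ) ^ 3) * hSerL ℓ u a ^ 3 + C (u ^ 3) * e6Series =
      Ainfsix p u + C ℓ * TPsix p ℓ u a := by
  rw [TPsix, hSerL_eq, Ainfsix, A0six, e6Series]
  simp only [map_mul, map_add, map_sub, map_pow, map_neg, map_one, map_ofNat]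
  ring

theorem six_identity_zero (p : ℕ) (hp : p ≠ 0) (ℓ u : ℤ) (a : ℕ → ℤ) :
    -(UpSer p (hSerL ℓ u a) ^ 3) + C (u ^ 3) * expand p hp e6Series =
      expand p hp (A0six u) + C ℓ * TBsix p ℓ u a := by
  rw [TBsix, UpSer_hSerL p hp, A0six, e6Series]
  simp only [map_mul, map_add, map_sub, map_pow, map_neg, map_one, map_ofNat, expand_C]
  ring

theorem six_identity_inf_C (p : ℕ) (ℓ u : ℤ) (a : ℕ → ℤ) :
    ((p : ℂ) ^ 3) • ((hSerL ℓ u a).map (Int.castRingHom ℂ)) ^ 3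
      + ((u : ℂ) ^ 3) • e6Series.map (Int.castRingHom ℂ) =
    (Ainfsix p u).map (Int.castRingHom ℂ)
      + C (ℓ : ℂ) * (TPsix p ℓ u a).map (Int.castRingHom ℂ) := by
  rw [← map_add_C_mul, ← six_identity_inf, ← map_pow]
  ext n
  simp only [map_add, coeff_smul, coeff_map, coeff_C_mul]
  simp only [eq_intCast, Int.cast_mul, Int.cast_pow, Int.cast_natCast, smul_eq_mul]

theorem six_identity_zero_C (p : ℕ) (hp : p ≠ 0) (ℓ u : ℤ) (a : ℕ → ℤ) :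
    ((p : ℂ) ^ 3) •
        (C (-(p : ℂ)⁻¹) * (UpSer p (hSerL ℓ u a)).map (Int.castRingHom ℂ)) ^ 3
      + ((u : ℂ) ^ 3) • expand p hp (e6Series.map (Int.castRingHom ℂ)) =
    expand p hp ((A0six u).map (Int.castRingHom ℂ))
      + C (ℓ : ℂ) * (TBsix p ℓ u a).map (Int.castRingHom ℂ) := by
  have hpC : (p : ℂ) ≠ 0 := by exact_mod_cast hp
  rw [← PowerSeries.map_expand, ← PowerSeries.map_expand, ← map_add_C_mul,
    ← six_identity_zero p hp, mul_pow, ← map_pow, ← map_pow]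
  ext n
  simp only [map_add, map_neg, coeff_smul, coeff_map, coeff_C_mul]
  simp only [eq_intCast, Int.cast_mul, Int.cast_pow, Int.cast_neg, smul_eq_mul]
  field_simp

end Fermat.Agent.S16.H32
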