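import Fermat.Agent.S16.H32_NSCore
import Fermat.Agent.S16.H32_UB5Alg
import Fermat.Agent.S16.H32_UB3
import Fermat.Agent.S16.H45_CE4
import Fermat.Agent.S16.H79_ConjAdapt

/-!
# S16, upper bound at every prime `ℓ ≥ 5` (including `ℓ = p`) by the norm–Sturm principle
(helper32)

* `ns_false` : the norm–Sturm principle in the form used here (both reductions have a unit
  coefficient at `q`, the reduction at the cusp `0` has no constant term, weight small).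
* `ub_four` : `ℓ ∤ 240` ⟹ `Stmt_UBcore p ℓ 1`  (`F = p² h² - u² E₄`);
* `ub_six`  : `ℓ ∤ 504` ⟹ `Stmt_UBcore p ℓ 1`  (`F = p³ h³ + u³ E₆`);
* `ub_ge_five` : `ℓ ≥ 5` prime ⟹ `Stmt_UBcore p ℓ 1`, for every prime `p`, modulo `T0` only.
No Swinnerton-Dyer, no trace identity; `ℓ = p` is allowed.
-/

set_option autoImplicit false

noncomputable section

namespace Fermat.Agent.S16.H32

open UpperHalfPlane ModularForm ModularFormClass CongruenceSubgroup EisensteinSeries PowerSeries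
open scoped MatrixGroups ModularForm Real
open Fermat.Agent.S23.H96 (sigmaSeries e4Series e6Series coeff_sigmaSeries qExpansion_E₄_eq
  qExpansion_E₆_eq)
open Fermat.Agent.S20.H74 (MF)

/-- **Norm–Sturm, contradiction form.** -/
theorem ns_false (p ℓ : ℕ) (hp : p.Prime) (hℓ : ℓ.Prime) {k : ℤ}
    (hbound : ∀ n : ℕ, (n : ℤ) ≤ (k * ((p : ℤ) + 1)) / 12 → n < p)
    (NE : Stmt_NormExp p k) (F : ModularForm (Gamma0 p) k)
    (Ainf A0 TP TB : PowerSeries ℤ)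
    (hP : qExpansion 1 F = Ainf.map (Int.castRingHom ℂ)
      + C ((ℓ : ℤ) : ℂ) * TP.map (Int.castRingHom ℂ))
    (hB : cuspExp p k F = expand p hp.ne_zero (A0.map (Int.castRingHom ℂ))
      + C ((ℓ : ℤ) : ℂ) * TB.map (Int.castRingHom ℂ))
    (h0 : A0.coeff 0 = 0) (h1 : ¬ (ℓ : ℤ) ∣ A0.coeff 1) (h1' : ¬ (ℓ : ℤ) ∣ Ainf.coeff 1) :
    False := by
  have p0 : p ≠ 0 := hp.ne_zero
  obtain ⟨N, hN⟩ := NE p0 F
  have hcast : (((ℓ : ℤ) : ℂ)) = ((ℓ : ℕ) : ℂ) := by norm_num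
  have hP' : qExpansion 1 F = Ainf.map (Int.castRingHom ℂ)
      + C (((ℓ : ℕ) : ℂ)) * ((TP.map (Int.castRingHom algInt)).map algInt.subtype) := by
    rw [map_map_int, hP, hcast]
  have hB' : cuspExp p k F = expand p p0 (A0.map (Int.castRingHom ℂ))
      + C (((ℓ : ℕ) : ℂ)) * ((TB.map (Int.castRingHom algInt)).map algInt.subtype) := by
    rw [map_map_int, hB, hcast]
  have hord : ∀ n : ℕ, (n : ℤ) ≤ (k * ((p : ℤ) + 1)) / 12 →
      ((ℓ : ℕ) : ℤ) ∣ (Ainf * A0 ^ p).coeff n := by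
    intro n hn
    have hnp : n < p := hbound n hn
    have hX : (X : PowerSeries ℤ) ∣ A0 := X_dvd_iff.mpr (by simpa using h0)
    have hXp : (X : PowerSeries ℤ) ^ p ∣ Ainf * A0 ^ p :=
      Dvd.dvd.mul_left (pow_dvd_pow_of_dvd hX p) _
    rw [(X_pow_dvd_iff.mp hXp) n hnp]
    exact dvd_zero _
  have hmain := ns_core_prime algInt p p0 (zetaP p) (zetaP_pow p p0)
    (zeta_mem_algInt p0 (zetaP_pow p p0)) ℓ hℓ
    (fun c hc => dvd_of_mem_mul_algInt hℓ.ne_zero c hc) N (qExpansion 1 F) (cuspExp p k F) hN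
    Ainf A0 _ _ hP' hB' hord
  rcases hmain with h | h
  · exact h1' (h 1)
  · exact h1 (h 1)

/-- The integral `q`-expansion of a form satisfying `IsUnitConstMod p ℓ 1`. -/
theorem exists_hSerL (p ℓ : ℕ) (h : ModularForm (Gamma0 p) 2) (hh : IsUnitConstMod p ℓ 1 h) :
    ∃ (u : ℤ) (a : ℕ → ℤ), ¬ (ℓ : ℤ) ∣ u ∧
      qExpansion 1 h = (hSerL ℓ u a).map (Int.castRingHom ℂ) := by
  obtain ⟨⟨u, hu, h0⟩, hk⟩ := hh
  have hk' : ∀ k : ℕ, ∃ a : ℤ, 1 ≤ k → qCoeff h k = (ℓ : ℂ) * (a : ℂ) := by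
    intro k
    by_cases h1 : 1 ≤ k
    · obtain ⟨a, ha⟩ := hk k h1
      exact ⟨a, fun _ => by rw [ha, pow_one]⟩
    · exact ⟨0, fun h => absurd h h1⟩
  choose a ha using hk'
  refine ⟨u, a, hu, ?_⟩
  ext k
  rw [coeff_map, hSerL, coeff_mk]
  by_cases hk0 : k = 0
  · subst hk0
    simpa [qCoeff] using h0
  · rw [if_neg hk0]
    have := ha k (Nat.one_le_iff_ne_zero.mpr hk0)
    rw [qCoeff] at this
    rw [this]
    simp

theorem cuspExp_of_T0 (p : ℕ) (T0 : Stmt_T0 p) (h : ModularForm (Gamma0 p) 2)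
    (H : PowerSeries ℤ) (hH : qExpansion 1 h = H.map (Int.castRingHom ℂ)) :
    cuspExp p 2 h = C (-(p : ℂ)⁻¹) * (UpSer p H).map (Int.castRingHom ℂ) := by
  ext n
  rw [T0 h n, coeff_C_mul, coeff_map, UpSer, coeff_mk, hH, coeff_map]

/-- **UB at `ℓ ∤ 240`** (weight 4). -/
theorem ub_four (p ℓ : ℕ) (hp : p.Prime) (hℓ : ℓ.Prime) (h240 : ¬ ℓ ∣ 240) (T0 : Stmt_T0 p)
    (NE : Stmt_NormExp p 4) (CE : Stmt_CE4 p) : Stmt_UBcore p ℓ 1 := by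
  intro h hh
  obtain ⟨u, a, hu, hH⟩ := exists_hSerL p ℓ h hh
  have p0 : p ≠ 0 := hp.ne_zero
  have hcusp := cuspExp_of_T0 p T0 h _ hH
  obtain ⟨F, hF1, hF2⟩ := CE p0 h ((p : ℂ) ^ 2) ((u : ℂ) ^ 2)
  have hℓZ : Prime (ℓ : ℤ) := Nat.prime_iff_prime_int.mp hℓ
  have hunit : ¬ (ℓ : ℤ) ∣ -240 * u ^ 2 := by
    intro hd
    rcases hℓZ.dvd_or_dvd hd with h1 | h1
    · apply h240
      have : (ℓ : ℤ) ∣ 240 := (dvd_neg).mp h1
      exact_mod_cast this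
    · exact hu (hℓZ.dvd_of_dvd_pow h1)
  refine ns_false p ℓ hp hℓ ?_ NE F (Ainffour p u) (A0four u) (TPfour p ℓ u a) (TBfour p ℓ u a)
    ?_ ?_ (coeff_zero_A0four u) ?_ ?_
  · intro n hn
    have hp1 : 1 ≤ p := hp.one_lt.le
    omega
  · rw [hF1, hH, qExpansion_E₄_eq]
    exact four_identity_inf_C p ℓ u a
  · rw [hF2, hcusp, qExpansion_E₄_eq]
    exact four_identity_zero_C p p0 ℓ u a
  · rw [coeff_one_A0four]; exact hunit
  · rw [coeff_one_Ainffour]; exact hunit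

/-- `CE6`: the form `a h³ + b E₆` of weight 6 on `Γ₀(N)` with its two expansions. -/
theorem exists_cube_add_levelOne (N : ℕ) [NeZero N] (h : ModularForm (Gamma0 N) 2) (a b : ℂ) :
    ∃ F : ModularForm (Gamma0 N) 6,
      qExpansion 1 F = a • (qExpansion 1 h) ^ 3 + b • qExpansion 1 E₆ ∧
      cuspExp N 6 F = a • (cuspExp N 2 h) ^ 3
        + b • PowerSeries.expand N (NeZero.ne N) (qExpansion 1 E₆) := by
  have hh : (⇑h : ℍ → ℂ) ∈ MF (Gamma0 N) 2 := Fermat.Agent.S16.H45.coe_mem_MF_Gamma0 N h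
  have hE1 : (⇑E₆ : ℍ → ℂ) ∈ MF ⊤ 6 := Fermat.Agent.S20.H74.coe_mem_MF_top E₆
  have hE : (⇑E₆ : ℍ → ℂ) ∈ MF (Gamma0 N) 6 := Fermat.Agent.S16.H45.MF_levelOne hE1
  have hh2 : (⇑h : ℍ → ℂ) * ⇑h ∈ MF (Gamma0 N) 4 :=
    Fermat.Agent.S16.H45.MF_mul' hh hh (by norm_num)
  have hh3 : (⇑h : ℍ → ℂ) * ⇑h * ⇑h ∈ MF (Gamma0 N) 6 :=
    Fermat.Agent.S16.H45.MF_mul' hh2 hh (by norm_num)
  have hah3 : a • ((⇑h : ℍ → ℂ) * ⇑h * ⇑h) ∈ MF (Gamma0 N) 6 := Submodule.smul_mem _ a hh3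
  have hbE : b • (⇑E₆ : ℍ → ℂ) ∈ MF (Gamma0 N) 6 := Submodule.smul_mem _ b hE
  obtain ⟨F, hF⟩ := Fermat.Agent.S16.H45.exists_modularForm_Gamma0 N
    (Submodule.add_mem _ hah3 hbE)
  refine ⟨F, ?_, ?_⟩
  · rw [hF, Fermat.Agent.S16.H45.qExp_add N hah3 hbE, Fermat.Agent.S16.H45.qExp_smul N hh3,
      Fermat.Agent.S16.H45.qExp_smul N hE, Fermat.Agent.S16.H45.qExp_mul N hh2 hh,
      Fermat.Agent.S16.H45.qExp_mul N hh hh]
    ring_nf
  · have e : ∀ (k : ℤ) (G : ℍ → ℂ), cuspExp N k G = Fermat.Agent.S16.H45.cuspExp N k G :=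
      fun _ _ => rfl
    rw [e, e, hF, Fermat.Agent.S16.H45.cuspExp_add N hah3 hbE,
      Fermat.Agent.S16.H45.cuspExp_smul N hh3, Fermat.Agent.S16.H45.cuspExp_smul N hE,
      Fermat.Agent.S16.H45.cuspExp_mul' N hh2 hh (by norm_num),
      Fermat.Agent.S16.H45.cuspExp_mul' N hh hh (by norm_num),
      Fermat.Agent.S16.H45.cuspExp_levelOne N hE1]
    ring_nf

/-- **UB at `ℓ ∤ 504`** (weight 6). -/
theorem ub_six (p ℓ : ℕ) (hp : p.Prime) (hℓ : ℓ.Prime) (h504 : ¬ ℓ ∣ 504) (T0 : Stmt_T0 p)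
    (NE : Stmt_NormExp p 6) : Stmt_UBcore p ℓ 1 := by
  intro h hh
  obtain ⟨u, a, hu, hH⟩ := exists_hSerL p ℓ h hh
  have p0 : p ≠ 0 := hp.ne_zero
  have : NeZero p := ⟨p0⟩
  have hcusp := cuspExp_of_T0 p T0 h _ hH
  obtain ⟨F, hF1, hF2⟩ := exists_cube_add_levelOne p h ((p : ℂ) ^ 3) ((u : ℂ) ^ 3)
  have hℓZ : Prime (ℓ : ℤ) := Nat.prime_iff_prime_int.mp hℓ
  have hunit : ¬ (ℓ : ℤ) ∣ -504 * u ^ 3 := by
    intro hd
    rcases hℓZ.dvd_or_dvd hd with h1 | h1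
    · apply h504
      have : (ℓ : ℤ) ∣ 504 := (dvd_neg).mp h1
      exact_mod_cast this
    · exact hu (hℓZ.dvd_of_dvd_pow h1)
  refine ns_false p ℓ hp hℓ ?_ NE F (Ainfsix p u) (A0six u) (TPsix p ℓ u a) (TBsix p ℓ u a)
    ?_ ?_ (coeff_zero_A0six u) ?_ ?_
  · intro n hn
    have hp1 : 2 ≤ p := hp.two_le
    omega
  · rw [hF1, hH, qExpansion_E₆_eq]
    exact six_identity_inf_C p ℓ u a
  · rw [hF2, hcusp, qExpansion_E₆_eq]
    exact six_identity_zero_C p p0 ℓ u a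
  · rw [coeff_one_A0six]; exact hunit
  · rw [coeff_one_Ainfsix]; exact hunit

/-- **UB at every prime `ℓ ≥ 5`** (including `ℓ = p`), from the interfaces. -/
theorem ub_ge_five_of_interfaces (p ℓ : ℕ) (hp : p.Prime) (hℓ : ℓ.Prime) (h5 : 5 ≤ ℓ)
    (T0 : Stmt_T0 p) (NE4 : Stmt_NormExp p 4) (NE6 : Stmt_NormExp p 6) (CE : Stmt_CE4 p) :
    Stmt_UBcore p ℓ 1 := by
  by_cases h : ℓ ∣ 240
  · have h5' : ℓ = 5 := by
      have h240 : (240 : ℕ) = 2 ^ 4 * 3 * 5 := by norm_num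
      rw [h240] at h
      rcases (Nat.Prime.dvd_mul hℓ).mp h with h1 | h1
      · rcases (Nat.Prime.dvd_mul hℓ).mp h1 with h2 | h2
        · have := (Nat.prime_dvd_prime_iff_eq hℓ Nat.prime_two).mp (hℓ.dvd_of_dvd_pow h2)
          omega
        · have := (Nat.prime_dvd_prime_iff_eq hℓ Nat.prime_three).mp h2
          omega
      · exact (Nat.prime_dvd_prime_iff_eq hℓ Nat.prime_five).mp h1
    subst h5'
    exact ub_six p 5 hp hℓ (by norm_num) T0 NE6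
  · exact ub_four p ℓ hp hℓ h T0 NE4 CE

/-- **UB at every prime `ℓ ≥ 5`** (including `ℓ = p`), modulo `T0` only. -/
theorem ub_ge_five (p ℓ : ℕ) (hp : p.Prime) (hℓ : ℓ.Prime) (h5 : 5 ≤ ℓ)
    (T0 : Fermat.Agent.S16.H79.Stmt_T0 p) : Stmt_UBcore p ℓ 1 :=
  ub_ge_five_of_interfaces p ℓ hp hℓ h5 (Fermat.Agent.S16.H79.stmt_T0_modularForm T0 hp)
    (Fermat.Agent.S16.H79.stmt_normExp hp 4) (Fermat.Agent.S16.H79.stmt_normExp hp 6)
    (Fermat.Agent.S16.H45.stmt_CE4 p)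

end Fermat.Agent.S16.H32
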