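import Fermat.Agent.S16.H26_TridDefs
import Mathlib.NumberTheory.ModularForms.LevelOne.DimensionFormula

/-!
# S16, `UBcore` at `ℓ = p` from the trace identity `TRID` (helper38)

`Stmt_TRID p → p prime → 5 ≤ p → Stmt_UBcore p p (ubExp p p)`.

For `h ≡ u mod p` (`p ∤ u`) apply `TRID` to `A = E₄` and `A = E₆`: `F_A` has weight `6`, resp. `8`,
so `a₁(F_A) = -504 a₀(F_A)`, resp. `a₁(F_A) = 480 a₀(F_A)`. Modulo `p` this gives
`744 u ≡ 0` and `984 u ≡ 0`, hence `p ∣ 24`.
-/

set_option autoImplicit false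

open UpperHalfPlane ModularForm CongruenceSubgroup ModularFormClass
open scoped MatrixGroups ModularForm

noncomputable section

namespace Fermat.Agent.S16.H38

open Fermat.Agent.S16.H26 (Useries coeff_Useries Stmt_TRID)

section Series

variable {p : ℕ} (hp : p ≠ 0) (c : ℂ) (H A : PowerSeries ℂ)

/-- constant term of the `TRID` series. -/
theorem trid_coeff_zero :
    PowerSeries.coeff 0 (c • (H * PowerSeries.expand p hp A) - Useries p (Useries p H * A))
      = (c - 1) * (PowerSeries.coeff 0 H * PowerSeries.coeff 0 A) := by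
  simp only [map_sub, PowerSeries.coeff_smul, coeff_Useries, mul_zero, PowerSeries.coeff_mul,
    Finset.Nat.antidiagonal_zero, Finset.sum_singleton, smul_eq_mul,
    PowerSeries.coeff_zero_eq_constantCoeff, PowerSeries.constantCoeff_expand]
  simp only [← PowerSeries.coeff_zero_eq_constantCoeff]
  ring

/-- first coefficient of the `TRID` series. -/
theorem trid_coeff_one (hp1 : 1 < p) :
    PowerSeries.coeff 1 (c • (H * PowerSeries.expand p hp A) - Useries p (Useries p H * A))
      = c * (PowerSeries.coeff 1 H * PowerSeries.coeff 0 A)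
        - (PowerSeries.coeff 0 H * PowerSeries.coeff p A
            + ∑ i ∈ Finset.range p, PowerSeries.coeff (p * (i + 1)) H *
                PowerSeries.coeff (p - (i + 1)) A) := by
  have h1 : ¬ p ∣ 1 := by
    intro h
    have := Nat.le_of_dvd one_pos h
    omega
  have e1 : PowerSeries.coeff 1 (H * PowerSeries.expand p hp A)
      = PowerSeries.coeff 1 H * PowerSeries.coeff 0 A := by
    rw [PowerSeries.coeff_mul, Finset.Nat.sum_antidiagonal_eq_sum_range_succ_mk,
      Finset.sum_range_succ, Finset.sum_range_one]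
    simp only [Nat.sub_zero, Nat.sub_self]
    rw [PowerSeries.coeff_expand_of_not_dvd p hp A h1, mul_zero, zero_add,
      PowerSeries.coeff_zero_eq_constantCoeff, PowerSeries.constantCoeff_expand]
  have e2 : PowerSeries.coeff p (Useries p H * A)
      = PowerSeries.coeff 0 H * PowerSeries.coeff p A
        + ∑ i ∈ Finset.range p, PowerSeries.coeff (p * (i + 1)) H *
            PowerSeries.coeff (p - (i + 1)) A := by
    rw [PowerSeries.coeff_mul, Finset.Nat.sum_antidiagonal_eq_sum_range_succ_mk,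
      Finset.sum_range_succ']
    simp only [coeff_Useries, mul_zero, Nat.sub_zero]
    rw [add_comm]
  simp only [map_sub, PowerSeries.coeff_smul, coeff_Useries, mul_one, smul_eq_mul]
  rw [e1, e2]

end Series

section LevelOne

open EisensteinSeries

/-- A level one form of weight `< 12` with vanishing constant term is zero. -/
theorem levelOne_eq_zero_of_coeff_zero {k : ℤ} (hk : k < 12) (G : ModularForm 𝒮ℒ k)
    (h0 : (qExpansion 1 G).coeff 0 = 0) : G = 0 := by
  apply sturm_bound_levelOne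
  have h1 : k.toNat / 12 = 0 := by omega
  rw [h1]
  have h2 : ((1 : ℕ) : ℕ∞) ≤ (qExpansion 1 G).order := by
    apply PowerSeries.nat_le_order
    intro i hi
    have : i = 0 := by omega
    rw [this]
    exact h0
  exact lt_of_lt_of_le (by norm_num) h2

/-- In weight `< 12` the first coefficient is determined by the constant term. -/
theorem levelOne_coeff_one {k : ℤ} (hk : k < 12) (F E : ModularForm 𝒮ℒ k)
    (hE : (qExpansion 1 E).coeff 0 = 1) :
    (qExpansion 1 F).coeff 1 = (qExpansion 1 F).coeff 0 * (qExpansion 1 E).coeff 1 := by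
  obtain ⟨G, hGdef⟩ : ∃ G : ModularForm 𝒮ℒ k, G = F - (qExpansion 1 F).coeff 0 • E := ⟨_, rfl⟩
  have hq : qExpansion 1 ⇑G =
      qExpansion 1 F - (qExpansion 1 F).coeff 0 • qExpansion 1 E := by
    have h1 : ⇑G = ⇑F - ⇑((qExpansion 1 F).coeff 0 • E) := by rw [hGdef]; rfl
    have h2 : ⇑((qExpansion 1 F).coeff 0 • E) = (qExpansion 1 F).coeff 0 • ⇑E := rfl
    rw [h1, ModularForm.qExpansion_sub one_pos one_mem_strictPeriods_SL F
      ((qExpansion 1 F).coeff 0 • E), h2,
      ModularForm.qExpansion_smul one_pos one_mem_strictPeriods_SL _ E]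
  have hG : G = 0 := by
    apply levelOne_eq_zero_of_coeff_zero hk
    rw [hq, map_sub, PowerSeries.coeff_smul, hE, smul_eq_mul, mul_one, sub_self]
  have h3 := congrArg (fun φ : PowerSeries ℂ => φ.coeff 1) hq
  have h4 : (qExpansion 1 ⇑G).coeff 1 = 0 := by
    have : (⇑G : ℍ → ℂ) = 0 := by rw [hG]; rfl
    rw [this, UpperHalfPlane.qExpansion_zero]
    simp
  simp only [h4, map_sub, PowerSeries.coeff_smul, smul_eq_mul] at h3
  linear_combination -h3

theorem E4_coeff (m : ℕ) : (qExpansion 1 E₄).coeff m =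
    if m = 0 then 1 else 240 * (ArithmeticFunction.sigma 3 m : ℂ) := by
  rw [E_qExpansion_coeff _ ⟨2, rfl⟩]
  split_ifs
  · rfl
  · norm_num [show bernoulli 4 = -1 / 30 by decide +kernel]

theorem E6_coeff (m : ℕ) : (qExpansion 1 E₆).coeff m =
    if m = 0 then 1 else -504 * (ArithmeticFunction.sigma 5 m : ℂ) := by
  rw [E_qExpansion_coeff _ ⟨3, rfl⟩]
  split_ifs
  · rfl
  · norm_num [show bernoulli 6 = 1 / 42 by decide +kernel]

end LevelOne

section Main

/-- The two coefficients of the `TRID` series for `h ≡ u mod p` and an integral series `A` with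
constant term `1`. -/
theorem trid_mod_p {p : ℕ} (hp : p.Prime) (H : PowerSeries ℂ) (u : ℤ) (c : ℕ → ℤ)
    (hu0 : PowerSeries.coeff 0 H = u)
    (hc : ∀ k, 1 ≤ k → PowerSeries.coeff k H = (p : ℂ) * c k)
    (A : PowerSeries ℂ) (eA : ℕ → ℤ) (hA : ∀ n, PowerSeries.coeff n A = eA n) (hA0 : eA 0 = 1)
    (P : ℂ) (P' : ℤ) (hP : P = P') :
    PowerSeries.coeff 0
        (P • (H * PowerSeries.expand p hp.ne_zero A) - Useries p (Useries p H * A))
      = (((P' - 1) * u : ℤ) : ℂ) ∧
    ∃ z : ℤ, PowerSeries.coeff 1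
        (P • (H * PowerSeries.expand p hp.ne_zero A) - Useries p (Useries p H * A))
      = (((p : ℤ) * z - u * eA p : ℤ) : ℂ) := by
  constructor
  · rw [trid_coeff_zero, hu0, hA, hA0, hP]
    push_cast
    ring
  · refine ⟨P' * c 1 - ∑ i ∈ Finset.range p, c (p * (i + 1)) * eA (p - (i + 1)), ?_⟩
    rw [trid_coeff_one hp.ne_zero P H A hp.one_lt, hu0, hA, hA, hA0, hc 1 le_rfl, hP]
    have hsum : ∑ i ∈ Finset.range p, PowerSeries.coeff (p * (i + 1)) H *
        PowerSeries.coeff (p - (i + 1)) A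
        = (p : ℂ) * ((∑ i ∈ Finset.range p, c (p * (i + 1)) * eA (p - (i + 1)) : ℤ) : ℂ) := by
      push_cast
      rw [Finset.mul_sum]
      refine Finset.sum_congr rfl fun i _ => ?_
      rw [hc (p * (i + 1)) (Nat.mul_pos hp.pos (Nat.succ_pos i)), hA]
      ring
    rw [hsum]
    push_cast
    ring

theorem sigma_prime (k : ℕ) {p : ℕ} (hp : p.Prime) :
    ArithmeticFunction.sigma k p = 1 + p ^ k := by
  rw [ArithmeticFunction.sigma_apply, hp.divisors, Finset.sum_pair hp.one_lt.ne]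
  simp

/-- **`UBcore` at `ℓ = p`** from the trace identity. -/
theorem ubcore_self_one {p : ℕ} (hp : p.Prime) (hp5 : 5 ≤ p) (hT : Stmt_TRID p) :
    Stmt_UBcore p p 1 := by
  rintro h ⟨⟨u, hu, hu0⟩, hk⟩
  choose! c hc using hk
  have hc' : ∀ k, 1 ≤ k → PowerSeries.coeff k (qExpansion 1 h) = (p : ℂ) * c k := by
    intro k hk1
    have := hc k hk1
    rw [pow_one] at this
    exact this
  have hu0' : PowerSeries.coeff 0 (qExpansion 1 h) = u := hu0
  -- `A = E₄`
  obtain ⟨F4, hF4⟩ := hT hp h 4 E₄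
  obtain ⟨F6, hF6⟩ := hT hp h 6 E₆
  have r4 := levelOne_coeff_one (k := 4 + 2) (by norm_num) F4
    (ModularForm.mcast (by norm_num) E₆) (by
      show (qExpansion 1 ⇑E₆).coeff 0 = 1
      rw [E6_coeff]; simp)
  have r6 := levelOne_coeff_one (k := 6 + 2) (by norm_num) F6
    (ModularForm.mcast (by norm_num) (E₄.mul E₄)) (by
      show (qExpansion 1 ⇑(E₄.mul E₄)).coeff 0 = 1
      rw [ModularForm.qExpansion_mul one_pos one_mem_strictPeriods_SL, PowerSeries.coeff_mul]
      simp [E4_coeff])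
  have e6 : (qExpansion 1 ⇑(ModularForm.mcast (by norm_num : (6 : ℤ) = 4 + 2) E₆ :
      ModularForm 𝒮ℒ (4 + 2))).coeff 1 = -504 := by
    show (qExpansion 1 ⇑E₆).coeff 1 = -504
    exact E₆_qExpansion_coeff_one
  have e8 : (qExpansion 1 ⇑(ModularForm.mcast (by norm_num : (4 : ℤ) + 4 = 6 + 2) (E₄.mul E₄) :
      ModularForm 𝒮ℒ (6 + 2))).coeff 1 = 480 := by
    show (qExpansion 1 ⇑(E₄.mul E₄)).coeff 1 = 480
    rw [ModularForm.qExpansion_mul one_pos one_mem_strictPeriods_SL, PowerSeries.coeff_mul,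
      Finset.Nat.sum_antidiagonal_eq_sum_range_succ_mk, Finset.sum_range_succ,
      Finset.sum_range_one]
    simp only [E4_coeff]
    norm_num
  rw [e6, hF4] at r4
  rw [e8, hF6] at r6
  obtain ⟨h40, z4, h41⟩ := trid_mod_p hp (qExpansion 1 h) u c hu0' hc' (qExpansion 1 E₄)
    (fun n => if n = 0 then 1 else 240 * (ArithmeticFunction.sigma 3 n : ℤ))
    (fun n => by rw [E4_coeff]; split_ifs <;> push_cast <;> rfl) (by simp)
    ((p : ℂ) ^ (4 : ℤ)) ((p : ℤ) ^ 4) (by norm_cast)
  obtain ⟨h60, z6, h61⟩ := trid_mod_p hp (qExpansion 1 h) u c hu0' hc' (qExpansion 1 E₆)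
    (fun n => if n = 0 then 1 else -504 * (ArithmeticFunction.sigma 5 n : ℤ))
    (fun n => by rw [E6_coeff]; split_ifs <;> push_cast <;> rfl) (by simp)
    ((p : ℂ) ^ (6 : ℤ)) ((p : ℤ) ^ 6) (by norm_cast)
  rw [h40, h41] at r4
  rw [h60, h61] at r6
  simp only [hp.ne_zero, if_false, sigma_prime _ hp] at r4 r6
  have i4 : (p : ℤ) * z4 - u * (240 * ((1 + p ^ 3 : ℕ) : ℤ)) = ((p : ℤ) ^ 4 - 1) * u * (-504) := by
    exact_mod_cast r4
  have i6 : (p : ℤ) * z6 - u * (-504 * ((1 + p ^ 5 : ℕ) : ℤ)) = ((p : ℤ) ^ 6 - 1) * u * 480 := by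
    exact_mod_cast r6
  push_cast at i4 i6
  have d4 : (p : ℤ) ∣ 744 * u :=
    ⟨z4 - 240 * u * p ^ 2 + 504 * p ^ 3 * u, by linear_combination -i4⟩
  have d6 : (p : ℤ) ∣ 984 * u :=
    ⟨-z6 - 504 * u * p ^ 4 + 480 * p ^ 5 * u, by linear_combination i6⟩
  have hpZ : Prime (p : ℤ) := Nat.prime_iff_prime_int.mp hp
  have d4' : (p : ℤ) ∣ 744 := (hpZ.dvd_or_dvd d4).resolve_right hu
  have d6' : (p : ℤ) ∣ 984 := (hpZ.dvd_or_dvd d6).resolve_right hu
  have d4n : p ∣ 744 := by exact_mod_cast d4'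
  have d6n : p ∣ 984 := by exact_mod_cast d6'
  have d24 : p ∣ 24 := by
    have := Nat.dvd_gcd d4n d6n
    have e : Nat.gcd 744 984 = 24 := by norm_num
    rwa [e] at this
  have hle : p ≤ 24 := Nat.le_of_dvd (by norm_num) d24
  interval_cases p <;> first | exact absurd d24 (by decide) | exact absurd hp (by norm_num)

/-- `ubExp p p = 1` for a prime `p ≥ 5`. -/
theorem ubExp_self {p : ℕ} (hp : p.Prime) (hp5 : 5 ≤ p) : ubExp p p = 1 := by
  unfold ubExp
  rw [Nat.factorization_eq_zero_of_not_dvd]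
  intro h
  have h12 : p ∣ 12 := h.trans (Nat.gcd_dvd_right _ _)
  have hle : p ≤ 12 := Nat.le_of_dvd (by norm_num) h12
  interval_cases p <;> first | exact absurd h12 (by decide) | exact absurd hp (by norm_num)

/-- **`UBcore` at `ℓ = p`**, in the form needed by `LOC-UB`. -/
theorem ubcore_self {p : ℕ} (hp : p.Prime) (hp5 : 5 ≤ p) (hT : Stmt_TRID p) :
    Stmt_UBcore p p (ubExp p p) := by
  rw [ubExp_self hp hp5]
  exact ubcore_self_one hp hp5 hT

end Main

end Fermat.Agent.S16.H38
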