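import Mathlib.Algebra.Polynomial.Roots
import Mathlib.Algebra.Polynomial.RingDivision
import Mathlib.RingTheory.Polynomial.Basic
import Mathlib.Algebra.Polynomial.FieldDivision

/-!
# S16, level-one lemma W1: the algebraic core (helper41)

Three polynomial identities in `F[X]` which cannot hold simultaneously.
-/

set_option autoImplicit false

open Polynomial

namespace Fermat.Agent.S16.H41

variable {F : Type*} [Field F]

lemma rootMultiplicity_pow' {P : F[X]} (hP : P ≠ 0) (c : F) (n : ℕ) :
    rootMultiplicity c (P ^ n) = n * rootMultiplicity c P := by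
  induction n with
  | zero => simp
  | succ n ih =>
    rw [pow_succ, rootMultiplicity_mul (mul_ne_zero (pow_ne_zero _ hP) hP), ih]
    ring

lemma rootMultiplicity_ge_of_identity {n : ℕ} {G T Q : F[X]} (hG : G ≠ 0) (hT : T ≠ 0)
    (hQ0 : Q ≠ 0) (I1 : G ^ n = Q * T ^ n) (c : F)
    (hne : rootMultiplicity c G ≠ rootMultiplicity c T) : n ≤ rootMultiplicity c Q := by
  have h1 : n * rootMultiplicity c G = rootMultiplicity c Q + n * rootMultiplicity c T := by
    have := congrArg (rootMultiplicity c) I1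
    rwa [rootMultiplicity_pow' hG, rootMultiplicity_mul (mul_ne_zero hQ0 (pow_ne_zero _ hT)),
      rootMultiplicity_pow' hT] at this
  rcases Nat.lt_or_gt_of_ne hne with h | h
  · -- `m(G) < m(T)` is impossible
    have : n * rootMultiplicity c G ≤ n * rootMultiplicity c T := Nat.mul_le_mul_left _ h.le
    have h2 : n * rootMultiplicity c G < n * rootMultiplicity c T ∨ n = 0 := by
      rcases Nat.eq_zero_or_pos n with h0 | h0
      · exact Or.inr h0
      · exact Or.inl (Nat.mul_lt_mul_of_pos_left h h0)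
    rcases h2 with h2 | h2
    · omega
    · omega
  · have : n * (rootMultiplicity c T + 1) ≤ n * rootMultiplicity c G := Nat.mul_le_mul_left _ h
    rw [Nat.mul_add, Nat.mul_one] at this
    omega

/-- **The algebraic core.** -/
theorem core_contra {a b : F} (hab : a ≠ b) {n : ℕ} (hn : 0 < n)
    {G T Q X0 Y0 : F[X]} (hG : G ≠ 0) (hT : T ≠ 0) (hQ0 : Q ≠ 0) (hQd : Q.natDegree ≤ n)
    (I1 : G ^ n = Q * T ^ n)
    (I2 : X0 ^ 3 = (X - C a) * T * G ^ 2)
    (I3 : Y0 ^ 2 = (X - C b) * T * G) : False := by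
  have hXa : (X - C a : F[X]) ≠ 0 := X_sub_C_ne_zero a
  have hXb : (X - C b : F[X]) ≠ 0 := X_sub_C_ne_zero b
  -- at `a`
  have ha : rootMultiplicity a G ≠ rootMultiplicity a T := by
    intro h
    have := congrArg (rootMultiplicity a) I2
    have hX0 : X0 ≠ 0 := by
      rintro rfl
      rw [zero_pow (by norm_num)] at I2
      exact (mul_ne_zero (mul_ne_zero hXa hT) (pow_ne_zero _ hG)) I2.symm
    rw [rootMultiplicity_pow' hX0, rootMultiplicity_mul
        (mul_ne_zero (mul_ne_zero hXa hT) (pow_ne_zero _ hG)),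
      rootMultiplicity_mul (mul_ne_zero hXa hT), rootMultiplicity_pow' hG,
      rootMultiplicity_X_sub_C_self, h] at this
    omega
  -- at `b`
  have hb : rootMultiplicity b G ≠ rootMultiplicity b T := by
    intro h
    have := congrArg (rootMultiplicity b) I3
    have hY0 : Y0 ≠ 0 := by
      rintro rfl
      rw [zero_pow (by norm_num)] at I3
      exact (mul_ne_zero (mul_ne_zero hXb hT) hG) I3.symm
    rw [rootMultiplicity_pow' hY0, rootMultiplicity_mul (mul_ne_zero (mul_ne_zero hXb hT) hG),
      rootMultiplicity_mul (mul_ne_zero hXb hT), rootMultiplicity_X_sub_C_self, h] at this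
    omega
  have hQa := rootMultiplicity_ge_of_identity hG hT hQ0 I1 a ha
  have hQb := rootMultiplicity_ge_of_identity hG hT hQ0 I1 b hb
  have hda : (X - C a) ^ n ∣ Q := (pow_dvd_pow _ hQa).trans (pow_rootMultiplicity_dvd Q a)
  have hdb : (X - C b) ^ n ∣ Q := (pow_dvd_pow _ hQb).trans (pow_rootMultiplicity_dvd Q b)
  have hcop : IsCoprime ((X - C a) ^ n) ((X - C b : F[X]) ^ n) :=
    (isCoprime_X_sub_C_of_isUnit_sub (sub_ne_zero.mpr hab).isUnit).pow
  have hdvd := hcop.mul_dvd hda hdb
  have hdeg := natDegree_le_of_dvd hdvd hQ0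
  rw [natDegree_mul (pow_ne_zero _ hXa) (pow_ne_zero _ hXb), natDegree_pow, natDegree_pow,
    natDegree_X_sub_C, natDegree_X_sub_C] at hdeg
  omega

end Fermat.Agent.S16.H41
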