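import Fermat.Agent.S16.Defs
import Fermat.Agent.S23.H22_LevelRaiseExp
import Mathlib.NumberTheory.ModularForms.NormTrace

/-!
# S16, upper bound: the interface `TR` (helper41)

Expansion at the cusp `0` of a modular form on `Γ₀(p)` and the trace to level one.
All statements are `Prop`s (`Stmt_*`), to be proved in `H41_*.lean` (Z1, Z2, Z3) and
`H15_*.lean` (coset enumeration, Z5 = trace formula, Z4 = `T0`).

Notation: for `H : ℍ → ℂ` of weight `k`,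
* `aexp H = qExpansion 1 H` is the expansion at `∞` in `q = e^{2πiz}`;
* `Zexp p k H = qExpansion p (H ∣[k] S)` is the expansion at `0` in `t = e^{2πiz/p}`.
-/

set_option autoImplicit false

open UpperHalfPlane ModularForm SlashInvariantForm
open scoped MatrixGroups ModularForm

noncomputable section

namespace Fermat.Agent.S16.H41

open Fermat.Agent.S23.H22 (G0 Q q1 levelRaise toSL piPerm)

/-- The expansion at `∞`. -/
abbrev aexp (H : ℍ → ℂ) : PowerSeries ℂ := qExpansion (1 : ℝ) H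

/-- The expansion at the cusp `0`, in the parameter `t = e^{2πiz/p}`. -/
def Zexp (p : ℕ) (k : ℤ) (H : ℍ → ℂ) : PowerSeries ℂ :=
  qExpansion (p : ℝ) (H ∣[k] ModularGroup.S)

/-- The conjugates of `H` under `Γ₀(p) \ SL(2, ℤ)`: `H` itself and `H ∣[k] S T^j`, `j < p`. -/
def conj (p : ℕ) (k : ℤ) (H : ℍ → ℂ) : Option (Fin p) → ℍ → ℂ
  | none => H
  | some j => H ∣[k] (ModularGroup.S * ModularGroup.T ^ (j : ℕ))

/-- COSET: the cosets of `Γ₀(p)` in `SL(2, ℤ)` for `p` prime are `1` and `S T^j`, `j < p`. -/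
def Stmt_COSET (p : ℕ) [NeZero p] : Prop :=
  ∃ e : Option (Fin p) ≃ Q p, ∀ (k : ℤ) (H : ModularForm (G0 p) k) (i : Option (Fin p)),
    quotientFunc H (e i) = conj p k H i

/-- (Z1a) `Zexp` is additive. -/
def Stmt_Z1_add (p : ℕ) : Prop :=
  ∀ (k : ℤ) (H₁ H₂ : ModularForm (G0 p) k),
    Zexp p k (⇑H₁ + ⇑H₂) = Zexp p k H₁ + Zexp p k H₂

/-- (Z1b) `Zexp` commutes with scalars. -/
def Stmt_Z1_smul (p : ℕ) : Prop :=
  ∀ (k : ℤ) (c : ℂ) (H : ModularForm (G0 p) k), Zexp p k (c • ⇑H) = c • Zexp p k H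

/-- (Z1c) `Zexp` is multiplicative. -/
def Stmt_Z1_mul (p : ℕ) : Prop :=
  ∀ (k₁ k₂ : ℤ) (H₁ : ModularForm (G0 p) k₁) (H₂ : ModularForm (G0 p) k₂),
    Zexp p (k₁ + k₂) (⇑H₁ * ⇑H₂) = Zexp p k₁ H₁ * Zexp p k₂ H₂

/-- (Z2) level one forms: `Z(F)(t) = a(F)(t^p)`. -/
def Stmt_Z2 (p : ℕ) : Prop :=
  ∀ (k : ℤ) (F : ModularForm 𝒮ℒ k) (m : ℕ),
    (Zexp p k F).coeff m = if p ∣ m then (aexp F).coeff (m / p) else 0

/-- (Z3) the level raise `F ∣[k] diag(p, 1) = p^(k-1) F(pz)` has `Z = p⁻¹ a(F)(t)`. -/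
def Stmt_Z3 (p : ℕ) [NeZero p] : Prop :=
  ∀ (k : ℤ) (F : ModularForm 𝒮ℒ k), Zexp p k (levelRaise p F) = (p : ℂ)⁻¹ • aexp F

/-- (Z5) the trace formula: `a_n(Tr H) = a_n(H) + p * Z(H)_{pn}`. -/
def Stmt_Z5 (p : ℕ) [NeZero p] : Prop :=
  ∀ (k : ℤ) (H : ModularForm (G0 p) k) (n : ℕ),
    (aexp (ModularForm.trace 𝒮ℒ H)).coeff n = (aexp H).coeff n + p * (Zexp p k H).coeff (p * n)

/-- (Z4) = `T0`: in weight `2`, `Z(G)_n = -a_{pn}(G) / p`. -/
def Stmt_Z4 (p : ℕ) : Prop :=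
  ∀ (G : ModularForm (G0 p) 2) (n : ℕ),
    (Zexp p 2 G).coeff n = -(p : ℂ)⁻¹ * (aexp G).coeff (p * n)

end Fermat.Agent.S16.H41
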