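import Fermat.Agent.S16.H41_Hev
import Fermat.Agent.S16.H55_RhoInt

/-!
# S16, level-one lemma W1: reduction of level one forms of weight `12 M` (helper41)

`RedS O φ P s` : the power series `P ∈ ℂ⟦q⟧` has coefficients in the subring `O ⊆ ℂ` and `s` is
its reduction via `φ : O →+* F`.

`POLY` (`red_poly`): a level one form of weight `12 M` whose `q`-expansion reduces to `s` satisfies
`s = hev U V M P` for a polynomial `P` of degree `≤ M`, with `U = Ẽ₄³`, `V = Δ̃`.
-/

set_option autoImplicit false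

noncomputable section

namespace Fermat.Agent.S16.H41

open UpperHalfPlane ModularForm EisensteinSeries ModularFormClass Polynomial
open scoped MatrixGroups
open Fermat.Agent.S23.H96 (e4Series e6Series deltaSeries)
open Fermat.Agent.S16.H55 (serO e4Pow)

section RedS

variable (O : Subring ℂ) {F : Type*} [Field F] (φ : O →+* F)

/-- `s` is the reduction via `φ` of the power series `P`, which has coefficients in `O`. -/
def RedS (P : PowerSeries ℂ) (s : PowerSeries F) : Prop :=
  ∃ A : PowerSeries O, A.map O.subtype = P ∧ A.map φ = s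

variable {O φ}

lemma map_subtype_injective : Function.Injective (PowerSeries.map O.subtype) :=
  PowerSeries.map_injective _ Subtype.val_injective

lemma RedS.unique {P : PowerSeries ℂ} {s t : PowerSeries F} (hs : RedS O φ P s)
    (ht : RedS O φ P t) : s = t := by
  obtain ⟨A, hA, rfl⟩ := hs
  obtain ⟨B, hB, rfl⟩ := ht
  rw [map_subtype_injective (hA.trans hB.symm)]

lemma RedS.mem {P : PowerSeries ℂ} {s : PowerSeries F} (hs : RedS O φ P s) : P ∈ serO O := by
  obtain ⟨A, hA, -⟩ := hs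
  exact ⟨A, hA⟩

lemma RedS.add {P Q : PowerSeries ℂ} {s t : PowerSeries F} (hs : RedS O φ P s)
    (ht : RedS O φ Q t) : RedS O φ (P + Q) (s + t) := by
  obtain ⟨A, rfl, rfl⟩ := hs
  obtain ⟨B, rfl, rfl⟩ := ht
  exact ⟨A + B, by simp, by simp⟩

lemma RedS.sub {P Q : PowerSeries ℂ} {s t : PowerSeries F} (hs : RedS O φ P s)
    (ht : RedS O φ Q t) : RedS O φ (P - Q) (s - t) := by
  obtain ⟨A, rfl, rfl⟩ := hs
  obtain ⟨B, rfl, rfl⟩ := ht
  exact ⟨A - B, by simp, by simp⟩

lemma RedS.mul {P Q : PowerSeries ℂ} {s t : PowerSeries F} (hs : RedS O φ P s)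
    (ht : RedS O φ Q t) : RedS O φ (P * Q) (s * t) := by
  obtain ⟨A, rfl, rfl⟩ := hs
  obtain ⟨B, rfl, rfl⟩ := ht
  exact ⟨A * B, by simp, by simp⟩

lemma RedS.pow {P : PowerSeries ℂ} {s : PowerSeries F} (hs : RedS O φ P s) (n : ℕ) :
    RedS O φ (P ^ n) (s ^ n) := by
  obtain ⟨A, rfl, rfl⟩ := hs
  exact ⟨A ^ n, by simp, by simp⟩

lemma RedS.one : RedS O φ 1 1 := ⟨1, by simp, by simp⟩

lemma RedS.const (c : O) : RedS O φ (PowerSeries.C (c : ℂ)) (PowerSeries.C (φ c)) :=
  ⟨PowerSeries.C c, by simp, by simp⟩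

lemma RedS.smul {P : PowerSeries ℂ} {s : PowerSeries F} (hs : RedS O φ P s) (c : O) :
    RedS O φ ((c : ℂ) • P) (φ c • s) := by
  rw [PowerSeries.smul_eq_C_mul, PowerSeries.smul_eq_C_mul]
  exact (RedS.const c).mul hs

/-- Integral series reduce to their reduction. -/
lemma RedS.ofInt (S : PowerSeries ℤ) :
    RedS O φ (S.map (Int.castRingHom ℂ)) (S.map (Int.castRingHom F)) := by
  refine ⟨S.map (Int.castRingHom O), ?_, ?_⟩
  · ext n; simp
  · ext n; simp

/-- The coefficients of a reduction. -/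
lemma RedS.coeff {P : PowerSeries ℂ} {s : PowerSeries F} (hs : RedS O φ P s) (n : ℕ) :
    ∃ h : P.coeff n ∈ O, s.coeff n = φ ⟨P.coeff n, h⟩ := by
  obtain ⟨A, rfl, rfl⟩ := hs
  refine ⟨by simp, ?_⟩
  simp

lemma redS_iff {P : PowerSeries ℂ} {s : PowerSeries F} :
    RedS O φ P s ↔ ∃ h : ∀ n, P.coeff n ∈ O, ∀ n, s.coeff n = φ ⟨P.coeff n, h n⟩ := by
  constructor
  · intro hs
    refine ⟨fun n => (hs.coeff n).1, fun n => (hs.coeff n).2⟩
  · rintro ⟨h, hs⟩
    refine ⟨PowerSeries.mk fun n => ⟨P.coeff n, h n⟩, ?_, ?_⟩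
    · ext n; simp
    · ext n; simp [hs n]

/-- Division by an integral series `D = q + O(q²)`. -/
lemma RedS.div {D : PowerSeries ℤ} (hD0 : D.coeff 0 = 0) (hD1 : D.coeff 1 = 1)
    {P : PowerSeries ℂ} {s : PowerSeries F}
    (hs : RedS O φ (D.map (Int.castRingHom ℂ) * P) s) :
    ∃ s', RedS O φ P s' ∧ s = D.map (Int.castRingHom F) * s' := by
  have hP : P ∈ serO O := by
    refine Fermat.Agent.S16.H55.mem_serO_of_mul_mem O (D.map (Int.castRingHom ℂ)) P
      (RedS.ofInt (O := O) (φ := φ) D).mem ?_ ?_ hs.mem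
    · simp [hD0]
    · simp [hD1]
  obtain ⟨B, rfl⟩ := hP
  refine ⟨B.map φ, ⟨B, rfl, rfl⟩, ?_⟩
  exact hs.unique ((RedS.ofInt (O := O) (φ := φ) D).mul ⟨B, rfl, rfl⟩)

end RedS

section Poly

variable {O : Subring ℂ} {F : Type*} [Field F] {φ : O →+* F}

/-- The reduction of `E₄`. -/
def xbar (F : Type*) [Field F] : PowerSeries F := e4Series.map (Int.castRingHom F)

/-- The reduction of `E₆`. -/
def ybar (F : Type*) [Field F] : PowerSeries F := e6Series.map (Int.castRingHom F)

/-- The reduction of `Δ`. -/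
def Vbar (F : Type*) [Field F] : PowerSeries F := deltaSeries.map (Int.castRingHom F)

/-- The reduction of `E₄ ^ 3`. -/
def Ubar (F : Type*) [Field F] : PowerSeries F := xbar F ^ 3

lemma constantCoeff_xbar : PowerSeries.constantCoeff (xbar F) = 1 := by
  have := Fermat.Agent.S23.H96.coeff_e4Series 0
  simp only [if_true] at this
  rw [xbar, ← PowerSeries.coeff_zero_eq_constantCoeff_apply, PowerSeries.coeff_map, this]
  simp

lemma constantCoeff_ybar : PowerSeries.constantCoeff (ybar F) = 1 := by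
  have := Fermat.Agent.S23.H96.coeff_e6Series 0
  simp only [if_true] at this
  rw [ybar, ← PowerSeries.coeff_zero_eq_constantCoeff_apply, PowerSeries.coeff_map, this]
  simp

lemma constantCoeff_Ubar : PowerSeries.constantCoeff (Ubar F) = 1 := by
  rw [Ubar, map_pow, constantCoeff_xbar, one_pow]

lemma constantCoeff_Vbar : PowerSeries.constantCoeff (Vbar F) = 0 := by
  rw [Vbar, ← PowerSeries.coeff_zero_eq_constantCoeff_apply, PowerSeries.coeff_map,
    Fermat.Agent.S23.H96.coeff_zero_deltaSeries]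
  simp

lemma coeff_one_Vbar : (Vbar F).coeff 1 = 1 := by
  rw [Vbar, PowerSeries.coeff_map, Fermat.Agent.S23.H96.coeff_one_deltaSeries]
  simp

lemma Vbar_ne_zero : Vbar F ≠ 0 := by
  intro h
  have := coeff_one_Vbar (F := F)
  rw [h] at this
  simp at this

/-- `y² = x³ - 1728 Δ` after reduction. -/
lemma ybar_sq : ybar F ^ 2 = Ubar F - PowerSeries.C (1728 : F) * Vbar F := by
  have h := congrArg (PowerSeries.map (Int.castRingHom F))
    Fermat.Agent.S23.H96.e4Series_cube_sub_e6Series_sq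
  simp only [map_sub, map_pow, map_mul, PowerSeries.map_C] at h
  rw [Ubar, xbar, ybar, Vbar]
  have h2 : ((Int.castRingHom F) 1728 : F) = 1728 := by simp
  rw [h2] at h
  rw [← h]
  ring

lemma redS_E4 : RedS O φ (qExpansion 1 E₄) (xbar F) := by
  rw [Fermat.Agent.S23.H96.qExpansion_E₄_eq]
  exact RedS.ofInt _

lemma redS_E6 : RedS O φ (qExpansion 1 E₆) (ybar F) := by
  rw [Fermat.Agent.S23.H96.qExpansion_E₆_eq]
  exact RedS.ofInt _

lemma redS_disc : RedS O φ (qExpansion 1 ModularForm.discriminant) (Vbar F) := by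
  rw [Fermat.Agent.S23.H96.qExpansion_discriminant_eq]
  exact RedS.ofInt _

/-- **POLY.** -/
theorem red_poly : ∀ (M : ℕ) (k : ℤ), k = 12 * M → ∀ (f : ModularForm 𝒮ℒ k) (s : PowerSeries F),
    RedS O φ (qExpansion 1 f) s →
    ∃ P : F[X], P.natDegree ≤ M ∧ s = hev (Ubar F) (Vbar F) M P := by
  intro M
  induction M with
  | zero =>
    intro k hk f s hs
    have hk0 : k = 0 := by simpa using hk
    subst hk0
    obtain ⟨c, hc⟩ := levelOne_weight_zero_const f
    have h1 : qExpansion 1 f = PowerSeries.C c := by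
      have : (f : ℍ → ℂ) = ((c • (1 : ModularForm 𝒮ℒ 0) : ModularForm 𝒮ℒ 0) : ℍ → ℂ) := by
        rw [hc]; ext z; simp
      rw [this, FunLike.coe_smul, ModularForm.qExpansion_smul one_pos one_mem_strictPeriods_SL,
        ModularForm.qExpansion_one]
      ext n
      simp [PowerSeries.coeff_C, PowerSeries.coeff_one]
    rw [h1] at hs
    obtain ⟨hc0, -⟩ := hs.coeff 0
    have hcO : c ∈ O := by simpa using hc0
    have := hs.unique (RedS.const (O := O) (φ := φ) ⟨c, hcO⟩)
    refine ⟨C (φ ⟨c, hcO⟩), natDegree_C _ |>.le, ?_⟩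
    rw [this, hev_C, pow_zero, mul_one]
    rfl
  | succ M ih =>
    intro k hk f s hs
    obtain ⟨ha₀, hs0⟩ := hs.coeff 0
    set a₀ := (qExpansion 1 f).coeff 0 with ha₀def
    set U := e4Pow (M + 1) k hk with hU
    have hUred : RedS O φ (qExpansion 1 U) (Ubar F ^ (M + 1)) := by
      rw [hU, Fermat.Agent.S16.H55.qExpansion_e4Pow, Ubar, ← pow_mul]
      exact redS_E4.pow _
    have hU0 : (qExpansion 1 U).coeff 0 = 1 := by
      rw [hU, Fermat.Agent.S16.H55.qExpansion_e4Pow]
      have h4 : PowerSeries.constantCoeff (qExpansion 1 E₄) = 1 := by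
        simpa using E_qExpansion_coeff_zero (k := 4) (by norm_num) ⟨2, rfl⟩
      simp [h4]
    have hq : qExpansion 1 (f - a₀ • U : ModularForm 𝒮ℒ k)
        = qExpansion 1 f - a₀ • qExpansion 1 U := by
      rw [FunLike.coe_sub, ModularForm.qExpansion_sub one_pos one_mem_strictPeriods_SL,
        FunLike.coe_smul, ModularForm.qExpansion_smul one_pos one_mem_strictPeriods_SL]
    have h0 : (qExpansion 1 (f - a₀ • U : ModularForm 𝒮ℒ k)).coeff 0 = 0 := by
      rw [hq, map_sub, PowerSeries.coeff_smul, hU0]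
      simp [ha₀def]
    set f' := CuspForm.discriminantEquiv (toCuspForm (f - a₀ • U : ModularForm 𝒮ℒ k) h0) with hf'
    have hmul := ModularForm.qExpansion_eq_qExpansion_discriminant_mul
      (f - a₀ • U : ModularForm 𝒮ℒ k) h0
    have hred : RedS O φ (qExpansion 1 ModularForm.discriminant * qExpansion 1 f')
        (s - φ ⟨a₀, ha₀⟩ • Ubar F ^ (M + 1)) := by
      rw [← hmul, hq]
      exact hs.sub (hUred.smul ⟨a₀, ha₀⟩)
    rw [Fermat.Agent.S23.H96.qExpansion_discriminant_eq] at hred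
    obtain ⟨s', hs', hss'⟩ := RedS.div Fermat.Agent.S23.H96.coeff_zero_deltaSeries
      Fermat.Agent.S23.H96.coeff_one_deltaSeries hred
    obtain ⟨P', hP'd, hP'⟩ := ih (k - 12) (by rw [hk]; push_cast; ring) f' s' hs'
    refine ⟨C (φ ⟨a₀, ha₀⟩) * X ^ (M + 1) + P', ?_, ?_⟩
    · refine (natDegree_add_le _ _).trans (max_le ?_ (hP'd.trans (Nat.le_succ M)))
      exact (natDegree_C_mul_le _ _).trans (natDegree_X_pow_le _)
    · rw [hev_add, hev_C_mul, hev_X_pow _ _ le_rfl, Nat.sub_self, pow_zero, mul_one,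
        hev_succ _ _ hP'd, ← hP']
      have h3 : s = φ ⟨a₀, ha₀⟩ • Ubar F ^ (M + 1) + Vbar F * s' := by
        rw [Vbar, ← hss']; ring
      rw [h3, Algebra.smul_def]
      ring

end Poly

end Fermat.Agent.S16.H41
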