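import Fermat.Agent.S16.Defs

/-!
# S16, WP-alg (helper44): the quotient by the image of the kernel of an integer-valued character
-/

set_option autoImplicit false

namespace Fermat.Agent.S16.H44

/-- If `φ : A ↠ T`, `ε : A ↠ ℤ`, `I = ker ε` and `ε (ker φ) = n ℤ`, then `T ⧸ φ(I) T ≃ ℤ / n`. -/
noncomputable def quotientMapEquivZMod {A T : Type*} [CommRing A] [CommRing T] (φ : A →+* T)
    (hφ : Function.Surjective φ) (ε : A →+* ℤ) (hε : Function.Surjective ε)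
    (I : Ideal A) (hI : ∀ P, P ∈ I ↔ ε P = 0) (n : ℕ)
    (h1 : ∀ P, φ P = 0 → (n : ℤ) ∣ ε P) (h2 : ∃ P, φ P = 0 ∧ ε P = n) :
    (T ⧸ Ideal.map φ I) ≃+* ZMod n := by
  let f : A →+* ZMod n := (Int.castRingHom (ZMod n)).comp ε
  have hker : RingHom.ker φ ≤ RingHom.ker f := by
    intro P hP
    rw [RingHom.mem_ker] at hP ⊢
    change ((ε P : ℤ) : ZMod n) = 0
    rw [ZMod.intCast_zmod_eq_zero_iff_dvd]
    exact h1 P hP
  let ψ : T →+* ZMod n := φ.liftOfSurjective hφ ⟨f, hker⟩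
  have hψφ : ∀ P, ψ (φ P) = ((ε P : ℤ) : ZMod n) := by
    intro P
    exact φ.liftOfRightInverse_comp_apply _ (Function.surjInv_eq hφ) ⟨f, hker⟩ P
  have hψsurj : Function.Surjective ψ := by
    intro z
    obtain ⟨c, rfl⟩ := ZMod.intCast_surjective z
    obtain ⟨P, rfl⟩ := hε c
    exact ⟨φ P, hψφ P⟩
  have hkerψ : Ideal.map φ I = RingHom.ker ψ := by
    apply le_antisymm
    · rw [Ideal.map_le_iff_le_comap]
      intro P hP
      rw [Ideal.mem_comap, RingHom.mem_ker, hψφ, (hI P).mp hP]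
      simp
    · intro t ht
      obtain ⟨P, rfl⟩ := hφ t
      rw [RingHom.mem_ker, hψφ, ZMod.intCast_zmod_eq_zero_iff_dvd] at ht
      obtain ⟨c, hc⟩ := ht
      obtain ⟨P₀, hP₀, hεP₀⟩ := h2
      obtain ⟨Q, rfl⟩ := hε c
      have hmem : P - P₀ * Q ∈ I := by
        rw [hI, map_sub, map_mul, hc, hεP₀, sub_self]
      have := Ideal.mem_map_of_mem φ hmem
      rwa [map_sub, map_mul, hP₀, zero_mul, sub_zero] at this
  exact (Ideal.quotEquivOfEq hkerψ).trans (RingHom.quotientKerEquivOfSurjective hψsurj)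

theorem card_quotient_map {A T : Type*} [CommRing A] [CommRing T] (φ : A →+* T)
    (hφ : Function.Surjective φ) (ε : A →+* ℤ) (hε : Function.Surjective ε)
    (I : Ideal A) (hI : ∀ P, P ∈ I ↔ ε P = 0) (n : ℕ)
    (h1 : ∀ P, φ P = 0 → (n : ℤ) ∣ ε P) (h2 : ∃ P, φ P = 0 ∧ ε P = n) :
    Nat.card (T ⧸ Ideal.map φ I) = n := by
  rw [Nat.card_congr (quotientMapEquivZMod φ hφ ε hε I hI n h1 h2).toEquiv, Nat.card_zmod]

end Fermat.Agent.S16.H44
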