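import Fermat.Agent.S16.Defs

/-!
# S16, WP-dual (helper44): a pairing of finite free `ℤ`-modules, nondegenerate on both sides,
is surjective up to a denominator
-/

set_option autoImplicit false

namespace Fermat.Agent.S16.H44

open Module

/-- both sides of a pairing nondegenerate on both sides have the same rank -/
theorem finrank_eq_of_pairing {L T : Type*} [AddCommGroup L] [Module.Free ℤ L]
    [Module.Finite ℤ L] [AddCommGroup T] [Module.Free ℤ T] [Module.Finite ℤ T]
    (B : L →ₗ[ℤ] T →ₗ[ℤ] ℤ) (hL : ∀ f, (∀ t, B f t = 0) → f = 0)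
    (hT : ∀ t, (∀ f, B f t = 0) → t = 0) : finrank ℤ L = finrank ℤ T := by
  have hinj : Function.Injective B := by
    rw [← LinearMap.ker_eq_bot, LinearMap.ker_eq_bot']
    intro f hf
    exact hL f (fun t => by rw [hf]; rfl)
  have hinj' : Function.Injective B.flip := by
    rw [← LinearMap.ker_eq_bot, LinearMap.ker_eq_bot']
    intro t ht
    refine hT t (fun f => ?_)
    have := congrArg (fun g : L →ₗ[ℤ] ℤ => g f) ht
    simpa using this
  have h1 : finrank ℤ L ≤ finrank ℤ T := by
    have := LinearMap.finrank_le_finrank_of_injective hinj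
    rwa [Module.finrank_linearMap_self] at this
  have h2 : finrank ℤ T ≤ finrank ℤ L := by
    have := LinearMap.finrank_le_finrank_of_injective hinj'
    rwa [Module.finrank_linearMap_self] at this
  exact le_antisymm h1 h2

theorem exists_rep_of_pairing {L T : Type*} [AddCommGroup L] [Module.Free ℤ L] [Module.Finite ℤ L]
    [AddCommGroup T] [Module.Free ℤ T] [Module.Finite ℤ T]
    (B : L →ₗ[ℤ] T →ₗ[ℤ] ℤ) (hL : ∀ f, (∀ t, B f t = 0) → f = 0)
    (hT : ∀ t, (∀ f, B f t = 0) → t = 0) (ψ : T →ₗ[ℤ] ℤ) :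
    ∃ (D : ℤ) (f : L), D ≠ 0 ∧ ∀ t, B f t = D * ψ t := by
  have hinj : Function.Injective B := by
    rw [← LinearMap.ker_eq_bot, LinearMap.ker_eq_bot']
    intro f hf
    exact hL f (fun t => by rw [hf]; rfl)
  have hrk := finrank_eq_of_pairing B hL hT
  have hrange : finrank ℤ (LinearMap.range B) = finrank ℤ (T →ₗ[ℤ] ℤ) := by
    rw [LinearMap.finrank_range_of_inj hinj, hrk, Module.finrank_linearMap_self]
  have hq : finrank ℤ ((T →ₗ[ℤ] ℤ) ⧸ LinearMap.range B) = 0 := by
    have := Submodule.finrank_quotient_add_finrank (LinearMap.range B)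
    omega
  have htors : Module.IsTorsion ℤ ((T →ₗ[ℤ] ℤ) ⧸ LinearMap.range B) :=
    Module.finrank_eq_zero_iff_isTorsion.mp hq
  obtain ⟨a, ha⟩ := @htors (Submodule.Quotient.mk ψ)
  have hmem : (a : ℤ) • ψ ∈ LinearMap.range B := by
    rw [← Submodule.Quotient.mk_eq_zero, Submodule.Quotient.mk_smul]
    exact ha
  obtain ⟨f, hf⟩ := hmem
  refine ⟨(a : ℤ), f, nonZeroDivisors.coe_ne_zero a, fun t => ?_⟩
  rw [hf]
  simp

end Fermat.Agent.S16.H44
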