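import Fermat.Agent.S16.Defs

/-!
# S16, WP-sigma (helper44): Hecke recursions of `σ'(k) = Σ_{d ∣ k, p ∤ d} d`

NOTE: `sigmaP p 1 = 1` needs `p ≠ 1` (for `p = 1` every divisor is divisible by `p` and
`sigmaP 1 k = 0`).
-/

set_option autoImplicit false

namespace Fermat.Agent.S16.H44

open Finset

theorem sigmaP_one {p : ℕ} (hp : p ≠ 1) : sigmaP p 1 = 1 := by
  unfold sigmaP
  rw [Nat.divisors_one, Finset.filter_singleton, if_pos (by simpa using hp)]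
  simp

theorem sigmaP_one_of_prime {p : ℕ} (hp : p.Prime) : sigmaP p 1 = 1 :=
  sigmaP_one hp.ne_one

theorem sigmaP_zero (p : ℕ) : sigmaP p 0 = 0 := by
  unfold sigmaP
  simp

/-- the part of `σ'` coming from divisors prime to `ℓ` -/
def tauP (p ℓ k : ℕ) : ℕ := ∑ d ∈ k.divisors with (¬ p ∣ d ∧ ¬ ℓ ∣ d), d

lemma sigmaP_split (p ℓ k : ℕ) :
    sigmaP p k = (∑ d ∈ k.divisors with (¬ p ∣ d ∧ ℓ ∣ d), d) + tauP p ℓ k := by
  unfold sigmaP tauP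
  rw [← Finset.sum_filter_add_sum_filter_not (s := k.divisors.filter (fun d => ¬ p ∣ d))
    (p := fun d => ℓ ∣ d)]
  rw [Finset.filter_filter, Finset.filter_filter]

lemma tauP_mul {ℓ : ℕ} (hℓ : ℓ.Prime) (p n : ℕ) (hn : n ≠ 0) :
    tauP p ℓ (n * ℓ) = tauP p ℓ n := by
  unfold tauP
  apply Finset.sum_congr _ (fun _ _ => rfl)
  ext d
  simp only [Finset.mem_filter, Nat.mem_divisors]
  constructor
  · rintro ⟨⟨hd, _⟩, hpd, hℓd⟩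
    refine ⟨⟨?_, hn⟩, hpd, hℓd⟩
    have hcop : Nat.Coprime d ℓ := ((Nat.Prime.coprime_iff_not_dvd hℓ).mpr hℓd).symm
    exact hcop.dvd_of_dvd_mul_right hd
  · rintro ⟨⟨hd, _⟩, hpd, hℓd⟩
    exact ⟨⟨Dvd.dvd.mul_right hd ℓ, mul_ne_zero hn hℓ.ne_zero⟩, hpd, hℓd⟩

lemma tauP_of_not_dvd {ℓ : ℕ} (p k : ℕ) (h : ¬ ℓ ∣ k) : tauP p ℓ k = sigmaP p k := by
  unfold tauP sigmaP
  apply Finset.sum_congr _ (fun _ _ => rfl)
  ext d
  simp only [Finset.mem_filter, Nat.mem_divisors]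
  constructor
  · rintro ⟨hd, hpd, _⟩
    exact ⟨hd, hpd⟩
  · rintro ⟨hd, hpd⟩
    exact ⟨hd, hpd, fun hℓd => h (hℓd.trans hd.1)⟩

lemma sum_dvd_part {p ℓ : ℕ} (hp : p.Prime) (hℓ : ℓ.Prime) (hne : ℓ ≠ p) (n : ℕ) (hn : n ≠ 0) :
    (∑ d ∈ (n * ℓ).divisors with (¬ p ∣ d ∧ ℓ ∣ d), d) = ℓ * sigmaP p n := by
  unfold sigmaP
  rw [Finset.mul_sum]
  symm
  apply Finset.sum_bij (fun d _ => ℓ * d)
  · intro d hd
    simp only [Finset.mem_filter, Nat.mem_divisors] at hd ⊢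
    refine ⟨⟨?_, mul_ne_zero hn hℓ.ne_zero⟩, ?_, Dvd.intro d rfl⟩
    · rw [mul_comm n ℓ]
      exact Nat.mul_dvd_mul_left ℓ hd.1.1
    · intro hpd
      rcases (Nat.Prime.dvd_mul hp).mp hpd with h | h
      · exact hne ((Nat.prime_dvd_prime_iff_eq hp hℓ).mp h).symm
      · exact hd.2 h
  · intro a _ b _ hab
    exact Nat.eq_of_mul_eq_mul_left hℓ.pos hab
  · intro e he
    simp only [Finset.mem_filter, Nat.mem_divisors] at he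
    obtain ⟨⟨hdvd, _⟩, hpe, d, rfl⟩ := he
    refine ⟨d, ?_, rfl⟩
    simp only [Finset.mem_filter, Nat.mem_divisors]
    refine ⟨⟨?_, hn⟩, fun hpd => hpe (Dvd.dvd.mul_left hpd ℓ)⟩
    rw [mul_comm n ℓ] at hdvd
    exact (Nat.mul_dvd_mul_iff_left hℓ.pos).mp hdvd
  · intro d _
    rfl

/-- `σ'(n ℓ) = ℓ σ'(n) + τ(n)`. -/
lemma sigmaP_mul_prime {p ℓ : ℕ} (hp : p.Prime) (hℓ : ℓ.Prime) (hne : ℓ ≠ p) (n : ℕ)
    (hn : n ≠ 0) : sigmaP p (n * ℓ) = ℓ * sigmaP p n + tauP p ℓ n := by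
  rw [sigmaP_split p ℓ (n * ℓ), sum_dvd_part hp hℓ hne n hn, tauP_mul hℓ p n hn]

theorem sigmaP_hecke {p ℓ : ℕ} (hp : p.Prime) (hℓ : ℓ.Prime) (hne : ℓ ≠ p) (k : ℕ) (hk : 1 ≤ k) :
    sigmaP p (k * ℓ) + (if ℓ ∣ k then ℓ * sigmaP p (k / ℓ) else 0) = (1 + ℓ) * sigmaP p k := by
  have hk0 : k ≠ 0 := by omega
  rw [sigmaP_mul_prime hp hℓ hne k hk0]
  by_cases hdvd : ℓ ∣ k
  · rw [if_pos hdvd]
    obtain ⟨n, rfl⟩ := hdvd
    have hn0 : n ≠ 0 := by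
      rintro rfl
      simp at hk0
    rw [Nat.mul_div_cancel_left n hℓ.pos, mul_comm ℓ n]
    rw [tauP_mul hℓ p n hn0, sigmaP_mul_prime hp hℓ hne n hn0]
    ring
  · rw [if_neg hdvd, tauP_of_not_dvd p k hdvd]
    ring

theorem sigmaP_mul_self {p : ℕ} (hp : p.Prime) (k : ℕ) : sigmaP p (k * p) = sigmaP p k := by
  rcases Nat.eq_zero_or_pos k with rfl | hk
  · simp
  unfold sigmaP
  apply Finset.sum_congr _ (fun _ _ => rfl)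
  ext d
  simp only [Finset.mem_filter, Nat.mem_divisors]
  constructor
  · rintro ⟨⟨hd, _⟩, hpd⟩
    refine ⟨⟨?_, hk.ne'⟩, hpd⟩
    have hcop : Nat.Coprime d p := ((Nat.Prime.coprime_iff_not_dvd hp).mpr hpd).symm
    exact hcop.dvd_of_dvd_mul_right hd
  · rintro ⟨⟨hd, _⟩, hpd⟩
    exact ⟨⟨Dvd.dvd.mul_right hd p, mul_ne_zero hk.ne' hp.ne_zero⟩, hpd⟩

end Fermat.Agent.S16.H44
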