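import Fermat.Agent.S16.H44_WireA
import Fermat.Agent.S16.H44_Alg

/-!
# S16 WIRE (helper44): `Stmt_LBalg p → Stmt_UBalg p → S16`

`wire` : for `p` prime, given the integral structure on `S₂(Γ₀(p))` (S23), the algebraic lower
bound `Stmt_LBalg p` and the algebraic upper bound `Stmt_UBalg p`, the index of the image of the
Eisenstein ideal in `heckeLatticeAlgebra p ∅` is `eisensteinNumerator p` (the frozen S16).
-/

set_option autoImplicit false

namespace Fermat.Agent.S16.H44

open CuspForm ModularFormClass CongruenceSubgroup ModularCurve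

theorem wire (p : ℕ) [Fact p.Prime] (hint : HasIntegralStructure p 2)
    (hLB : Stmt_LBalg p) (hUB : Stmt_UBalg p) :
    Nat.card (↥(heckeLatticeAlgebra p ∅) ⧸
        Ideal.map ((latticeRestrictHom p ∅).toRingHom.comp (heckeEvalForms p 2))
          (eisensteinIdeal p)) =
      eisensteinNumerator p := by
  refine card_quotient_map ((latticeRestrictHom p ∅).toRingHom.comp (heckeEvalForms p 2)) ?_
    (eisChar p) (eisChar_surjective p) (eisensteinIdeal p) (mem_eisensteinIdeal_iff p)
    (eisensteinNumerator p) ?_ ?_
  · exact (latticeRestrictHom_surjective p ∅).comp (heckeEvalForms_surjective p 2)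
  · intro P hP
    apply hLB
    apply (latticeRestrictHom_bijective p ∅ hint).1
    rw [map_zero]
    exact hP
  · obtain ⟨P, hP, hε⟩ := hUB
    refine ⟨P, ?_, hε⟩
    change latticeRestrictHom p ∅ (heckeEvalForms p 2 P) = 0
    rw [hP, map_zero]

end Fermat.Agent.S16.H44
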