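import Fermat.Agent.S16.Defs2
import Fermat.Agent.S16.H44_Sigma
import Fermat.Agent.S49.QCoeff

/-!
# S16 WIRE, part A (helper44)

* `heckeEvalForms_surjective` : `HeckeAlg = ℤ[X_ℓ] → 𝕋 = heckeAlgebra N k ∅` is onto.
* `eisChar p` : the Eisenstein character `ε : ℤ[X_ℓ] → ℤ`, `X_ℓ ↦ 1 + ℓ`, `X_p ↦ 1`, onto.
* `exists_heckePoly` : for `k ≥ 1` there is a Hecke polynomial `P_k` ("`T_k`") with
  `ε(P_k) = σ'(k)` and `a_k(g) = a_1(P_k g)` for all cusp forms `g` of weight 2 on `Γ₀(p)`.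
-/

set_option autoImplicit false

namespace Fermat.Agent.S16.H44

open CuspForm ModularFormClass CongruenceSubgroup ModularCurve

theorem heckeEvalForms_surjective (N : ℕ) [NeZero N] (k : ℤ) :
    Function.Surjective (heckeEvalForms N k) := by
  rintro ⟨x, hx⟩
  induction hx using Algebra.adjoin_induction with
  | mem x hx =>
    rcases hx with ⟨ℓ, hℓ, hℓN, -, rfl⟩ | ⟨q, hqN, hq, -, rfl⟩
    · refine ⟨heckeGen ⟨ℓ, hℓ⟩, ?_⟩
      rw [heckeEvalForms_heckeGen_of_not_dvd (N := N) (k := k) (ℓ := ⟨ℓ, hℓ⟩) hℓN]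
      rfl
    · refine ⟨heckeGen ⟨q, hq⟩, ?_⟩
      rw [heckeEvalForms_heckeGen_of_dvd (N := N) (k := k) (q := ⟨q, hq⟩) hqN]
      rfl
  | algebraMap r =>
    exact ⟨MvPolynomial.C r, by rw [heckeEvalForms_C]; rfl⟩
  | add x y hx hy ihx ihy =>
    obtain ⟨P, hP⟩ := ihx
    obtain ⟨Q, hQ⟩ := ihy
    exact ⟨P + Q, by rw [map_add, hP, hQ]; rfl⟩
  | mul x y hx hy ihx ihy =>
    obtain ⟨P, hP⟩ := ihx
    obtain ⟨Q, hQ⟩ := ihy
    exact ⟨P * Q, by rw [map_mul, hP, hQ]; rfl⟩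

/-- The Eisenstein character `ε : ℤ[X_ℓ] → ℤ`. -/
noncomputable def eisChar (p : ℕ) : HeckeAlg →+* ℤ :=
  (MvPolynomial.aeval (eisensteinSystem p)).toRingHom

theorem eisChar_apply (p : ℕ) (P : HeckeAlg) :
    eisChar p P = MvPolynomial.aeval (eisensteinSystem p) P := rfl

theorem eisChar_surjective (p : ℕ) : Function.Surjective (eisChar p) := fun c =>
  ⟨MvPolynomial.C c, by rw [eisChar_apply, MvPolynomial.aeval_C]; rfl⟩

theorem mem_eisensteinIdeal_iff (p : ℕ) (P : HeckeAlg) :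
    P ∈ eisensteinIdeal p ↔ eisChar p P = 0 :=
  mem_eigenIdeal_iff _ _

/-- The action of a Hecke polynomial on cusp forms of weight 2 on `Γ₀(p)`. -/
noncomputable def heckeAct (p : ℕ) [NeZero p] (P : HeckeAlg) :
    Module.End ℂ (CuspForm (Gamma0 p) 2) :=
  (heckeEvalForms p 2 P : Module.End ℂ (CuspForm (Gamma0 p) 2))

theorem heckeAct_mul (p : ℕ) [NeZero p] (P Q : HeckeAlg) (g : CuspForm (Gamma0 p) 2) :
    heckeAct p (P * Q) g = heckeAct p P (heckeAct p Q g) := by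
  unfold heckeAct
  rw [map_mul]
  rfl

theorem heckeAct_add (p : ℕ) [NeZero p] (P Q : HeckeAlg) (g : CuspForm (Gamma0 p) 2) :
    heckeAct p (P + Q) g = heckeAct p P g + heckeAct p Q g := by
  unfold heckeAct
  rw [map_add]
  rfl

theorem heckeAct_sub (p : ℕ) [NeZero p] (P Q : HeckeAlg) (g : CuspForm (Gamma0 p) 2) :
    heckeAct p (P - Q) g = heckeAct p P g - heckeAct p Q g := by
  unfold heckeAct
  rw [map_sub]
  rfl

theorem heckeAct_one (p : ℕ) [NeZero p] (g : CuspForm (Gamma0 p) 2) :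
    heckeAct p 1 g = g := by
  unfold heckeAct
  rw [map_one]
  rfl

theorem heckeAct_C (p : ℕ) [NeZero p] (c : ℤ) (g : CuspForm (Gamma0 p) 2) :
    heckeAct p (MvPolynomial.C c) g = c • g := by
  unfold heckeAct
  rw [heckeEvalForms_C]
  change (algebraMap ℤ (Module.End ℂ (CuspForm (Gamma0 p) 2)) c) g = c • g
  rw [Module.algebraMap_end_apply]

theorem heckeAct_heckeGen_of_not_dvd (p : ℕ) [NeZero p] {ℓ : ℕ} (hℓ : ℓ.Prime) (h : ¬ ℓ ∣ p)
    (g : CuspForm (Gamma0 p) 2) :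
    heckeAct p (heckeGen ⟨ℓ, hℓ⟩) g = heckeTLin 2 hℓ h g := by
  unfold heckeAct
  rw [heckeEvalForms_heckeGen_of_not_dvd (N := p) (k := 2) (ℓ := ⟨ℓ, hℓ⟩) h]
  rfl

theorem heckeAct_heckeGen_of_dvd (p : ℕ) [NeZero p] {q : ℕ} (hq : q.Prime) (h : q ∣ p)
    (g : CuspForm (Gamma0 p) 2) :
    heckeAct p (heckeGen ⟨q, hq⟩) g = heckeULin 2 h g := by
  unfold heckeAct
  rw [heckeEvalForms_heckeGen_of_dvd (N := p) (k := 2) (q := ⟨q, hq⟩) h]
  rfl

theorem heckeAct_eq_zero_of (p : ℕ) [NeZero p] {P : HeckeAlg} (h : heckeEvalForms p 2 P = 0)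
    (g : CuspForm (Gamma0 p) 2) : heckeAct p P g = 0 := by
  unfold heckeAct
  rw [h]
  rfl

/-- `a_k (T_ℓ g) = a_{kℓ}(g) + ℓ a_{k/ℓ}(g)` in weight 2. -/
theorem qCoeff_heckeAct_of_not_dvd (p : ℕ) [NeZero p] {ℓ : ℕ} (hℓ : ℓ.Prime) (h : ¬ ℓ ∣ p)
    (g : CuspForm (Gamma0 p) 2) (k : ℕ) :
    qCoeff ⇑(heckeAct p (heckeGen ⟨ℓ, hℓ⟩) g) k =
      qCoeff ⇑g (k * ℓ) + if ℓ ∣ k then (ℓ : ℂ) * qCoeff ⇑g (k / ℓ) else 0 := by
  rw [heckeAct_heckeGen_of_not_dvd p hℓ h, Fermat.Agent.S49.qCoeff_heckeTLin hℓ h]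
  norm_num

/-- `a_k (U_q g) = a_{kq}(g)`. -/
theorem qCoeff_heckeAct_of_dvd (p : ℕ) [NeZero p] {q : ℕ} (hq : q.Prime) (h : q ∣ p)
    (g : CuspForm (Gamma0 p) 2) (k : ℕ) :
    qCoeff ⇑(heckeAct p (heckeGen ⟨q, hq⟩) g) k = qCoeff ⇑g (k * q) := by
  rw [heckeAct_heckeGen_of_dvd p hq h, Fermat.Agent.S49.qCoeff_heckeULin hq.ne_zero h]

theorem eisChar_heckeGen_of_not_dvd (p : ℕ) {ℓ : ℕ} (hℓ : ℓ.Prime) (h : ¬ ℓ ∣ p) :
    eisChar p (heckeGen ⟨ℓ, hℓ⟩) = 1 + (ℓ : ℤ) := by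
  rw [eisChar_apply, aeval_heckeGen, eisensteinSystem_of_not_dvd (ℓ := ⟨ℓ, hℓ⟩) h]

theorem eisChar_heckeGen_of_dvd (p : ℕ) {q : ℕ} (hq : q.Prime) (h : q ∣ p) :
    eisChar p (heckeGen ⟨q, hq⟩) = 1 := by
  rw [eisChar_apply, aeval_heckeGen, eisensteinSystem_of_dvd (ℓ := ⟨q, hq⟩) h]

/-- The `k`-th Hecke operator as a Hecke polynomial. -/
theorem exists_heckePoly {p : ℕ} [NeZero p] (hp : p.Prime) (k : ℕ) (hk : 1 ≤ k) :
    ∃ P : HeckeAlg, eisChar p P = (sigmaP p k : ℤ) ∧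
      ∀ g : CuspForm (Gamma0 p) 2, qCoeff ⇑g k = qCoeff ⇑(heckeAct p P g) 1 := by
  induction k using Nat.strong_induction_on with
  | _ k ih =>
    rcases Nat.lt_or_ge 1 k with h1 | h1
    · obtain ⟨ℓ, hℓ, hdvd⟩ := Nat.exists_prime_and_dvd (show k ≠ 1 by omega)
      obtain ⟨j, rfl⟩ := hdvd
      have hj : 1 ≤ j := by
        rcases Nat.eq_zero_or_pos j with rfl | h
        · simp at hk
        · exact h
      have hjlt : j < ℓ * j := by
        have := hℓ.two_le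
        nlinarith
      obtain ⟨Pj, hεj, hPj⟩ := ih j hjlt hj
      by_cases hℓp : ℓ ∣ p
      · have hℓeq : ℓ = p := (Nat.prime_dvd_prime_iff_eq hℓ hp).mp hℓp
        refine ⟨Pj * heckeGen ⟨ℓ, hℓ⟩, ?_, fun g => ?_⟩
        · rw [map_mul, hεj, eisChar_heckeGen_of_dvd p hℓ hℓp, mul_one, mul_comm ℓ j, hℓeq,
            sigmaP_mul_self hp]
        · rw [heckeAct_mul, ← hPj, qCoeff_heckeAct_of_dvd p hℓ hℓp, mul_comm]
      · have hne : ℓ ≠ p := fun h => hℓp (h ▸ dvd_rfl)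
        have hrec := sigmaP_hecke hp hℓ hne j hj
        by_cases hdj : ℓ ∣ j
        · obtain ⟨i, rfl⟩ := hdj
          have hi : 1 ≤ i := by
            rcases Nat.eq_zero_or_pos i with rfl | h
            · simp at hj
            · exact h
          have hilt : i < ℓ * (ℓ * i) := by
            have := hℓ.two_le
            nlinarith
          obtain ⟨Pi, hεi, hPi⟩ := ih i hilt hi
          have hdiv : ℓ * i / ℓ = i := Nat.mul_div_cancel_left i hℓ.pos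
          refine ⟨Pj * heckeGen ⟨ℓ, hℓ⟩ - MvPolynomial.C (ℓ : ℤ) * Pi, ?_, fun g => ?_⟩
          · rw [map_sub, map_mul, map_mul, hεj, hεi, eisChar_heckeGen_of_not_dvd p hℓ hℓp]
            have hC : eisChar p (MvPolynomial.C (ℓ : ℤ)) = (ℓ : ℤ) := by
              rw [eisChar_apply, MvPolynomial.aeval_C]; rfl
            rw [hC]
            rw [if_pos (dvd_mul_right ℓ i), hdiv] at hrec
            have hrec' : (sigmaP p (ℓ * i * ℓ) : ℤ) + ℓ * sigmaP p i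
                = (1 + ℓ) * sigmaP p (ℓ * i) := by exact_mod_cast hrec
            rw [mul_comm ℓ (ℓ * i)]
            linarith
          · rw [heckeAct_sub, Fermat.Agent.S49.qCoeff_sub, heckeAct_mul, heckeAct_mul, ← hPj,
              heckeAct_C, Fermat.Agent.S49.qCoeff_zsmul, ← hPi,
              qCoeff_heckeAct_of_not_dvd p hℓ hℓp, if_pos (dvd_mul_right ℓ i), hdiv,
              mul_comm (ℓ * i) ℓ]
            push_cast
            ring
        · refine ⟨Pj * heckeGen ⟨ℓ, hℓ⟩, ?_, fun g => ?_⟩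
          · rw [map_mul, hεj, eisChar_heckeGen_of_not_dvd p hℓ hℓp]
            rw [if_neg hdj, add_zero] at hrec
            have hrec' : (sigmaP p (j * ℓ) : ℤ) = (1 + ℓ) * sigmaP p j := by exact_mod_cast hrec
            rw [mul_comm ℓ j, hrec']
            ring
          · rw [heckeAct_mul, ← hPj, qCoeff_heckeAct_of_not_dvd p hℓ hℓp, if_neg hdj, add_zero,
              mul_comm]
    · have h1' : k = 1 := by omega
      subst h1'
      exact ⟨1, by rw [map_one, sigmaP_one_of_prime hp]; rfl, fun g => by rw [heckeAct_one]⟩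

end Fermat.Agent.S16.H44
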