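import Fermat.Agent.S16.H44_WireA

/-!
# S16 WIRE, part LB (helper44): `Stmt_LB p → Stmt_LBalg p`

If `f ≡ e · Σ σ'(k) q^k mod m` then `P f ≡ ε(P) e · Σ σ'(k) q^k mod m` for every Hecke
polynomial `P`. Hence a Hecke polynomial which kills `S₂(Γ₀(p))` has `ε(P) ≡ 0 mod m`
whenever an Eisenstein congruence modulo `m` exists.
-/

set_option autoImplicit false

namespace Fermat.Agent.S16.H44

open CuspForm ModularFormClass CongruenceSubgroup ModularCurve

/-- `f ≡ e · Σ_{k ≥ 1} σ'(k) q^k mod m`, integrally. -/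
def IsEisCongrScaled (p m : ℕ) (e : ℤ) (f : CuspForm (Gamma0 p) 2) : Prop :=
  ∀ k : ℕ, 1 ≤ k → ∃ c : ℤ, qCoeff ⇑f k = (c : ℂ) ∧ (m : ℤ) ∣ c - e * (sigmaP p k : ℤ)

theorem isEisCongrScaled_one_iff (p m : ℕ) (f : CuspForm (Gamma0 p) 2) :
    IsEisCongrScaled p m 1 f ↔ IsEisCongr p m f := by
  unfold IsEisCongrScaled IsEisCongr
  simp only [one_mul]

theorem IsEisCongrScaled.add {p m : ℕ} {e e' : ℤ} {f g : CuspForm (Gamma0 p) 2}
    (hf : IsEisCongrScaled p m e f) (hg : IsEisCongrScaled p m e' g) :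
    IsEisCongrScaled p m (e + e') (f + g) := by
  intro k hk
  obtain ⟨c, hc, hdc⟩ := hf k hk
  obtain ⟨d, hd, hdd⟩ := hg k hk
  refine ⟨c + d, ?_, ?_⟩
  · rw [Fermat.Agent.S49.qCoeff_add, hc, hd]
    push_cast
    ring
  · have : c + d - (e + e') * (sigmaP p k : ℤ) =
        (c - e * (sigmaP p k : ℤ)) + (d - e' * (sigmaP p k : ℤ)) := by ring
    rw [this]
    exact dvd_add hdc hdd

theorem IsEisCongrScaled.zsmul {p m : ℕ} {e : ℤ} {f : CuspForm (Gamma0 p) 2}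
    (hf : IsEisCongrScaled p m e f) (a : ℤ) :
    IsEisCongrScaled p m (a * e) (a • f) := by
  intro k hk
  obtain ⟨c, hc, hdc⟩ := hf k hk
  refine ⟨a * c, ?_, ?_⟩
  · rw [Fermat.Agent.S49.qCoeff_zsmul, hc]
    push_cast
    ring
  · have : a * c - a * e * (sigmaP p k : ℤ) = a * (c - e * (sigmaP p k : ℤ)) := by ring
    rw [this]
    exact Dvd.dvd.mul_left hdc a

theorem isEisCongrScaled_heckeGen {p : ℕ} [NeZero p] (hp : p.Prime) {m : ℕ} {e : ℤ}
    {f : CuspForm (Gamma0 p) 2} (hf : IsEisCongrScaled p m e f) (ℓ : Nat.Primes) :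
    IsEisCongrScaled p m (eisChar p (heckeGen ℓ) * e) (heckeAct p (heckeGen ℓ) f) := by
  obtain ⟨ℓ, hℓ⟩ := ℓ
  intro k hk
  by_cases hℓp : ℓ ∣ p
  · have hℓeq : ℓ = p := (Nat.prime_dvd_prime_iff_eq hℓ hp).mp hℓp
    have hk' : 1 ≤ k * ℓ := Nat.mul_pos hk hℓ.pos
    obtain ⟨c, hc, hdc⟩ := hf (k * ℓ) hk'
    refine ⟨c, ?_, ?_⟩
    · rw [qCoeff_heckeAct_of_dvd p hℓ hℓp, hc]
    · rw [eisChar_heckeGen_of_dvd p hℓ hℓp, one_mul]
      rw [hℓeq, sigmaP_mul_self hp] at hdc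
      exact hdc
  · have hne : ℓ ≠ p := fun h => hℓp (h ▸ dvd_rfl)
    have hrec := sigmaP_hecke hp hℓ hne k hk
    have hk' : 1 ≤ k * ℓ := Nat.mul_pos hk hℓ.pos
    obtain ⟨c, hc, hdc⟩ := hf (k * ℓ) hk'
    rw [eisChar_heckeGen_of_not_dvd p hℓ hℓp]
    by_cases hdk : ℓ ∣ k
    · have hk'' : 1 ≤ k / ℓ := Nat.div_pos (Nat.le_of_dvd hk hdk) hℓ.pos
      obtain ⟨d, hd, hdd⟩ := hf (k / ℓ) hk''
      refine ⟨c + ℓ * d, ?_, ?_⟩
      · rw [qCoeff_heckeAct_of_not_dvd p hℓ hℓp, if_pos hdk, hc, hd]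
        push_cast
        ring
      · rw [if_pos hdk] at hrec
        have hrec' : (sigmaP p (k * ℓ) : ℤ) + ℓ * sigmaP p (k / ℓ) = (1 + ℓ) * sigmaP p k := by
          exact_mod_cast hrec
        have : c + ℓ * d - (1 + (ℓ : ℤ)) * e * (sigmaP p k : ℤ) =
            (c - e * (sigmaP p (k * ℓ) : ℤ)) + ℓ * (d - e * (sigmaP p (k / ℓ) : ℤ)) := by
          have h2 : (1 + (ℓ : ℤ)) * e * (sigmaP p k : ℤ) = e * ((1 + ℓ) * sigmaP p k) := by ring
          rw [h2, ← hrec']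
          ring
        rw [this]
        exact dvd_add hdc (Dvd.dvd.mul_left hdd _)
    · refine ⟨c, ?_, ?_⟩
      · rw [qCoeff_heckeAct_of_not_dvd p hℓ hℓp, if_neg hdk, hc, add_zero]
      · rw [if_neg hdk, add_zero] at hrec
        have hrec' : (sigmaP p (k * ℓ) : ℤ) = (1 + ℓ) * sigmaP p k := by
          exact_mod_cast hrec
        have : c - (1 + (ℓ : ℤ)) * e * (sigmaP p k : ℤ) = c - e * (sigmaP p (k * ℓ) : ℤ) := by
          rw [hrec']
          ring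
        rw [this]
        exact hdc

/-- Hecke polynomials act on Eisenstein congruences through the Eisenstein character. -/
theorem isEisCongrScaled_heckeAct {p : ℕ} [NeZero p] (hp : p.Prime) {m : ℕ}
    (P : HeckeAlg) : ∀ {e : ℤ} {f : CuspForm (Gamma0 p) 2}, IsEisCongrScaled p m e f →
    IsEisCongrScaled p m (eisChar p P * e) (heckeAct p P f) := by
  induction P using MvPolynomial.induction_on with
  | C a =>
    intro e f hf
    have h1 : eisChar p (MvPolynomial.C a) = a := by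
      rw [eisChar_apply, MvPolynomial.aeval_C]; rfl
    rw [h1, heckeAct_C]
    exact hf.zsmul a
  | add P Q hP hQ =>
    intro e f hf
    rw [map_add, add_mul, heckeAct_add]
    exact (hP hf).add (hQ hf)
  | mul_X P ℓ hP =>
    intro e f hf
    have h1 : P * MvPolynomial.X ℓ = heckeGen ℓ * P := mul_comm _ _
    rw [h1, map_mul, mul_assoc, heckeAct_mul]
    exact isEisCongrScaled_heckeGen hp (hP hf) ℓ

/-- An Eisenstein congruence modulo `m` forces `m ∣ ε(P)` for every Hecke polynomial killing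
`S₂(Γ₀(p))`. -/
theorem dvd_eisChar_of_isEisCongr {p : ℕ} [NeZero p] (hp : p.Prime) {m : ℕ}
    {f : CuspForm (Gamma0 p) 2} (hf : IsEisCongr p m f) {P : HeckeAlg}
    (hP : heckeEvalForms p 2 P = 0) : (m : ℤ) ∣ eisChar p P := by
  have h := isEisCongrScaled_heckeAct hp P ((isEisCongrScaled_one_iff p m f).mpr hf)
  obtain ⟨c, hc, hdc⟩ := h 1 le_rfl
  rw [heckeAct_eq_zero_of p hP, Fermat.Agent.S49.qCoeff_zero_form] at hc
  have hc0 : c = 0 := by exact_mod_cast hc.symm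
  rw [hc0, sigmaP_one_of_prime hp, mul_one] at hdc
  simpa using hdc

theorem stmt_LBalg_of_LB {p : ℕ} [NeZero p] (hp : p.Prime) (h : Stmt_LB p) : Stmt_LBalg p := by
  obtain ⟨f, hf⟩ := h
  intro P hP
  exact dvd_eisChar_of_isEisCongr hp hf hP

end Fermat.Agent.S16.H44
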