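import Fermat.Agent.S16.H44_WireA
import Fermat.Agent.S16.H44_Dual

/-!
# S16 WIRE, part UB (helper44): `Stmt_UB p → Stmt_UBalg p` by duality

`𝕋 = heckeLatticeAlgebra p ∅` and `L = intLattice p 2` are finite free `ℤ`-modules and
`(f, t) ↦ a₁(t f)` is a pairing `L × 𝕋 → ℤ` which is nondegenerate on both sides. If
`ε(ker φ) = m ℤ` then `ε` induces `𝕋 → ℤ/m`, which lifts to a linear form `λ : 𝕋 → ℤ`, which is
represented (up to a denominator `D`) by some `f₀ ∈ L`; then `f = f₀ / D` is a cusp form with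
`a_k(f) = λ(T_k) ≡ σ'(k) mod m`, so `m ∣ n` by `Stmt_UB p`, so `n ∈ ε(ker φ)`.
-/

set_option autoImplicit false

namespace Fermat.Agent.S16.H44

open CuspForm ModularFormClass CongruenceSubgroup ModularCurve

/-- elements of the integral lattice have integral `q`-expansion coefficients -/
theorem exists_int_qCoeff_of_mem_intLattice {N : ℕ} {k : ℤ} {f : CuspForm (Gamma0 N) k}
    (hf : f ∈ intLattice N k) (n : ℕ) : ∃ m : ℤ, qCoeff ⇑f n = (m : ℂ) := by
  unfold intLattice at hf
  induction hf using Submodule.span_induction with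
  | mem x hx => exact hx n
  | zero => exact ⟨0, by rw [Fermat.Agent.S49.qCoeff_zero_form]; simp⟩
  | add x y _ _ hx hy =>
    obtain ⟨a, ha⟩ := hx
    obtain ⟨b, hb⟩ := hy
    exact ⟨a + b, by rw [Fermat.Agent.S49.qCoeff_add, ha, hb]; push_cast; ring⟩
  | smul c x _ hx =>
    obtain ⟨a, ha⟩ := hx
    exact ⟨c * a, by rw [Fermat.Agent.S49.qCoeff_zsmul, ha]; push_cast; ring⟩

/-- the `n`-th coefficient of an element of the integral lattice, as an integer -/
noncomputable def intCoeffFun (N : ℕ) (n : ℕ) (f : ↥(intLattice N 2)) : ℤ :=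
  Classical.choose (exists_int_qCoeff_of_mem_intLattice f.2 n)

theorem intCoeffFun_spec (N n : ℕ) (f : ↥(intLattice N 2)) :
    ((intCoeffFun N n f : ℤ) : ℂ) = qCoeff ⇑(f : CuspForm (Gamma0 N) 2) n :=
  (Classical.choose_spec (exists_int_qCoeff_of_mem_intLattice f.2 n)).symm

/-- the `n`-th coefficient as a linear form on the integral lattice -/
noncomputable def intCoeff (N : ℕ) (n : ℕ) : ↥(intLattice N 2) →ₗ[ℤ] ℤ where
  toFun f := intCoeffFun N n f
  map_add' f g := by
    have : ((intCoeffFun N n (f + g) : ℤ) : ℂ) =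
        ((intCoeffFun N n f + intCoeffFun N n g : ℤ) : ℂ) := by
      rw [Int.cast_add, intCoeffFun_spec, intCoeffFun_spec, intCoeffFun_spec,
        Submodule.coe_add, Fermat.Agent.S49.qCoeff_add]
    exact_mod_cast this
  map_smul' c f := by
    have : ((intCoeffFun N n (c • f) : ℤ) : ℂ) = ((c * intCoeffFun N n f : ℤ) : ℂ) := by
      rw [Int.cast_mul, intCoeffFun_spec, intCoeffFun_spec,
        Submodule.coe_smul, Fermat.Agent.S49.qCoeff_zsmul]
    simp only [RingHom.id_apply, smul_eq_mul]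
    exact_mod_cast this

theorem intCoeff_spec (N n : ℕ) (f : ↥(intLattice N 2)) :
    ((intCoeff N n f : ℤ) : ℂ) = qCoeff ⇑(f : CuspForm (Gamma0 N) 2) n :=
  intCoeffFun_spec N n f

section

variable (p : ℕ) [NeZero p]

/-- `φ : ℤ[X_ℓ] → 𝕋 ⊆ End_ℤ(L)` -/
noncomputable def latPhi : HeckeAlg →+* ↥(heckeLatticeAlgebra p ∅) :=
  (latticeRestrictHom p ∅).toRingHom.comp (heckeEvalForms p 2)

theorem latPhi_surjective : Function.Surjective (latPhi p) :=
  (latticeRestrictHom_surjective p ∅).comp (heckeEvalForms_surjective p 2)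

theorem latPhi_apply_coe (P : HeckeAlg) (f : ↥(intLattice p 2)) :
    (((latPhi p P : Module.End ℤ ↥(intLattice p 2)) f : ↥(intLattice p 2)) :
      CuspForm (Gamma0 p) 2) = heckeAct p P (f : CuspForm (Gamma0 p) 2) := rfl

theorem heckeEvalForms_eq_zero_of_latPhi (hint : HasIntegralStructure p 2) {P : HeckeAlg}
    (h : latPhi p P = 0) : heckeEvalForms p 2 P = 0 := by
  apply (latticeRestrictHom_bijective p ∅ hint).1
  rw [map_zero]
  exact h

/-- the pairing `(f, t) ↦ a₁(t f)` -/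
noncomputable def a1Pairing :
    ↥(intLattice p 2) →ₗ[ℤ] ↥(heckeLatticeAlgebra p ∅) →ₗ[ℤ] ℤ :=
  LinearMap.mk₂ ℤ (fun f t => intCoeff p 1 ((t : Module.End ℤ ↥(intLattice p 2)) f))
    (fun f g t => by rw [map_add, map_add])
    (fun c f t => by rw [map_smul, map_smul])
    (fun f t u => by
      rw [Subalgebra.coe_add, LinearMap.add_apply, map_add])
    (fun c f t => by
      rw [Subalgebra.coe_smul, LinearMap.smul_apply, map_smul])

theorem a1Pairing_apply (f : ↥(intLattice p 2)) (t : ↥(heckeLatticeAlgebra p ∅)) :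
    a1Pairing p f t = intCoeff p 1 ((t : Module.End ℤ ↥(intLattice p 2)) f) := rfl

variable {p}

theorem a1Pairing_latPhi (f : ↥(intLattice p 2)) (P : HeckeAlg) :
    ((a1Pairing p f (latPhi p P) : ℤ) : ℂ) =
      qCoeff ⇑(heckeAct p P (f : CuspForm (Gamma0 p) 2)) 1 := by
  rw [a1Pairing_apply, intCoeff_spec, latPhi_apply_coe]

theorem a1Pairing_left_nondeg (hp : p.Prime) (f : ↥(intLattice p 2))
    (h : ∀ t, a1Pairing p f t = 0) : f = 0 := by
  apply Subtype.ext
  rw [Submodule.coe_zero]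
  apply Fermat.Agent.S49.cuspForm_eq_zero_of_qCoeff
  intro k
  rcases Nat.eq_zero_or_pos k with rfl | hk
  · exact Fermat.Agent.S49.qCoeff_at_zero _
  · obtain ⟨P, -, hP⟩ := exists_heckePoly hp k hk
    rw [hP, ← a1Pairing_latPhi, h]
    simp

theorem a1Pairing_right_nondeg (hp : p.Prime) (t : ↥(heckeLatticeAlgebra p ∅))
    (h : ∀ f, a1Pairing p f t = 0) : t = 0 := by
  apply Subtype.ext
  rw [ZeroMemClass.coe_zero]
  apply LinearMap.ext
  intro f
  rw [LinearMap.zero_apply]
  apply Subtype.ext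
  rw [Submodule.coe_zero]
  apply Fermat.Agent.S49.cuspForm_eq_zero_of_qCoeff
  intro k
  rcases Nat.eq_zero_or_pos k with rfl | hk
  · exact Fermat.Agent.S49.qCoeff_at_zero _
  · obtain ⟨P, -, hP⟩ := exists_heckePoly hp k hk
    rw [hP, ← latPhi_apply_coe]
    have hcomm : (latPhi p P : Module.End ℤ ↥(intLattice p 2)) ((t : Module.End ℤ _) f) =
        (t : Module.End ℤ ↥(intLattice p 2)) ((latPhi p P : Module.End ℤ _) f) := by
      have := congrArg (fun s : ↥(heckeLatticeAlgebra p ∅) =>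
        (s : Module.End ℤ ↥(intLattice p 2)) f) (mul_comm (latPhi p P) t)
      simpa using this
    rw [hcomm, ← intCoeff_spec, ← a1Pairing_apply, h]
    simp

/-- The cusp form attached to a linear form on the Hecke algebra. -/
theorem exists_form_of_linearForm (hp : p.Prime) (lam : ↥(heckeLatticeAlgebra p ∅) →ₗ[ℤ] ℤ) :
    ∃ f : CuspForm (Gamma0 p) 2, ∀ P : HeckeAlg,
      qCoeff ⇑(heckeAct p P f) 1 = ((lam (latPhi p P) : ℤ) : ℂ) := by
  haveI := intLattice.moduleFinite p
  haveI := intLattice.moduleFree p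
  obtain ⟨D, f₀, hD, hf₀⟩ := exists_rep_of_pairing (a1Pairing p)
    (a1Pairing_left_nondeg hp) (a1Pairing_right_nondeg hp) lam
  refine ⟨((D : ℂ)⁻¹) • (f₀ : CuspForm (Gamma0 p) 2), fun P => ?_⟩
  rw [map_smul, Fermat.Agent.S49.qCoeff_smul, ← a1Pairing_latPhi, hf₀]
  have hD' : (D : ℂ) ≠ 0 := by exact_mod_cast hD
  push_cast
  field_simp

end

section Final

variable (p : ℕ) [NeZero p]

/-- `ε(ker φ)`, an ideal of `ℤ` -/
noncomputable def eisKerIdeal : Ideal ℤ :=
  Ideal.map (eisChar p) (RingHom.ker (latPhi p))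

variable {p}

theorem mem_eisKerIdeal_iff (c : ℤ) :
    c ∈ eisKerIdeal p ↔ ∃ P, latPhi p P = 0 ∧ eisChar p P = c := by
  unfold eisKerIdeal
  rw [Ideal.mem_map_iff_of_surjective _ (eisChar_surjective p)]
  simp only [RingHom.mem_ker]

theorem exists_generator_eisKerIdeal (p : ℕ) [NeZero p] :
    ∃ m : ℕ, eisKerIdeal p = Ideal.span {(m : ℤ)} := by
  obtain ⟨a, ha⟩ := (IsPrincipalIdealRing.principal (eisKerIdeal p)).principal
  refine ⟨a.natAbs, ?_⟩
  rw [Int.span_natAbs]
  exact ha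

/-- If `ε(ker φ) = m ℤ` then there is an Eisenstein congruence modulo `m`. -/
theorem exists_isEisCongr_of_generator (hp : p.Prime) {m : ℕ}
    (hm : eisKerIdeal p = Ideal.span {(m : ℤ)}) :
    ∃ f : CuspForm (Gamma0 p) 2, IsEisCongr p m f := by
  let g : HeckeAlg →+* ZMod m := (Int.castRingHom (ZMod m)).comp (eisChar p)
  have hker : RingHom.ker (latPhi p) ≤ RingHom.ker g := by
    intro P hP
    rw [RingHom.mem_ker] at hP ⊢
    change ((eisChar p P : ℤ) : ZMod m) = 0
    rw [ZMod.intCast_zmod_eq_zero_iff_dvd, ← Ideal.mem_span_singleton, ← hm,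
      mem_eisKerIdeal_iff]
    exact ⟨P, hP, rfl⟩
  let εbar : ↥(heckeLatticeAlgebra p ∅) →+* ZMod m :=
    (latPhi p).liftOfSurjective (latPhi_surjective p) ⟨g, hker⟩
  have hεbar : ∀ P, εbar (latPhi p P) = ((eisChar p P : ℤ) : ZMod m) := fun P =>
    (latPhi p).liftOfRightInverse_comp_apply _ (Function.surjInv_eq (latPhi_surjective p))
      ⟨g, hker⟩ P
  obtain ⟨lam, hlam⟩ := Module.projective_lifting_property
    (Int.castAddHom (ZMod m)).toIntLinearMap (εbar.toAddMonoidHom.toIntLinearMap)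
    (ZMod.intCast_surjective)
  obtain ⟨f, hf⟩ := exists_form_of_linearForm hp lam
  refine ⟨f, fun k hk => ?_⟩
  obtain ⟨P, hεP, hP⟩ := exists_heckePoly hp k hk
  refine ⟨lam (latPhi p P), ?_, ?_⟩
  · rw [hP f, hf]
  · have h1 : ((lam (latPhi p P) : ℤ) : ZMod m) = εbar (latPhi p P) := by
      have := congrArg (fun h : ↥(heckeLatticeAlgebra p ∅) →ₗ[ℤ] ZMod m => h (latPhi p P)) hlam
      simpa using this
    rw [hεbar, hεP] at h1
    exact (ZMod.intCast_eq_intCast_iff_dvd_sub _ _ m).mp h1.symm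

/-- `Stmt_UB p → Stmt_UBalg p`, given the integral structure (S23). -/
theorem stmt_UBalg_of_UB (hp : p.Prime) (hint : HasIntegralStructure p 2) (h : Stmt_UB p) :
    Stmt_UBalg p := by
  obtain ⟨m, hm⟩ := exists_generator_eisKerIdeal p
  have hdvd : m ∣ eisensteinNumerator p := h m (exists_isEisCongr_of_generator hp hm)
  have hmem : ((eisensteinNumerator p : ℕ) : ℤ) ∈ eisKerIdeal p := by
    rw [hm, Ideal.mem_span_singleton]
    exact_mod_cast hdvd
  obtain ⟨P, hP, hε⟩ := (mem_eisKerIdeal_iff _).mp hmem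
  exact ⟨P, heckeEvalForms_eq_zero_of_latPhi p hint hP, hε⟩

end Final

end Fermat.Agent.S16.H44
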