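import Fermat.Agent.S16.H44_Wire
import Fermat.Agent.S16.H44_WireLB
import Fermat.Agent.S16.H44_WireUB

/-!
# S16 WIRE, summary (helper44)

For `p` prime, with `hint : HasIntegralStructure p 2` (= `Fermat.Agent.S23.result p`):

* `wire p hint : Stmt_LBalg p → Stmt_UBalg p → S16`                    (`H44_Wire.lean`)
* `stmt_LBalg_of_LB : p.Prime → Stmt_LB p → Stmt_LBalg p`              (`H44_WireLB.lean`)
* `stmt_UBalg_of_UB : p.Prime → hint → Stmt_UB p → Stmt_UBalg p`       (`H44_WireUB.lean`)
* `S16_of_LB_UB`, `S16_of_LBalg_UB` : the combinations below.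
-/

set_option autoImplicit false

namespace Fermat.Agent.S16.H44

open CuspForm ModularFormClass CongruenceSubgroup ModularCurve

theorem S16_of_LBalg_UB (p : ℕ) [Fact p.Prime] (hint : HasIntegralStructure p 2)
    (hLB : Stmt_LBalg p) (hUB : Stmt_UB p) :
    Nat.card (↥(heckeLatticeAlgebra p ∅) ⧸
        Ideal.map ((latticeRestrictHom p ∅).toRingHom.comp (heckeEvalForms p 2))
          (eisensteinIdeal p)) =
      eisensteinNumerator p :=
  wire p hint hLB (stmt_UBalg_of_UB Fact.out hint hUB)

theorem S16_of_LB_UB (p : ℕ) [Fact p.Prime] (hint : HasIntegralStructure p 2)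
    (hLB : Stmt_LB p) (hUB : Stmt_UB p) :
    Nat.card (↥(heckeLatticeAlgebra p ∅) ⧸
        Ideal.map ((latticeRestrictHom p ∅).toRingHom.comp (heckeEvalForms p 2))
          (eisensteinIdeal p)) =
      eisensteinNumerator p :=
  S16_of_LBalg_UB p hint (stmt_LBalg_of_LB Fact.out hLB) hUB

end Fermat.Agent.S16.H44
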