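import Fermat.Agent.S20.H74_Equiv
import Fermat.Agent.S23.H22_Nice
import Fermat.Agent.S23.H96_LevelOne
import Fermat.Prelude.Thm_UpperHalfPlane_qCoeff_heckeT
import Fermat.Prelude.Thm_ModularForm_heckeT_slash_eq_self_of_mem_Gamma0
import Fermat.Prelude.Thm_ModularForm_isBoundedAtImInfty_heckeT
import Fermat.Prelude.Thm_ModularForm_mdifferentiable_heckeT
import Mathlib.RingTheory.PowerSeries.Expand

/-!
# S16, package TP (helper45): the Hecke operator `T_p` on level one forms, and `Δ ^ n`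

* `heckeT_mem_MF_top` : `heckeT k p A ∈ MF ⊤ k` for `A ∈ MF ⊤ k`, `p` prime.
* `exists_heckeT_levelOne` : for `A : ModularForm 𝒮ℒ k` there is `T : ModularForm 𝒮ℒ k` with
  `⇑T = heckeT k p ⇑A` and `a_n(T) = a_{np}(A) + [p ∣ n] p^(k-1) a_{n/p}(A)`.
* `exists_heckeT_levelOne_series` : the same in power series form
  `qExpansion 1 T = UR p (qExpansion 1 A) + p^(k-1) • expand p (qExpansion 1 A)`.
* `exists_delta_pow` : `Δ ^ n` as a level one form of weight `12 n`, with integral `q`-expansion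
  `(deltaSeries ^ n).map (Int.castRingHom ℂ)`; `coeff_deltaSeries_pow_self : a_n(Δ ^ n) = 1`.
* `UR p` : the operator `U_p` on power series over any ring (`= H26.Useries` over `ℂ`, by `rfl`).
-/

set_option autoImplicit false

open UpperHalfPlane ModularForm CongruenceSubgroup Function
open scoped MatrixGroups ModularForm Manifold

noncomputable section

namespace Fermat.Agent.S16.H45

open Fermat.Agent.S20.H74 (MF)
open Fermat.Agent.S23.H22 (Nice)

/-! ### Power series -/

section Series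

variable {R S : Type*} [CommRing R] [CommRing S]

/-- The operator `U_p` on power series over any ring: `∑ a_n q^n ↦ ∑ a_{pn} q^n`. -/
def UR (p : ℕ) (φ : PowerSeries R) : PowerSeries R :=
  PowerSeries.mk fun n => PowerSeries.coeff (p * n) φ

@[simp] theorem coeff_UR (p : ℕ) (φ : PowerSeries R) (n : ℕ) :
    PowerSeries.coeff n (UR p φ) = PowerSeries.coeff (p * n) φ := by
  simp [UR]

theorem map_UR (f : R →+* S) (p : ℕ) (φ : PowerSeries R) :
    (UR p φ).map f = UR p (φ.map f) := by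
  ext n
  simp

theorem UR_C {p : ℕ} (hp : p ≠ 0) (c : R) : UR p (PowerSeries.C c) = PowerSeries.C c := by
  ext n
  simp only [coeff_UR, PowerSeries.coeff_C]
  rcases Nat.eq_zero_or_pos n with rfl | hn
  · simp
  · have : p * n ≠ 0 := Nat.mul_ne_zero hp hn.ne'
    simp [this, hn.ne']

theorem UR_C_mul (p : ℕ) (c : R) (φ : PowerSeries R) :
    UR p (PowerSeries.C c * φ) = PowerSeries.C c * UR p φ := by
  ext n
  simp

theorem UR_add (p : ℕ) (φ ψ : PowerSeries R) : UR p (φ + ψ) = UR p φ + UR p ψ := by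
  ext n
  simp

theorem UR_sub (p : ℕ) (φ ψ : PowerSeries R) : UR p (φ - ψ) = UR p φ - UR p ψ := by
  ext n
  simp

/-- `U_p V_p = id`. -/
theorem UR_expand {p : ℕ} (hp : p ≠ 0) (φ : PowerSeries R) :
    UR p (PowerSeries.expand p hp φ) = φ := by
  ext n
  simp

/-- For a power series without constant term, the coefficient of `q ^ n` in `P ^ n` is
`(a₁(P)) ^ n`. -/
theorem coeff_pow_self_of_constantCoeff_eq_zero (P : PowerSeries R)
    (h0 : PowerSeries.constantCoeff P = 0) (n : ℕ) :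
    PowerSeries.coeff n (P ^ n) = (PowerSeries.coeff 1 P) ^ n := by
  obtain ⟨Q, rfl⟩ := PowerSeries.X_dvd_iff.mpr h0
  rw [mul_pow]
  have h1 : PowerSeries.coeff n (PowerSeries.X ^ n * Q ^ n) = PowerSeries.coeff 0 (Q ^ n) := by
    have := PowerSeries.coeff_X_pow_mul (Q ^ n) n 0
    simpa using this
  have h2 : PowerSeries.coeff 1 (PowerSeries.X * Q) = PowerSeries.coeff 0 Q := by
    exact PowerSeries.coeff_succ_X_mul 0 Q
  rw [h1, h2, PowerSeries.coeff_zero_eq_constantCoeff_apply, map_pow,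
    PowerSeries.coeff_zero_eq_constantCoeff_apply]

/-- For a power series without constant term, the coefficients of `q ^ m`, `m < n`, in `P ^ n`
vanish. -/
theorem coeff_pow_of_lt_of_constantCoeff_eq_zero (P : PowerSeries R)
    (h0 : PowerSeries.constantCoeff P = 0) {m n : ℕ} (hmn : m < n) :
    PowerSeries.coeff m (P ^ n) = 0 := by
  obtain ⟨Q, rfl⟩ := PowerSeries.X_dvd_iff.mpr h0
  rw [mul_pow, PowerSeries.coeff_X_pow_mul', if_neg (not_le.mpr hmn)]

end Series

/-! ### `T_p` on level one forms -/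

section Hecke

variable {k : ℤ}

theorem mapGL_mem_Gamma0_one (γ : SL(2, ℤ)) :
    (Matrix.SpecialLinearGroup.mapGL ℝ γ : GL (Fin 2) ℝ) ∈
      (Gamma0 1 : Subgroup (GL (Fin 2) ℝ)) := by
  refine Subgroup.mem_map_of_mem _ ?_
  rw [Gamma0_mem]
  exact Subsingleton.elim _ _

/-- `T_p` preserves level one forms (function level). -/
theorem heckeT_mem_MF_top {p : ℕ} (hp : p.Prime) {A : ℍ → ℂ} (hA : A ∈ MF ⊤ k) :
    heckeT k p A ∈ MF ⊤ k := by
  have hinv : ∀ γ : SL(2, ℤ), heckeT k p A ∣[k] γ = heckeT k p A := by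
    intro γ
    have hp1 : ¬ p ∣ 1 := fun h => hp.one_lt.ne' (Nat.dvd_one.mp h)
    refine heckeT_slash_eq_self_of_mem_Gamma0 (N := 1) k hp hp1 ?_ _ (mapGL_mem_Gamma0_one γ)
    rintro γ' ⟨δ, -, rfl⟩
    exact hA.2.1 δ (Subgroup.mem_top δ)
  refine ⟨mdifferentiable_heckeT hA.1 k p, fun γ _ => hinv γ, fun γ => ?_⟩
  rw [hinv γ]
  exact isBoundedAtImInfty_heckeT (Fermat.Agent.S20.H74.MF.bdd hA) k p

/-- **TP** (coefficient form): the Hecke operator `T_p` on level one forms. -/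
theorem exists_heckeT_levelOne {p : ℕ} (hp : p.Prime) (A : ModularForm 𝒮ℒ k) :
    ∃ T : ModularForm 𝒮ℒ k, (⇑T : ℍ → ℂ) = heckeT k p ⇑A ∧
      ∀ n : ℕ, (qExpansion 1 T).coeff n = (qExpansion 1 A).coeff (n * p)
        + if p ∣ n then (p : ℂ) ^ (k - 1) * (qExpansion 1 A).coeff (n / p) else 0 := by
  obtain ⟨T, hT⟩ := Fermat.Agent.S20.H74.exists_modularForm_top
    (heckeT_mem_MF_top hp (Fermat.Agent.S20.H74.coe_mem_MF_top A))
  refine ⟨T, hT, fun n => ?_⟩
  have hN := Fermat.Agent.S23.H22.nice_levelOne A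
  have := UpperHalfPlane.qCoeff_heckeT hN.per hN.hol hN.bdd k hp.ne_zero n
  rw [hT]
  exact this

/-- **TP** (power series form). -/
theorem exists_heckeT_levelOne_series {p : ℕ} (hp : p.Prime) (A : ModularForm 𝒮ℒ k) :
    ∃ T : ModularForm 𝒮ℒ k, (⇑T : ℍ → ℂ) = heckeT k p ⇑A ∧
      qExpansion 1 T = UR p (qExpansion 1 A)
        + (p : ℂ) ^ (k - 1) • PowerSeries.expand p hp.ne_zero (qExpansion 1 A) := by
  obtain ⟨T, hT, hc⟩ := exists_heckeT_levelOne hp A
  refine ⟨T, hT, ?_⟩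
  ext n
  rw [hc n, map_add, coeff_UR, PowerSeries.coeff_smul, PowerSeries.coeff_expand, mul_comm n p,
    smul_eq_mul]
  split_ifs <;> simp

end Hecke

/-! ### Powers of `Δ` -/

section Delta

theorem discriminant_mem_MF_top : (ModularForm.discriminant : ℍ → ℂ) ∈ MF ⊤ 12 :=
  Fermat.Agent.S20.H74.CF_le_MF
    (Fermat.Agent.S20.H74.coe_mem_CF_top (CuspForm.discriminant : CuspForm 𝒮ℒ 12))

/-- `Δ ^ n` as a level one form of weight `12 n`, with its integral `q`-expansion. -/
theorem exists_delta_pow (n : ℕ) :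
    ∃ A : ModularForm 𝒮ℒ ((12 * n : ℕ) : ℤ),
      (⇑A : ℍ → ℂ) = (ModularForm.discriminant : ℍ → ℂ) ^ n ∧
      qExpansion 1 A =
        (Fermat.Agent.S23.H96.deltaSeries ^ n).map (Int.castRingHom ℂ) := by
  have hmem : (ModularForm.discriminant : ℍ → ℂ) ^ n ∈ MF ⊤ ((12 * n : ℕ) : ℤ) := by
    have := Fermat.Agent.S20.H74.MF.pow discriminant_mem_MF_top n
    have e : ((12 * n : ℕ) : ℤ) = (n : ℤ) * 12 := by push_cast; ring
    rw [e]
    exact this
  obtain ⟨A, hA⟩ := Fermat.Agent.S20.H74.exists_modularForm_top hmem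
  refine ⟨A, hA, ?_⟩
  have hN : Nice (1 : ℝ) (ModularForm.discriminant : ℍ → ℂ) :=
    Fermat.Agent.S23.H22.nice_levelOne (CuspForm.discriminant : CuspForm 𝒮ℒ 12)
  rw [hA, Nice.qExpansion_pow one_pos hN n, Fermat.Agent.S23.H96.qExpansion_discriminant_eq,
    map_pow]

theorem constantCoeff_deltaSeries :
    PowerSeries.constantCoeff Fermat.Agent.S23.H96.deltaSeries = 0 := by
  rw [← PowerSeries.coeff_zero_eq_constantCoeff_apply]
  exact Fermat.Agent.S23.H96.coeff_zero_deltaSeries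

/-- `a_n(Δ ^ n) = 1`. -/
theorem coeff_deltaSeries_pow_self (n : ℕ) :
    PowerSeries.coeff n (Fermat.Agent.S23.H96.deltaSeries ^ n) = 1 := by
  rw [coeff_pow_self_of_constantCoeff_eq_zero _ constantCoeff_deltaSeries,
    Fermat.Agent.S23.H96.coeff_one_deltaSeries, one_pow]

/-- `a_m(Δ ^ n) = 0` for `m < n`. -/
theorem coeff_deltaSeries_pow_of_lt {m n : ℕ} (h : m < n) :
    PowerSeries.coeff m (Fermat.Agent.S23.H96.deltaSeries ^ n) = 0 :=
  coeff_pow_of_lt_of_constantCoeff_eq_zero _ constantCoeff_deltaSeries h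

end Delta

end Fermat.Agent.S16.H45
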