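import Fermat.Agent.S16.H55_RhoInt
import Fermat.Agent.S16.H21_Step1
import Mathlib.RingTheory.PowerSeries.Expand

/-!
# S16, UB2 Step 1 (helper55): power series algebra over `ℂ`

`ι : ℤ⟦q⟧ → ℂ⟦q⟧` is the coefficient map.  With `g = ι (u + 8 hs)` (expansion of `G` at `∞`) and
`c = -(1/p) ι (u + 8 hs')` (expansion of `G ∣ S` at the cusp `0`, by `T0`), the series
`(g² - u² E₄)/16`, `(3u² g E₄ - 2u³ E₆ - g³)/32` and their analogues at the cusp `0` are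
`ι` of integral series, up to powers of `1/p`.  The ring identities are helper15's/helper21's.
-/

set_option autoImplicit false

noncomputable section

namespace Fermat.Agent.S16.H55

open Fermat.Agent.S23.H96 (sigmaSeries e4Series e6Series)
open Fermat.Agent.S16.H21 (f4Series f6Series f4HatSeries f6HatSeries)

/-- The coefficient map `ℤ⟦q⟧ → ℂ⟦q⟧`. -/
abbrev iotaZ : PowerSeries ℤ →+* PowerSeries ℂ := PowerSeries.map (Int.castRingHom ℂ)

theorem iotaZ_mem_serO (O : Subring ℂ) (φ : PowerSeries ℤ) : iotaZ φ ∈ serO O := by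
  rw [mem_serO_iff]
  intro n
  simp only [iotaZ, PowerSeries.coeff_map, eq_intCast]
  exact intCast_mem O _

theorem smul_mem_serO (O : Subring ℂ) {c : ℂ} (hc : c ∈ O) {φ : PowerSeries ℂ}
    (hφ : φ ∈ serO O) : c • φ ∈ serO O := by
  rw [mem_serO_iff] at hφ ⊢
  intro n
  rw [PowerSeries.coeff_smul]
  exact O.mul_mem hc (hφ n)

theorem expand_mem_serO (O : Subring ℂ) (p : ℕ) (hp : p ≠ 0) {φ : PowerSeries ℂ}
    (hφ : φ ∈ serO O) : PowerSeries.expand p hp φ ∈ serO O := by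
  rw [mem_serO_iff] at hφ ⊢
  intro n
  rw [PowerSeries.coeff_expand]
  split_ifs
  · exact hφ _
  · exact O.zero_mem

theorem rescale_mem_serO (O : Subring ℂ) {a : ℂ} (ha : a ∈ O) {φ : PowerSeries ℂ}
    (hφ : φ ∈ serO O) : PowerSeries.rescale a φ ∈ serO O := by
  rw [mem_serO_iff] at hφ ⊢
  intro n
  rw [PowerSeries.coeff_rescale]
  exact O.mul_mem (O.pow_mem ha n) (hφ n)

theorem iotaZ_C (m : ℤ) : iotaZ (PowerSeries.C m) = PowerSeries.C (m : ℂ) := by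
  ext n
  simp only [iotaZ, PowerSeries.coeff_map, PowerSeries.coeff_C]
  split_ifs <;> simp

theorem smul_eq_C_mul' (c : ℂ) (φ : PowerSeries ℂ) : c • φ = PowerSeries.C c * φ :=
  PowerSeries.smul_eq_C_mul φ c

/-- At `∞`: `(g² - u² E₄)/16` is integral. -/
theorem ser_F4_infty (u : ℤ) (hs : PowerSeries ℤ) :
    (16 : ℂ)⁻¹ • (iotaZ (PowerSeries.C u + 8 * hs) * iotaZ (PowerSeries.C u + 8 * hs)
        - ((u : ℂ) ^ 2) • iotaZ e4Series) = iotaZ (f4Series (PowerSeries.C u) hs) := by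
  have h := congrArg iotaZ (Fermat.Agent.S16.H21.f4Series_spec (PowerSeries.C u) hs)
  rw [inv_smul_eq_iff₀ (by norm_num : (16 : ℂ) ≠ 0), smul_eq_C_mul', smul_eq_C_mul']
  rw [map_sub, map_pow, map_mul, map_pow, map_mul, map_ofNat] at h
  rw [iotaZ_C] at h
  rw [map_pow, map_ofNat, ← h]
  ring

/-- At `∞`: `(3u² g E₄ - 2u³ E₆ - g³)/32` is integral. -/
theorem ser_F6_infty (u : ℤ) (hs : PowerSeries ℤ) :
    (32 : ℂ)⁻¹ • ((3 * (u : ℂ) ^ 2) • (iotaZ (PowerSeries.C u + 8 * hs) * iotaZ e4Series)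
        - (2 * (u : ℂ) ^ 3) • iotaZ e6Series
        - iotaZ (PowerSeries.C u + 8 * hs) * iotaZ (PowerSeries.C u + 8 * hs)
          * iotaZ (PowerSeries.C u + 8 * hs)) = iotaZ (f6Series (PowerSeries.C u) hs) := by
  have h := congrArg iotaZ (Fermat.Agent.S16.H21.f6Series_spec (PowerSeries.C u) hs)
  rw [inv_smul_eq_iff₀ (by norm_num : (32 : ℂ) ≠ 0), smul_eq_C_mul', smul_eq_C_mul',
    smul_eq_C_mul']
  rw [map_sub, map_sub, map_mul, map_mul, map_mul, map_pow, map_mul, map_mul, map_pow, map_pow,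
    map_mul, map_ofNat, map_ofNat, map_ofNat] at h
  rw [iotaZ_C] at h
  rw [map_mul, map_mul, map_pow, map_pow, map_ofNat, map_ofNat, map_ofNat, ← h]
  ring

/-- At the cusp `0`: with `c = -(1/p) ι(u + 8 hs')`, the series `(c² - u² E₄(t^p))/16` is
`p⁻²` times an integral series. -/
theorem ser_F4_zero (p : ℕ) (hp : p ≠ 0) (k : ℤ) (hk : (p : ℤ) = 8 * k - 1) (u : ℤ)
    (hs' : PowerSeries ℤ) :
    (16 : ℂ)⁻¹ • ((-(p : ℂ)⁻¹ • iotaZ (PowerSeries.C u + 8 * hs'))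
          * (-(p : ℂ)⁻¹ • iotaZ (PowerSeries.C u + 8 * hs'))
        - ((u : ℂ) ^ 2) • PowerSeries.expand p hp (iotaZ e4Series)) =
      ((p : ℂ)⁻¹ ^ 2) • iotaZ (f4HatSeries (PowerSeries.expand p hp).toRingHom
        (PowerSeries.C k) (PowerSeries.C u) hs') := by
  have h := congrArg iotaZ (Fermat.Agent.S16.H21.f4HatSeries_spec
    (PowerSeries.expand p hp).toRingHom (PowerSeries.C k) (PowerSeries.C u) hs')
  have hpk : (8 * PowerSeries.C k - 1 : PowerSeries ℤ) = PowerSeries.C (p : ℤ) := by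
    rw [hk, map_sub, map_mul, map_ofNat, map_one]
  rw [hpk] at h
  have hV : iotaZ ((PowerSeries.expand p hp).toRingHom e4Series) =
      PowerSeries.expand p hp (iotaZ e4Series) := PowerSeries.map_expand p hp _ _
  have hp0 : (p : ℂ) ≠ 0 := Nat.cast_ne_zero.mpr hp
  have hCp : (PowerSeries.C ((p : ℤ) : ℂ) : PowerSeries ℂ) * PowerSeries.C ((p : ℂ)⁻¹) = 1 := by
    rw [← map_mul]; push_cast; rw [mul_inv_cancel₀ hp0, map_one]
  rw [inv_smul_eq_iff₀ (by norm_num : (16 : ℂ) ≠ 0)]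
  simp only [smul_eq_C_mul', map_neg, map_pow, map_add, map_sub, map_mul, map_ofNat, iotaZ_C,
    hV] at h ⊢
  set P := (PowerSeries.C ((p : ℤ) : ℂ) : PowerSeries ℂ) with hP
  set Pi := (PowerSeries.C ((p : ℂ)⁻¹) : PowerSeries ℂ) with hPi
  set X1 := (PowerSeries.C (u : ℂ) + 8 * iotaZ hs' : PowerSeries ℂ) with hX1
  set E := PowerSeries.expand p hp (iotaZ e4Series) with hE
  set U := (PowerSeries.C (u : ℂ) : PowerSeries ℂ) with hU
  set Y := iotaZ (f4HatSeries (PowerSeries.expand p hp).toRingHom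
        (PowerSeries.C k) (PowerSeries.C u) hs') with hY
  -- h : (-X1)^2 - U^2 * (P^2 * E) = 16 * Y
  have h1 : Pi ^ 2 * ((-X1) ^ 2 - U ^ 2 * (P ^ 2 * E)) = Pi ^ 2 * (16 * Y) := by rw [h]
  have h2 : (P * Pi) ^ 2 = 1 := by rw [hCp, one_pow]
  calc -Pi * X1 * (-Pi * X1) - U ^ 2 * E
      = Pi ^ 2 * ((-X1) ^ 2 - U ^ 2 * (P ^ 2 * E)) + U ^ 2 * E * ((P * Pi) ^ 2 - 1) := by ring
    _ = Pi ^ 2 * (16 * Y) := by rw [h1, h2]; ring
    _ = 16 * (Pi ^ 2 * Y) := by ring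

/-- At the cusp `0`: the analogue for `F₆`, `p⁻³` times an integral series. -/
theorem ser_F6_zero (p : ℕ) (hp : p ≠ 0) (k : ℤ) (hk : (p : ℤ) = 8 * k - 1) (u : ℤ)
    (hs' : PowerSeries ℤ) :
    (32 : ℂ)⁻¹ • ((3 * (u : ℂ) ^ 2) • ((-(p : ℂ)⁻¹ • iotaZ (PowerSeries.C u + 8 * hs'))
            * PowerSeries.expand p hp (iotaZ e4Series))
        - (2 * (u : ℂ) ^ 3) • PowerSeries.expand p hp (iotaZ e6Series)
        - (-(p : ℂ)⁻¹ • iotaZ (PowerSeries.C u + 8 * hs'))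
          * (-(p : ℂ)⁻¹ • iotaZ (PowerSeries.C u + 8 * hs'))
          * (-(p : ℂ)⁻¹ • iotaZ (PowerSeries.C u + 8 * hs'))) =
      ((p : ℂ)⁻¹ ^ 3) • iotaZ (f6HatSeries (PowerSeries.expand p hp).toRingHom
        (PowerSeries.C k) (PowerSeries.C u) hs') := by
  have h := congrArg iotaZ (Fermat.Agent.S16.H21.f6HatSeries_spec
    (PowerSeries.expand p hp).toRingHom (PowerSeries.C k) (PowerSeries.C u) hs')
  have hpk : (8 * PowerSeries.C k - 1 : PowerSeries ℤ) = PowerSeries.C (p : ℤ) := by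
    rw [hk, map_sub, map_mul, map_ofNat, map_one]
  rw [hpk] at h
  have hV4 : iotaZ ((PowerSeries.expand p hp).toRingHom e4Series) =
      PowerSeries.expand p hp (iotaZ e4Series) := PowerSeries.map_expand p hp _ _
  have hV6 : iotaZ ((PowerSeries.expand p hp).toRingHom e6Series) =
      PowerSeries.expand p hp (iotaZ e6Series) := PowerSeries.map_expand p hp _ _
  have hp0 : (p : ℂ) ≠ 0 := Nat.cast_ne_zero.mpr hp
  have hCp : (PowerSeries.C ((p : ℤ) : ℂ) : PowerSeries ℂ) * PowerSeries.C ((p : ℂ)⁻¹) = 1 := by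
    rw [← map_mul]; push_cast; rw [mul_inv_cancel₀ hp0, map_one]
  rw [inv_smul_eq_iff₀ (by norm_num : (32 : ℂ) ≠ 0)]
  simp only [smul_eq_C_mul', map_neg, map_pow, map_add, map_sub, map_mul, map_ofNat, iotaZ_C,
    hV4, hV6] at h ⊢
  set P := (PowerSeries.C ((p : ℤ) : ℂ) : PowerSeries ℂ) with hP
  set Pi := (PowerSeries.C ((p : ℂ)⁻¹) : PowerSeries ℂ) with hPi
  set X1 := (PowerSeries.C (u : ℂ) + 8 * iotaZ hs' : PowerSeries ℂ) with hX1
  set E4 := PowerSeries.expand p hp (iotaZ e4Series) with hE4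
  set E6 := PowerSeries.expand p hp (iotaZ e6Series) with hE6
  set U := (PowerSeries.C (u : ℂ) : PowerSeries ℂ) with hU
  set Y := iotaZ (f6HatSeries (PowerSeries.expand p hp).toRingHom
        (PowerSeries.C k) (PowerSeries.C u) hs') with hY
  -- h : 3 U^2 (-X1) (P^2 E4) - 2 U^3 (P^3 E6) - (-X1)^3 = 32 Y
  have h1 : Pi ^ 3 * (3 * U ^ 2 * (-X1) * (P ^ 2 * E4) - 2 * U ^ 3 * (P ^ 3 * E6) - (-X1) ^ 3)
      = Pi ^ 3 * (32 * Y) := by rw [h]
  have h2 : P * Pi = 1 := hCp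
  have h3 : P ^ 2 * Pi ^ 2 = 1 := by rw [← mul_pow, h2, one_pow]
  have h4 : P ^ 3 * Pi ^ 3 = 1 := by rw [← mul_pow, h2, one_pow]
  calc 3 * U ^ 2 * (-Pi * X1 * E4) - 2 * U ^ 3 * E6 - -Pi * X1 * (-Pi * X1) * (-Pi * X1)
      = Pi ^ 3 * (3 * U ^ 2 * (-X1) * (P ^ 2 * E4) - 2 * U ^ 3 * (P ^ 3 * E6) - (-X1) ^ 3)
        + 3 * U ^ 2 * X1 * E4 * Pi * (P ^ 2 * Pi ^ 2 - 1) + 2 * U ^ 3 * E6 * (P ^ 3 * Pi ^ 3 - 1) := by
        ring
    _ = Pi ^ 3 * (32 * Y) := by rw [h1, h3, h4]; ring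
    _ = 32 * (Pi ^ 3 * Y) := by ring

end Fermat.Agent.S16.H55
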