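import Fermat.Agent.S16.H55_UB2
import Fermat.Agent.S16.H55_Step1Alg
import Fermat.Agent.S16.H45_CuspExp

/-!
# S16, UB2 Step 1 (helper55): `Stmt_Step1 p` from `T0`

`stmt_Step1_of_T0 : H79.Stmt_T0 p → Stmt_Step1 p`.
-/

set_option autoImplicit false

noncomputable section

namespace Fermat.Agent.S16.H55

open UpperHalfPlane ModularForm EisensteinSeries ModularFormClass CongruenceSubgroup
open scoped MatrixGroups

open Fermat.Agent.S20.H74 (MF)
open Fermat.Agent.S23.H96 (sigmaSeries e4Series e6Series)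
open Fermat.Agent.S16.H21 (f4Series f6Series f4HatSeries f6HatSeries)
open Fermat.Agent.S16.H45 (cuspExp)

theorem coeff_iotaZ_aux (u : ℤ) (hs : PowerSeries ℤ) (n : ℕ) :
    (iotaZ (PowerSeries.C u + 8 * hs)).coeff n =
      (((if n = 0 then u else 0 : ℤ) : ℤ) : ℂ) + 8 * ((hs.coeff n : ℤ) : ℂ) := by
  have h8 : (8 : PowerSeries ℤ) = PowerSeries.C (8 : ℤ) := (map_ofNat _ 8).symm
  rw [iotaZ, PowerSeries.coeff_map, h8, map_add, PowerSeries.coeff_C, PowerSeries.coeff_C_mul]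
  simp only [eq_intCast]
  push_cast
  rfl

/-- The integral series `hs` with `qExpansion 1 G = ι (u + 8 hs)`. -/
theorem exists_series (G : ℍ → ℂ) (u : ℤ) (hu0 : qCoeff G 0 = (u : ℂ))
    (hk : ∀ k : ℕ, 1 ≤ k → ∃ a : ℤ, qCoeff G k = 8 * (a : ℂ)) :
    ∃ hs : PowerSeries ℤ, hs.coeff 0 = 0 ∧
      qExpansion 1 G = iotaZ (PowerSeries.C u + 8 * hs) := by
  classical
  refine ⟨PowerSeries.mk fun n => if hn : 1 ≤ n then Classical.choose (hk n hn) else 0, ?_, ?_⟩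
  · simp
  · ext n
    rw [coeff_iotaZ_aux, PowerSeries.coeff_mk]
    rcases Nat.eq_zero_or_pos n with rfl | hn
    · have : (qExpansion 1 G).coeff 0 = (u : ℂ) := hu0
      simp [this]
    · have h1 : 1 ≤ n := hn
      have hne : n ≠ 0 := Nat.pos_iff_ne_zero.mp hn
      have hspec : qCoeff G n = 8 * ((Classical.choose (hk n h1) : ℤ) : ℂ) :=
        Classical.choose_spec (hk n h1)
      have hspec' : (qExpansion 1 G).coeff n = 8 * ((Classical.choose (hk n h1) : ℤ) : ℂ) :=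
        hspec
      rw [hspec', dif_pos h1, if_neg hne]
      simp

/-- `U_p` of the series `u + 8 hs`. -/
theorem coeff_mul_eq (p : ℕ) (hp : p ≠ 0) (u : ℤ) (hs : PowerSeries ℤ) (n : ℕ) :
    (iotaZ (PowerSeries.C u + 8 * hs)).coeff (p * n) =
      (iotaZ (PowerSeries.C u + 8 * PowerSeries.mk fun m => hs.coeff (p * m))).coeff n := by
  rw [coeff_iotaZ_aux, coeff_iotaZ_aux, PowerSeries.coeff_mk]
  have : (p * n = 0) ↔ n = 0 := by
    constructor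
    · intro h
      rcases Nat.mul_eq_zero.mp h with h | h
      · exact absurd h hp
      · exact h
    · rintro rfl; simp
  simp only [this]

/-- **Step 1 from `T0`.** -/
theorem stmt_Step1_of_T0 (p : ℕ) (hT0 : Fermat.Agent.S16.H79.Stmt_T0 p) : Stmt_Step1 p := by
  intro hp h8 h u _hodd hu0 hk O hpinv hzeta
  have : NeZero p := ⟨hp.ne_zero⟩
  have hG : (⇑h : ℍ → ℂ) ∈ MF (Gamma0 p) 2 := Fermat.Agent.S16.H45.coe_mem_MF_Gamma0 p h
  set G : ℍ → ℂ := ⇑h with hGdef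
  have hE4top : (⇑E₄ : ℍ → ℂ) ∈ MF ⊤ 4 := Fermat.Agent.S20.H74.coe_mem_MF_top E₄
  have hE6top : (⇑E₆ : ℍ → ℂ) ∈ MF ⊤ 6 := Fermat.Agent.S20.H74.coe_mem_MF_top E₆
  have hE4 : (⇑E₄ : ℍ → ℂ) ∈ MF (Gamma0 p) 4 := Fermat.Agent.S16.H45.MF_levelOne hE4top
  have hE6 : (⇑E₆ : ℍ → ℂ) ∈ MF (Gamma0 p) 6 := Fermat.Agent.S16.H45.MF_levelOne hE6top
  obtain ⟨hs, -, hgq⟩ := exists_series G u hu0 hk
  set hs' : PowerSeries ℤ := PowerSeries.mk fun m => hs.coeff (p * m) with hs'def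
  -- the expansion at the cusp `0`
  have hcq : cuspExp p 2 G = -(p : ℂ)⁻¹ • iotaZ (PowerSeries.C u + 8 * hs') := by
    ext n
    have := hT0 hp G hG n
    rw [PowerSeries.coeff_smul, ← coeff_mul_eq p hp.ne_zero u hs n, ← hgq]
    exact this
  have hq4 : qExpansion 1 (⇑E₄ : ℍ → ℂ) = iotaZ e4Series :=
    Fermat.Agent.S23.H96.qExpansion_E₄_eq
  have hq6 : qExpansion 1 (⇑E₆ : ℍ → ℂ) = iotaZ e6Series :=
    Fermat.Agent.S23.H96.qExpansion_E₆_eq
  have hc4 : cuspExp p 4 (⇑E₄ : ℍ → ℂ) = PowerSeries.expand p hp.ne_zero (iotaZ e4Series) := by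
    rw [Fermat.Agent.S16.H45.cuspExp_levelOne p hE4top, hq4]
  have hc6 : cuspExp p 6 (⇑E₆ : ℍ → ℂ) = PowerSeries.expand p hp.ne_zero (iotaZ e6Series) := by
    rw [Fermat.Agent.S16.H45.cuspExp_levelOne p hE6top, hq6]
  -- `p = 8 k - 1`
  obtain ⟨k, hk8⟩ : ∃ k : ℤ, (p : ℤ) = 8 * k - 1 := ⟨((p : ℤ) + 1) / 8, by omega⟩
  have hpinv2 : (p : ℂ)⁻¹ ^ 2 ∈ O := O.pow_mem hpinv 2
  have hpinv3 : (p : ℂ)⁻¹ ^ 3 ∈ O := O.pow_mem hpinv 3
  have hGG : G * G ∈ MF (Gamma0 p) 4 := Fermat.Agent.S16.H45.MF_mul' hG hG (by norm_num)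
  have hGE : G * (⇑E₄ : ℍ → ℂ) ∈ MF (Gamma0 p) 6 :=
    Fermat.Agent.S16.H45.MF_mul' hG hE4 (by norm_num)
  have hGGG : G * G * G ∈ MF (Gamma0 p) 6 := Fermat.Agent.S16.H45.MF_mul' hGG hG (by norm_num)
  have h34 : ((3 : ℕ) : ℤ) * 4 = 12 := by norm_num
  have h26 : ((2 : ℕ) : ℤ) * 6 = 12 := by norm_num
  -- the forms `F₄`, `F₆`
  set F4f : ℍ → ℂ := (16 : ℂ)⁻¹ • (G * G - ((u : ℂ) ^ 2) • (⇑E₄ : ℍ → ℂ)) with hF4f
  set F6f : ℍ → ℂ := (32 : ℂ)⁻¹ • ((3 * (u : ℂ) ^ 2) • (G * (⇑E₄ : ℍ → ℂ))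
    - (2 * (u : ℂ) ^ 3) • (⇑E₆ : ℍ → ℂ) - G * G * G) with hF6f
  have hF4 : F4f ∈ MF (Gamma0 p) 4 :=
    Submodule.smul_mem _ _ (Submodule.sub_mem _ hGG (Submodule.smul_mem _ _ hE4))
  have hF6 : F6f ∈ MF (Gamma0 p) 6 :=
    Submodule.smul_mem _ _ (Submodule.sub_mem _
      (Submodule.sub_mem _ (Submodule.smul_mem _ _ hGE) (Submodule.smul_mem _ _ hE6)) hGGG)
  have hA4 : A4 u G = F4f ^ 3 := by
    funext z
    simp only [A4, hF4f, Pi.pow_apply, Pi.smul_apply, Pi.sub_apply, Pi.mul_apply, smul_eq_mul]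
    ring
  have hA6 : A6 u G = F6f ^ 2 := by
    funext z
    simp only [A6, hF6f, Pi.pow_apply, Pi.smul_apply, Pi.sub_apply, Pi.mul_apply, smul_eq_mul]
    ring
  -- expansions at `∞`
  have hF4q : qExpansion 1 F4f = iotaZ (f4Series (PowerSeries.C u) hs) := by
    rw [hF4f, Fermat.Agent.S16.H45.qExp_smul p
        (Submodule.sub_mem _ hGG (Submodule.smul_mem _ _ hE4)),
      Fermat.Agent.S16.H45.qExp_sub p hGG (Submodule.smul_mem _ _ hE4),
      Fermat.Agent.S16.H45.qExp_mul p hG hG, Fermat.Agent.S16.H45.qExp_smul p hE4, hgq, hq4]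
    exact ser_F4_infty u hs
  have hF6q : qExpansion 1 F6f = iotaZ (f6Series (PowerSeries.C u) hs) := by
    rw [hF6f, Fermat.Agent.S16.H45.qExp_smul p
        (Submodule.sub_mem _ (Submodule.sub_mem _ (Submodule.smul_mem _ _ hGE)
          (Submodule.smul_mem _ _ hE6)) hGGG),
      Fermat.Agent.S16.H45.qExp_sub p (Submodule.sub_mem _ (Submodule.smul_mem _ _ hGE)
          (Submodule.smul_mem _ _ hE6)) hGGG,
      Fermat.Agent.S16.H45.qExp_sub p (Submodule.smul_mem _ _ hGE) (Submodule.smul_mem _ _ hE6),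
      Fermat.Agent.S16.H45.qExp_smul p hGE, Fermat.Agent.S16.H45.qExp_smul p hE6,
      Fermat.Agent.S16.H45.qExp_mul p hG hE4, Fermat.Agent.S16.H45.qExp_mul p hGG hG,
      Fermat.Agent.S16.H45.qExp_mul p hG hG, hgq, hq4, hq6]
    exact ser_F6_infty u hs
  -- expansions at the cusp `0`
  have hF4c : cuspExp p 4 F4f = ((p : ℂ)⁻¹ ^ 2) • iotaZ (f4HatSeries
      (PowerSeries.expand p hp.ne_zero).toRingHom (PowerSeries.C k) (PowerSeries.C u) hs') := by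
    rw [hF4f, Fermat.Agent.S16.H45.cuspExp_smul p
        (Submodule.sub_mem _ hGG (Submodule.smul_mem _ _ hE4)),
      Fermat.Agent.S16.H45.cuspExp_sub p hGG (Submodule.smul_mem _ _ hE4),
      Fermat.Agent.S16.H45.cuspExp_mul' p hG hG (by norm_num),
      Fermat.Agent.S16.H45.cuspExp_smul p hE4, hcq, hc4]
    exact ser_F4_zero p hp.ne_zero k hk8 u hs'
  have hF6c : cuspExp p 6 F6f = ((p : ℂ)⁻¹ ^ 3) • iotaZ (f6HatSeries
      (PowerSeries.expand p hp.ne_zero).toRingHom (PowerSeries.C k) (PowerSeries.C u) hs') := by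
    rw [hF6f, Fermat.Agent.S16.H45.cuspExp_smul p
        (Submodule.sub_mem _ (Submodule.sub_mem _ (Submodule.smul_mem _ _ hGE)
          (Submodule.smul_mem _ _ hE6)) hGGG),
      Fermat.Agent.S16.H45.cuspExp_sub p (Submodule.sub_mem _ (Submodule.smul_mem _ _ hGE)
          (Submodule.smul_mem _ _ hE6)) hGGG,
      Fermat.Agent.S16.H45.cuspExp_sub p (Submodule.smul_mem _ _ hGE)
        (Submodule.smul_mem _ _ hE6),
      Fermat.Agent.S16.H45.cuspExp_smul p hGE, Fermat.Agent.S16.H45.cuspExp_smul p hE6,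
      Fermat.Agent.S16.H45.cuspExp_mul' p hG hE4 (by norm_num),
      Fermat.Agent.S16.H45.cuspExp_mul' p hGG hG (by norm_num),
      Fermat.Agent.S16.H45.cuspExp_mul' p hG hG (by norm_num), hcq, hc4, hc6]
    exact ser_F6_zero p hp.ne_zero k hk8 u hs'
  -- assemble
  have hF4qO : qExpansion 1 F4f ∈ serO O := hF4q ▸ iotaZ_mem_serO O _
  have hF6qO : qExpansion 1 F6f ∈ serO O := hF6q ▸ iotaZ_mem_serO O _
  have hF4cO : cuspExp p 4 F4f ∈ serO O := hF4c ▸ smul_mem_serO O hpinv2 (iotaZ_mem_serO O _)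
  have hF6cO : cuspExp p 6 F6f ∈ serO O := hF6c ▸ smul_mem_serO O hpinv3 (iotaZ_mem_serO O _)
  have hmem4 : F4f ^ 3 ∈ MF (Gamma0 p) 12 := h34 ▸ Fermat.Agent.S16.H45.MF_pow hF4 3
  have hmem6 : F6f ^ 2 ∈ MF (Gamma0 p) 12 := h26 ▸ Fermat.Agent.S16.H45.MF_pow hF6 2
  have hc4pow : cuspExp p 12 (F4f ^ 3) = cuspExp p 4 F4f ^ 3 := by
    have := Fermat.Agent.S16.H45.cuspExp_pow p hF4 3
    rwa [h34] at this
  have hc6pow : cuspExp p 12 (F6f ^ 2) = cuspExp p 6 F6f ^ 2 := by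
    have := Fermat.Agent.S16.H45.cuspExp_pow p hF6 2
    rwa [h26] at this
  refine ⟨⟨hA4 ▸ hmem4, ?_⟩, ⟨hA6 ▸ hmem6, ?_⟩⟩
  · rintro (_ | j)
    · show PowerSeries.expand p hp.ne_zero (qExpansion 1 (A4 u G)) ∈ serO O
      rw [hA4, Fermat.Agent.S16.H45.qExp_pow p hF4 3]
      exact expand_mem_serO O p hp.ne_zero (Subring.pow_mem _ hF4qO 3)
    · show PowerSeries.rescale (Fermat.Agent.S16.H79.zetaP p ^ (j : ℕ))
        (cuspExp p 12 (A4 u G)) ∈ serO O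
      rw [hA4, hc4pow]
      exact rescale_mem_serO O (O.pow_mem hzeta _) (Subring.pow_mem _ hF4cO 3)
  · rintro (_ | j)
    · show PowerSeries.expand p hp.ne_zero (qExpansion 1 (A6 u G)) ∈ serO O
      rw [hA6, Fermat.Agent.S16.H45.qExp_pow p hF6 2]
      exact expand_mem_serO O p hp.ne_zero (Subring.pow_mem _ hF6qO 2)
    · show PowerSeries.rescale (Fermat.Agent.S16.H79.zetaP p ^ (j : ℕ))
        (cuspExp p 12 (A6 u G)) ∈ serO O
      rw [hA6, hc6pow]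
      exact rescale_mem_serO O (O.pow_mem hzeta _) (Subring.pow_mem _ hF6cO 2)

end Fermat.Agent.S16.H55
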