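import Fermat.Agent.S16.H55_UB2

/-!
# S16, UB2 (helper55): `Stmt_UBcore p 2 (ubExp p 2)` for every prime `p ≥ 5`

* `p ≡ 7 mod 8` : `ubcore_two_of_seven` (evaluation at `ρ`);
* otherwise `2 ^ ubExp p 2 ∤ p + 1` and the `Δ`-test applies
  (`Stmt_DeltaTest p`: a unit constant modulo `ℓ ^ e`, `ℓ ≠ p`, forces `ℓ ^ e ∣ p + 1`).
-/

set_option autoImplicit false

noncomputable section

namespace Fermat.Agent.S16.H55

open UpperHalfPlane ModularForm ModularFormClass CongruenceSubgroup
open scoped MatrixGroups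

/-- The `Δ`-test (packages TRID / D): a weight 2 form on `Γ₀(p)` which is a unit constant
modulo `ℓ ^ e` with `ℓ ≠ p` forces `ℓ ^ e ∣ p + 1`. -/
def Stmt_DeltaTest (p : ℕ) : Prop :=
  ∀ ℓ e : ℕ, ℓ.Prime → ℓ ≠ p → ∀ h : ModularForm (Gamma0 p) 2,
    IsUnitConstMod p ℓ e h → ℓ ^ e ∣ p + 1

theorem factorization_twelve_two : (12 : ℕ).factorization 2 = 2 := by
  have h : (12 : ℕ) = 2 ^ 2 * 3 := by norm_num
  rw [h, Nat.factorization_mul (by norm_num) (by norm_num), Finsupp.add_apply,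
    Nat.Prime.factorization_pow Nat.prime_two, Nat.Prime.factorization Nat.prime_three]
  simp

/-- `2 ^ ubExp p 2 ∣ p + 1` only if `8 ∣ p + 1`. -/
theorem eight_dvd_of_pow_ubExp_dvd (p : ℕ) (h : 2 ^ ubExp p 2 ∣ p + 1) : 8 ∣ p + 1 := by
  have hp1 : p + 1 ≠ 0 := Nat.succ_ne_zero p
  rw [Nat.Prime.pow_dvd_iff_le_factorization Nat.prime_two hp1] at h
  have hg : (Nat.gcd (p + 1) 12).factorization 2 =
      min ((p + 1).factorization 2) ((12 : ℕ).factorization 2) := by
    rw [Nat.factorization_gcd hp1 (by norm_num)]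
    rfl
  unfold ubExp at h
  rw [hg, factorization_twelve_two] at h
  have h3 : 3 ≤ (p + 1).factorization 2 := by
    rcases le_or_gt ((p + 1).factorization 2) 2 with h2 | h2
    · rw [min_eq_left h2] at h
      omega
    · omega
  have := (Nat.Prime.pow_dvd_iff_le_factorization Nat.prime_two hp1).mpr h3
  simpa using this

theorem ubExp_two_of_seven (p : ℕ) (h8 : p % 8 = 7) : ubExp p 2 = 3 := by
  have hp1 : p + 1 ≠ 0 := Nat.succ_ne_zero p
  have hg : (Nat.gcd (p + 1) 12).factorization 2 =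
      min ((p + 1).factorization 2) ((12 : ℕ).factorization 2) := by
    rw [Nat.factorization_gcd hp1 (by norm_num)]
    rfl
  have h3 : 3 ≤ (p + 1).factorization 2 := by
    rw [← Nat.Prime.pow_dvd_iff_le_factorization Nat.prime_two hp1]
    norm_num
    omega
  unfold ubExp
  rw [hg, factorization_twelve_two, min_eq_right (by omega)]

/-- **UB2**: the local upper bound at `ℓ = 2`, for every odd prime `p`. -/
theorem ubcore_two (p : ℕ) (hp : p.Prime) (hp2 : p ≠ 2) (hΔ : Stmt_DeltaTest p)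
    (hsym : Fermat.Agent.S16.H79.Stmt_symLevelOne p) (hstep : Stmt_Step1 p) :
    Stmt_UBcore p 2 (ubExp p 2) := by
  by_cases h8 : p % 8 = 7
  · rw [ubExp_two_of_seven p h8]
    exact ubcore_two_of_seven p hp h8 hsym hstep
  · intro h hh
    have hdvd := hΔ 2 (ubExp p 2) Nat.prime_two (Ne.symm hp2) h hh
    have := eight_dvd_of_pow_ubExp_dvd p hdvd
    omega

end Fermat.Agent.S16.H55
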