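import Fermat.Agent.S16.H55_UB2All
import Fermat.Agent.S16.H55_Step1
import Fermat.Agent.S16.H15_T0
import Fermat.Agent.S16.H8_NormAdapt
import Fermat.Agent.S16.H26_TridDefs

/-!
# S16, UB2 (helper55): unconditional statements

* `ubcore_two_seven` : for a prime `p ≡ 7 mod 8` there is no weight 2 form on `Γ₀(p)` with
  integral coefficients, odd constant term and all higher coefficients divisible by `8`
  (`Stmt_UBcore p 2 3`).  UNCONDITIONAL (CONJ by helper79/helper8, `T0` by helper15, Step 1, 3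
  algebra by helper15/helper21, evaluation at `ρ` by helper55).
* `ubcore_two_of_deltaTest` : `Stmt_UBcore p 2 (ubExp p 2)` for every odd prime `p`, given the
  `Δ`-test `H26.Stmt_DeltaTest p`.
-/

set_option autoImplicit false

noncomputable section

namespace Fermat.Agent.S16.H55

/-- **UB2 at `p ≡ 7 mod 8`, unconditional.** -/
theorem ubcore_two_seven (p : ℕ) (hp : p.Prime) (h8 : p % 8 = 7) : Stmt_UBcore p 2 3 :=
  ubcore_two_of_seven p hp h8 (Fermat.Agent.S16.H8.stmt_symLevelOne p)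
    (stmt_Step1_of_T0 p (Fermat.Agent.S16.H15.stmt_T0 p))

/-- **UB2**, given the `Δ`-test. -/
theorem ubcore_two_of_deltaTest (p : ℕ) (hp : p.Prime) (hp2 : p ≠ 2)
    (hΔ : Fermat.Agent.S16.H26.Stmt_DeltaTest p) : Stmt_UBcore p 2 (ubExp p 2) :=
  ubcore_two p hp hp2 (fun ℓ e hℓ hne h hh => hΔ hp ℓ e hℓ hne h hh)
    (Fermat.Agent.S16.H8.stmt_symLevelOne p) (stmt_Step1_of_T0 p (Fermat.Agent.S16.H15.stmt_T0 p))

end Fermat.Agent.S16.H55
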