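import Mathlib.NumberTheory.ModularForms.LevelOne.GradedRing

/-!
# S16 / SwD (helper70): level-one weight theory modulo `ℓ ≥ 5` — INTERFACES

`Stmt_SwD`     : general form (coefficients in a subring `O ⊆ ℂ` containing `1/6`, reduction
                 `φ : O →+* F`, `F` a field of characteristic `ℓ ≥ 5`).
`Stmt_SwD_rat` : the same for rational `ℓ`-integral coefficients, reduction modulo `ℓ`
                 (`r` is `ℓ`-integral iff `ℓ ∤ r.den`; `r ≡ 0 mod ℓ` iff `ℓ ∣ r.num`).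

Both say: two level-one modular forms of weights `k, k'` whose `q`-expansions are congruent
and not identically zero modulo `ℓ` satisfy `(ℓ - 1) ∣ k - k'` (Swinnerton-Dyer, Serre).
Proofs: `H70_SwDAlg.lean` (algebra core), `H70_SwD.lean` (bridge; in progress).
-/

set_option autoImplicit false

namespace Fermat.Agent.S16.H70

open UpperHalfPlane ModularForm ModularFormClass
open scoped MatrixGroups

/-- Swinnerton-Dyer, general form. -/
def Stmt_SwD : Prop :=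
  ∀ (l : ℕ), l.Prime → 5 ≤ l → ∀ (O : Subring ℂ), (6 : ℂ)⁻¹ ∈ O →
    ∀ (F : Type) [Field F] [CharP F l] (φ : O →+* F) (k k' : ℕ)
      (f : ModularForm 𝒮ℒ k) (g : ModularForm 𝒮ℒ k')
      (hf : ∀ n, (qExpansion 1 f).coeff n ∈ O) (hg : ∀ n, (qExpansion 1 g).coeff n ∈ O),
      (∀ n, φ ⟨_, hf n⟩ = φ ⟨_, hg n⟩) → (∃ n, φ ⟨_, hf n⟩ ≠ 0) →
      ((l : ℤ) - 1) ∣ (k : ℤ) - k'

/-- Swinnerton-Dyer for rational `ℓ`-integral coefficients. -/
def Stmt_SwD_rat : Prop :=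
  ∀ (l : ℕ), l.Prime → 5 ≤ l → ∀ (k k' : ℕ)
    (f : ModularForm 𝒮ℒ k) (g : ModularForm 𝒮ℒ k') (a b : ℕ → ℚ),
    (∀ n, (qExpansion 1 f).coeff n = (a n : ℂ)) → (∀ n, (qExpansion 1 g).coeff n = (b n : ℂ)) →
    (∀ n, ¬ l ∣ (a n).den) → (∀ n, ¬ l ∣ (b n).den) →
    (∀ n, (l : ℤ) ∣ (a n - b n).num) → (∃ n, ¬ (l : ℤ) ∣ (a n).num) →
    ((l : ℤ) - 1) ∣ (k : ℤ) - k'

end Fermat.Agent.S16.H70
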