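import Fermat.Agent.S16.Defs

/-!
# S16 wiring: SKELETON of elementary work packages (WIP file: every `sorry` is a package)

RULES: prove a package in YOUR OWN file `Fermat/Agent/S16/H<seat>_<Pkg>.lean`, namespace
`Fermat.Agent.S16.H<seat>`, SAME statement. Import `Fermat.Agent.S16.Defs` (sorry-free) and landed
sorry-free files only (e.g. `Fermat.Agent.S49.QCoeff`). Do NOT import this skeleton.
-/

set_option autoImplicit false

namespace Fermat.Agent.S16.Skel

open CuspForm ModularFormClass CongruenceSubgroup ModularCurve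

/-! ## WP-sigma: the coefficients `σ'` satisfy the Hecke recursions -/

theorem sigmaP_one (p : ℕ) : sigmaP p 1 = 1 := by
  sorry

theorem sigmaP_mul_self {p : ℕ} (hp : p.Prime) (k : ℕ) : sigmaP p (k * p) = sigmaP p k := by
  sorry

theorem sigmaP_hecke {p ℓ : ℕ} (hp : p.Prime) (hℓ : ℓ.Prime) (hne : ℓ ≠ p) (k : ℕ) (hk : 1 ≤ k) :
    sigmaP p (k * ℓ) + (if ℓ ∣ k then ℓ * sigmaP p (k / ℓ) else 0) = (1 + ℓ) * sigmaP p k := by
  sorry

/-! ## WP-alg: the quotient by the image of the kernel of an integer-valued character -/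

theorem card_quotient_map {A T : Type*} [CommRing A] [CommRing T] (φ : A →+* T)
    (hφ : Function.Surjective φ) (ε : A →+* ℤ) (hε : Function.Surjective ε)
    (I : Ideal A) (hI : ∀ P, P ∈ I ↔ ε P = 0) (n : ℕ)
    (h1 : ∀ P, φ P = 0 → (n : ℤ) ∣ ε P) (h2 : ∃ P, φ P = 0 ∧ ε P = n) :
    Nat.card (T ⧸ Ideal.map φ I) = n := by
  sorry

/-! ## WP-dual: a pairing of finite free `ℤ`-modules, nondegenerate on both sides, is
surjective up to a denominator -/

theorem exists_rep_of_pairing {L T : Type*} [AddCommGroup L] [Module.Free ℤ L] [Module.Finite ℤ L]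
    [AddCommGroup T] [Module.Free ℤ T] [Module.Finite ℤ T]
    (B : L →ₗ[ℤ] T →ₗ[ℤ] ℤ) (hL : ∀ f, (∀ t, B f t = 0) → f = 0)
    (hT : ∀ t, (∀ f, B f t = 0) → t = 0) (ψ : T →ₗ[ℤ] ℤ) :
    ∃ (D : ℤ) (f : L), D ≠ 0 ∧ ∀ t, B f t = D * ψ t := by
  sorry

end Fermat.Agent.S16.Skel
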